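import Mathlib
import Fermat.Prelude.Def_ModularCurve_X0
import Fermat.Prelude.Def_ModularCurve_LaurentCoeff

/-!
# S18, step (2), Laurent series part: the rotation `q ↦ ζ q`

* `rot ζ hζ : LaurentSeries L →+* LaurentSeries L`, coefficient `n ↦ a_n ζ^n`;
* `rot_qExpand`: series in `q^b` are fixed by `rot ζ` when `ζ^b = 1`;
* `rot_eq_self_of_pow`: if `g^m` is fixed by the rotation and `ζ^(ord g) = 1`, then `g` is fixed
  (`L` algebraically closed);
* `eq_zero_of_eval_eq_zero`: `1, j, …, j^{b-1}` are linearly independent over the fixed series,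
  when `j` has a nonzero coefficient at `q^{-1}` and `ζ` is a primitive `b`-th root of unity.
-/

set_option autoImplicit false

noncomputable section

open ModularCurve

namespace Fermat.Agent.S18.Desc

variable {L : Type*} [Field L]

/-- `x(c q)`. -/
def rotFun (c : L) (x : LaurentSeries L) : LaurentSeries L where
  coeff n := x.coeff n * c ^ n
  isPWO_support' := x.isPWO_support.mono (fun n hn => by
    simp only [Function.mem_support, ne_eq] at hn
    simp only [HahnSeries.mem_support, ne_eq]
    intro h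
    exact hn (by rw [h, zero_mul]))

@[simp] theorem coeff_rotFun (c : L) (x : LaurentSeries L) (n : ℤ) :
    (rotFun c x).coeff n = x.coeff n * c ^ n := rfl

theorem support_rotFun_subset (c : L) (x : LaurentSeries L) :
    (rotFun c x).support ⊆ x.support := by
  intro n hn
  simp only [HahnSeries.mem_support, ne_eq, coeff_rotFun] at hn ⊢
  intro h
  exact hn (by rw [h, zero_mul])

theorem rotFun_add (c : L) (x y : LaurentSeries L) :
    rotFun c (x + y) = rotFun c x + rotFun c y := by
  ext n
  simp only [coeff_rotFun, HahnSeries.coeff_add]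
  ring

theorem coeff_mul_both {x y : LaurentSeries L} {a : ℤ} {s t : Set ℤ} (hs : s.IsPWO)
    (ht : t.IsPWO) (hxs : x.support ⊆ s) (hyt : y.support ⊆ t) :
    (x * y).coeff a = ∑ ij ∈ Finset.antidiagonal hs ht a, x.coeff ij.1 * y.coeff ij.2 := by
  rw [HahnSeries.coeff_mul_left' hs hxs]
  refine Finset.sum_subset (Finset.antidiagonal_mono_right hyt) (fun ij hmem hij => ?_)
  have : ij.2 ∉ y.support := by
    intro h2
    apply hij
    rw [Finset.mem_antidiagonal] at hmem ⊢
    exact ⟨hmem.1, h2, hmem.2.2⟩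
  have h0 : y.coeff ij.2 = 0 := by
    simpa [HahnSeries.mem_support] using this
  rw [h0, mul_zero]

theorem rotFun_mul {c : L} (hc : c ≠ 0) (x y : LaurentSeries L) :
    rotFun c (x * y) = rotFun c x * rotFun c y := by
  ext a
  rw [coeff_rotFun, HahnSeries.coeff_mul,
    coeff_mul_both x.isPWO_support y.isPWO_support (support_rotFun_subset c x)
      (support_rotFun_subset c y), Finset.sum_mul]
  refine Finset.sum_congr rfl (fun ij hij => ?_)
  rw [Finset.mem_antidiagonal] at hij
  rw [coeff_rotFun, coeff_rotFun, ← hij.2.2, zpow_add₀ hc]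
  ring

theorem rotFun_single (c : L) (k : ℤ) (a : L) :
    rotFun c (HahnSeries.single k a) = HahnSeries.single k (a * c ^ k) := by
  ext n
  rw [coeff_rotFun]
  by_cases h : n = k
  · subst h
    rw [HahnSeries.coeff_single_same, HahnSeries.coeff_single_same]
  · rw [HahnSeries.coeff_single_of_ne h, HahnSeries.coeff_single_of_ne h, zero_mul]

/-- The rotation `q ↦ c q` as a ring endomorphism of `L((q))`. -/
def rot (c : L) (hc : c ≠ 0) : LaurentSeries L →+* LaurentSeries L where
  toFun := rotFun c
  map_one' := by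
    show rotFun c (HahnSeries.single 0 1) = HahnSeries.single 0 1
    rw [rotFun_single, zpow_zero, mul_one]
  map_mul' x y := rotFun_mul hc x y
  map_zero' := by
    ext n
    simp
  map_add' x y := rotFun_add c x y

@[simp] theorem coeff_rot (c : L) (hc : c ≠ 0) (x : LaurentSeries L) (n : ℤ) :
    (rot c hc x).coeff n = x.coeff n * c ^ n := rfl

theorem rot_C (c : L) (hc : c ≠ 0) (a : L) :
    rot c hc (HahnSeries.C a) = HahnSeries.C a := by
  show rotFun c (HahnSeries.single 0 a) = HahnSeries.single 0 a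
  rw [rotFun_single, zpow_zero, mul_one]

theorem rot_algebraMap (c : L) (hc : c ≠ 0) (a : L) :
    rot c hc (algebraMap L (LaurentSeries L) a) = algebraMap L (LaurentSeries L) a := by
  rw [algebraMap_laurentSeries_eq_single]
  show rotFun c (HahnSeries.single 0 a) = HahnSeries.single 0 a
  rw [rotFun_single, zpow_zero, mul_one]

/-- Series in `q^b` are fixed by the rotation by a `b`-th root of unity. -/
theorem rot_qExpand (b : ℕ) [NeZero b] {ζ : L} (hζ0 : ζ ≠ 0) (hζ : ζ ^ b = 1)
    (x : LaurentSeries L) : rot ζ hζ0 (qExpand L b x) = qExpand L b x := by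
  ext k
  rw [coeff_rot]
  by_cases hk : (b : ℤ) ∣ k
  · obtain ⟨m, rfl⟩ := hk
    rw [zpow_mul, zpow_natCast, hζ, one_zpow, mul_one]
  · rw [qExpand_coeff_of_not_dvd b x hk, zero_mul]

/-- Iterating the rotation. -/
theorem rot_pow_apply (c : L) (hc : c ≠ 0) (k : ℕ) (x : LaurentSeries L) :
    ((rot c hc)^[k]) x = rot (c ^ k) (pow_ne_zero k hc) x := by
  induction k with
  | zero =>
    ext n
    simp
  | succ k ih =>
    rw [Function.iterate_succ_apply', ih]
    ext n
    simp only [coeff_rot, mul_zpow, pow_succ]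
    ring

/-- The rotations of a series with nonzero coefficient at `q^{-1}` by the powers of a primitive
root of unity are pairwise distinct. -/
theorem rot_pow_injOn {ζ : L} {b : ℕ} (hζ : IsPrimitiveRoot ζ b) (hb : b ≠ 0)
    {x : LaurentSeries L} (hx : x.coeff (-1) ≠ 0) :
    Set.InjOn (fun k : ℕ => rot (ζ ^ k) (pow_ne_zero k (hζ.ne_zero hb)) x)
      (Finset.range b : Set ℕ) := by
  intro k hk l hl hkl
  have h1 := congrArg (fun y => y.coeff (-1)) hkl
  simp only [coeff_rot] at h1
  have h2 : (ζ ^ k) ^ (-1 : ℤ) = (ζ ^ l) ^ (-1 : ℤ) := mul_left_cancel₀ hx h1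
  rw [zpow_neg_one, zpow_neg_one, inv_inj] at h2
  rw [Finset.coe_range, Set.mem_Iio] at hk hl
  exact hζ.pow_inj hk hl h2

/-- A nonzero polynomial with rotation-invariant coefficients which vanishes at a series with
nonzero coefficient at `q^{-1}` has degree at least `b`. -/
theorem le_natDegree_of_fixed {ζ : L} {b : ℕ} (hζ : IsPrimitiveRoot ζ b) (hb : b ≠ 0)
    {P : Polynomial (LaurentSeries L)} (hP : P ≠ 0)
    (hfix : ∀ i, rot ζ (hζ.ne_zero hb) (P.coeff i) = P.coeff i)
    {x : LaurentSeries L} (hx : x.coeff (-1) ≠ 0) (hroot : P.eval x = 0) :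
    b ≤ P.natDegree := by
  classical
  have hmap : ∀ k : ℕ, P.map (rot (ζ ^ k) (pow_ne_zero k (hζ.ne_zero hb))) = P := by
    intro k
    ext i : 1
    rw [Polynomial.coeff_map, ← rot_pow_apply ζ (hζ.ne_zero hb) k]
    exact Function.iterate_fixed (hfix i) k
  have hroots : ∀ k : ℕ, P.eval (rot (ζ ^ k) (pow_ne_zero k (hζ.ne_zero hb)) x) = 0 := by
    intro k
    have := congrArg (rot (ζ ^ k) (pow_ne_zero k (hζ.ne_zero hb))) hroot
    rw [map_zero, ← Polynomial.eval_map_apply, hmap k] at this
    exact this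
  set Z : Finset (LaurentSeries L) :=
    (Finset.range b).image (fun k : ℕ => rot (ζ ^ k) (pow_ne_zero k (hζ.ne_zero hb)) x) with hZ
  have hcard : Z.card = b := by
    rw [hZ, Finset.card_image_of_injOn (rot_pow_injOn hζ hb hx), Finset.card_range]
  have hsub : Z.val ⊆ P.roots := by
    intro y hy
    rw [Finset.mem_val, hZ, Finset.mem_image] at hy
    obtain ⟨k, -, rfl⟩ := hy
    rw [Polynomial.mem_roots hP]
    exact hroots k
  have := Polynomial.card_le_degree_of_subset_roots hsub
  rw [hcard] at this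
  exact this

variable [IsAlgClosed L]

/-- An element of `L((q))` which is a root of unity is a constant. -/
theorem exists_C_of_pow_eq_one {ω : LaurentSeries L} {m : ℕ} (hm : m ≠ 0) (h : ω ^ m = 1) :
    ∃ μ : L, ω = algebraMap L (LaurentSeries L) μ := by
  have hint : IsIntegral L ω := by
    refine ⟨Polynomial.X ^ m - 1, Polynomial.monic_X_pow_sub_C 1 hm, ?_⟩
    rw [Polynomial.eval₂_sub, Polynomial.eval₂_pow, Polynomial.eval₂_X, Polynomial.eval₂_one, h,
      sub_self]
  have hdeg : (minpoly L ω).degree = 1 :=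
    IsAlgClosed.degree_eq_one_of_irreducible L (minpoly.irreducible hint)
  obtain ⟨μ, hμ⟩ := minpoly.mem_range_of_degree_eq_one L ω hdeg
  exact ⟨μ, hμ.symm⟩

/-- **Key lemma.** If `g^m` is fixed by the rotation by `ζ` and `ζ^(ord g) = 1`, then `g` is
fixed by the rotation. -/
theorem rot_eq_self_of_pow {ζ : L} (hζ0 : ζ ≠ 0) {g : LaurentSeries L} (hg : g ≠ 0)
    {m : ℕ} (hm : m ≠ 0) (hpow : rot ζ hζ0 (g ^ m) = g ^ m) (hord : ζ ^ g.order = 1) :
    rot ζ hζ0 g = g := by
  set ω := rot ζ hζ0 g / g with hω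
  have hωm : ω ^ m = 1 := by
    rw [hω, div_pow, ← map_pow, hpow, div_self (pow_ne_zero m hg)]
  obtain ⟨μ, hμ⟩ := exists_C_of_pow_eq_one hm hωm
  have h1 : rot ζ hζ0 g = algebraMap L (LaurentSeries L) μ * g := by
    rw [← hμ, hω, div_mul_cancel₀ _ hg]
  have h2 := congrArg (fun x => x.coeff g.order) h1
  simp only [coeff_rot] at h2
  rw [hord, mul_one, algebraMap_laurentSeries_eq_single, HahnSeries.coeff_single_mul,
    sub_zero] at h2
  have h3 : g.coeff g.order ≠ 0 := fun h => hg (HahnSeries.coeff_order_eq_zero.1 h)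
  have hμ1 : μ = 1 := by
    have : (1 - μ) * g.coeff g.order = 0 := by
      rw [sub_mul, one_mul, ← h2, sub_self]
    rcases mul_eq_zero.1 this with h | h
    · exact (sub_eq_zero.1 h).symm
    · exact absurd h h3
  rw [h1, hμ1, map_one, one_mul]

end Fermat.Agent.S18.Desc
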