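import Mathlib
import Fermat.Agent.S24.Glue
import Fermat.Agent.S28.Assemble
import Fermat.Agent.S18.DescLaurent
import Fermat.Prelude.Def_ModularCurve_HeckeOperator

/-!
# S18, step (2), degree part

`F₂ = F(N·b)`, `F₁ = V_b F(N)` inside `E = ℚ̄((q))`:

* `relfinrank_adjoin_le`: `0 < [F(M) : L(j(q^d))] ≤ ψ(M)` for `d ∣ M` (Sturm bound of `Lib/ModJ`);
* `relfinrank_adjoin_one`: `[F(N) : L(j)] = ψ(N)`;
* `fixed_inf_le`: an element of `F(N·b)` fixed by the rotation `q ↦ ζ_b q` lies in `V_b F(N)`
  (`b` prime).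
-/

set_option autoImplicit false
set_option synthInstance.maxHeartbeats 400000
set_option linter.unusedSectionVars false

noncomputable section

open ModularCurve IntermediateField Fermat.Agent.Lib.ModJ

namespace Fermat.Agent.S18.Desc

local notation "Lb" => AlgebraicClosure ℚ
local notation "E" => LaurentSeries (AlgebraicClosure ℚ)

/-! ### `coeffEmb` and `qExpand` -/

theorem coeffEmb_qExpand_eq (K : Type*) [Field K] [Algebra ℚ K] (n : ℕ) [NeZero n]
    (x : LaurentSeries ℚ) : coeffEmb K (qExpand ℚ n x) = qExpand K n (coeffEmb K x) := by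
  ext k
  by_cases hk : (n : ℤ) ∣ k
  · obtain ⟨m, rfl⟩ := hk
    rw [coeffEmb_coeff, qExpand_coeff_mul, qExpand_coeff_mul, coeffEmb_coeff]
  · rw [coeffEmb_coeff, qExpand_coeff_of_not_dvd n _ hk, qExpand_coeff_of_not_dvd n _ hk,
      map_zero]

theorem jqK_eq_qExpand (K : Type*) [Field K] [Algebra ℚ K] (d : ℕ+) :
    jqK K d = qExpand K (d : ℕ) (jqK K 1) := by
  rw [jqK, jqK, coeffEmb_qExpand_eq]
  congr 2
  exact (qExpand_one_apply _).symm

theorem jqK_one (K : Type*) [Field K] [Algebra ℚ K] : jqK K 1 = coeffEmb K jq := by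
  rw [jqK]
  congr 1
  exact qExpand_one_apply _

theorem transcendental_jqK_pnat (K : Type*) [Field K] [Algebra ℚ K] (d : ℕ+) :
    Transcendental K (jqK K d) := by
  rw [transcendental_iff]
  intro p hp
  rw [jqK_eq_qExpand] at hp
  have h1 : Polynomial.aeval (qExpand K (d : ℕ) (jqK K 1)) p
      = qExpandAlgHomC K (d : ℕ) (Polynomial.aeval (jqK K 1) p) :=
    (Polynomial.aeval_algHom_apply (qExpandAlgHomC K (d : ℕ)) (jqK K 1) p)
  rw [h1] at hp
  have h2 : Polynomial.aeval (jqK K 1) p = 0 := by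
    apply qExpand_injective (R := K) (d : ℕ)
    rw [map_zero]
    exact hp
  exact (transcendental_iff.mp transcendental_jqK) p h2

theorem coeff_jqK_one_neg_one (K : Type*) [Field K] [Algebra ℚ K] :
    (jqK K 1).coeff (-1) = 1 := by
  rw [jqK_one, coeffEmb_coeff, coeff_jq_neg_one, map_one]

/-! ### Degrees over `L(j(q^d))` -/

section Degree

variable {K : Type*} [Field K] [Algebra ℚ K]

/-- Passing from degrees inside `F` to relative degrees inside the ambient field. -/
theorem relfinrank_adjoin_eq (F : IntermediateField K (LaurentSeries K)) (x : F) :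
    relfinrank (K⟮(x : LaurentSeries K)⟯) F = Module.finrank K⟮x⟯ F := by
  have h1 := relfinrank_map_map (K⟮x⟯) (⊤ : IntermediateField K F) F.val
  rw [relfinrank_top_right] at h1
  rw [← h1]
  congr 1
  · rw [IntermediateField.adjoin_map]
    congr 1
    simp
  · rw [← AlgHom.fieldRange_eq_map, IntermediateField.fieldRange_val]

/-- **Sturm bound** over `L(j(q^d))`. -/
theorem relfinrank_adjoin_le (σ : K →+* ℂ) (M : ℕ) [NeZero M] (i₁ : DivN M) :
    0 < relfinrank (K⟮jqK K (divPNat M i₁)⟯) (FFK K M) ∧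
      relfinrank (K⟮jqK K (divPNat M i₁)⟯) (FFK K M) ≤ dedekindPsi M := by
  set x : FFK K M := genFK K M i₁ with hx
  have hxv : (x : LaurentSeries K) = jqK K (divPNat M i₁) := rfl
  have htr : Transcendental K x := by
    rw [transcendental_iff]
    intro p hp
    have h1 := val_aeval_poly K M x p
    rw [hp, hxv] at h1
    exact (transcendental_iff.mp (transcendental_jqK_pnat K (divPNat M i₁))) p h1.symm
  have hdep : ∀ Q : Fin (dedekindPsi M + 1) → MvPolynomial (DivN M) K,
      ∃ p : Fin (dedekindPsi M + 1) → Polynomial K, p ≠ 0 ∧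
        ∑ k, Polynomial.aeval x (p k) * MvPolynomial.aeval (genFK K M) (Q k) = 0 := by
    intro Q
    obtain ⟨m, c, hc, h0⟩ := exists_dependence_aux σ (divPNat M) (divPNat_dvd M) i₁
      (dedekindPsi M) (index_Gamma0 M).le Q
    refine ⟨depPoly c, depPoly_ne_zero hc, ?_⟩
    apply Subtype.ext
    rw [aeval_depFam_sum] at h0
    rw [ZeroMemClass.coe_zero, ← h0]
    simp only [IntermediateField.coe_sum, IntermediateField.coe_mul, val_aeval_genFK,
      val_aeval_poly, hxv]
  obtain ⟨hfd, hle⟩ := finrank_le_of_dependence (genFK K M) (adjoin_genFK_eq_top K M) x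
    (dedekindPsi M) htr hdep
  rw [← hxv, relfinrank_adjoin_eq]
  exact ⟨Module.finrank_pos, hle⟩

end Degree

/-! ### The tower `L(j(q^b)) ⊆ V_b F(N) ⊆ F(N·b)` -/

section Tower

variable (N b : ℕ) [NeZero N] [NeZero b]

/-- `[F(N) : L(j)] = ψ(N)`. -/
theorem relfinrank_adjoin_one :
    relfinrank (Lb⟮jqK Lb 1⟯) (modularFunctionFieldBar N) = dedekindPsi N := by
  have h := Fermat.Agent.S24.finrank_jBar N
  rw [← h, ← relfinrank_adjoin_eq]
  have h1 : ((Fermat.Agent.S24.jBar N : modularFunctionFieldBar N) : E) = jqK Lb 1 :=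
    (jqK_one Lb).symm
  rw [h1]

/-- `V_b F(N)`. -/
def imageField : IntermediateField Lb E :=
  (modularFunctionFieldBar N).map (qExpandAlgHomC Lb b)

theorem mem_imageField {g : E} :
    g ∈ imageField N b ↔ ∃ g₀ ∈ modularFunctionFieldBar N, qExpand Lb b g₀ = g :=
  Iff.rfl

theorem imageField_le : imageField N b ≤ modularFunctionFieldBar (N * b) := by
  rintro _ ⟨x, hx, rfl⟩
  exact (heckeBetaBarRingHom Lb N b ⟨x, hx⟩).2

/-- `b` as a positive integer. -/
def bPNat : ℕ+ := ⟨b, Nat.pos_of_ne_zero (NeZero.ne b)⟩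

theorem map_adjoin_j :
    (Lb⟮jqK Lb 1⟯).map (qExpandAlgHomC Lb b) = Lb⟮jqK Lb (bPNat b)⟯ := by
  rw [IntermediateField.adjoin_map, Set.image_singleton, qExpandAlgHomC_apply,
    jqK_eq_qExpand Lb (bPNat b)]
  rfl

theorem jqK_one_mem : jqK Lb 1 ∈ modularFunctionFieldBar N := by
  rw [jqK_one]
  exact (Fermat.Agent.S24.jBar N).2

theorem adjoin_le_imageField : Lb⟮jqK Lb (bPNat b)⟯ ≤ imageField N b := by
  rw [← map_adjoin_j]
  apply IntermediateField.map_mono
  rw [IntermediateField.adjoin_le_iff, Set.singleton_subset_iff]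
  exact jqK_one_mem N

theorem relfinrank_adjoin_imageField :
    relfinrank (Lb⟮jqK Lb (bPNat b)⟯) (imageField N b) = dedekindPsi N := by
  rw [← map_adjoin_j, imageField, relfinrank_map_map, relfinrank_adjoin_one]

/-- `[F(N·b) : V_b F(N)] ≤ b + 1` and positive. -/
theorem relfinrank_imageField_le (hb : b.Prime) :
    0 < relfinrank (imageField N b) (modularFunctionFieldBar (N * b)) ∧
      relfinrank (imageField N b) (modularFunctionFieldBar (N * b)) ≤ b + 1 := by
  have hdvd : b ∈ (N * b).divisors :=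
    Nat.mem_divisors.mpr ⟨dvd_mul_left b N, NeZero.ne (N * b)⟩
  obtain ⟨h0, hle⟩ := relfinrank_adjoin_le iotaQbar (N * b) ⟨b, hdvd⟩
  have hpn : divPNat (N * b) ⟨b, hdvd⟩ = bPNat b := rfl
  rw [hpn] at h0 hle
  have hmul := relfinrank_mul_relfinrank (adjoin_le_imageField N b) (imageField_le N b)
  rw [relfinrank_adjoin_imageField] at hmul
  have hψ : dedekindPsi (N * b) ≤ (b + 1) * dedekindPsi N := by
    rw [Fermat.Agent.S28.Assemble.dedekindPsi_mul_prime (NeZero.ne N) hb]
    split_ifs
    · exact Nat.mul_le_mul_right _ (Nat.le_succ b)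
    · exact le_rfl
  have hψ0 : 0 < dedekindPsi N := Fermat.Agent.S28.Assemble.dedekindPsi_pos (NeZero.ne N)
  constructor
  · rcases Nat.eq_zero_or_pos (relfinrank (imageField N b) (modularFunctionFieldBar (N * b)))
      with h | h
    · rw [h, mul_zero] at hmul
      rw [← hmul] at h0
      exact absurd h0 (lt_irrefl 0)
    · exact h
  · by_contra hcon
    rw [not_le] at hcon
    have : (b + 1 + 1) * dedekindPsi N ≤ dedekindPsi (N * b) := by
      calc (b + 1 + 1) * dedekindPsi N
          ≤ relfinrank (imageField N b) (modularFunctionFieldBar (N * b)) * dedekindPsi N :=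
            Nat.mul_le_mul_right _ hcon
        _ = _ := by rw [mul_comm, hmul]
        _ ≤ _ := hle
    nlinarith

end Tower

/-! ### The field of rotation-invariant series -/

section Fixed

/-- The subfield of rotation-invariant series. -/
def fixedField (ζ : Lb) (hζ : ζ ≠ 0) : IntermediateField Lb E where
  carrier := {x | rot ζ hζ x = x}
  mul_mem' := fun {x y} hx hy => by
    show rot ζ hζ (x * y) = x * y
    rw [map_mul, show rot ζ hζ x = x from hx, show rot ζ hζ y = y from hy]
  one_mem' := map_one _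
  add_mem' := fun {x y} hx hy => by
    show rot ζ hζ (x + y) = x + y
    rw [map_add, show rot ζ hζ x = x from hx, show rot ζ hζ y = y from hy]
  zero_mem' := map_zero _
  algebraMap_mem' := fun a => rot_algebraMap ζ hζ a
  inv_mem' := fun x hx => by
    show rot ζ hζ x⁻¹ = x⁻¹
    rw [map_inv₀, show rot ζ hζ x = x from hx]

theorem mem_fixedField {ζ : Lb} {hζ : ζ ≠ 0} {x : E} :
    x ∈ fixedField ζ hζ ↔ rot ζ hζ x = x := Iff.rfl

variable (N b : ℕ) [NeZero N] [NeZero b]

theorem imageField_le_fixedField {ζ : Lb} (hζ0 : ζ ≠ 0) (hζ : ζ ^ b = 1) :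
    imageField N b ≤ fixedField ζ hζ0 := by
  rintro _ ⟨x, -, rfl⟩
  exact rot_qExpand b hζ0 hζ x

/-- The index of the invariant subfield of `F(M)` is at least `b`. -/
theorem le_relfinrank_fixed (M : ℕ) [NeZero M] {ζ : Lb} (hζ : IsPrimitiveRoot ζ b)
    (hpos : 0 < relfinrank (fixedField ζ (hζ.ne_zero (NeZero.ne b)) ⊓ modularFunctionFieldBar M)
      (modularFunctionFieldBar M)) :
    b ≤ relfinrank (fixedField ζ (hζ.ne_zero (NeZero.ne b)) ⊓ modularFunctionFieldBar M)
      (modularFunctionFieldBar M) := by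
  set F' := fixedField ζ (hζ.ne_zero (NeZero.ne b)) ⊓ modularFunctionFieldBar M with hF'
  have hle : F' ≤ modularFunctionFieldBar M := inf_le_right
  rw [relfinrank_eq_finrank_of_le hle] at hpos ⊢
  have : FiniteDimensional F' (extendScalars hle) := Module.finite_of_finrank_pos hpos
  set x₂ : extendScalars hle := ⟨jqK Lb 1, jqK_one_mem M⟩ with hx₂
  have hint : IsIntegral F' x₂ := Algebra.IsIntegral.isIntegral x₂
  set P : Polynomial E := (minpoly F' x₂).map (algebraMap F' E) with hP
  have hP0 : P ≠ 0 := (Polynomial.map_ne_zero_iff (algebraMap F' E).injective).2 (minpoly.ne_zero hint)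
  have hfix : ∀ i, rot ζ (hζ.ne_zero (NeZero.ne b)) (P.coeff i) = P.coeff i := by
    intro i
    rw [hP, Polynomial.coeff_map]
    exact (inf_le_left : F' ≤ fixedField ζ (hζ.ne_zero (NeZero.ne b)))
      ((minpoly F' x₂).coeff i).2
  have hroot : P.eval (jqK Lb 1) = 0 := by
    rw [hP, Polynomial.eval_map, ← Polynomial.aeval_def]
    have h1 := minpoly.aeval F' x₂
    have h2 := congrArg (fun y : extendScalars hle => (y : E)) h1
    simp only [ZeroMemClass.coe_zero] at h2
    rw [← h2]
    exact Polynomial.aeval_algHom_apply (extendScalars hle).val x₂ (minpoly F' x₂)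
  have h3 := le_natDegree_of_fixed hζ (NeZero.ne b) hP0 hfix
    (by rw [coeff_jqK_one_neg_one]; exact one_ne_zero) hroot
  rw [hP, Polynomial.natDegree_map] at h3
  exact h3.trans (minpoly.natDegree_le x₂)

/-- **The invariants of `F(N·b)` under `q ↦ ζ_b q` are `V_b F(N)`.** -/
theorem fixed_inf_le (hb : b.Prime) {ζ : Lb} (hζ : IsPrimitiveRoot ζ b) {g : E}
    (hg : g ∈ modularFunctionFieldBar (N * b))
    (hfix : rot ζ (hζ.ne_zero (NeZero.ne b)) g = g) :
    ∃ g₀ ∈ modularFunctionFieldBar N, qExpand Lb b g₀ = g := by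
  set F' := fixedField ζ (hζ.ne_zero (NeZero.ne b)) ⊓ modularFunctionFieldBar (N * b) with hF'
  have h12 : imageField N b ≤ F' :=
    le_inf (imageField_le_fixedField N b _ (hζ.pow_eq_one)) (imageField_le N b)
  have h23 : F' ≤ modularFunctionFieldBar (N * b) := inf_le_right
  obtain ⟨h0, hle⟩ := relfinrank_imageField_le N b hb
  have hmul := relfinrank_mul_relfinrank h12 h23
  have hpos : 0 < relfinrank F' (modularFunctionFieldBar (N * b)) := by
    rcases Nat.eq_zero_or_pos (relfinrank F' (modularFunctionFieldBar (N * b))) with h | h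
    · rw [h, mul_zero] at hmul
      rw [← hmul] at h0
      exact absurd h0 (lt_irrefl 0)
    · exact h
  have hbl := le_relfinrank_fixed b (N * b) hζ hpos
  have hb2 : 2 ≤ b := hb.two_le
  have hone : relfinrank (imageField N b) F' = 1 := by
    have hpos1 : 0 < relfinrank (imageField N b) F' := by
      rcases Nat.eq_zero_or_pos (relfinrank (imageField N b) F') with h | h
      · rw [h, zero_mul] at hmul
        rw [← hmul] at h0
        exact absurd h0 (lt_irrefl 0)
      · exact h
    by_contra hne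
    have h2 : 2 ≤ relfinrank (imageField N b) F' := by omega
    have : 2 * b ≤ b + 1 := by
      calc 2 * b ≤ relfinrank (imageField N b) F' * relfinrank F' (modularFunctionFieldBar (N * b)) :=
            Nat.mul_le_mul h2 hbl
        _ = _ := hmul
        _ ≤ _ := hle
    omega
  have hle' : F' ≤ imageField N b := relfinrank_eq_one_iff.1 hone
  exact (mem_imageField N b).1 (hle' ⟨hfix, hg⟩)

end Fixed

end Fermat.Agent.S18.Desc
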