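import Fermat.Agent.S18.GVRing

/-!
# The reduction relation `Red` of the Gauss valuation (axioms R0–R4 of the torsion step)

`Red A x a` : `x` lies in the Gauss ring and its residue is `a`.
-/

namespace Fermat.Agent.S18.GV

variable {L : Type*} [Field L] [Algebra ℚ L] (A : ValuationSubring L)

/-- `x` is `w`-integral with residue `a` -/
def Red (x : LaurentSeries L) (a : LaurentSeries (IsLocalRing.ResidueField A)) : Prop :=
  ∃ h : x ∈ gaussRing A, rho A ⟨x, h⟩ = a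

theorem red_iff {x : LaurentSeries L} {a : LaurentSeries (IsLocalRing.ResidueField A)} :
    Red A x a ↔ ∃ h : x ∈ gaussRing A, rho A ⟨x, h⟩ = a := Iff.rfl

theorem Red.mem {x : LaurentSeries L} {a : LaurentSeries (IsLocalRing.ResidueField A)}
    (h : Red A x a) : x ∈ gaussRing A := h.1

theorem red_of_mem {x : LaurentSeries L} (h : x ∈ gaussRing A) : Red A x (rho A ⟨x, h⟩) :=
  ⟨h, rfl⟩

/-- R0 -/
theorem Red.unique {x : LaurentSeries L} {a b : LaurentSeries (IsLocalRing.ResidueField A)}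
    (ha : Red A x a) (hb : Red A x b) : a = b := by
  obtain ⟨h1, e1⟩ := ha
  obtain ⟨h2, e2⟩ := hb
  rw [← e1, ← e2]

/-- R1 (sum) -/
theorem Red.add {x y : LaurentSeries L} {a b : LaurentSeries (IsLocalRing.ResidueField A)}
    (ha : Red A x a) (hb : Red A y b) : Red A (x + y) (a + b) := by
  obtain ⟨h1, e1⟩ := ha
  obtain ⟨h2, e2⟩ := hb
  refine ⟨(gaussRing A).add_mem h1 h2, ?_⟩
  have e : (⟨x + y, (gaussRing A).add_mem h1 h2⟩ : gaussRing A) = ⟨x, h1⟩ + ⟨y, h2⟩ :=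
    Subtype.ext rfl
  rw [e, map_add, e1, e2]

/-- R1 (product) -/
theorem Red.mul {x y : LaurentSeries L} {a b : LaurentSeries (IsLocalRing.ResidueField A)}
    (ha : Red A x a) (hb : Red A y b) : Red A (x * y) (a * b) := by
  obtain ⟨h1, e1⟩ := ha
  obtain ⟨h2, e2⟩ := hb
  refine ⟨(gaussRing A).mul_mem h1 h2, ?_⟩
  have e : (⟨x * y, (gaussRing A).mul_mem h1 h2⟩ : gaussRing A) = ⟨x, h1⟩ * ⟨y, h2⟩ :=
    Subtype.ext rfl
  rw [e, map_mul, e1, e2]

theorem Red.neg {x : LaurentSeries L} {a : LaurentSeries (IsLocalRing.ResidueField A)}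
    (ha : Red A x a) : Red A (-x) (-a) := by
  obtain ⟨h1, e1⟩ := ha
  refine ⟨(gaussRing A).neg_mem h1, ?_⟩
  have e : (⟨-x, (gaussRing A).neg_mem h1⟩ : gaussRing A) = -⟨x, h1⟩ := Subtype.ext rfl
  rw [e, map_neg, e1]

theorem Red.sub {x y : LaurentSeries L} {a b : LaurentSeries (IsLocalRing.ResidueField A)}
    (ha : Red A x a) (hb : Red A y b) : Red A (x - y) (a - b) := by
  rw [sub_eq_add_neg, sub_eq_add_neg]
  exact Red.add A ha (Red.neg A hb)

theorem red_zero : Red A 0 0 := by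
  refine ⟨(gaussRing A).zero_mem, ?_⟩
  have e : (⟨0, (gaussRing A).zero_mem⟩ : gaussRing A) = 0 := Subtype.ext rfl
  rw [e, map_zero]

theorem red_one : Red A 1 1 := by
  refine ⟨(gaussRing A).one_mem, ?_⟩
  have e : (⟨1, (gaussRing A).one_mem⟩ : gaussRing A) = 1 := Subtype.ext rfl
  rw [e, map_one]

theorem Red.pow {x : LaurentSeries L} {a : LaurentSeries (IsLocalRing.ResidueField A)}
    (ha : Red A x a) (n : ℕ) : Red A (x ^ n) (a ^ n) := by
  induction n with
  | zero => rw [pow_zero, pow_zero]; exact red_one A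
  | succ n ih => rw [pow_succ, pow_succ]; exact Red.mul A ih ha

/-- integral Laurent series reduce coefficientwise -/
theorem red_eps_of_isFin {P : LaurentSeries A} (hP : IsFin A P) : Red A (eps A P) (red A P) :=
  ⟨eps_mem_gaussRing A hP, rho_eps A hP⟩

variable [Algebra.IsAlgebraic ℚ L]

/-- R2 : constants of `A` -/
theorem red_const (c : A) :
    Red A (HahnSeries.C (c : L)) (HahnSeries.C (IsLocalRing.residue A c)) :=
  ⟨C_mem_gaussRing A c, rho_C A c⟩

variable (ℓ : ℕ) [hℓ : Fact ℓ.Prime]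

/-- R3 : inverses -/
theorem Red.inv {x : LaurentSeries L} {a : LaurentSeries (IsLocalRing.ResidueField A)}
    (ha : Red A x a) (ha0 : a ≠ 0) : Red A x⁻¹ a⁻¹ := by
  obtain ⟨h1, e1⟩ := ha
  have h0 : rho A ⟨x, h1⟩ ≠ 0 := by rw [e1]; exact ha0
  refine ⟨inv_mem_gaussRing A h1 h0, ?_⟩
  rw [rho_inv A h1 h0, e1]

/-- R4 : every nonzero element of the Gauss field has a scalar multiple with a nonzero residue -/
theorem exists_red_smul (hA : A.LiesOverPrime ℓ) {x : LaurentSeries L}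
    (hx : x ∈ gaussField A) (hx0 : x ≠ 0) :
    ∃ c : L, c ≠ 0 ∧ ∃ a : LaurentSeries (IsLocalRing.ResidueField A), a ≠ 0 ∧
      Red A ((HahnSeries.C c : LaurentSeries L) * x) a := by
  obtain ⟨c, h, hc, hne⟩ := exists_smul_mem_gaussRing A ℓ hA hx hx0
  exact ⟨c, hc, _, hne, h, rfl⟩

/-- residue zero ⇔ divisible by a constant of positive valuation -/
theorem red_zero_iff (hA : A.LiesOverPrime ℓ) {x : LaurentSeries L} :
    Red A x 0 ↔ ∃ (c : A) (y : LaurentSeries L), y ∈ gaussRing A ∧ A.valuation (c : L) < 1 ∧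
      x = (HahnSeries.C (c : L) : LaurentSeries L) * y := by
  constructor
  · rintro ⟨h, h0⟩
    obtain ⟨c, y, hc, hxy⟩ := (rho_eq_zero_iff A ℓ hA ⟨x, h⟩).1 h0
    exact ⟨c, y, y.2, hc, hxy⟩
  · rintro ⟨c, y, hy, hc, hxy⟩
    have hx : x ∈ gaussRing A := by
      rw [hxy]; exact (gaussRing A).mul_mem (C_mem_gaussRing A c) hy
    exact ⟨hx, (rho_eq_zero_iff A ℓ hA ⟨x, hx⟩).2 ⟨c, ⟨y, hy⟩, hc, hxy⟩⟩

end Fermat.Agent.S18.GV
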