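import Mathlib
import Fermat.Agent.S18.DescDegree
import Fermat.Agent.S18.GVRed
import Fermat.Agent.Lib.FunctionField.PlaceFactsMain
import Fermat.Agent.Lib.FunctionField.DWRat
import Fermat.Agent.Lib.FunctionField.OrdPlace

/-!
# S18, step (2): descent of the torsion statement `(*)` along `V_b : q ↦ q^b`

`StarRed A ℓ M`: the `r`-free torsion statement at level `M`, in the form delivered by the
torsion step (reduction relation `GV.Red` of the Gauss valuation):
if `f ∈ F(M)` reduces to `1` and `m • D = div f` with `ℓ ∤ m`, then `D` is principal.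

`starRed_descend`: `StarRed A ℓ (N * b) → StarRed A ℓ N` for every prime `b`.
-/

set_option autoImplicit false
set_option synthInstance.maxHeartbeats 400000
set_option linter.unusedSectionVars false

noncomputable section

open ModularCurve IntermediateField AlgebraicCurve Fermat.Agent.Lib.ModJ Fermat.Agent.Lib.FF

namespace Fermat.Agent.S18.Desc

local notation "Lb" => AlgebraicClosure ℚ
local notation "E" => LaurentSeries (AlgebraicClosure ℚ)

/-- `(*)_M`, the `r`-free torsion statement at level `M` in reduction form. -/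
def StarRed (A : ValuationSubring (AlgebraicClosure ℚ)) (ℓ M : ℕ) [NeZero M] : Prop :=
  ∀ f : modularFunctionFieldBar M,
    GV.Red A (f : LaurentSeries (AlgebraicClosure ℚ)) 1 →
    ∀ (D : Divisor (AlgebraicClosure ℚ) (modularFunctionFieldBar M)) (m : ℕ), ¬ ℓ ∣ m →
      (∀ P : Place (AlgebraicClosure ℚ) (modularFunctionFieldBar M), (m : ℤ) * D P = P.ord f) →
      D ∈ Divisor.principal (K := AlgebraicClosure ℚ) (F := modularFunctionFieldBar M)

/-! ### `qExpand` and orders -/

section General

variable {R : Type*} [CommRing R]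

theorem order_qExpand_mul (m : ℕ) [NeZero m] {x : LaurentSeries R} (hx : x ≠ 0) :
    (qExpand R m x).order = (m : ℤ) * x.order := by
  have hN : (0 : ℤ) < m := by exact_mod_cast Nat.pos_of_ne_zero (NeZero.ne m)
  have hcoeff : (qExpand R m x).coeff ((m : ℤ) * x.order) ≠ 0 := by
    rw [qExpand_coeff_mul]
    exact fun h => hx (HahnSeries.coeff_order_eq_zero.mp h)
  have hne : qExpand R m x ≠ 0 := by
    intro h
    rw [h] at hcoeff
    simp at hcoeff
  apply le_antisymm
  · exact HahnSeries.order_le_of_coeff_ne_zero hcoeff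
  · by_contra hlt
    rw [not_le] at hlt
    have h1 : (qExpand R m x).coeff (qExpand R m x).order ≠ 0 :=
      fun h => hne (HahnSeries.coeff_order_eq_zero.mp h)
    apply h1
    by_cases hdvd : (m : ℤ) ∣ (qExpand R m x).order
    · obtain ⟨k, hk⟩ := hdvd
      rw [hk, qExpand_coeff_mul]
      have hk1 : k < x.order := by
        rw [hk] at hlt
        exact lt_of_mul_lt_mul_left hlt hN.le
      exact HahnSeries.coeff_eq_zero_of_lt_order hk1
    · exact qExpand_coeff_of_not_dvd m x hdvd

end General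

/-! ### `Red` and `qExpand` -/

section RedV

variable {L : Type*} [Field L] [Algebra ℚ L] (A : ValuationSubring L)

theorem isFin_qExpand (b : ℕ) [NeZero b] {P : LaurentSeries A} (hP : GV.IsFin A P) :
    GV.IsFin A (qExpand A b P) := by
  obtain ⟨K, hK, h⟩ := hP
  refine ⟨K, hK, fun n => ?_⟩
  by_cases hn : (b : ℤ) ∣ n
  · obtain ⟨k, rfl⟩ := hn
    rw [qExpand_coeff_mul]
    exact h k
  · rw [qExpand_coeff_of_not_dvd b P hn]
    exact K.zero_mem

theorem red_qExpand (b : ℕ) [NeZero b] {x : LaurentSeries L}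
    {a : LaurentSeries (IsLocalRing.ResidueField A)} (h : GV.Red A x a) :
    GV.Red A (qExpand L b x) (qExpand (IsLocalRing.ResidueField A) b a) := by
  obtain ⟨hx, rfl⟩ := h
  obtain ⟨P, Q, hP, hQ, hQ0, hPQ⟩ := hx
  have hQ0' : GV.red A (qExpand A b Q) ≠ 0 := by
    show coeffMap (IsLocalRing.residue A) (qExpand A b Q) ≠ 0
    rw [ModularCurve.coeffMap_qExpand]
    intro h0
    apply hQ0
    apply qExpand_injective (R := IsLocalRing.ResidueField A) b
    rw [map_zero]
    exact h0
  have hPQ' : qExpand L b x * GV.eps A (qExpand A b Q) = GV.eps A (qExpand A b P) := by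
    show qExpand L b x * coeffMap A.subtype (qExpand A b Q) = coeffMap A.subtype (qExpand A b P)
    rw [ModularCurve.coeffMap_qExpand, ModularCurve.coeffMap_qExpand, ← map_mul]
    congr 1
  have hmem : qExpand L b x ∈ GV.gaussRing A :=
    ⟨qExpand A b P, qExpand A b Q, isFin_qExpand A b hP, isFin_qExpand A b hQ, hQ0', hPQ'⟩
  refine ⟨hmem, ?_⟩
  rw [GV.rho_eq A ⟨qExpand L b x, hmem⟩ hQ0' hPQ', GV.rho_eq A ⟨x, ⟨P, Q, hP, hQ, hQ0, hPQ⟩⟩ hQ0 hPQ]
  show coeffMap (IsLocalRing.residue A) (qExpand A b P)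
      / coeffMap (IsLocalRing.residue A) (qExpand A b Q) = _
  rw [ModularCurve.coeffMap_qExpand, ModularCurve.coeffMap_qExpand, map_div₀]
  rfl

end RedV

/-! ### The place at infinity -/

section Inf

theorem order_jqK_one : (jqK Lb 1).order = -1 := by
  have hne : jqK Lb 1 ≠ 0 := by
    intro h
    have := coeff_jqK_one_neg_one Lb
    rw [h] at this
    simp at this
  apply le_antisymm
  · apply HahnSeries.order_le_of_coeff_ne_zero
    rw [coeff_jqK_one_neg_one]
    exact one_ne_zero
  · by_contra hlt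
    rw [not_le] at hlt
    have h1 : (jqK Lb 1).coeff (jqK Lb 1).order ≠ 0 :=
      fun h => hne (HahnSeries.coeff_order_eq_zero.mp h)
    apply h1
    rw [jqK_one, coeffEmb_coeff, coeff_jq_of_lt (by rw [← jqK_one Lb]; exact hlt), map_zero]

variable (N : ℕ) [NeZero N]

/-- The cusp `∞`: the place of `F(N)` given by the order of the `q`-expansion. -/
theorem exists_place_inf :
    ∃ v : Place Lb (modularFunctionFieldBar N),
      ∀ f : modularFunctionFieldBar N, f ≠ 0 → v.ord f = (f : E).order := by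
  have hcoe : ∀ f : modularFunctionFieldBar N, f ≠ 0 → (f : E) ≠ 0 :=
    fun f hf h => hf (Subtype.ext h)
  obtain ⟨v, d, hd, -, hv⟩ := exists_place_of_ord (K := Lb)
    (fun f : modularFunctionFieldBar N => (f : E).order)
    (fun f g hf hg => by
      show ((f : E) * (g : E)).order = _
      exact HahnSeries.order_mul (hcoe f hf) (hcoe g hg))
    (fun f g hf hg hfg => by
      show min (f : E).order (g : E).order ≤ ((f : E) + (g : E)).order
      exact HahnSeries.min_order_le_order_add (hcoe _ hfg))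
    (fun c hc => by
      show (algebraMap Lb E c).order = 0
      rw [algebraMap_laurentSeries_eq_single]
      exact HahnSeries.order_single (fun h => hc (by rw [h, map_zero])))
    ⟨⟨jqK Lb 1, jqK_one_mem N⟩, fun h => by
        have := congrArg Subtype.val h
        have h2 := coeff_jqK_one_neg_one Lb
        rw [show jqK Lb 1 = 0 from this] at h2
        simp at h2,
      by
        show (jqK Lb 1).order ≠ 0
        rw [order_jqK_one]
        decide⟩
  have hj0 : (⟨jqK Lb 1, jqK_one_mem N⟩ : modularFunctionFieldBar N) ≠ 0 := by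
    intro h
    have := congrArg Subtype.val h
    have h2 := coeff_jqK_one_neg_one Lb
    rw [show jqK Lb 1 = 0 from this] at h2
    simp at h2
  have hd1 : d = 1 := by
    have h1 := hv ⟨jqK Lb 1, jqK_one_mem N⟩ hj0
    simp only at h1
    rw [order_jqK_one] at h1
    have h2 : (d : ℤ) ∣ 1 := ⟨-v.ord ⟨jqK Lb 1, jqK_one_mem N⟩, by linarith⟩
    have h3 : (d : ℤ) = 1 := by
      rcases Int.isUnit_iff.1 (isUnit_of_dvd_one h2) with h | h
      · exact h
      · omega
    exact_mod_cast h3
  refine ⟨v, fun f hf => ?_⟩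
  have := hv f hf
  rw [hd1] at this
  simp only [Nat.cast_one, one_mul] at this
  exact this.symm

end Inf

/-! ### The descent step -/

section Main

variable (N b : ℕ) [NeZero N] [NeZero b]

set_option maxHeartbeats 1600000 in
/-- **Step (2)**: the torsion statement descends along `V_b`. -/
theorem starRed_descend (hb : b.Prime) (A : ValuationSubring (AlgebraicClosure ℚ)) (ℓ : ℕ)
    (h : StarRed A ℓ (N * b)) : StarRed A ℓ N := by
  intro f hred D m hm hD
  have hm0 : m ≠ 0 := by
    rintro rfl
    exact hm (dvd_zero ℓ)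
  have hmZ : (m : ℤ) ≠ 0 := by exact_mod_cast hm0
  have hf0 : f ≠ 0 := by
    rintro rfl
    have h1 := GV.Red.unique A hred (GV.red_zero A)
    exact one_ne_zero h1
  have hfE : (f : E) ≠ 0 := fun h0 => hf0 (Subtype.ext h0)
  set V : modularFunctionFieldBar N →ₐ[Lb] modularFunctionFieldBar (N * b) :=
    heckeBetaBar Lb N b with hV
  have hVcoe : ∀ x : modularFunctionFieldBar N, ((V x : modularFunctionFieldBar (N * b)) : E)
      = qExpand Lb b (x : E) := fun x => rfl
  have hVne : ∀ x : modularFunctionFieldBar N, x ≠ 0 → V x ≠ 0 := fun x hx =>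
    (map_ne_zero V.toRingHom).2 hx
  set f₂ : modularFunctionFieldBar (N * b) := V f with hf₂
  have hf₂0 : f₂ ≠ 0 := hVne f hf0
  have hred₂ : GV.Red A (f₂ : E) 1 := by
    have := red_qExpand A b hred
    rw [map_one] at this
    exact this
  -- `m` divides the divisor of `f₂`
  have hdiv : ∀ P : Place Lb (modularFunctionFieldBar (N * b)), (m : ℤ) ∣ P.ord f₂ := by
    intro P
    by_cases hnt : ∃ x : modularFunctionFieldBar N, x ≠ 0 ∧ P.ord (V x) ≠ 0
    · obtain ⟨v, d, -, -, hv⟩ := exists_place_of_ord (K := Lb)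
        (fun x : modularFunctionFieldBar N => P.ord (V x))
        (fun x y hx hy => by
          show P.ord (V (x * y)) = _
          rw [map_mul]
          exact P.ord_mul (hVne x hx) (hVne y hy))
        (fun x y hx hy hxy => by
          show min (P.ord (V x)) (P.ord (V y)) ≤ P.ord (V (x + y))
          rw [map_add]
          exact Fermat.Agent.Lib.FF.ord_add P (by rw [← map_add]; exact hVne _ hxy))
        (fun c _ => by
          show P.ord (V (algebraMap Lb _ c)) = 0
          rw [AlgHom.commutes]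
          exact Fermat.Agent.Lib.FF.ord_algebraMap P c)
        hnt
      have h1 : P.ord (V f) = (d : ℤ) * v.ord f := hv f hf0
      rw [hf₂, h1, ← hD v]
      exact ⟨d * D v, by ring⟩
    · push Not at hnt
      rw [hf₂, hnt f hf0]
      exact dvd_zero _
  have hfin₂ := Fermat.Agent.Lib.FF.finite_ord_ne_zero (Fermat.Agent.S24.isFF1_jBar (N * b)) f₂ hf₂0
  let D₂ : Divisor Lb (modularFunctionFieldBar (N * b)) :=
    Finsupp.ofSupportFinite (fun P => P.ord f₂ / (m : ℤ)) (hfin₂.subset (fun P hP => by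
      simp only [Function.mem_support, ne_eq] at hP
      show P.ord f₂ ≠ 0
      intro h0
      apply hP
      rw [h0, Int.zero_ediv]))
  have hD₂ : ∀ P : Place Lb (modularFunctionFieldBar (N * b)), (m : ℤ) * D₂ P = P.ord f₂ :=
    fun P => Int.mul_ediv_cancel' (hdiv P)
  obtain ⟨g, hg0, hgD⟩ := h f₂ hred₂ D₂ m hm hD₂
  -- `g ^ m = c * f₂`
  obtain ⟨c, hc⟩ := exists_const_of_ord_nonneg (Fermat.Agent.S24.isFF1_jBar (N * b))
    (g ^ m / f₂) (fun P => by
      rw [div_eq_mul_inv, P.ord_mul (pow_ne_zero m hg0) (inv_ne_zero hf₂0), P.ord_inv,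
        ← zpow_natCast, P.ord_zpow, ← hgD P, hD₂ P]
      simp)
  have hgm : g ^ m = algebraMap Lb _ c * f₂ := by
    rw [← hc, div_mul_cancel₀ _ hf₂0]
  have hc0 : c ≠ 0 := by
    rintro rfl
    rw [map_zero, zero_mul] at hgm
    exact pow_ne_zero m hg0 hgm
  have hgE : (g : E) ≠ 0 := fun h0 => hg0 (Subtype.ext h0)
  -- in `E`: `g ^ m = V_b (c * f)`
  have hgmE : (g : E) ^ m = qExpand Lb b (algebraMap Lb E c * (f : E)) := by
    have := congrArg (fun y : modularFunctionFieldBar (N * b) => (y : E)) hgm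
    simp only [IntermediateField.coe_pow, IntermediateField.coe_mul] at this
    rw [this, map_mul, hVcoe f]
    congr 1
    show algebraMap Lb E c = qExpandAlgHomC Lb b (algebraMap Lb E c)
    rw [AlgHom.commutes]
  obtain ⟨ζ, hζ⟩ : ∃ ζ : Lb, IsPrimitiveRoot ζ b := by
    have : NeZero ((b : ℕ) : Lb) := ⟨by exact_mod_cast NeZero.ne b⟩
    obtain ⟨ζ, hζ⟩ := IsAlgClosed.exists_root (Polynomial.cyclotomic b Lb)
      (by
        rw [Polynomial.degree_cyclotomic]
        exact_mod_cast (Nat.totient_pos.2 (Nat.pos_of_ne_zero (NeZero.ne b))).ne')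
    exact ⟨ζ, Polynomial.isRoot_cyclotomic_iff.1 hζ⟩
  have hζ0 : ζ ≠ 0 := hζ.ne_zero (NeZero.ne b)
  have hrotm : rot ζ hζ0 ((g : E) ^ m) = (g : E) ^ m := by
    rw [hgmE]
    exact rot_qExpand b hζ0 hζ.pow_eq_one _
  -- the order of `g` at infinity is divisible by `b`
  obtain ⟨v, hv⟩ := exists_place_inf N
  have hcf : algebraMap Lb E c * (f : E) ≠ 0 :=
    mul_ne_zero ((map_ne_zero _).2 hc0) hfE
  have hord : (g : E).order = (b : ℤ) * D v := by
    have h1 : ((g : E) ^ m).order = (m : ℤ) * (g : E).order := by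
      rw [HahnSeries.order_pow, nsmul_eq_mul]
    have h2 : (qExpand Lb b (algebraMap Lb E c * (f : E))).order
        = (b : ℤ) * (f : E).order := by
      rw [order_qExpand_mul b hcf, HahnSeries.order_mul ((map_ne_zero _).2 hc0) hfE,
        algebraMap_laurentSeries_eq_single, HahnSeries.order_single hc0, zero_add]
    have h3 : (f : E).order = (m : ℤ) * D v := by
      rw [← hv f hf0, hD v]
    rw [hgmE, h2, h3] at h1
    have h4 : (m : ℤ) * ((b : ℤ) * D v) = (m : ℤ) * (g : E).order := by
      rw [← h1]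
      ring
    exact (mul_left_cancel₀ hmZ h4).symm
  have hζord : ζ ^ (g : E).order = 1 := by
    rw [hord, zpow_mul, zpow_natCast, hζ.pow_eq_one, one_zpow]
  have hrot : rot ζ hζ0 (g : E) = (g : E) := rot_eq_self_of_pow hζ0 hgE hm0 hrotm hζord
  obtain ⟨g₀, hg₀mem, hg₀⟩ := fixed_inf_le N b hb hζ g.2 hrot
  -- conclude
  have hg₀0 : (⟨g₀, hg₀mem⟩ : modularFunctionFieldBar N) ≠ 0 := by
    intro h0
    have : g₀ = 0 := congrArg Subtype.val h0
    rw [this, map_zero] at hg₀
    exact hgE hg₀.symm
  have hpow : (⟨g₀, hg₀mem⟩ : modularFunctionFieldBar N) ^ m = algebraMap Lb _ c * f := by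
    apply Subtype.ext
    apply qExpand_injective (R := Lb) b
    show qExpand Lb b (g₀ ^ m) = qExpand Lb b (algebraMap Lb E c * (f : E))
    rw [map_pow, hg₀, hgmE]
  refine ⟨⟨g₀, hg₀mem⟩, hg₀0, fun Q => ?_⟩
  have h1 : Q.ord ((⟨g₀, hg₀mem⟩ : modularFunctionFieldBar N) ^ m)
      = (m : ℤ) * Q.ord (⟨g₀, hg₀mem⟩ : modularFunctionFieldBar N) := by
    rw [← zpow_natCast, Q.ord_zpow]
  rw [hpow, Q.ord_mul ((map_ne_zero _).2 hc0) hf0, Fermat.Agent.Lib.FF.ord_algebraMap Q c,
    zero_add, ← hD Q] at h1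
  exact mul_left_cancel₀ hmZ h1

end Main

end Fermat.Agent.S18.Desc
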