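import Fermat.Agent.S18.GVRed
import Fermat.Prelude.Def_ModularCurve_X0ModL
import Fermat.Prelude.Def_ModularCurve_ReductionModL

/-!
# S18 (C76), Gauss valuation on the modular function fields

* `Red (j(q^d)) (J(q^d))`;
* `F(M) = L(j(q^d) : d ∣ M) ≤ gaussField A`;
* every element of `F_k(M)` is the residue of an element of `F(M)`.
-/

set_option autoImplicit false
set_option linter.unusedSectionVars false

noncomputable section

namespace Fermat.Agent.S18.GV

open ModularCurve Polynomial

variable {L : Type*} [Field L] [Algebra ℚ L] (A : ValuationSubring L)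

/-- series with integer coefficients are of finite type -/
theorem isFin_intCast (P : LaurentSeries ℤ) : IsFin A (coeffMap (Int.castRingHom A) P) := by
  refine ⟨⊥, inferInstance, fun n => ?_⟩
  rw [coeffMap_coeff]
  simp

theorem eps_jqNModC (d : ℕ) [NeZero d] : eps A (jqNModC A d) = jqNModC L d :=
  coeffMap_jqNModC A.subtype d

theorem red_jqNModC (d : ℕ) [NeZero d] :
    red A (jqNModC A d) = jqNModC (IsLocalRing.ResidueField A) d :=
  coeffMap_jqNModC (IsLocalRing.residue A) d

theorem isFin_jqNModC (d : ℕ) [NeZero d] : IsFin A (jqNModC A d) := by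
  rw [← coeffMap_jqNModC (Int.castRingHom A) d]
  exact isFin_intCast A _

/-- **`ρ(j(q^d)) = J(q^d)`** -/
theorem red_jqN (d : ℕ) [NeZero d] :
    Red A (jqNModC L d) (jqNModC (IsLocalRing.ResidueField A) d) := by
  have := red_eps_of_isFin A (isFin_jqNModC A d)
  rwa [eps_jqNModC, red_jqNModC] at this

theorem coeffEmb_qExpand_jq (d : ℕ) [NeZero d] :
    coeffEmb L (qExpand ℚ d jq) = jqNModC L d :=
  coeffMap_jqNModC (algebraMap ℚ L) d

variable [Algebra.IsAlgebraic ℚ L]

/-- the Gauss field as an intermediate field of `L((q))/L` -/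
def gaussIF : IntermediateField L (LaurentSeries L) :=
  (gaussField A).toIntermediateField fun c => by
    rw [algebraMap_laurentSeries_eq_single]
    exact C_mem_gaussField A c

theorem mem_gaussIF_iff {x : LaurentSeries L} : x ∈ gaussIF A ↔ x ∈ gaussField A := Iff.rfl

theorem coeffEmb_mem_gaussField (M : ℕ) {x : LaurentSeries ℚ} (hx : x ∈ modularFunctionFieldFull M) :
    coeffEmb L x ∈ gaussField A := by
  change coeffEmb L x ∈ gaussIF A
  induction hx using IntermediateField.adjoin_induction with
  | mem z hz =>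
    obtain ⟨e, hne, hdvd, rfl⟩ := hz
    rw [coeffEmb_qExpand_jq]
    exact gaussRing_le_gaussField A (red_jqN A e).mem
  | algebraMap c =>
    have : coeffEmb L (algebraMap ℚ (LaurentSeries ℚ) c)
        = algebraMap L (LaurentSeries L) (algebraMap ℚ L c) := by
      rw [algebraMap_apply_eq_single, algebraMap_laurentSeries_eq_single, coeffEmb,
        coeffMap_single]
    rw [this]
    exact (gaussIF A).algebraMap_mem _
  | add y z _ _ hy hz => rw [map_add]; exact add_mem hy hz
  | inv y _ hy => rw [map_inv₀]; exact inv_mem hy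
  | mul y z _ _ hy hz => rw [map_mul]; exact mul_mem hy hz

/-- **`F(M) ≤ gaussField`** -/
theorem laurentBaseChange_le_gaussIF (M : ℕ) :
    laurentBaseChange L (modularFunctionFieldFull M) ≤ gaussIF A := by
  rw [laurentBaseChange, IntermediateField.adjoin_le_iff]
  rintro _ ⟨y, hy, rfl⟩
  exact coeffEmb_mem_gaussField A M hy

theorem mem_gaussField_of_mem_ff (M : ℕ) {x : LaurentSeries L}
    (hx : x ∈ laurentBaseChange L (modularFunctionFieldFull M)) : x ∈ gaussField A :=
  laurentBaseChange_le_gaussIF A M hx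

theorem jqN_mem_ff (M : ℕ) {d : ℕ} [NeZero d] (hd : d ∣ M) :
    jqNModC L d ∈ laurentBaseChange L (modularFunctionFieldFull M) := by
  rw [← coeffEmb_qExpand_jq]
  exact coeffEmb_mem_laurentBaseChange L (jqd_mem_full M hd)

/-- **`F_k(M) ⊆ ρ(F(M) ∩ O_w)`** -/
theorem exists_red_of_mem_ffC (M : ℕ) {a : LaurentSeries (IsLocalRing.ResidueField A)}
    (ha : a ∈ modularFunctionFieldFullC (IsLocalRing.ResidueField A) M) :
    ∃ x ∈ laurentBaseChange L (modularFunctionFieldFull M), Red A x a := by
  induction ha using IntermediateField.adjoin_induction with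
  | mem z hz =>
    obtain ⟨e, hne, hdvd, rfl⟩ := hz
    exact ⟨jqNModC L e, jqN_mem_ff M hdvd, red_jqN A e⟩
  | algebraMap c =>
    obtain ⟨c', rfl⟩ := IsLocalRing.residue_surjective c
    refine ⟨algebraMap L (LaurentSeries L) (c' : L), IntermediateField.algebraMap_mem _ _, ?_⟩
    rw [algebraMap_laurentSeries_eq_single, algebraMap_laurentSeries_eq_single]
    exact red_const A c'
  | add y z _ _ hy hz =>
    obtain ⟨x, hx, hxy⟩ := hy
    obtain ⟨x', hx', hxz⟩ := hz
    exact ⟨x + x', add_mem hx hx', hxy.add A hxz⟩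
  | inv y _ hy =>
    obtain ⟨x, hx, hxy⟩ := hy
    by_cases hy0 : y = 0
    · subst hy0
      exact ⟨0, zero_mem _, by rw [inv_zero]; exact red_zero A⟩
    · exact ⟨x⁻¹, inv_mem hx, hxy.inv A hy0⟩
  | mul y z _ _ hy hz =>
    obtain ⟨x, hx, hxy⟩ := hy
    obtain ⟨x', hx', hxz⟩ := hz
    exact ⟨x * x', mul_mem hx hx', hxy.mul A hxz⟩

end Fermat.Agent.S18.GV
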