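import Mathlib
import Fermat.Agent.Lib.ModC.InfModel
import Fermat.Agent.S28.Basic
import Fermat.Agent.S18.GVFF
import Fermat.Agent.S18.Descend

/-!
# S18 (C76), cusp embeddings, part 1: the twisted generators over `A ⊆ ℚ̄`

For `γ ∈ SL(2,ℤ)` and `d ∣ M` the `q_M`-expansion `genInf M γ d` of `z ↦ j(d γ⁻¹ z)` is
`J(c t^k)` with `c` an `M`-th root of unity.  We realise it over the valuation ring `A` of `ℚ̄`
(`genA`), and obtain the embedding `tauL γ : F(M) → ℚ̄((t))` with `tauL γ (j_d) = ε (genA γ d)`.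
-/

set_option autoImplicit false

noncomputable section

namespace Fermat.Agent.S18.Cusp

open ModularCurve Fermat.Agent.S18.GV
open scoped MatrixGroups

local notation "Qb" => AlgebraicClosure ℚ

/-! ### The series `J(c t^k)` over a ring -/

section Tw

variable {R S : Type*} [CommRing R] [CommRing S]

/-- `J(c t^k)` -/
def tw (c : Rˣ) (k : ℕ+) : LaurentSeries R :=
  qExpand R (k : ℕ) (Fermat.Agent.S28.rot c (jqModC R))

theorem coeffMap_tw (f : R →+* S) (c : Rˣ) (k : ℕ+) :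
    coeffMap f (tw c k) = tw (Units.map (f : R →* S) c) k := by
  rw [tw, tw, ModularCurve.coeffMap_qExpand, Fermat.Agent.S28.coeffMap_rot, coeffMap_jqModC]

theorem coeff_tw_mul (c : Rˣ) (k : ℕ+) (m : ℤ) :
    (tw c k).coeff (((k : ℕ) : ℤ) * m) = (jqModC R).coeff m * ((c ^ m : Rˣ) : R) := by
  rw [tw, qExpand_coeff_mul, Fermat.Agent.S28.coeff_rot]

theorem coeff_tw_of_not_dvd (c : Rˣ) (k : ℕ+) {n : ℤ} (hn : ¬ (((k : ℕ) : ℤ)) ∣ n) :
    (tw c k).coeff n = 0 := by
  rw [tw, qExpand_coeff_of_not_dvd _ _ hn]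

theorem coeff_tw_neg (c : Rˣ) (k : ℕ+) :
    (tw c k).coeff (-((k : ℕ) : ℤ)) = ((c⁻¹ : Rˣ) : R) := by
  have h := coeff_tw_mul c k (-1)
  rw [mul_neg, mul_one] at h
  rw [h, coeff_jqModC_neg_one, one_mul, zpow_neg, zpow_one]

theorem coeff_tw_of_lt (c : Rˣ) (k : ℕ+) {n : ℤ} (hn : n < -((k : ℕ) : ℤ)) :
    (tw c k).coeff n = 0 := by
  by_cases hdvd : (((k : ℕ) : ℤ)) ∣ n
  · obtain ⟨m, rfl⟩ := hdvd
    rw [coeff_tw_mul]
    have hk : (0 : ℤ) < ((k : ℕ) : ℤ) := by exact_mod_cast k.pos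
    have hm : m < -1 := by
      by_contra h
      rw [not_lt] at h
      nlinarith
    rw [coeff_jqModC_of_lt R hm, zero_mul]
  · exact coeff_tw_of_not_dvd c k hdvd

theorem tw_ne_zero [Nontrivial R] (c : Rˣ) (k : ℕ+) : tw c k ≠ 0 := by
  intro h
  have := coeff_tw_neg c k
  rw [h, HahnSeries.coeff_zero] at this
  exact (c⁻¹).ne_zero this.symm

theorem order_tw [Nontrivial R] (c : Rˣ) (k : ℕ+) : (tw c k).order = -((k : ℕ) : ℤ) := by
  apply le_antisymm
  · refine HahnSeries.order_le_of_coeff_ne_zero ?_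
    rw [coeff_tw_neg]
    exact (c⁻¹).ne_zero
  · by_contra hlt
    rw [not_le] at hlt
    have h1 : (tw c k).coeff (tw c k).order ≠ 0 := by
      rw [ne_eq, HahnSeries.coeff_order_eq_zero]
      exact tw_ne_zero c k
    exact h1 (coeff_tw_of_lt c k hlt)

/-- `J(c t^k)` determines `k` and `c` -/
theorem tw_injective [Nontrivial R] {c c' : Rˣ} {k k' : ℕ+} (h : tw c k = tw c' k') :
    c = c' ∧ k = k' := by
  have hk : k = k' := by
    have h1 := order_tw c k
    rw [h, order_tw] at h1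
    have h2 : ((k' : ℕ) : ℤ) = ((k : ℕ) : ℤ) := by omega
    exact (PNat.coe_injective (by exact_mod_cast h2)).symm
  subst hk
  refine ⟨?_, rfl⟩
  have h1 := coeff_tw_neg c k
  rw [h, coeff_tw_neg] at h1
  have h2 : c'⁻¹ = c⁻¹ := Units.ext h1
  exact (inv_injective h2).symm

theorem rot_tw (z c : Rˣ) (k : ℕ+) :
    Fermat.Agent.S28.rot z (tw c k) = tw (c * z ^ (k : ℕ)) k := by
  rw [tw, tw, Fermat.Agent.S28.rot_qExpand, Fermat.Agent.S28.rot_rot]

theorem tw_one_eq (k : ℕ+) : tw (1 : Rˣ) k = qExpand R (k : ℕ) (jqModC R) := by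
  rw [tw, Fermat.Agent.S28.rot_one]

end Tw

/-! ### Comparison with `twistExpand` over `ℂ` -/

theorem jqC_eq_jqModC : Fermat.Agent.Lib.ModJ.jqC = jqModC ℂ := by
  rw [Fermat.Agent.Lib.ModJ.jqC, coeffEmb, ← jqModC_rat, coeffMap_jqModC]

theorem twistExpand_eq_tw {c : ℂ} (hc : c ≠ 0) (k : ℕ+) :
    Fermat.Agent.Lib.ModJ.twistExpand c (k : ℕ) Fermat.Agent.Lib.ModJ.jqC
      = tw (Units.mk0 c hc) k := by
  ext n
  by_cases hdvd : (((k : ℕ) : ℤ)) ∣ n
  · obtain ⟨m, rfl⟩ := hdvd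
    rw [coeff_tw_mul, Fermat.Agent.Lib.ModJ.coeff_twistExpand_mul c k.pos, jqC_eq_jqModC]
    congr 1
    rw [Units.val_zpow_eq_zpow_val, Units.val_mk0]
  · rw [coeff_tw_of_not_dvd _ _ hdvd, Fermat.Agent.Lib.ModJ.coeff_twistExpand_of_not_dvd c _ _ hdvd]

/-! ### Lifting roots of unity to `A` -/

section Lift

variable (A : ValuationSubring Qb)

theorem exists_unit_of_pow_eq_one {c : ℂ} {n : ℕ} (hn : 0 < n) (hc : c ^ n = 1) :
    ∃ u : Aˣ, Fermat.Agent.Lib.ModJ.iotaQbar (((u : A) : Qb)) = c ∧ u ^ n = 1 := by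
  classical
  set σ := Fermat.Agent.Lib.ModJ.iotaQbar
  set p : Polynomial Qb := Polynomial.X ^ n - 1 with hp
  have hp0 : p.map σ ≠ 0 := by
    rw [hp, Polynomial.map_sub, Polynomial.map_pow, Polynomial.map_X, Polynomial.map_one]
    exact Polynomial.X_pow_sub_C_ne_zero hn (1 : ℂ)
  have hroot : c ∈ (p.map σ).roots := by
    rw [Polynomial.mem_roots hp0, Polynomial.IsRoot, hp, Polynomial.map_sub, Polynomial.map_pow,
      Polynomial.map_X, Polynomial.map_one, Polynomial.eval_sub, Polynomial.eval_pow,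
      Polynomial.eval_X, Polynomial.eval_one, hc, sub_self]
  have hsplit : p.Splits := IsAlgClosed.splits p
  rw [Polynomial.Splits.roots_map hsplit σ, Multiset.mem_map] at hroot
  obtain ⟨a, ha, hac⟩ := hroot
  have hpn : p ≠ 0 := fun h => hp0 (by rw [h, Polynomial.map_zero])
  rw [Polynomial.mem_roots hpn, Polynomial.IsRoot, hp, Polynomial.eval_sub, Polynomial.eval_pow,
    Polynomial.eval_X, Polynomial.eval_one, sub_eq_zero] at ha
  have ha0 : a ≠ 0 := by
    rintro rfl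
    rw [zero_pow hn.ne'] at ha
    exact zero_ne_one ha
  obtain ⟨m, rfl⟩ : ∃ m, n = m + 1 := ⟨n - 1, by omega⟩
  have hinv : a ^ m = a⁻¹ := by
    have : a ^ m * a = 1 := by rw [← pow_succ]; exact ha
    exact eq_inv_of_mul_eq_one_left this
  have hinv' : a⁻¹ ^ m = a := by
    rw [inv_pow, hinv, inv_inv]
  have hmem : a ∈ A ∧ a⁻¹ ∈ A := by
    rcases A.mem_or_inv_mem a with h | h
    · exact ⟨h, by rw [← hinv]; exact pow_mem h m⟩
    · exact ⟨by rw [← hinv']; exact pow_mem h m, h⟩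
  refine ⟨⟨⟨a, hmem.1⟩, ⟨a⁻¹, hmem.2⟩, Subtype.ext (mul_inv_cancel₀ ha0),
    Subtype.ext (inv_mul_cancel₀ ha0)⟩, hac, ?_⟩
  apply Units.ext
  apply Subtype.ext
  simpa using ha

end Lift

/-! ### The generators over `A` -/

section Gen

open Fermat.Agent.Lib.ModJ Fermat.Agent.Lib.ModC

variable (A : ValuationSubring Qb) (M : ℕ) [NeZero M]

theorem zetaPow_pow_self (B D : ℕ) (hD : 0 < D) : zetaPow B D ^ D = 1 := by
  have hDC : (D : ℂ) ≠ 0 := by exact_mod_cast hD.ne'
  rw [zetaPow, ← Complex.exp_nat_mul]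
  have : (D : ℂ) * (2 * Real.pi * Complex.I * B / D) = (B : ℂ) * (2 * Real.pi * Complex.I) := by
    field_simp
  rw [this]
  exact_mod_cast Complex.exp_nat_mul_two_pi_mul_I B

/-- the `q_M`-expansion of `j(d γ⁻¹ z)` is `J(u t^k)` with `u ∈ A` an `M`-th root of unity -/
theorem exists_genA (γ : SL(2, ℤ)) (d : DivIdx M) :
    ∃ (u : Aˣ) (k : ℕ+), u ^ M = 1 ∧
      coeffMap (iotaQbar.comp A.subtype) (tw u k) = genInf M γ d := by
  have hM : 0 < M := Nat.pos_of_ne_zero (NeZero.ne M)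
  obtain ⟨A', B, D, hAD, hBD, -, h⟩ := hasQL_jFunD_smul hM d.1 d.2 γ⁻¹
  have hgen : genInf M γ d = twistExpand (zetaPow B D) (M * A' / D) jqC :=
    HasQL.unique (natCast_pos_real M) (hasQL_genInf M γ d) h
  have hD : 0 < D := by omega
  have hA' : 0 < A' := by
    rcases Nat.eq_zero_or_pos A' with h0 | h0
    · rw [h0, zero_mul] at hAD
      exact absurd hAD.symm d.1.pos.ne'
    · exact h0
  have hDM : D ∣ M := (Dvd.intro_left A' hAD).trans d.2
  have hk : 0 < M * A' / D := by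
    obtain ⟨e, he⟩ := hDM
    have he0 : 0 < e := by
      rcases Nat.eq_zero_or_pos e with h0 | h0
      · rw [h0, mul_zero] at he
        exact absurd he hM.ne'
      · exact h0
    rw [he, mul_assoc, Nat.mul_div_cancel_left _ hD]
    exact Nat.mul_pos he0 hA'
  have hc : zetaPow B D ^ M = 1 := by
    obtain ⟨e, he⟩ := hDM
    rw [he, pow_mul, zetaPow_pow_self B D hD, one_pow]
  obtain ⟨u, hu, hu1⟩ := exists_unit_of_pow_eq_one A hM hc
  obtain ⟨k, hkk⟩ : ∃ k : ℕ+, (k : ℕ) = M * A' / D := ⟨⟨M * A' / D, hk⟩, rfl⟩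
  refine ⟨u, k, hu1, ?_⟩
  rw [hgen, coeffMap_tw, ← hkk, twistExpand_eq_tw (zetaPow_ne_zero B D) k]
  congr 1
  apply Units.ext
  rw [Units.coe_map, Units.val_mk0]
  exact hu

/-- the root of unity of the generator -/
def uGen (γ : SL(2, ℤ)) (d : DivIdx M) : Aˣ := (exists_genA A M γ d).choose

/-- the exponent of the generator -/
def kGen (γ : SL(2, ℤ)) (d : DivIdx M) : ℕ+ := (exists_genA A M γ d).choose_spec.choose

theorem uGen_pow (γ : SL(2, ℤ)) (d : DivIdx M) : uGen A M γ d ^ M = 1 :=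
  (exists_genA A M γ d).choose_spec.choose_spec.1

/-- the generator `J(u t^k)` over `A` -/
def genA (γ : SL(2, ℤ)) (d : DivIdx M) : LaurentSeries A := tw (uGen A M γ d) (kGen A M γ d)

theorem coeffMap_genA (γ : SL(2, ℤ)) (d : DivIdx M) :
    coeffMap (iotaQbar.comp A.subtype) (genA A M γ d) = genInf M γ d :=
  (exists_genA A M γ d).choose_spec.choose_spec.2

theorem iota_comp_injective : Function.Injective (iotaQbar.comp A.subtype) :=
  iotaQbar.injective.comp Subtype.val_injective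

/-- two generators over `A` are equal iff their complex expansions are -/
theorem genA_eq_iff (γ γ' : SL(2, ℤ)) (d d' : DivIdx M) :
    genA A M γ d = genA A M γ' d' ↔ genInf M γ d = genInf M γ' d' := by
  rw [← coeffMap_genA A, ← coeffMap_genA A]
  exact ((Fermat.Agent.Lib.ModJ.coeffMap_injective _ (iota_comp_injective A)).eq_iff).symm

/-- the generator over `ℚ̄` -/
def genL (γ : SL(2, ℤ)) (d : DivIdx M) : LaurentSeries Qb := eps A (genA A M γ d)

/-- the generator over the residue field -/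
def genK (γ : SL(2, ℤ)) (d : DivIdx M) : LaurentSeries (IsLocalRing.ResidueField A) :=
  red A (genA A M γ d)

theorem coeffMap_genL (γ : SL(2, ℤ)) (d : DivIdx M) :
    coeffMap iotaQbar (genL A M γ d) = genInf M γ d := by
  rw [genL, eps, coeffMap_coeffMap, coeffMap_genA]

theorem genK_eq_tw (γ : SL(2, ℤ)) (d : DivIdx M) :
    genK A M γ d = tw (Units.map ((IsLocalRing.residue A : A →+* _) : A →* _) (uGen A M γ d))
      (kGen A M γ d) := by
  rw [genK, genA, red, coeffMap_tw]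

theorem genL_eq_tw (γ : SL(2, ℤ)) (d : DivIdx M) :
    genL A M γ d = tw (Units.map ((A.subtype : A →+* Qb) : A →* Qb) (uGen A M γ d))
      (kGen A M γ d) := by
  rw [genL, genA, eps, coeffMap_tw]

end Gen

/-! ### Integrality data -/

section Fin

variable (A : ValuationSubring Qb) (M : ℕ) [NeZero M]

local instance isAlgebraicQbCusp : Algebra.IsAlgebraic ℚ (AlgebraicClosure ℚ) :=
  AlgebraicClosure.isAlgebraic ℚ

theorem isFin_rot {P : LaurentSeries A} (hP : IsFin A P) (u : Aˣ) :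
    IsFin A (Fermat.Agent.S28.rot u P) := by
  obtain ⟨K, hK, h⟩ := hP
  have hu : IsIntegral ℚ (((u : A) : Qb)) :=
    (Algebra.IsAlgebraic.isAlgebraic (((u : A) : Qb))).isIntegral
  have : FiniteDimensional ℚ (IntermediateField.adjoin ℚ {(((u : A) : Qb))}) :=
    IntermediateField.adjoin.finiteDimensional hu
  refine ⟨K ⊔ IntermediateField.adjoin ℚ {(((u : A) : Qb))},
    IntermediateField.finiteDimensional_sup K _, fun n => ?_⟩
  rw [Fermat.Agent.S28.coeff_rot]
  have h1 : (((P.coeff n * ((u ^ n : Aˣ) : A) : A)) : Qb)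
      = ((P.coeff n : A) : Qb) * (((u : A) : Qb)) ^ n := by
    rw [MulMemClass.coe_mul]
    congr 1
    have := map_zpow (Units.map ((A.subtype : A →+* Qb) : A →* Qb)) u n
    have h2 := congrArg Units.val this
    rw [Units.coe_map, Units.val_zpow_eq_zpow_val, Units.coe_map] at h2
    exact h2
  rw [h1]
  refine mul_mem ?_ (zpow_mem ?_ n)
  · exact (le_sup_left : K ≤ K ⊔ _) (h n)
  · exact (le_sup_right : _ ≤ K ⊔ _) (IntermediateField.mem_adjoin_simple_self ℚ _)

theorem isFin_tw (u : Aˣ) (k : ℕ+) : IsFin A (tw u k) := by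
  rw [tw]
  refine Fermat.Agent.S18.Desc.isFin_qExpand A (k : ℕ) (isFin_rot A ?_ u)
  have := isFin_jqNModC A 1
  rwa [jqNModC_one] at this

theorem isFin_genA (γ : SL(2, ℤ)) (d : Fermat.Agent.Lib.ModC.DivIdx M) :
    IsFin A (genA A M γ d) := isFin_tw A _ _

theorem red_genL (γ : SL(2, ℤ)) (d : Fermat.Agent.Lib.ModC.DivIdx M) :
    Red A (genL A M γ d) (genK A M γ d) :=
  red_eps_of_isFin A (isFin_genA A M γ d)

end Fin

/-! ### The embedding in characteristic `0` -/

section TauL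

open Fermat.Agent.Lib.ModJ Fermat.Agent.Lib.ModC

variable (A : ValuationSubring Qb) (M : ℕ) [NeZero M]

theorem coeffMap_aeval_genL (γ : SL(2, ℤ)) (P : MvPolynomial (DivIdx M) Qb) :
    coeffMap iotaQbar (MvPolynomial.aeval (genL A M γ) P) = phiInf iotaQbar M γ P := by
  induction P using MvPolynomial.induction_on with
  | C a =>
    rw [MvPolynomial.aeval_C, phiInf_C]
    exact coeffMap_algebraMap' iotaQbar a
  | add p q hp hq => rw [map_add, map_add, map_add, hp, hq]
  | mul_X p i hp =>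
    rw [map_mul, map_mul, map_mul, hp, MvPolynomial.aeval_X, phiInf_X, coeffMap_genL]

theorem aeval_genL_eq_zero_iff (γ : SL(2, ℤ)) (P : MvPolynomial (DivIdx M) Qb) :
    MvPolynomial.aeval (genL A M γ) P = 0 ↔ MvPolynomial.aeval (gensK Qb M) P = 0 := by
  rw [← phiInf_eq_zero_iff iotaQbar M γ P, ← coeffMap_aeval_genL]
  constructor
  · intro h
    rw [h, map_zero]
  · intro h
    exact Fermat.Agent.Lib.ModJ.coeffMap_injective _ iotaQbar.injective
      (h.trans (map_zero _).symm)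

/-- **the embedding `F(M) → ℚ̄((t))` at the cusp `γ⁻¹∞`** -/
def tauL (γ : SL(2, ℤ)) : ↥(modularFunctionFieldBar M) →+* LaurentSeries Qb :=
  (exists_lift M ((MvPolynomial.aeval (genL A M γ)).toRingHom)
    (fun P => aeval_genL_eq_zero_iff A M γ P)).choose

theorem tauL_aevalF (γ : SL(2, ℤ)) (P : MvPolynomial (DivIdx M) Qb) :
    tauL A M γ (aevalF M P) = MvPolynomial.aeval (genL A M γ) P :=
  (exists_lift M ((MvPolynomial.aeval (genL A M γ)).toRingHom)
    (fun P => aeval_genL_eq_zero_iff A M γ P)).choose_spec P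

end TauL

end Fermat.Agent.S18.Cusp
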