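import Fermat.Agent.S18.GVModular

/-!
# S18 (C76): `[F_k(M) : k(J)] = ψ(M)` for `ℓ ∤ M`

* `finiteDimensional_ffC`, `finrank_ffC`: `F_k(M)` is finite over `k(J)` of degree `ψ(M)`.
-/

set_option autoImplicit false
set_option linter.unusedSectionVars false
set_option synthInstance.maxHeartbeats 400000
set_option maxHeartbeats 1000000

noncomputable section

namespace Fermat.Agent.S18.GV

open ModularCurve Polynomial IntermediateField

section General

variable {K : Type*} [Field K] (E : IntermediateField K (LaurentSeries K))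

theorem coe_aeval_ff (t : E) (p : K[X]) :
    ((aeval t p : E) : LaurentSeries K) = aeval (t : LaurentSeries K) p := by
  have := Polynomial.aeval_algHom_apply E.val t p
  exact this.symm

theorem coe_mem_adjoin_simple (t : E) {f : E} (hf : f ∈ K⟮t⟯) :
    (f : LaurentSeries K) ∈ K⟮(t : LaurentSeries K)⟯ := by
  obtain ⟨r, s, rfl⟩ := (IntermediateField.mem_adjoin_simple_iff K f).1 hf
  rw [IntermediateField.mem_adjoin_simple_iff]
  refine ⟨r, s, ?_⟩
  rw [← coe_aeval_ff, ← coe_aeval_ff]
  rfl

theorem mem_adjoin_simple_of_coe (t : E) {f : E}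
    (hf : (f : LaurentSeries K) ∈ K⟮(t : LaurentSeries K)⟯) : f ∈ K⟮t⟯ := by
  obtain ⟨r, s, h⟩ := (IntermediateField.mem_adjoin_simple_iff K _).1 hf
  rw [IntermediateField.mem_adjoin_simple_iff]
  refine ⟨r, s, ?_⟩
  apply Subtype.ext
  rw [h, ← coe_aeval_ff, ← coe_aeval_ff]
  rfl

/-- linear independence over `K(t)` can be tested on Laurent series -/
theorem linearIndependent_adjoin_iff (t : E) {n : ℕ} (a : Fin n → E) :
    LinearIndependent K⟮t⟯ a ↔
      LinearIndependent K⟮(t : LaurentSeries K)⟯ (fun i => (a i : LaurentSeries K)) := by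
  rw [Fintype.linearIndependent_iff, Fintype.linearIndependent_iff]
  constructor
  · intro h g hg
    have ht : (t : LaurentSeries K) ∈ E := t.2
    have hle : K⟮(t : LaurentSeries K)⟯ ≤ E := by
      rw [IntermediateField.adjoin_simple_le_iff]; exact ht
    have h1 := h (fun i => ⟨⟨(g i : LaurentSeries K), hle (g i).2⟩,
      mem_adjoin_simple_of_coe E t (g i).2⟩) (by
        apply Subtype.ext
        rw [ZeroMemClass.coe_zero, ← hg, AddSubmonoidClass.coe_finsetSum]
        rfl)
    intro i
    have h2 := congrArg (fun x : K⟮t⟯ => ((x : E) : LaurentSeries K)) (h1 i)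
    exact Subtype.ext h2
  · intro h g hg
    have h1 := h (fun i => ⟨((g i : E) : LaurentSeries K), coe_mem_adjoin_simple E t (g i).2⟩) (by
      have h0 := congrArg (fun x : E => (x : LaurentSeries K)) hg
      simp only [ZeroMemClass.coe_zero, AddSubmonoidClass.coe_finsetSum] at h0
      rw [← h0]
      rfl)
    intro i
    have h2 := congrArg (fun x : K⟮(t : LaurentSeries K)⟯ => (x : LaurentSeries K)) (h1 i)
    exact Subtype.ext (Subtype.ext h2)

end General

local notation "Qb" => AlgebraicClosure ℚ

local instance isAlgebraicQbGVD : Algebra.IsAlgebraic ℚ (AlgebraicClosure ℚ) :=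
  AlgebraicClosure.isAlgebraic ℚ

variable (A : ValuationSubring (AlgebraicClosure ℚ)) (ℓ : ℕ) [hℓ : Fact ℓ.Prime]
variable (hA : A.LiesOverPrime ℓ) (M : ℕ) [NeZero M] (hℓM : ¬ ℓ ∣ M)

/-- `J` as an element of `F_k(M)` -/
def jK (k : Type*) [Field k] (M : ℕ) [NeZero M] : modularFunctionFieldFullC k M :=
  ⟨jqModC k, jqModC_mem_full k M⟩

include hA in
/-- independent families of `F_k(M)` over `k(J)` have at most `ψ(M)` elements -/
theorem card_le_of_linearIndependent {m : ℕ}
    (a : Fin m → modularFunctionFieldFullC (IsLocalRing.ResidueField A) M)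
    (ha : LinearIndependent (IsLocalRing.ResidueField A)⟮jK (IsLocalRing.ResidueField A) M⟯ a) :
    m ≤ dedekindPsi M := by
  have ha' := (linearIndependent_adjoin_iff _ (jK (IsLocalRing.ResidueField A) M) a).1 ha
  choose x hxmem hx using fun i => exists_red_of_mem_ffC A M (a i).2
  have hli := linearIndependent_of_red A ℓ hA M (fun i => ⟨x i, hxmem i⟩) _ hx ha'
  have : FiniteDimensional Qb⟮Fermat.Agent.S24.jBar M⟯ (modularFunctionFieldBar M) :=
    (Fermat.Agent.S24.isFF1_jBar M).finite
  have := hli.fintype_card_le_finrank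
  rwa [Fintype.card_fin, Fermat.Agent.S24.finrank_jBar] at this

include hA in
theorem rank_ffC_le :
    Module.rank (IsLocalRing.ResidueField A)⟮jK (IsLocalRing.ResidueField A) M⟯
      (modularFunctionFieldFullC (IsLocalRing.ResidueField A) M) ≤ (dedekindPsi M : ℕ) := by
  by_contra hcon
  rw [not_le] at hcon
  have h1 : ((dedekindPsi M + 1 : ℕ) : Cardinal)
      ≤ Module.rank (IsLocalRing.ResidueField A)⟮jK (IsLocalRing.ResidueField A) M⟯
        (modularFunctionFieldFullC (IsLocalRing.ResidueField A) M) := by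
    rw [Nat.cast_succ, ← Cardinal.succ_natCast]
    exact Order.succ_le_of_lt hcon
  obtain ⟨f, hf⟩ := exists_linearIndependent_of_le_rank h1
  have := card_le_of_linearIndependent A ℓ hA M f hf
  omega

include hA in
/-- **`F_k(M)` is finite over `k(J)`** -/
theorem finiteDimensional_ffC :
    FiniteDimensional (IsLocalRing.ResidueField A)⟮jK (IsLocalRing.ResidueField A) M⟯
      (modularFunctionFieldFullC (IsLocalRing.ResidueField A) M) := by
  rw [FiniteDimensional, ← Module.rank_lt_aleph0_iff]
  exact lt_of_le_of_lt (rank_ffC_le A ℓ hA M) (Cardinal.natCast_lt_aleph0)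

include hA hℓM in
/-- **`[F_k(M) : k(J)] = ψ(M)`** -/
theorem finrank_ffC :
    Module.finrank (IsLocalRing.ResidueField A)⟮jK (IsLocalRing.ResidueField A) M⟯
      (modularFunctionFieldFullC (IsLocalRing.ResidueField A) M) = dedekindPsi M := by
  apply le_antisymm (Module.finrank_le_of_rank_le (rank_ffC_le A ℓ hA M))
  have := finiteDimensional_ffC A ℓ hA M
  have := charP_residueField A ℓ hA
  obtain ⟨β, hβmem, hβ⟩ := IGk.exists_linearIndependent (IsLocalRing.ResidueField A) M ℓ hℓM
  have h1 := (linearIndependent_adjoin_iff _ (jK (IsLocalRing.ResidueField A) M)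
    (fun i => (⟨β i, hβmem i⟩ : modularFunctionFieldFullC (IsLocalRing.ResidueField A) M))).2 hβ
  have := h1.fintype_card_le_finrank
  rwa [Fintype.card_fin] at this

end Fermat.Agent.S18.GV
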