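import Mathlib
import Fermat.Prelude.Def_ModularCurve_X0ModL
import Fermat.Agent.S28.IGFinal
import Fermat.Agent.S28.Prime

/-!
# S18 (C76), `(IG_k)`: `ψ(N) ≤ [F_k(N) : k(J)]` over every field `k` of characteristic `ℓ ∤ N`

From `(IG)` over `𝔽_ℓ` (S28) by linear disjointness: Laurent series over `𝔽_ℓ` that are
"polynomially independent" (`PolyIndep`) stay so over `k`.

* `PolyIndep J β`: `∑ Pᵢ(J) βᵢ = 0` with `Pᵢ ∈ K[X]` only for `P = 0`;
* `polyIndep_coeffMap`: base change of `PolyIndep` along a field homomorphism;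
* `linearIndependent_of_polyIndep`: `PolyIndep J β → LinearIndependent K⟮J⟯ β`;
* `exists_polyIndep`: `ψ(N)` polynomially independent elements of `F_k(N)`.
-/

set_option autoImplicit false
set_option linter.unusedSectionVars false

noncomputable section

namespace Fermat.Agent.S18.IGk

open ModularCurve Polynomial IntermediateField

/-- apply a zero-preserving function to the coefficients of a polynomial -/
def mapCoeff {R S : Type*} [Semiring R] [Semiring S] (f : R → S) (P : R[X]) : S[X] :=
  ∑ a ∈ P.support, Polynomial.monomial a (f (P.coeff a))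

theorem mapCoeff_coeff {R S : Type*} [Semiring R] [Semiring S] (f : R → S) (hf : f 0 = 0)
    (P : R[X]) (a : ℕ) : (mapCoeff f P).coeff a = f (P.coeff a) := by
  rw [mapCoeff, Polynomial.finsetSum_coeff]
  simp only [Polynomial.coeff_monomial]
  rw [Finset.sum_ite_eq' P.support a]
  split_ifs with h
  · rfl
  · rw [Polynomial.notMem_support_iff.mp h, hf]

/-- expansion of `aeval` with a uniform bound -/
theorem aeval_eq_sum_of_bound {R S : Type*} [CommSemiring R] [Semiring S] [Algebra R S]
    (p : R[X]) (D : ℕ) (hD : ∀ a, D ≤ a → p.coeff a = 0) (x : S) :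
    aeval x p = ∑ a ∈ Finset.range (D + 1), p.coeff a • x ^ a := by
  apply Polynomial.aeval_eq_sum_range'
  have : p.natDegree ≤ D := by
    rw [Polynomial.natDegree_le_iff_coeff_eq_zero]
    intro a ha
    exact hD a ha.le
  omega

/-- polynomial independence of a finite family of Laurent series over `K[J]` -/
def PolyIndep {K : Type*} [Field K] (J : LaurentSeries K) {n : ℕ}
    (β : Fin n → LaurentSeries K) : Prop :=
  ∀ P : Fin n → K[X], ∑ i, aeval J (P i) * β i = 0 → ∀ i, P i = 0

section Transfer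

variable {k₀ k : Type*} [Field k₀] [Field k] (φ : k₀ →+* k)

theorem sum_expand {K : Type*} [Field K] (J : LaurentSeries K) {n : ℕ}
    (β : Fin n → LaurentSeries K) (P : Fin n → K[X]) (D : ℕ)
    (hD : ∀ i a, D ≤ a → (P i).coeff a = 0) (m : ℤ) :
    (∑ i, aeval J (P i) * β i).coeff m
      = ∑ i, ∑ a ∈ Finset.range (D + 1), (P i).coeff a * (J ^ a * β i).coeff m := by
  rw [HahnSeries.coeff_sum]
  refine Finset.sum_congr rfl fun i _ => ?_
  rw [aeval_eq_sum_of_bound (P i) D (hD i) J, Finset.sum_mul, HahnSeries.coeff_sum]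
  refine Finset.sum_congr rfl fun a _ => ?_
  rw [Algebra.smul_def, Fermat.Agent.S28.algebraMap_eq_C, HahnSeries.C_apply, mul_assoc,
    HahnSeries.coeff_single_zero_mul]

/-- **base change of polynomial independence** -/
theorem polyIndep_coeffMap (J₀ : LaurentSeries k₀) {n : ℕ} (β₀ : Fin n → LaurentSeries k₀)
    (h : PolyIndep J₀ β₀) :
    PolyIndep (coeffMap φ J₀) (fun i => coeffMap φ (β₀ i)) := by
  intro P hP
  let _ : Algebra k₀ k := φ.toAlgebra
  let b := Module.Basis.ofVectorSpace k₀ k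
  -- a uniform degree bound
  obtain ⟨D, hD⟩ : ∃ D : ℕ, ∀ i a, D ≤ a → (P i).coeff a = 0 := by
    refine ⟨(Finset.univ.sup fun i => (P i).natDegree) + 1, fun i a ha => ?_⟩
    apply Polynomial.coeff_eq_zero_of_natDegree_lt
    have : (P i).natDegree ≤ Finset.univ.sup fun i => (P i).natDegree :=
      Finset.le_sup (f := fun i => (P i).natDegree) (Finset.mem_univ i)
    omega
  have key : ∀ t, ∀ i, mapCoeff (fun c => b.repr c t) (P i) = 0 := by
    intro t
    apply h
    apply HahnSeries.ext
    funext m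
    rw [HahnSeries.coeff_zero]
    have hD' : ∀ i a, D ≤ a → (mapCoeff (fun c => b.repr c t) (P i)).coeff a = 0 := by
      intro i a ha
      rw [mapCoeff_coeff _ (by simp), hD i a ha]
      simp
    rw [sum_expand J₀ β₀ _ D hD' m]
    have h0 := congrArg (fun x => x.coeff m) hP
    simp only [HahnSeries.coeff_zero] at h0
    rw [sum_expand (coeffMap φ J₀) (fun i => coeffMap φ (β₀ i)) P D hD m] at h0
    have h1 := congrArg (fun c => b.repr c t) h0
    simp only [map_zero, Finsupp.coe_zero, Pi.zero_apply, map_sum, Finsupp.coe_finsetSum,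
      Finset.sum_apply] at h1
    rw [← h1]
    refine Finset.sum_congr rfl fun i _ => Finset.sum_congr rfl fun a _ => ?_
    rw [mapCoeff_coeff _ (by simp)]
    have h2 : (coeffMap φ J₀ ^ a * coeffMap φ (β₀ i)).coeff m = φ ((J₀ ^ a * β₀ i).coeff m) := by
      rw [← map_pow, ← map_mul, coeffMap_coeff]
    rw [h2]
    have h3 : (P i).coeff a * φ ((J₀ ^ a * β₀ i).coeff m)
        = ((J₀ ^ a * β₀ i).coeff m) • (P i).coeff a := by
      rw [Algebra.smul_def, mul_comm]
      rfl
    rw [h3, map_smul, Finsupp.smul_apply, smul_eq_mul, mul_comm]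
  intro i
  ext a
  rw [Polynomial.coeff_zero]
  have : b.repr ((P i).coeff a) = 0 := by
    ext t
    have := congrArg (fun q => q.coeff a) (key t i)
    simp only [Polynomial.coeff_zero] at this
    rw [mapCoeff_coeff _ (by simp)] at this
    simpa using this
  exact b.repr.map_eq_zero_iff.mp this

end Transfer

open scoped IntermediateField.algebraAdjoinAdjoin in
/-- polynomial independence implies linear independence over `K(J)` -/
theorem linearIndependent_of_polyIndep {K : Type*} [Field K] (J : LaurentSeries K) {n : ℕ}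
    (β : Fin n → LaurentSeries K) (h : PolyIndep J β) : LinearIndependent K⟮J⟯ β := by
  rw [← LinearIndependent.iff_fractionRing (Algebra.adjoin K {J}) K⟮J⟯]
  rw [Fintype.linearIndependent_iff]
  intro g hg
  have hex : ∀ i, ∃ P : K[X], aeval J P = (g i : LaurentSeries K) := by
    intro i
    have h1 := (g i).2
    have h2 : (g i : LaurentSeries K) ∈ (aeval J : K[X] →ₐ[K] LaurentSeries K).range := by
      rw [← Algebra.adjoin_singleton_eq_range_aeval]
      exact h1
    exact h2
  choose P hP using hex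
  have h0 : ∑ i, aeval J (P i) * β i = 0 := by
    rw [← hg]
    refine Finset.sum_congr rfl fun i _ => ?_
    rw [hP i]
    rfl
  intro i
  apply Subtype.ext
  rw [← hP i, h P h0 i, map_zero]
  rfl

theorem aeval_mem_adjoin_simple' {K E : Type*} [Field K] [Field E] [Algebra K E] (α : E)
    (p : K[X]) : aeval α p ∈ K⟮α⟯ := by
  rw [IntermediateField.mem_adjoin_simple_iff]
  exact ⟨p, 1, by simp⟩

set_option synthInstance.maxHeartbeats 400000 in
set_option maxHeartbeats 1000000 in
/-- `(IG)` over `𝔽_ℓ` in polynomial form -/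
theorem polyIndep_zmod (N : ℕ) [NeZero N] (ℓ : ℕ) [Fact ℓ.Prime] (hℓN : ¬ ℓ ∣ N) :
    ∃ β₀ : Fin (dedekindPsi N) → LaurentSeries (ZMod ℓ),
      (∀ i, β₀ i ∈ modularFunctionFieldFullC (ZMod ℓ) N) ∧ PolyIndep (jqModC (ZMod ℓ)) β₀ := by
  have hig : dedekindPsi N ≤ Module.finrank
    (ZMod ℓ)⟮(⟨jqModC (ZMod ℓ), jqModC_mem_full (ZMod ℓ) N⟩ :
      modularFunctionFieldFullC (ZMod ℓ) N)⟯
    (modularFunctionFieldFullC (ZMod ℓ) N) := Fermat.Agent.S28.ig N ℓ hℓN
  obtain ⟨β, hβ⟩ := exists_linearIndependent_of_le_finrank hig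
  refine ⟨fun i => (β i : LaurentSeries (ZMod ℓ)), fun i => (β i).2, ?_⟩
  intro P hP
  rw [Fintype.linearIndependent_iff] at hβ
  have hval : ∀ p : (ZMod ℓ)[X],
      ((aeval (⟨jqModC (ZMod ℓ), jqModC_mem_full (ZMod ℓ) N⟩ :
          modularFunctionFieldFullC (ZMod ℓ) N) p :
        modularFunctionFieldFullC (ZMod ℓ) N) : LaurentSeries (ZMod ℓ))
        = aeval (jqModC (ZMod ℓ)) p := by
    intro p
    have := Polynomial.aeval_algHom_apply (modularFunctionFieldFullC (ZMod ℓ) N).val
      (⟨jqModC (ZMod ℓ), jqModC_mem_full (ZMod ℓ) N⟩ : modularFunctionFieldFullC (ZMod ℓ) N) p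
    exact this.symm
  have h0 : ∑ i, (⟨aeval (⟨jqModC (ZMod ℓ), jqModC_mem_full (ZMod ℓ) N⟩ :
          modularFunctionFieldFullC (ZMod ℓ) N) (P i), aeval_mem_adjoin_simple' _ _⟩ :
        (ZMod ℓ)⟮(⟨jqModC (ZMod ℓ), jqModC_mem_full (ZMod ℓ) N⟩ :
          modularFunctionFieldFullC (ZMod ℓ) N)⟯) • β i = 0 := by
    apply Subtype.ext
    rw [ZeroMemClass.coe_zero, ← hP, AddSubmonoidClass.coe_finsetSum]
    refine Finset.sum_congr rfl fun i _ => ?_
    rw [← hval]
    rfl
  intro i
  have h1 := hβ _ h0 i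
  have h2 : aeval (jqModC (ZMod ℓ)) (P i) = 0 := by
    rw [← hval]
    have := congrArg Subtype.val h1
    simpa using this
  exact (transcendental_iff.mp Fermat.Agent.S28.transcendental_jqModC') _ h2

/-- base change of the function field along a field homomorphism -/
theorem coeffMap_mem_ffC {k₀ k : Type*} [Field k₀] [Field k] (φ : k₀ →+* k) (N : ℕ)
    {x : LaurentSeries k₀} (hx : x ∈ modularFunctionFieldFullC k₀ N) :
    coeffMap φ x ∈ modularFunctionFieldFullC k N := by
  induction hx using IntermediateField.adjoin_induction with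
  | mem z hz =>
    obtain ⟨e, hne, hdvd, rfl⟩ := hz
    have := coeffMap_jqNModC φ e
    rw [jqNModC, jqNModC] at this
    rw [this]
    exact jqModCd_mem_full k N hdvd
  | algebraMap c =>
    rw [algebraMap_laurentSeries_eq_single, coeffMap_single, ← algebraMap_laurentSeries_eq_single]
    exact IntermediateField.algebraMap_mem _ _
  | add y z _ _ hy hz => rw [map_add]; exact add_mem hy hz
  | inv y _ hy => rw [map_inv₀]; exact inv_mem hy
  | mul y z _ _ hy hz => rw [map_mul]; exact mul_mem hy hz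

/-- **`(IG_k)`**: over every field `k` of characteristic `ℓ ∤ N`, the function field `F_k(N)`
contains `ψ(N)` elements that are polynomially independent over `k[J]`. -/
theorem exists_polyIndep (k : Type*) [Field k] (N : ℕ) [NeZero N] (ℓ : ℕ) [Fact ℓ.Prime]
    [CharP k ℓ] (hℓN : ¬ ℓ ∣ N) :
    ∃ β : Fin (dedekindPsi N) → LaurentSeries k,
      (∀ i, β i ∈ modularFunctionFieldFullC k N) ∧ PolyIndep (jqModC k) β := by
  obtain ⟨β₀, hmem, hβ₀⟩ := polyIndep_zmod N ℓ hℓN
  have h := polyIndep_coeffMap (ZMod.castHom (dvd_refl ℓ) k) (jqModC (ZMod ℓ)) β₀ hβ₀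
  rw [coeffMap_jqModC] at h
  exact ⟨_, fun i => coeffMap_mem_ffC _ N (hmem i), h⟩

/-- **`(IG_k)`**, linear form -/
theorem exists_linearIndependent (k : Type*) [Field k] (N : ℕ) [NeZero N] (ℓ : ℕ)
    [Fact ℓ.Prime] [CharP k ℓ] (hℓN : ¬ ℓ ∣ N) :
    ∃ β : Fin (dedekindPsi N) → LaurentSeries k,
      (∀ i, β i ∈ modularFunctionFieldFullC k N) ∧ LinearIndependent k⟮jqModC k⟯ β := by
  obtain ⟨β, hmem, hβ⟩ := exists_polyIndep k N ℓ hℓN
  exact ⟨β, hmem, linearIndependent_of_polyIndep _ β hβ⟩

end Fermat.Agent.S18.IGk
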