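import Fermat.Agent.S18.GVOrtho
import Fermat.Agent.S18.IGk
import Fermat.Agent.S24.Glue

/-!
# S18 (C76), the Gauss valuation on `F(M) = ℚ̄(j(q^d) : d ∣ M)` for `ℓ ∤ M`

* `exists_ortho_basis`: an orthonormal basis `b` of `F(M)/ℚ̄(j)` with residues `β` in `F_k(M)`
  linearly independent over `k(J)`;
* `exists_repr`: every element of `F(M)` is `∑ f i * b i`, `f i ∈ ℚ̄(j)`;
* `red_mem_ffC`: `ρ(F(M) ∩ O_w) ⊆ F_k(M)`.
-/

set_option autoImplicit false
set_option linter.unusedSectionVars false

noncomputable section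

namespace Fermat.Agent.S18.GV

open ModularCurve Polynomial IntermediateField

local notation "Qb" => AlgebraicClosure ℚ

local instance isAlgebraicQbGV : Algebra.IsAlgebraic ℚ (AlgebraicClosure ℚ) :=
  AlgebraicClosure.isAlgebraic ℚ

variable (A : ValuationSubring (AlgebraicClosure ℚ)) (ℓ : ℕ) [hℓ : Fact ℓ.Prime]

/-- the residue field has characteristic `ℓ` -/
theorem charP_residueField {L : Type*} [Field L] (A : ValuationSubring L) (ℓ : ℕ)
    [hℓ : Fact ℓ.Prime] (hA : A.LiesOverPrime ℓ) : CharP (IsLocalRing.ResidueField A) ℓ := by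
  rw [CharP.charP_iff_prime_eq_zero hℓ.out]
  have h1 : ((ℓ : A) : L) ∈ A.nonunits := by
    have : ((ℓ : A) : L) = (ℓ : L) := by simp
    rw [this]
    exact hA
  have h2 : (ℓ : A) ∈ IsLocalRing.maximalIdeal A := by
    obtain ⟨ha, hmem⟩ := A.mem_nonunits_iff_exists_mem_maximalIdeal.mp h1
    exact hmem
  have h3 := (IsLocalRing.residue_eq_zero_iff (ℓ : A)).2 h2
  rw [map_natCast] at h3
  exact h3

theorem coe_jBar (M : ℕ) [NeZero M] :
    ((Fermat.Agent.S24.jBar M : modularFunctionFieldBar M) : LaurentSeries Qb) = jqModC Qb := by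
  show coeffEmb Qb jq = jqModC Qb
  exact coeffMap_jqModC (algebraMap ℚ Qb)

/-- **`ρ(j) = J`** -/
theorem red_j : Red A (jqModC Qb) (jqModC (IsLocalRing.ResidueField A)) := by
  have := red_jqN A 1
  rwa [jqNModC_one, jqNModC_one] at this

variable (hA : A.LiesOverPrime ℓ) (M : ℕ) [NeZero M] (hℓM : ¬ ℓ ∣ M)

include hA hℓM in
/-- lifts of an `(IG_k)`-family -/
theorem exists_ortho_basis :
    ∃ (b : Fin (dedekindPsi M) → LaurentSeries Qb)
      (β : Fin (dedekindPsi M) → LaurentSeries (IsLocalRing.ResidueField A)),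
      (∀ i, b i ∈ modularFunctionFieldBar M) ∧
      (∀ i, β i ∈ modularFunctionFieldFullC (IsLocalRing.ResidueField A) M) ∧
      (∀ i, Red A (b i) (β i)) ∧
      LinearIndependent (IsLocalRing.ResidueField A)⟮jqModC (IsLocalRing.ResidueField A)⟯ β := by
  have := charP_residueField A ℓ hA
  obtain ⟨β, hβmem, hβ⟩ := IGk.exists_linearIndependent (IsLocalRing.ResidueField A) M ℓ hℓM
  choose b hbmem hb using fun i => exists_red_of_mem_ffC A M (hβmem i)
  exact ⟨b, β, hbmem, hβmem, hb, hβ⟩

/-- coercion of `ℚ̄(j) ⊆ F(M)` to Laurent series -/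
theorem coe_mem_adjoin_j {f : modularFunctionFieldBar M}
    (hf : f ∈ Qb⟮Fermat.Agent.S24.jBar M⟯) :
    (f : LaurentSeries Qb) ∈ Qb⟮jqModC Qb⟯ := by
  obtain ⟨r, s, rfl⟩ := (IntermediateField.mem_adjoin_simple_iff Qb f).1 hf
  have h1 : ∀ p : Qb[X], ((aeval (Fermat.Agent.S24.jBar M) p : modularFunctionFieldBar M) :
      LaurentSeries Qb) = aeval (jqModC Qb) p := by
    intro p
    have := Polynomial.aeval_algHom_apply (modularFunctionFieldBar M).val
      (Fermat.Agent.S24.jBar M) p
    rw [IntermediateField.val_mk] at this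
    rw [← coe_jBar M]
    exact this.symm
  rw [IntermediateField.mem_adjoin_simple_iff]
  refine ⟨r, s, ?_⟩
  rw [← h1, ← h1]
  rfl

set_option synthInstance.maxHeartbeats 400000 in
set_option maxHeartbeats 1000000 in
include hA in
/-- orthonormal lifts are linearly independent over `ℚ̄(j)` -/
theorem linearIndependent_of_red {n : ℕ} (b : Fin n → modularFunctionFieldBar M)
    (β : Fin n → LaurentSeries (IsLocalRing.ResidueField A))
    (hb : ∀ i, Red A (b i : LaurentSeries Qb) (β i))
    (hβ : LinearIndependent (IsLocalRing.ResidueField A)⟮jqModC (IsLocalRing.ResidueField A)⟯ β) :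
    LinearIndependent Qb⟮Fermat.Agent.S24.jBar M⟯ b := by
  rw [Fintype.linearIndependent_iff]
  intro g hg
  by_contra hcon
  simp only [not_forall] at hcon
  obtain ⟨i₀, hi₀⟩ := hcon
  have hne : ∃ i, ((g i : modularFunctionFieldBar M) : LaurentSeries Qb) ≠ 0 := by
    refine ⟨i₀, fun h => hi₀ ?_⟩
    apply Subtype.ext
    apply Subtype.ext
    exact h
  have := ortho_ne_zero A ℓ hA (red_j A) Fermat.Agent.S28.transcendental_jqModC' hb hβ
    (fun i => ((g i : modularFunctionFieldBar M) : LaurentSeries Qb))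
    (fun i => coe_mem_adjoin_j M (g i).2) hne
  apply this
  have h0 := congrArg (fun x : modularFunctionFieldBar M => (x : LaurentSeries Qb)) hg
  simp only [ZeroMemClass.coe_zero] at h0
  rw [← h0, AddSubmonoidClass.coe_finsetSum]
  rfl

set_option synthInstance.maxHeartbeats 400000 in
set_option maxHeartbeats 1000000 in
include hA in
/-- **every element of `F(M)` is a `ℚ̄(j)`-combination of an orthonormal family of `ψ(M)`
elements** -/
theorem exists_repr (b : Fin (dedekindPsi M) → LaurentSeries Qb)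
    (β : Fin (dedekindPsi M) → LaurentSeries (IsLocalRing.ResidueField A))
    (hbmem : ∀ i, b i ∈ modularFunctionFieldBar M)
    (hb : ∀ i, Red A (b i) (β i))
    (hβ : LinearIndependent (IsLocalRing.ResidueField A)⟮jqModC (IsLocalRing.ResidueField A)⟯ β)
    {x : LaurentSeries Qb} (hx : x ∈ modularFunctionFieldBar M) :
    ∃ f : Fin (dedekindPsi M) → LaurentSeries Qb, (∀ i, f i ∈ Qb⟮jqModC Qb⟯) ∧
      x = ∑ i, f i * b i := by
  have hli := linearIndependent_of_red A ℓ hA M (fun i => ⟨b i, hbmem i⟩) β hb hβ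
  have : FiniteDimensional Qb⟮Fermat.Agent.S24.jBar M⟯ (modularFunctionFieldBar M) :=
    (Fermat.Agent.S24.isFF1_jBar M).finite
  have hcard : Fintype.card (Fin (dedekindPsi M))
      = Module.finrank Qb⟮Fermat.Agent.S24.jBar M⟯ (modularFunctionFieldBar M) := by
    rw [Fintype.card_fin, Fermat.Agent.S24.finrank_jBar]
  have hspan := hli.span_eq_top_of_card_eq_finrank' hcard
  have hxs : (⟨x, hx⟩ : modularFunctionFieldBar M) ∈
      Submodule.span Qb⟮Fermat.Agent.S24.jBar M⟯
        (Set.range fun i => (⟨b i, hbmem i⟩ : modularFunctionFieldBar M)) := by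
    rw [hspan]; exact Submodule.mem_top
  rw [Submodule.mem_span_range_iff_exists_fun] at hxs
  obtain ⟨g, hg⟩ := hxs
  refine ⟨fun i => ((g i : modularFunctionFieldBar M) : LaurentSeries Qb),
    fun i => coe_mem_adjoin_j M (g i).2, ?_⟩
  have h0 := congrArg (fun x : modularFunctionFieldBar M => (x : LaurentSeries Qb)) hg
  simp only at h0
  rw [← h0, AddSubmonoidClass.coe_finsetSum]
  rfl

include hA hℓM in
/-- **`ρ(F(M) ∩ O_w) ⊆ F_k(M)`** -/
theorem red_mem_ffC {x : LaurentSeries Qb} (hx : x ∈ modularFunctionFieldBar M)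
    {a : LaurentSeries (IsLocalRing.ResidueField A)} (hxa : Red A x a) :
    a ∈ modularFunctionFieldFullC (IsLocalRing.ResidueField A) M := by
  obtain ⟨b, β, hbmem, hβmem, hb, hβ⟩ := exists_ortho_basis A ℓ hA M hℓM
  obtain ⟨f, hf, hxf⟩ := exists_repr A ℓ hA M b β hbmem hb hβ hx
  have hx' : ∑ i, f i * b i ∈ gaussRing A := by rw [← hxf]; exact hxa.mem
  obtain ⟨φ, hφ, hφmem, hred⟩ := ortho_red A ℓ hA (red_j A)
    Fermat.Agent.S28.transcendental_jqModC' hb hβ f hf hx'
  rw [← hxf] at hred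
  rw [hxa.unique A hred]
  refine sum_mem fun i _ => mul_mem ?_ (hβmem i)
  have hle : (IsLocalRing.ResidueField A)⟮jqModC (IsLocalRing.ResidueField A)⟯
      ≤ modularFunctionFieldFullC (IsLocalRing.ResidueField A) M := by
    rw [IntermediateField.adjoin_simple_le_iff]
    exact jqModC_mem_full _ M
  exact hle (hφmem i)

end Fermat.Agent.S18.GV
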