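import Mathlib
import Fermat.Agent.S18.CuspGen
import Fermat.Agent.S18.GVModular
import Fermat.Agent.S18.GVDeg

/-!
# S18 (C76), cusp embeddings, part 2: transfer to characteristic `ℓ`

Every polynomial relation between the `J(q^d)`, `d ∣ M`, over the residue field `k` also holds
between the reduced twisted generators `genK γ d` (and conversely); hence the embedding
`tauK γ : F_k(M) → k((t))`.
-/

set_option autoImplicit false
set_option linter.unusedSectionVars false

noncomputable section

namespace Fermat.Agent.S18.Cusp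

open ModularCurve Fermat.Agent.S18.GV Fermat.Agent.Lib.ModC Fermat.Agent.Lib.ModJ
open IntermediateField
open scoped MatrixGroups

local notation "Qb" => AlgebraicClosure ℚ

local instance isAlgebraicQbCuspRed : Algebra.IsAlgebraic ℚ (AlgebraicClosure ℚ) :=
  AlgebraicClosure.isAlgebraic ℚ

/-! ### Polynomial expressions and change of coefficients -/

section Poly

variable {R S : Type*} [CommRing R] [CommRing S] {ι : Type*}

theorem algebraMap_eq_single' (c : R) :
    algebraMap R (LaurentSeries R) c = HahnSeries.single 0 c := by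
  have h1 : algebraMap R (PowerSeries R) c = PowerSeries.C c := by simp
  rw [HahnSeries.algebraMap_apply', h1, HahnSeries.ofPowerSeries_C]
  rfl

theorem coeffMap_algebraMap_eq (f : R →+* S) (a : R) :
    coeffMap f (algebraMap R (LaurentSeries R) a) = algebraMap S (LaurentSeries S) (f a) := by
  rw [algebraMap_eq_single', algebraMap_eq_single', coeffMap_single]

theorem coeffMap_aeval_mv (f : R →+* S) (g : ι → LaurentSeries R) (P : MvPolynomial ι R) :
    coeffMap f (MvPolynomial.aeval g P)
      = MvPolynomial.aeval (fun i => coeffMap f (g i)) (MvPolynomial.map f P) := by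
  induction P using MvPolynomial.induction_on with
  | C a =>
    rw [MvPolynomial.aeval_C, MvPolynomial.map_C, MvPolynomial.aeval_C, coeffMap_algebraMap_eq]
  | add p q hp hq => rw [map_add, map_add, map_add, map_add, hp, hq]
  | mul_X p i hp =>
    rw [map_mul, map_mul, map_mul, map_mul, hp, MvPolynomial.aeval_X, MvPolynomial.map_X,
      MvPolynomial.aeval_X]

end Poly

section RedPoly

variable (A : ValuationSubring Qb) {ι : Type*}

theorem isFin_algebraMap (a : A) : IsFin A (algebraMap A (LaurentSeries A) a) := by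
  have h1 : algebraMap A (LaurentSeries A) a = HahnSeries.C a := by
    rw [algebraMap_eq_single']
    rfl
  rw [h1]
  exact isFin_C A a

theorem isFin_aeval (g : ι → LaurentSeries A) (hg : ∀ i, IsFin A (g i))
    (P : MvPolynomial ι A) : IsFin A (MvPolynomial.aeval g P) := by
  induction P using MvPolynomial.induction_on with
  | C a =>
    rw [MvPolynomial.aeval_C]
    exact isFin_algebraMap A a
  | add p q hp hq =>
    rw [map_add]
    exact hp.add A hq
  | mul_X p i hp =>
    rw [map_mul, MvPolynomial.aeval_X]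
    exact hp.mul A (hg i)

/-- the reduction of a polynomial expression with integral coefficients -/
theorem red_aeval (g : ι → LaurentSeries A) (hg : ∀ i, IsFin A (g i))
    (P : MvPolynomial ι A) :
    Red A (MvPolynomial.aeval (fun i => eps A (g i)) (MvPolynomial.map A.subtype P))
      (MvPolynomial.aeval (fun i => red A (g i))
        (MvPolynomial.map (IsLocalRing.residue A) P)) := by
  have h := red_eps_of_isFin A (isFin_aeval A g hg P)
  rw [eps, red, coeffMap_aeval_mv, coeffMap_aeval_mv] at h
  exact h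

end RedPoly

/-! ### The standard generators -/

section Gens

variable (R : Type*) [CommRing R] (M : ℕ) [NeZero M]

/-- the standard generators `J(q^d)`, `d ∣ M`, over a ring -/
def gensC (d : DivIdx M) : LaurentSeries R := jqNModC R (d.1 : ℕ)

theorem coeffMap_gensC {S : Type*} [CommRing S] (f : R →+* S) (d : DivIdx M) :
    coeffMap f (gensC R M d) = gensC S M d :=
  coeffMap_jqNModC f _

theorem gensK_eq_gensC (K : Type*) [Field K] [Algebra ℚ K] : gensK K M = gensC K M := by
  funext d
  rw [gensK, jqK, gensC, coeffEmb, ← coeffMap_jqNModC (algebraMap ℚ K)]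
  rfl

theorem range_gensC (k : Type*) [Field k] : Set.range (gensC k M) = divisorExpansionsC k M := by
  ext x
  constructor
  · rintro ⟨d, rfl⟩
    exact ⟨(d.1 : ℕ), inferInstance, d.2, rfl⟩
  · rintro ⟨d, hd, hdvd, rfl⟩
    exact ⟨⟨⟨d, Nat.pos_of_ne_zero (NeZero.ne d)⟩, hdvd⟩, rfl⟩

theorem ffC_eq_adjoin (k : Type*) [Field k] :
    modularFunctionFieldFullC k M = IntermediateField.adjoin k (Set.range (gensC k M)) := by
  rw [range_gensC]
  rfl

theorem aeval_gensC_mem (k : Type*) [Field k] (P : MvPolynomial (DivIdx M) k) :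
    MvPolynomial.aeval (gensC k M) P ∈ modularFunctionFieldFullC k M := by
  rw [ffC_eq_adjoin]
  exact aeval_mem_adjoin _ P

theorem gensC_idxOne : gensC R M (idxOne M) = jqModC R := by
  rw [gensC]
  exact jqNModC_one R

end Gens

/-! ### A polynomial basis -/

section Basis

variable (A : ValuationSubring Qb) (ℓ : ℕ) [hℓ : Fact ℓ.Prime]
variable (hA : A.LiesOverPrime ℓ) (M : ℕ) [NeZero M] (hℓM : ¬ ℓ ∣ M)

local notation "kA" => IsLocalRing.ResidueField A

include hA hℓM in
/-- an `(IG_k)`-family consisting of polynomial expressions in the generators with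
coefficients lifted to `A` -/
theorem exists_poly_basis :
    ∃ Pβ : Fin (dedekindPsi M) → MvPolynomial (DivIdx M) A,
      LinearIndependent (IsLocalRing.ResidueField A)⟮jqModC (IsLocalRing.ResidueField A)⟯
        (fun i => MvPolynomial.aeval (gensC kA M)
          (MvPolynomial.map (IsLocalRing.residue A) (Pβ i))) := by
  classical
  have := charP_residueField A ℓ hA
  obtain ⟨β, hβmem, hβ⟩ := IGk.exists_linearIndependent kA M ℓ hℓM
  have hdiv : ∀ i, ∃ r s : MvPolynomial (DivIdx M) kA,
      MvPolynomial.aeval (gensC kA M) s ≠ 0 ∧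
      β i * MvPolynomial.aeval (gensC kA M) s = MvPolynomial.aeval (gensC kA M) r := by
    intro i
    have h := hβmem i
    rw [ffC_eq_adjoin, IntermediateField.mem_adjoin_iff_div,
      Algebra.adjoin_range_eq_range_aeval] at h
    obtain ⟨_, ⟨r, rfl⟩, _, ⟨s, rfl⟩, hrs⟩ := h
    have hne : β i ≠ 0 := hβ.ne_zero i
    have hs : MvPolynomial.aeval (gensC kA M) s ≠ 0 := by
      intro h0
      apply hne
      rw [hrs]
      show (MvPolynomial.aeval (gensC kA M)) r / (MvPolynomial.aeval (gensC kA M)) s = 0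
      rw [h0, div_zero]
    refine ⟨r, s, hs, ?_⟩
    rw [hrs]
    show (MvPolynomial.aeval (gensC kA M)) r / (MvPolynomial.aeval (gensC kA M)) s
      * (MvPolynomial.aeval (gensC kA M)) s = _
    rw [div_mul_cancel₀ _ hs]
  choose r s hs hrs using hdiv
  -- the common denominator
  set D : LaurentSeries kA := ∏ i, MvPolynomial.aeval (gensC kA M) (s i) with hD
  have hD0 : D ≠ 0 := Finset.prod_ne_zero_iff.mpr fun i _ => hs i
  -- the new family
  have hβ' : LinearIndependent (IsLocalRing.ResidueField A)⟮jqModC (IsLocalRing.ResidueField A)⟯ (fun i => β i * D) := by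
    have hinj : LinearMap.ker (LinearMap.mulRight (IsLocalRing.ResidueField A)⟮jqModC (IsLocalRing.ResidueField A)⟯ D) = ⊥ := by
      rw [LinearMap.ker_eq_bot]
      intro x y hxy
      simp only [LinearMap.mulRight_apply] at hxy
      exact mul_right_cancel₀ hD0 hxy
    exact hβ.map' (LinearMap.mulRight (IsLocalRing.ResidueField A)⟮jqModC (IsLocalRing.ResidueField A)⟯ D) hinj
  have hpoly : ∀ i, ∃ P : MvPolynomial (DivIdx M) kA,
      MvPolynomial.aeval (gensC kA M) P = β i * D := by
    intro i
    refine ⟨r i * ∏ j ∈ Finset.univ.erase i, s j, ?_⟩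
    rw [map_mul, map_prod, ← hrs i, mul_assoc, hD,
      ← Finset.mul_prod_erase Finset.univ _ (Finset.mem_univ i)]
  choose P hP using hpoly
  have hlift : ∀ i, ∃ Q : MvPolynomial (DivIdx M) A,
      MvPolynomial.map (IsLocalRing.residue A) Q = P i := fun i =>
    MvPolynomial.map_surjective _ IsLocalRing.residue_surjective (P i)
  choose Q hQ using hlift
  refine ⟨Q, ?_⟩
  have : (fun i => MvPolynomial.aeval (gensC kA M)
      (MvPolynomial.map (IsLocalRing.residue A) (Q i))) = fun i => β i * D := by
    funext i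
    rw [hQ, hP]
  rw [this]
  exact hβ'

end Basis

/-! ### `tauL` on `ℚ̄(j)` -/

section TauLJ

variable (A : ValuationSubring Qb) (M : ℕ) [NeZero M]

theorem qExpand_aeval {K : Type*} [Field K] (x : LaurentSeries K) (r : Polynomial K) :
    qExpand K M (Polynomial.aeval x r) = Polynomial.aeval (qExpand K M x) r :=
  (Polynomial.aeval_algHom_apply (qExpandAlgHomC K M) x r).symm

theorem genL_idxOne (γ : SL(2, ℤ)) : genL A M γ (idxOne M) = qExpand Qb M (jqModC Qb) := by
  apply Fermat.Agent.Lib.ModJ.coeffMap_injective _ iotaQbar.injective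
  rw [coeffMap_genL, genInf_idxOne, ModularCurve.coeffMap_qExpand, coeffMap_jqModC,
    jqC_eq_jqModC]

theorem genK_idxOne (γ : SL(2, ℤ)) :
    genK A M γ (idxOne M) = qExpand (IsLocalRing.ResidueField A) M
      (jqModC (IsLocalRing.ResidueField A)) := by
  have h1 : genA A M γ (idxOne M) = qExpand A M (jqModC A) := by
    apply Fermat.Agent.Lib.ModJ.coeffMap_injective _ (iota_comp_injective A)
    rw [coeffMap_genA, genInf_idxOne, ModularCurve.coeffMap_qExpand, coeffMap_jqModC,
      jqC_eq_jqModC]
  rw [genK, h1, red, ModularCurve.coeffMap_qExpand, coeffMap_jqModC]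

theorem aeval_polyX {K : Type*} [Field K] (g : DivIdx M → LaurentSeries K) (i : DivIdx M)
    (r : Polynomial K) :
    MvPolynomial.aeval g (Polynomial.aeval (MvPolynomial.X i : MvPolynomial (DivIdx M) K) r)
      = Polynomial.aeval (g i) r := by
  rw [← Polynomial.aeval_algHom_apply, MvPolynomial.aeval_X]

/-- on `ℚ̄(j)` the embedding `tauL γ` is `t ↦ t^M` -/
theorem tauL_of_mem_adjoin (γ : SL(2, ℤ)) (f : ↥(modularFunctionFieldBar M))
    (hf : (f : LaurentSeries Qb) ∈ Qb⟮jqModC Qb⟯) :
    tauL A M γ f = qExpand Qb M (f : LaurentSeries Qb) := by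
  obtain ⟨r, s, hrs⟩ := (IntermediateField.mem_adjoin_simple_iff Qb _).1 hf
  by_cases hs : Polynomial.aeval (jqModC Qb) s = 0
  · have hf0 : f = 0 := by
      apply Subtype.ext
      rw [hrs, hs, div_zero]
      rfl
    rw [hf0, map_zero, ZeroMemClass.coe_zero, map_zero]
  · set s' : MvPolynomial (DivIdx M) Qb := Polynomial.aeval (MvPolynomial.X (idxOne M)) s
    set r' : MvPolynomial (DivIdx M) Qb := Polynomial.aeval (MvPolynomial.X (idxOne M)) r
    have hgen : gensK Qb M (idxOne M) = jqModC Qb := by
      rw [gensK_eq_gensC, gensC_idxOne]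
    have hcs : ((aevalF M s' : ↥(modularFunctionFieldBar M)) : LaurentSeries Qb)
        = Polynomial.aeval (jqModC Qb) s := by
      rw [coe_aevalF, aeval_polyX, hgen]
    have hcr : ((aevalF M r' : ↥(modularFunctionFieldBar M)) : LaurentSeries Qb)
        = Polynomial.aeval (jqModC Qb) r := by
      rw [coe_aevalF, aeval_polyX, hgen]
    have hmul : f * aevalF M s' = aevalF M r' := by
      apply Subtype.ext
      rw [MulMemClass.coe_mul, hcs, hcr, hrs, div_mul_cancel₀ _ hs]
    have h1 := congrArg (tauL A M γ) hmul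
    rw [map_mul, tauL_aevalF, tauL_aevalF, aeval_polyX, aeval_polyX, genL_idxOne,
      ← qExpand_aeval, ← qExpand_aeval] at h1
    have h2 : qExpand Qb M (f : LaurentSeries Qb) * qExpand Qb M (Polynomial.aeval (jqModC Qb) s)
        = qExpand Qb M (Polynomial.aeval (jqModC Qb) r) := by
      rw [← map_mul, hrs, div_mul_cancel₀ _ hs]
    have h3 : qExpand Qb M (Polynomial.aeval (jqModC Qb) s) ≠ 0 := by
      rw [ne_eq, map_eq_zero]
      exact hs
    exact mul_right_cancel₀ h3 (h1.trans h2.symm)

end TauLJ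

/-! ### Transfer of relations -/

section Transfer

variable (A : ValuationSubring Qb) (ℓ : ℕ) [hℓ : Fact ℓ.Prime]
variable (hA : A.LiesOverPrime ℓ) (M : ℕ) [NeZero M] (hℓM : ¬ ℓ ∣ M)

local notation "kA" => IsLocalRing.ResidueField A

/-- the standard generators over `A` -/
theorem red_aeval_gens (P : MvPolynomial (DivIdx M) A) :
    Red A (MvPolynomial.aeval (gensK Qb M) (MvPolynomial.map A.subtype P))
      (MvPolynomial.aeval (gensC kA M) (MvPolynomial.map (IsLocalRing.residue A) P)) := by
  have h := red_aeval A (gensC A M) (fun d => isFin_jqNModC A _) P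
  have e1 : (fun i => eps A (gensC A M i)) = gensK Qb M := by
    rw [gensK_eq_gensC]
    funext d
    exact coeffMap_gensC A M A.subtype d
  have e2 : (fun i => red A (gensC A M i)) = gensC kA M := by
    funext d
    exact coeffMap_gensC A M (IsLocalRing.residue A) d
  rw [e1, e2] at h
  exact h

theorem red_aeval_gen (γ : SL(2, ℤ)) (P : MvPolynomial (DivIdx M) A) :
    Red A (MvPolynomial.aeval (genL A M γ) (MvPolynomial.map A.subtype P))
      (MvPolynomial.aeval (genK A M γ) (MvPolynomial.map (IsLocalRing.residue A) P)) :=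
  red_aeval A (genA A M γ) (fun d => isFin_genA A M γ d) P

include hA hℓM in
/-- **transfer, direction 1**: a relation between the `J(q^d)` over `k` holds between the
reduced twisted generators. -/
theorem aeval_genK_eq_zero (γ : SL(2, ℤ)) (Q : MvPolynomial (DivIdx M) kA)
    (hQ : MvPolynomial.aeval (gensC kA M) Q = 0) : MvPolynomial.aeval (genK A M γ) Q = 0 := by
  classical
  obtain ⟨Q, rfl⟩ := MvPolynomial.map_surjective _ IsLocalRing.residue_surjective Q
  obtain ⟨Pβ, hβ⟩ := exists_poly_basis A ℓ hA M hℓM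
  set b : Fin (dedekindPsi M) → LaurentSeries Qb :=
    fun i => MvPolynomial.aeval (gensK Qb M) (MvPolynomial.map A.subtype (Pβ i)) with hb_def
  set β : Fin (dedekindPsi M) → LaurentSeries kA :=
    fun i => MvPolynomial.aeval (gensC kA M) (MvPolynomial.map (IsLocalRing.residue A) (Pβ i))
    with hβ_def
  have hb : ∀ i, Red A (b i) (β i) := fun i => red_aeval_gens A M (Pβ i)
  have hbmem : ∀ i, b i ∈ modularFunctionFieldBar M := fun i => aeval_gensK_mem M _
  set x : LaurentSeries Qb := MvPolynomial.aeval (gensK Qb M) (MvPolynomial.map A.subtype Q)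
    with hx_def
  have hxmem : x ∈ modularFunctionFieldBar M := aeval_gensK_mem M _
  have hx0 : Red A x 0 := by
    have := red_aeval_gens A M Q
    rwa [hQ] at this
  obtain ⟨f, hf, hxf⟩ := exists_repr A ℓ hA M b β hbmem hb hβ hxmem
  have hx' : ∑ i, f i * b i ∈ gaussRing A := by
    rw [← hxf]
    exact hx0.mem
  obtain ⟨φ, hφ, hφmem, hred⟩ := ortho_red A ℓ hA (red_j A)
    Fermat.Agent.S28.transcendental_jqModC' hb hβ f hf hx'
  rw [← hxf] at hred
  have hsum : ∑ i, φ i * β i = 0 := hred.unique A hx0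
  have hφ0 : ∀ i, φ i = 0 := by
    intro i
    rw [Fintype.linearIndependent_iff] at hβ
    have := hβ (fun i => ⟨φ i, hφmem i⟩) hsum i
    exact congrArg Subtype.val this
  -- apply `tauL`
  have hle : Qb⟮jqModC Qb⟯ ≤ modularFunctionFieldBar M := by
    rw [IntermediateField.adjoin_simple_le_iff]
    have := aeval_gensK_mem (K := Qb) M (MvPolynomial.X (idxOne M))
    rw [MvPolynomial.aeval_X, gensK_eq_gensC, gensC_idxOne] at this
    exact this
  have hxsub : (⟨x, hxmem⟩ : ↥(modularFunctionFieldBar M))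
      = ∑ i, (⟨f i, hle (hf i)⟩ : ↥(modularFunctionFieldBar M)) * ⟨b i, hbmem i⟩ := by
    apply Subtype.ext
    rw [AddSubmonoidClass.coe_finsetSum]
    exact hxf
  have htx : tauL A M γ ⟨x, hxmem⟩
      = MvPolynomial.aeval (genL A M γ) (MvPolynomial.map A.subtype Q) :=
    tauL_aevalF A M γ _
  have htb : ∀ i, tauL A M γ ⟨b i, hbmem i⟩
      = MvPolynomial.aeval (genL A M γ) (MvPolynomial.map A.subtype (Pβ i)) :=
    fun i => tauL_aevalF A M γ _
  have htf : ∀ i, Red A (tauL A M γ ⟨f i, hle (hf i)⟩) 0 := by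
    intro i
    rw [tauL_of_mem_adjoin A M γ _ (hf i)]
    have h1 := Fermat.Agent.S18.Desc.red_qExpand A M (hφ i)
    rw [hφ0 i, map_zero] at h1
    exact h1
  have h1 : Red A (tauL A M γ ⟨x, hxmem⟩) 0 := by
    rw [hxsub, map_sum]
    have h2 : (0 : LaurentSeries kA) = ∑ i : Fin (dedekindPsi M),
        (0 : LaurentSeries kA) * MvPolynomial.aeval (genK A M γ)
          (MvPolynomial.map (IsLocalRing.residue A) (Pβ i)) := by
      simp
    rw [h2]
    refine Red.sum A _ fun i _ => ?_
    rw [map_mul, htb]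
    exact (htf i).mul A (red_aeval_gen A M γ (Pβ i))
  rw [htx] at h1
  exact (red_aeval_gen A M γ Q).unique A h1

end Transfer

/-! ### The converse direction -/

section Converse

variable (k : Type*) [Field k] (M : ℕ) [NeZero M]

/-- `z ∈ k(J)[J(q^d) : d ∣ M]` with denominator in `k[J]` -/
def InS (z : LaurentSeries k) : Prop :=
  ∃ (R : MvPolynomial (DivIdx M) k) (s : Polynomial k), s ≠ 0 ∧
    z * Polynomial.aeval (jqModC k) s = MvPolynomial.aeval (gensC k M) R

variable {k M}

theorem aeval_polyX_gensC (r : Polynomial k) :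
    MvPolynomial.aeval (gensC k M)
        (Polynomial.aeval (MvPolynomial.X (idxOne M) : MvPolynomial (DivIdx M) k) r)
      = Polynomial.aeval (jqModC k) r := by
  rw [aeval_polyX, gensC_idxOne]

theorem InS.add {z z' : LaurentSeries k} (h : InS k M z) (h' : InS k M z') :
    InS k M (z + z') := by
  obtain ⟨R, s, hs, e⟩ := h
  obtain ⟨R', s', hs', e'⟩ := h'
  refine ⟨R * Polynomial.aeval (MvPolynomial.X (idxOne M)) s'
    + R' * Polynomial.aeval (MvPolynomial.X (idxOne M)) s, s * s', mul_ne_zero hs hs', ?_⟩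
  rw [map_add, map_mul, map_mul, map_mul, aeval_polyX_gensC, aeval_polyX_gensC, ← e, ← e']
  ring

theorem InS.mul {z z' : LaurentSeries k} (h : InS k M z) (h' : InS k M z') :
    InS k M (z * z') := by
  obtain ⟨R, s, hs, e⟩ := h
  obtain ⟨R', s', hs', e'⟩ := h'
  refine ⟨R * R', s * s', mul_ne_zero hs hs', ?_⟩
  rw [map_mul, map_mul, ← e, ← e']
  ring

theorem inS_aeval (P : MvPolynomial (DivIdx M) k) :
    InS k M (MvPolynomial.aeval (gensC k M) P) :=
  ⟨P, 1, one_ne_zero, by rw [map_one, mul_one]⟩

theorem inS_of_mem_adjoin {z : LaurentSeries k} (hz : z ∈ k⟮jqModC k⟯) : InS k M z := by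
  obtain ⟨r, s, hrs⟩ := (IntermediateField.mem_adjoin_simple_iff k z).1 hz
  by_cases hs : Polynomial.aeval (jqModC k) s = 0
  · refine ⟨0, 1, one_ne_zero, ?_⟩
    rw [hrs, hs, div_zero, zero_mul, map_zero]
  · refine ⟨Polynomial.aeval (MvPolynomial.X (idxOne M)) r, s, ?_, ?_⟩
    · rintro rfl
      exact hs (map_zero _)
    · rw [aeval_polyX_gensC, hrs, div_mul_cancel₀ _ hs]

theorem coe_mem_adjoin_simple {Ω : Type*} [Field Ω] [Algebra k Ω] (E : IntermediateField k Ω)
    (t : E) {c : E} (hc : c ∈ k⟮t⟯) : (c : Ω) ∈ k⟮(t : Ω)⟯ := by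
  obtain ⟨r, s, rfl⟩ := (IntermediateField.mem_adjoin_simple_iff k c).1 hc
  have h1 : ∀ p : Polynomial k, ((Polynomial.aeval t p : E) : Ω) = Polynomial.aeval (t : Ω) p := by
    intro p
    exact (Polynomial.aeval_algHom_apply E.val t p).symm
  rw [IntermediateField.mem_adjoin_simple_iff]
  refine ⟨r, s, ?_⟩
  rw [← h1, ← h1]
  rfl

end Converse

section Converse2

variable (A : ValuationSubring Qb) (ℓ : ℕ) [hℓ : Fact ℓ.Prime]
variable (hA : A.LiesOverPrime ℓ) (M : ℕ) [NeZero M] (hℓM : ¬ ℓ ∣ M)

local notation "kA" => IsLocalRing.ResidueField A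

set_option synthInstance.maxHeartbeats 400000 in
set_option maxHeartbeats 1000000 in
include hA in
/-- the inverse of a nonzero polynomial expression lies in `k(J)[J(q^d)]` -/
theorem inS_inv (Q : MvPolynomial (DivIdx M) kA) :
    InS kA M (MvPolynomial.aeval (gensC kA M) Q)⁻¹ := by
  have hfd := finiteDimensional_ffC A ℓ hA M
  let S : Subalgebra (kA)⟮jK kA M⟯ ↥(modularFunctionFieldFullC kA M) :=
    { carrier := {z | InS kA M (z : LaurentSeries kA)}
      mul_mem' := fun {a b} ha hb => by
        show InS kA M ((a * b : ↥(modularFunctionFieldFullC kA M)) : LaurentSeries kA)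
        rw [MulMemClass.coe_mul]
        exact InS.mul ha hb
      add_mem' := fun {a b} ha hb => by
        show InS kA M ((a + b : ↥(modularFunctionFieldFullC kA M)) : LaurentSeries kA)
        rw [AddMemClass.coe_add]
        exact InS.add ha hb
      algebraMap_mem' := fun c => by
        show InS kA M (((algebraMap (kA)⟮jK kA M⟯ ↥(modularFunctionFieldFullC kA M) c :
          ↥(modularFunctionFieldFullC kA M))) : LaurentSeries kA)
        apply inS_of_mem_adjoin
        have := coe_mem_adjoin_simple (modularFunctionFieldFullC kA M) (jK kA M) c.2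
        exact this }
  let y : ↥(modularFunctionFieldFullC kA M) :=
    ⟨MvPolynomial.aeval (gensC kA M) Q, aeval_gensC_mem M kA Q⟩
  have hy : y ∈ S := inS_aeval Q
  have halg : IsAlgebraic (kA)⟮jK kA M⟯ y := Algebra.IsAlgebraic.isAlgebraic y
  have hinv : y⁻¹ ∈ S := Subalgebra.inv_mem_of_algebraic S (x := ⟨y, hy⟩) halg
  exact hinv

include hA hℓM in
/-- **transfer, direction 2** -/
theorem aeval_gensC_eq_zero (γ : SL(2, ℤ)) (Q : MvPolynomial (DivIdx M) kA)
    (hQ : MvPolynomial.aeval (genK A M γ) Q = 0) : MvPolynomial.aeval (gensC kA M) Q = 0 := by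
  by_contra hne
  obtain ⟨R, s, hs, e⟩ := inS_inv A ℓ hA M Q
  -- `s(J) = Q(J_d) R(J_d)`
  have h1 : MvPolynomial.aeval (gensC kA M)
      (Q * R - Polynomial.aeval (MvPolynomial.X (idxOne M)) s) = 0 := by
    rw [map_sub, map_mul, aeval_polyX_gensC, ← e, ← mul_assoc, mul_inv_cancel₀ hne, one_mul,
      sub_self]
  have h2 := aeval_genK_eq_zero A ℓ hA M hℓM γ _ h1
  rw [map_sub, map_mul, hQ, zero_mul, zero_sub, neg_eq_zero, aeval_polyX, genK_idxOne,
    ← qExpand_aeval, map_eq_zero] at h2
  exact hs ((transcendental_iff.mp Fermat.Agent.S28.transcendental_jqModC') s h2)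

include hA hℓM in
theorem aeval_genK_eq_zero_iff (γ : SL(2, ℤ)) (Q : MvPolynomial (DivIdx M) kA) :
    MvPolynomial.aeval (genK A M γ) Q = 0 ↔ MvPolynomial.aeval (gensC kA M) Q = 0 :=
  ⟨aeval_gensC_eq_zero A ℓ hA M hℓM γ Q, aeval_genK_eq_zero A ℓ hA M hℓM γ Q⟩

end Converse2

end Fermat.Agent.S18.Cusp
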