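import Mathlib
import Fermat.Agent.S18.CuspRed

/-!
# S18 (C76), cusp embeddings, part 3: the embedding `tauK γ : F_k(M) → k((t))`
-/

set_option autoImplicit false
set_option linter.unusedSectionVars false

noncomputable section

namespace Fermat.Agent.S18.Cusp

open ModularCurve Fermat.Agent.S18.GV Fermat.Agent.Lib.ModC Fermat.Agent.Lib.ModJ
open IntermediateField
open scoped MatrixGroups

local notation "Qb" => AlgebraicClosure ℚ

section Ext

variable (k : Type*) [Field k] (M : ℕ) [NeZero M] {Ω : Type*} [Field Ω]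

/-- polynomial expressions in the generators, as elements of `F_k(M)` -/
def aevalK (P : MvPolynomial (DivIdx M) k) : ↥(modularFunctionFieldFullC k M) :=
  ⟨MvPolynomial.aeval (gensC k M) P, aeval_gensC_mem M k P⟩

@[simp] theorem coe_aevalK (P : MvPolynomial (DivIdx M) k) :
    ((aevalK k M P : ↥(modularFunctionFieldFullC k M)) : LaurentSeries k)
      = MvPolynomial.aeval (gensC k M) P := rfl

theorem aevalK_C (c : k) :
    aevalK k M (MvPolynomial.C c) = algebraMap k ↥(modularFunctionFieldFullC k M) c := by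
  apply Subtype.ext
  simp [aevalK]

theorem aevalK_X_idxOne : aevalK k M (MvPolynomial.X (idxOne M)) = jK k M := by
  apply Subtype.ext
  rw [coe_aevalK, MvPolynomial.aeval_X, gensC_idxOne]
  rfl

theorem exists_aevalK_div (f : ↥(modularFunctionFieldFullC k M)) :
    ∃ P Q : MvPolynomial (DivIdx M) k, aevalK k M Q ≠ 0 ∧ f * aevalK k M Q = aevalK k M P := by
  obtain ⟨f, hf⟩ := f
  have hf' := hf
  rw [ffC_eq_adjoin, IntermediateField.mem_adjoin_iff_div,
    Algebra.adjoin_range_eq_range_aeval] at hf'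
  obtain ⟨_, ⟨P, rfl⟩, _, ⟨Q, rfl⟩, hrs⟩ := hf'
  by_cases hQ : MvPolynomial.aeval (gensC k M) Q = 0
  · refine ⟨0, 1, ?_, ?_⟩
    · intro h
      have := congrArg Subtype.val h
      simp [aevalK] at this
    · apply Subtype.ext
      have h0 : f = 0 := by
        rw [hrs]
        show (MvPolynomial.aeval (gensC k M)) P / (MvPolynomial.aeval (gensC k M)) Q = 0
        rw [hQ, div_zero]
      simp [aevalK, h0]
  · refine ⟨P, Q, ?_, ?_⟩
    · intro h
      exact hQ (congrArg Subtype.val h)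
    · apply Subtype.ext
      rw [MulMemClass.coe_mul, coe_aevalK, coe_aevalK]
      have h1 : f = (MvPolynomial.aeval (gensC k M)) P / (MvPolynomial.aeval (gensC k M)) Q := hrs
      show f * (MvPolynomial.aeval (gensC k M)) Q = _
      rw [h1, div_mul_cancel₀ _ hQ]

/-- two ring homs on `F_k(M)` which agree on the polynomial expressions are equal -/
theorem ringHom_ext_K (τ τ' : ↥(modularFunctionFieldFullC k M) →+* Ω)
    (h : ∀ P : MvPolynomial (DivIdx M) k, τ (aevalK k M P) = τ' (aevalK k M P)) : τ = τ' := by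
  ext f
  obtain ⟨P, Q, hQ, hf⟩ := exists_aevalK_div k M f
  have h1 : τ f * τ (aevalK k M Q) = τ' f * τ' (aevalK k M Q) := by
    rw [← map_mul, ← map_mul, hf, h P]
  rw [h Q] at h1
  exact mul_right_cancel₀ ((map_ne_zero τ').mpr hQ) h1

end Ext

section TauK

set_option synthInstance.maxHeartbeats 400000
set_option maxHeartbeats 1000000

variable (A : ValuationSubring Qb) (ℓ : ℕ) [hℓ : Fact ℓ.Prime]
variable (hA : A.LiesOverPrime ℓ) (M : ℕ) [NeZero M] (hℓM : ¬ ℓ ∣ M)

local notation "kA" => IsLocalRing.ResidueField A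

include hA hℓM in
theorem exists_tauK (γ : SL(2, ℤ)) :
    ∃ τ : ↥(modularFunctionFieldFullC kA M) →+* LaurentSeries kA,
      ∀ P : MvPolynomial (DivIdx M) kA,
        τ (aevalK kA M P) = MvPolynomial.aeval (genK A M γ) P := by
  obtain ⟨τ, hτ⟩ := exists_lift_adjoin (gensC kA M)
    ((MvPolynomial.aeval (genK A M γ)).toRingHom)
    (fun P => aeval_genK_eq_zero_iff A ℓ hA M hℓM γ P)
  refine ⟨τ.comp (IntermediateField.equivOfEq (ffC_eq_adjoin M kA) : _ →ₐ[kA] _).toRingHom,
    fun P => ?_⟩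
  rw [RingHom.comp_apply]
  exact hτ P

/-- **the embedding `F_k(M) → k((t))` at the cusp `γ⁻¹∞`** -/
def tauK (γ : SL(2, ℤ)) : ↥(modularFunctionFieldFullC kA M) →+* LaurentSeries kA :=
  (exists_tauK A ℓ hA M hℓM γ).choose

theorem tauK_aevalK (γ : SL(2, ℤ)) (P : MvPolynomial (DivIdx M) kA) :
    tauK A ℓ hA M hℓM γ (aevalK kA M P) = MvPolynomial.aeval (genK A M γ) P :=
  (exists_tauK A ℓ hA M hℓM γ).choose_spec P

theorem tauK_algebraMap (γ : SL(2, ℤ)) (c : kA) :
    tauK A ℓ hA M hℓM γ (algebraMap kA _ c) = HahnSeries.C c := by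
  rw [← aevalK_C, tauK_aevalK, MvPolynomial.aeval_C, algebraMap_eq_single']
  rfl

theorem tauK_jK (γ : SL(2, ℤ)) :
    tauK A ℓ hA M hℓM γ (jK kA M) = qExpand kA M (jqModC kA) := by
  rw [← aevalK_X_idxOne, tauK_aevalK, MvPolynomial.aeval_X, genK_idxOne]

theorem tauK_eq_of_genK_eq {γ γ' : SL(2, ℤ)} (h : ∀ d, genK A M γ d = genK A M γ' d) :
    tauK A ℓ hA M hℓM γ = tauK A ℓ hA M hℓM γ' := by
  have hg : genK A M γ = genK A M γ' := funext h
  refine ringHom_ext_K kA M _ _ (fun P => ?_)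
  rw [tauK_aevalK, tauK_aevalK, hg]

theorem genK_eq_of_tauK_eq {γ γ' : SL(2, ℤ)}
    (h : tauK A ℓ hA M hℓM γ = tauK A ℓ hA M hℓM γ') (d : DivIdx M) :
    genK A M γ d = genK A M γ' d := by
  have := congrArg (fun τ => τ (aevalK kA M (MvPolynomial.X d))) h
  simpa only [tauK_aevalK, MvPolynomial.aeval_X] using this

/-- a ring endomorphism of `k((t))` fixing constants commutes with polynomial expressions -/
theorem map_aeval_of_fix (ρ : LaurentSeries kA →+* LaurentSeries kA)
    (hρ : ∀ c : kA, ρ (HahnSeries.C c) = HahnSeries.C c)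
    (g : DivIdx M → LaurentSeries kA) (P : MvPolynomial (DivIdx M) kA) :
    ρ (MvPolynomial.aeval g P) = MvPolynomial.aeval (fun d => ρ (g d)) P := by
  induction P using MvPolynomial.induction_on with
  | C a =>
    rw [MvPolynomial.aeval_C, MvPolynomial.aeval_C, algebraMap_eq_single']
    exact hρ a
  | add p q hp hq => rw [map_add, map_add, map_add, hp, hq]
  | mul_X p i hp => rw [map_mul, map_mul, map_mul, hp, MvPolynomial.aeval_X, MvPolynomial.aeval_X]

theorem tauK_eq_comp {γ γ' : SL(2, ℤ)} (ρ : LaurentSeries kA →+* LaurentSeries kA)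
    (hρ : ∀ c : kA, ρ (HahnSeries.C c) = HahnSeries.C c)
    (h : ∀ d, genK A M γ' d = ρ (genK A M γ d)) :
    tauK A ℓ hA M hℓM γ' = ρ.comp (tauK A ℓ hA M hℓM γ) := by
  have hg : genK A M γ' = fun d => ρ (genK A M γ d) := funext h
  refine ringHom_ext_K kA M _ _ (fun P => ?_)
  rw [RingHom.comp_apply, tauK_aevalK, tauK_aevalK, map_aeval_of_fix A M ρ hρ, hg]

end TauK

end Fermat.Agent.S18.Cusp
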