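import Mathlib
import Fermat.Agent.S28.Basic
import Fermat.Agent.S18.GVModular

/-!
# S18 (C76): roots of unity modulo `ℓ` and the width divisibility (generic lemmas R1–R3)

* `unit_eq_of_residue_eq` (R2): reduction is injective on the `N`-th roots of unity, `ℓ ∤ N`;
* `isPrimitiveRoot_residue` (R1): the reduction of a primitive `N`-th root of unity is primitive;
* `dvd_order_of_rot_eq` (R3): a nonzero Laurent series fixed by `t ↦ z^h t`, `z` a primitive
  `N`-th root of unity, has `N ∣ h * order`.
-/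

set_option autoImplicit false
set_option linter.unusedVariables false

noncomputable section

namespace Fermat.Agent.S18.Cusp

local notation "Qb" => AlgebraicClosure ℚ

section Local

variable {R : Type*} [CommRing R] [IsDomain R] [IsLocalRing R]

/-- In a local domain whose residue field has characteristic `ℓ ∤ N`, an `N`-th root of unity
congruent to `1` is `1`. -/
theorem eq_one_of_residue_eq_one (ℓ : ℕ) [CharP (IsLocalRing.ResidueField R) ℓ] {N : ℕ}
    (hN : ¬ ℓ ∣ N) {w : R} (hw : w ^ N = 1) (h : IsLocalRing.residue R w = 1) : w = 1 := by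
  by_contra hne
  have hgeom : (∑ i ∈ Finset.range N, w ^ i) * (w - 1) = 0 := by
    rw [geom_sum_mul, hw, sub_self]
  have hsum : ∑ i ∈ Finset.range N, w ^ i = 0 := by
    rcases mul_eq_zero.1 hgeom with h0 | h0
    · exact h0
    · exact absurd (sub_eq_zero.1 h0) hne
  have hres := congrArg (IsLocalRing.residue R) hsum
  rw [map_sum, map_zero] at hres
  simp only [map_pow, h, one_pow, Finset.sum_const, Finset.card_range, nsmul_eq_mul,
    mul_one] at hres
  exact hN ((CharP.cast_eq_zero_iff (IsLocalRing.ResidueField R) ℓ N).1 hres)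

/-- Reduction is injective on the `N`-th roots of unity (units form), `ℓ ∤ N`. -/
theorem unit_eq_of_residue_eq' (ℓ : ℕ) [CharP (IsLocalRing.ResidueField R) ℓ] {N : ℕ}
    (hN : ¬ ℓ ∣ N) {u u' : Rˣ} (hu : u ^ N = 1) (hu' : u' ^ N = 1)
    (h : IsLocalRing.residue R (u : R) = IsLocalRing.residue R (u' : R)) : u = u' := by
  have hw : ((u * u'⁻¹ : Rˣ) : R) ^ N = 1 := by
    rw [← Units.val_pow_eq_pow_val, mul_pow, inv_pow, hu, hu', inv_one, mul_one, Units.val_one]
  have hres : IsLocalRing.residue R ((u * u'⁻¹ : Rˣ) : R) = 1 := by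
    rw [Units.val_mul, map_mul, h, ← map_mul, Units.mul_inv, map_one]
  have h1 := eq_one_of_residue_eq_one ℓ hN hw hres
  have h2 : u * u'⁻¹ = 1 := Units.ext (by rw [h1, Units.val_one])
  exact mul_inv_eq_one.1 h2

/-- The reduction of a primitive `N`-th root of unity is primitive, `ℓ ∤ N`. -/
theorem isPrimitiveRoot_residue' (ℓ : ℕ) [CharP (IsLocalRing.ResidueField R) ℓ] {N : ℕ}
    (hN : ¬ ℓ ∣ N) {u : Rˣ} (hu : IsPrimitiveRoot u N) :
    IsPrimitiveRoot (Units.map ((IsLocalRing.residue R : R →+* IsLocalRing.ResidueField R) :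
      R →* IsLocalRing.ResidueField R) u) N := by
  refine ⟨?_, fun l hl => ?_⟩
  · rw [← map_pow, hu.pow_eq_one, map_one]
  · apply hu.dvd_of_pow_eq_one
    rw [← map_pow] at hl
    have hl' : IsLocalRing.residue R ((u ^ l : Rˣ) : R) = IsLocalRing.residue R ((1 : Rˣ) : R) := by
      have := congrArg (fun x : (IsLocalRing.ResidueField R)ˣ => (x : IsLocalRing.ResidueField R)) hl
      simpa using this
    refine unit_eq_of_residue_eq' ℓ hN ?_ (one_pow N) hl'
    rw [← pow_mul, mul_comm, pow_mul, hu.pow_eq_one, one_pow]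

end Local

section Qbar

variable (A : ValuationSubring Qb) (ℓ : ℕ) [Fact ℓ.Prime] (hA : A.LiesOverPrime ℓ)

include hA in
/-- **(R2)** reduction is injective on the `N`-th roots of unity, `ℓ ∤ N`. -/
theorem unit_eq_of_residue_eq {N : ℕ} (hN : ¬ ℓ ∣ N) {u u' : Aˣ} (hu : u ^ N = 1)
    (hu' : u' ^ N = 1)
    (h : IsLocalRing.residue A (u : A) = IsLocalRing.residue A (u' : A)) : u = u' := by
  have := Fermat.Agent.S18.GV.charP_residueField A ℓ hA
  exact unit_eq_of_residue_eq' ℓ hN hu hu' h

include hA in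
/-- **(R1)** the reduction of a primitive `N`-th root of unity is primitive, `ℓ ∤ N`. -/
theorem isPrimitiveRoot_residue {N : ℕ} (hN : ¬ ℓ ∣ N) {u : Aˣ} (hu : IsPrimitiveRoot u N) :
    IsPrimitiveRoot (Units.map ((IsLocalRing.residue A : A →+* IsLocalRing.ResidueField A) :
      A →* IsLocalRing.ResidueField A) u) N := by
  have := Fermat.Agent.S18.GV.charP_residueField A ℓ hA
  exact isPrimitiveRoot_residue' ℓ hN hu

end Qbar

/-- **(R3)** width divisibility over any field: a nonzero series fixed by `t ↦ z^h t`, `z` a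
primitive `N`-th root of unity, has `N ∣ h * order`. -/
theorem dvd_order_of_rot_eq {k : Type*} [Field k] {N : ℕ} (hN : 0 < N) {z : kˣ}
    (hz : IsPrimitiveRoot z N) {L : LaurentSeries k} (hL : L ≠ 0) (h : ℤ)
    (hfix : Fermat.Agent.S28.rot (z ^ h) L = L) : (N : ℤ) ∣ h * L.order := by
  have hc := congrArg (fun M : LaurentSeries k => M.coeff L.order) hfix
  simp only [Fermat.Agent.S28.coeff_rot] at hc
  have hne : L.coeff L.order ≠ 0 := fun h0 => hL (HahnSeries.coeff_order_eq_zero.1 h0)
  have h1 : (((z ^ h) ^ L.order : kˣ) : k) = 1 := by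
    have h2 : L.coeff L.order * (((z ^ h) ^ L.order : kˣ) : k) = L.coeff L.order * 1 := by
      rw [hc, mul_one]
    exact mul_left_cancel₀ hne h2
  have h3 : z ^ (h * L.order) = 1 := by
    rw [zpow_mul]
    exact Units.ext (by rw [h1, Units.val_one])
  exact (hz.zpow_eq_one_iff_dvd _).1 h3

end Fermat.Agent.S18.Cusp
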