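import Mathlib
import Fermat.Agent.S18.CuspGen
import Fermat.Agent.Lib.ModC.InfRot

/-!
# S18 (C76), cusp embeddings: two characteristic-zero facts on the generators `genA`

* `genA_eq_iff_mem`: the generators `genA A M γ d` (`d ∣ M`) determine the coset `γ Γ₀(M)`;
* `exists_zA`: the translation `T` acts on the generators by the rotation by a primitive
  `M`-th root of unity `z ∈ Aˣ`.
-/

set_option autoImplicit false

noncomputable section

namespace Fermat.Agent.S18.Cusp

open ModularCurve Fermat.Agent.S18.GV Fermat.Agent.Lib.ModJ Fermat.Agent.Lib.ModC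
open scoped MatrixGroups

local notation "Qb" => AlgebraicClosure ℚ

variable (A : ValuationSubring Qb) (M : ℕ) [NeZero M]

/-- (3c) the generators determine the coset -/
theorem genA_eq_iff_mem (γ γ' : SL(2, ℤ)) :
    (∀ d : DivIdx M, genA A M γ d = genA A M γ' d) ↔ γ⁻¹ * γ' ∈ CongruenceSubgroup.Gamma0 M := by
  rw [← tauInf_eq_iff iotaQbar M γ γ']
  constructor
  · intro h
    have hgen : genInf M γ = genInf M γ' := by
      funext d
      exact (genA_eq_iff A M γ γ' d d).mp (h d)
    apply Fermat.Agent.Lib.ModC.ringHom_ext M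
    intro P
    rw [tauInf_aevalF, tauInf_aevalF, phiInf, phiInf, hgen]
  · intro h d
    rw [genA_eq_iff]
    have := congrArg (fun τ => τ (aevalF M (MvPolynomial.X d))) h
    simpa only [tauInf_aevalF, phiInf_X] using this

/-- (3a) the unit of the rotation: a lift of `(zetaN M)⁻¹` -/
theorem exists_zA : ∃ z : Aˣ, IsPrimitiveRoot z M ∧
    ∀ (n : ℤ) (γ : SL(2, ℤ)) (d : DivIdx M),
      genA A M (ModularGroup.T ^ n * γ) d = Fermat.Agent.S28.rot (z ^ n) (genA A M γ d) := by
  have hM : 0 < M := Nat.pos_of_ne_zero (NeZero.ne M)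
  have hζ : IsPrimitiveRoot (zetaN M) M := by
    have := Complex.isPrimitiveRoot_exp M hM.ne'
    rwa [zetaN]
  have hζinv : IsPrimitiveRoot (zetaN M)⁻¹ M := hζ.inv
  obtain ⟨z, hz, hzM⟩ := exists_unit_of_pow_eq_one A hM hζinv.pow_eq_one
  refine ⟨z, ?_, ?_⟩
  · -- primitivity through the injective map `Aˣ → ℂ`
    have hinj : Function.Injective (Units.map ((iotaQbar.comp A.subtype : A →+* ℂ) : A →* ℂ)) :=
      Units.map_injective (iota_comp_injective A)
    have hmap : IsPrimitiveRoot (Units.map ((iotaQbar.comp A.subtype : A →+* ℂ) : A →* ℂ) z) M := by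
      rw [← IsPrimitiveRoot.coe_units_iff]
      have : ((Units.map ((iotaQbar.comp A.subtype : A →+* ℂ) : A →* ℂ) z : ℂˣ) : ℂ)
          = (zetaN M)⁻¹ := by
        rw [Units.coe_map]
        exact hz
      rw [this]
      exact hζinv
    exact IsPrimitiveRoot.of_map_of_injective hmap hinj
  · intro n γ d
    apply Fermat.Agent.Lib.ModJ.coeffMap_injective _ (iota_comp_injective A)
    rw [coeffMap_genA, Fermat.Agent.S28.coeffMap_rot, coeffMap_genA]
    have h := phiInf_T_zpow_mul iotaQbar M n γ (MvPolynomial.X d)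
    rw [phiInf_X, phiInf_X] at h
    rw [h, rotInf]
    ext m
    rw [coeff_rotL, Fermat.Agent.S28.coeff_rot]
    congr 1
    have h1 : ((Units.map ((iotaQbar.comp A.subtype : A →+* ℂ) : A →* ℂ) (z ^ n) : ℂˣ) : ℂ)
        = zetaN M ^ (-n) := by
      rw [map_zpow, Units.val_zpow_eq_zpow_val, Units.coe_map]
      have hz' : ((iotaQbar.comp A.subtype : A →+* ℂ) : A →* ℂ) ((z : A)) = (zetaN M)⁻¹ := hz
      rw [hz', inv_zpow, zpow_neg]
    rw [← h1, Units.val_zpow_eq_zpow_val]

end Fermat.Agent.S18.Cusp
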