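import Mathlib
import Fermat.Agent.S18.CuspEmb
import Fermat.Agent.S18.CuspRoots
import Fermat.Agent.S18.CuspRot
import Fermat.Agent.Lib.ModC.Model

/-!
# S18 (C76), cusp embeddings, part 4: the model at the cusp `∞` in characteristic `ℓ`

`infModelK : Model k F_k(M) M (J⁻¹) M T` with the embeddings `tauK γ : F_k(M) → k((t))`.
-/

set_option autoImplicit false
set_option linter.unusedSectionVars false

noncomputable section

namespace Fermat.Agent.S18.Cusp

open ModularCurve Fermat.Agent.S18.GV Fermat.Agent.Lib.ModC Fermat.Agent.Lib.ModJ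
open Fermat.Agent.Lib.FF
open IntermediateField CongruenceSubgroup
open scoped MatrixGroups

local notation "Qb" => AlgebraicClosure ℚ

theorem isOrdFun_orderK (k : Type*) [Field k] : IsOrdFun (fun L : LaurentSeries k => L.order) where
  mul _ _ hf hg := HahnSeries.order_mul hf hg
  add _ _ _ _ hfg := HahnSeries.min_order_le_order_add hfg

section Model

set_option synthInstance.maxHeartbeats 400000
set_option maxHeartbeats 1000000

variable (A : ValuationSubring Qb) (ℓ : ℕ) [hℓ : Fact ℓ.Prime]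
variable (hA : A.LiesOverPrime ℓ) (M : ℕ) [NeZero M] (hℓM : ¬ ℓ ∣ M)

local notation "kA" => IsLocalRing.ResidueField A

/-- the residue map on units -/
abbrev resU : Aˣ →* (IsLocalRing.ResidueField A)ˣ :=
  Units.map ((IsLocalRing.residue A : A →+* IsLocalRing.ResidueField A) :
    A →* IsLocalRing.ResidueField A)

theorem genK_eq_tw' (γ : SL(2, ℤ)) (d : DivIdx M) :
    genK A M γ d = tw (resU A (uGen A M γ d)) (kGen A M γ d) :=
  genK_eq_tw A M γ d

include hA hℓM in
/-- the reduced generators determine the generators -/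
theorem genA_eq_of_genK_eq {γ γ' : SL(2, ℤ)} {d : DivIdx M}
    (h : genK A M γ d = genK A M γ' d) : genA A M γ d = genA A M γ' d := by
  rw [genK_eq_tw', genK_eq_tw'] at h
  obtain ⟨hu, hk⟩ := tw_injective h
  have hu' : uGen A M γ d = uGen A M γ' d := by
    refine unit_eq_of_residue_eq A ℓ hA hℓM (uGen_pow A M γ d) (uGen_pow A M γ' d) ?_
    have := congrArg Units.val hu
    exact this
  rw [genA, genA, hu', hk]

include hA hℓM in
theorem tauK_eq_iff (γ γ' : SL(2, ℤ)) :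
    tauK A ℓ hA M hℓM γ = tauK A ℓ hA M hℓM γ' ↔ γ⁻¹ * γ' ∈ Gamma0 M := by
  rw [← genA_eq_iff_mem A M γ γ']
  constructor
  · intro h d
    exact genA_eq_of_genK_eq A ℓ hA M hℓM (genK_eq_of_tauK_eq A ℓ hA M hℓM h d)
  · intro h
    apply tauK_eq_of_genK_eq
    intro d
    rw [genK, genK, h d]

/-- the unit of the rotation -/
def zA : Aˣ := (exists_zA A M).choose

theorem zA_primitive : IsPrimitiveRoot (zA A M) M := (exists_zA A M).choose_spec.1

theorem genA_T_zpow_mul (n : ℤ) (γ : SL(2, ℤ)) (d : DivIdx M) :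
    genA A M (ModularGroup.T ^ n * γ) d = Fermat.Agent.S28.rot (zA A M ^ n) (genA A M γ d) :=
  (exists_zA A M).choose_spec.2 n γ d

/-- the reduced unit of the rotation -/
def zK : (IsLocalRing.ResidueField A)ˣ := resU A (zA A M)

include hA hℓM in
theorem zK_primitive : IsPrimitiveRoot (zK A M) M :=
  isPrimitiveRoot_residue A ℓ hA hℓM (zA_primitive A M)

theorem genK_T_zpow_mul (n : ℤ) (γ : SL(2, ℤ)) (d : DivIdx M) :
    genK A M (ModularGroup.T ^ n * γ) d = Fermat.Agent.S28.rot (zK A M ^ n) (genK A M γ d) := by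
  rw [genK, genA_T_zpow_mul, red, Fermat.Agent.S28.coeffMap_rot, map_zpow]
  rfl

theorem tauK_T_zpow_mul (n : ℤ) (γ : SL(2, ℤ)) :
    tauK A ℓ hA M hℓM (ModularGroup.T ^ n * γ)
      = ((Fermat.Agent.S28.rot (zK A M ^ n) : LaurentSeries kA ≃+* LaurentSeries kA) :
          LaurentSeries kA →+* LaurentSeries kA).comp (tauK A ℓ hA M hℓM γ) := by
  apply tauK_eq_comp
  · intro c
    exact Fermat.Agent.S28.rot_C _ c
  · intro d
    exact genK_T_zpow_mul A M n γ d

theorem order_tauK_T_mul (γ : SL(2, ℤ)) (f : ↥(modularFunctionFieldFullC kA M)) :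
    (tauK A ℓ hA M hℓM (ModularGroup.T * γ) f).order = (tauK A ℓ hA M hℓM γ f).order := by
  have h := tauK_T_zpow_mul A ℓ hA M hℓM 1 γ
  rw [zpow_one] at h
  rw [h, RingHom.comp_apply]
  exact Fermat.Agent.S28.order_rot _ _

include hA hℓM in
theorem width_dvd_K (γ : SL(2, ℤ)) (h : ℤ) (hγ : γ⁻¹ * ModularGroup.T ^ h * γ ∈ Gamma0 M)
    {f : ↥(modularFunctionFieldFullC kA M)} (hf : f ≠ 0) :
    (M : ℤ) ∣ h * (tauK A ℓ hA M hℓM γ f).order := by
  have hM : 0 < M := Nat.pos_of_ne_zero (NeZero.ne M)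
  have h1 : tauK A ℓ hA M hℓM γ = tauK A ℓ hA M hℓM (ModularGroup.T ^ h * γ) := by
    rw [tauK_eq_iff, ← mul_assoc]
    exact hγ
  have h2 : Fermat.Agent.S28.rot (zK A M ^ h) (tauK A ℓ hA M hℓM γ f)
      = tauK A ℓ hA M hℓM γ f := by
    have := congrArg (fun τ => τ f) (tauK_T_zpow_mul A ℓ hA M hℓM h γ)
    simp only [RingHom.comp_apply] at this
    rw [← h1] at this
    exact this.symm
  have h3 : tauK A ℓ hA M hℓM γ f ≠ 0 := (map_ne_zero _).mpr hf
  exact dvd_order_of_rot_eq hM (zK_primitive A ℓ hA M hℓM) h3 h h2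

theorem qExpand_jqModC_eq_tw (k : Type*) [Field k] :
    ∃ K : ℕ+, (K : ℕ) = M ∧ qExpand k M (jqModC k) = tw (1 : kˣ) K := by
  obtain ⟨K, hK⟩ : ∃ K : ℕ+, (K : ℕ) = M := ⟨⟨M, Nat.pos_of_ne_zero (NeZero.ne M)⟩, rfl⟩
  refine ⟨K, hK, ?_⟩
  rw [tw_one_eq]
  exact qExpand_congr hK.symm _

theorem order_tauK_jK_inv (γ : SL(2, ℤ)) :
    (tauK A ℓ hA M hℓM γ (jK kA M)⁻¹).order = (M : ℤ) := by
  obtain ⟨K, hK, hq⟩ := qExpand_jqModC_eq_tw M kA
  have hne : tauK A ℓ hA M hℓM γ (jK kA M) ≠ 0 := by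
    rw [tauK_jK, hq]
    exact tw_ne_zero _ _
  rw [map_inv₀, (isOrdFun_orderK kA).inv hne, tauK_jK, hq, order_tw, neg_neg, hK]

/-- **the model at `∞` in characteristic `ℓ`** -/
def infModelK :
    Model kA ↥(modularFunctionFieldFullC kA M) M (jK kA M)⁻¹ M ModularGroup.T where
  Ω := LaurentSeries kA
  w := fun L => L.order
  isOrdFun := isOrdFun_orderK kA
  τ := tauK A ℓ hA M hℓM
  τ_eq_iff := tauK_eq_iff A ℓ hA M hℓM
  τ_const γ c := by
    rw [tauK_algebraMap, tauK_algebraMap]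
  τ_y γ := by
    rw [map_inv₀, map_inv₀, tauK_jK, tauK_jK]
  w_const γ c _ := by
    show (tauK A ℓ hA M hℓM γ (algebraMap kA _ c)).order = 0
    rw [tauK_algebraMap]
    exact HahnSeries.order_C
  w_y := order_tauK_jK_inv A ℓ hA M hℓM 1
  w_stab γ f := order_tauK_T_mul A ℓ hA M hℓM γ f
  w_dvd γ f h hf _ hγ := by
    have := width_dvd_K A ℓ hA M hℓM γ (h : ℤ) (by rwa [zpow_natCast]) hf
    exact this

end Model

end Fermat.Agent.S18.Cusp
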