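import Mathlib
import Fermat.Prelude.Def_ModularCurve_GenusNumerics
import Fermat.Agent.Lib.Gamma0Count.PrimCount

/-!
# S18 (C76): **(G3)** — the Riemann–Hurwitz arithmetic for `X₀(M) → X₀(a)`, `a ∈ {4, 9}`

For `a ∈ {4, 9}` with `a ∣ M`: `ν₂(M) = ν₃(M) = 0`, `genusFormula a = 0`, and with
`ψ(M) = n · ψ(a)`, `g = genusFormula M`:
`2 g − 2 + 2 n = n · c(a) − c(M)`.
-/

set_option autoImplicit false

namespace Fermat.Agent.S18.GV

open ModularCurve

theorem nuTwo_eq_zero_of_dvd {d M : ℕ} (hd : d ∣ M) (h : ∀ x : ZMod d, x ^ 2 + 1 ≠ 0) :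
    nuTwo M = 0 := by
  have : IsEmpty {x : ZMod M // x ^ 2 + 1 = 0} := by
    refine ⟨fun x => ?_⟩
    apply h (ZMod.castHom hd (ZMod d) x.1)
    rw [← map_pow, ← map_one (ZMod.castHom hd (ZMod d)), ← map_add, x.2, map_zero]
  exact Nat.card_of_isEmpty

theorem nuThree_eq_zero_of_dvd {d M : ℕ} (hd : d ∣ M) (h : ∀ x : ZMod d, x ^ 2 + x + 1 ≠ 0) :
    nuThree M = 0 := by
  have : IsEmpty {x : ZMod M // x ^ 2 + x + 1 = 0} := by
    refine ⟨fun x => ?_⟩
    apply h (ZMod.castHom hd (ZMod d) x.1)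
    rw [← map_pow, ← map_one (ZMod.castHom hd (ZMod d)), ← map_add, ← map_add, x.2, map_zero]
  exact Nat.card_of_isEmpty

theorem nuTwo_eq_zero_of_four_dvd {M : ℕ} (h : 4 ∣ M) : nuTwo M = 0 :=
  nuTwo_eq_zero_of_dvd h (by decide)

theorem nuTwo_eq_zero_of_three_dvd {M : ℕ} (h : 3 ∣ M) : nuTwo M = 0 :=
  nuTwo_eq_zero_of_dvd h (by decide)

theorem nuThree_eq_zero_of_two_dvd {M : ℕ} (h : 2 ∣ M) : nuThree M = 0 :=
  nuThree_eq_zero_of_dvd h (by decide)

theorem nuThree_eq_zero_of_nine_dvd {M : ℕ} (h : 9 ∣ M) : nuThree M = 0 :=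
  nuThree_eq_zero_of_dvd h (by decide)

theorem dedekindPsi_four : dedekindPsi 4 = 6 := by
  have := Fermat.Agent.Lib.Gamma0Count.dedekindPsi_prime_pow (p := 2) (k := 2) Nat.prime_two
    (by norm_num)
  norm_num at this
  exact this

theorem dedekindPsi_nine : dedekindPsi 9 = 12 := by
  have := Fermat.Agent.Lib.Gamma0Count.dedekindPsi_prime_pow (p := 3) (k := 2) Nat.prime_three
    (by norm_num)
  norm_num at this
  exact this

theorem cuspCount_four : cuspCount 4 = 3 := by decide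

theorem cuspCount_nine : cuspCount 9 = 4 := by decide

theorem nu_eq_zero_of_dvd {a M : ℕ} (ha : a = 4 ∨ a = 9) (haM : a ∣ M) :
    nuTwo M = 0 ∧ nuThree M = 0 := by
  rcases ha with rfl | rfl
  · exact ⟨nuTwo_eq_zero_of_four_dvd haM,
      nuThree_eq_zero_of_two_dvd (Dvd.dvd.trans (by norm_num) haM)⟩
  · exact ⟨nuTwo_eq_zero_of_three_dvd (Dvd.dvd.trans (by norm_num) haM),
      nuThree_eq_zero_of_nine_dvd haM⟩

theorem genusFormula_four : genusFormula 4 = 0 := by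
  obtain ⟨h2, h3⟩ := nu_eq_zero_of_dvd (a := 4) (M := 4) (Or.inl rfl) dvd_rfl
  rw [genusFormula, h2, h3, dedekindPsi_four, cuspCount_four]
  norm_num

theorem genusFormula_nine : genusFormula 9 = 0 := by
  obtain ⟨h2, h3⟩ := nu_eq_zero_of_dvd (a := 9) (M := 9) (Or.inr rfl) dvd_rfl
  rw [genusFormula, h2, h3, dedekindPsi_nine, cuspCount_nine]
  norm_num

theorem genusFormula_eq_zero {a : ℕ} (ha : a = 4 ∨ a = 9) : genusFormula a = 0 := by
  rcases ha with rfl | rfl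
  · exact genusFormula_four
  · exact genusFormula_nine

/-- **(G3)**, equality form over `ℚ`. -/
theorem g3_eq {a M n : ℕ} (ha : a = 4 ∨ a = 9) (haM : a ∣ M)
    (hn : dedekindPsi M = n * dedekindPsi a) :
    2 * genusFormula M - 2 + 2 * (n : ℚ) = n * (cuspCount a : ℚ) - (cuspCount M : ℚ) := by
  obtain ⟨h2, h3⟩ := nu_eq_zero_of_dvd ha haM
  rw [genusFormula, h2, h3, hn]
  rcases ha with rfl | rfl
  · rw [dedekindPsi_four, cuspCount_four]
    push_cast
    ring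
  · rw [dedekindPsi_nine, cuspCount_nine]
    push_cast
    ring

/-- **(G3)**: the Riemann–Hurwitz arithmetic, in the form used by `NSC.ns_of_counts`. -/
theorem g3 {a M n : ℕ} (ha : a = 4 ∨ a = 9) (haM : a ∣ M)
    (hn : dedekindPsi M = n * dedekindPsi a) (g : ℕ) (hg : (g : ℚ) = genusFormula M) :
    2 * ((g : ℕ) : ℤ) - 2 + 2 * (n : ℤ) ≤ n * (cuspCount a : ℕ) - (cuspCount M : ℕ) := by
  have h := g3_eq ha haM hn
  rw [← hg] at h
  have h' : (2 * ((g : ℕ) : ℤ) - 2 + 2 * (n : ℤ) : ℤ)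
      = (n : ℤ) * ((cuspCount a : ℕ) : ℤ) - ((cuspCount M : ℕ) : ℤ) := by
    exact_mod_cast h
  exact le_of_eq h'

/-- `g = 0` at level `a ∈ {4, 9}`. -/
theorem genus_eq_zero {a : ℕ} (ha : a = 4 ∨ a = 9) (g : ℕ) (hg : (g : ℚ) = genusFormula a) :
    g = 0 := by
  rw [genusFormula_eq_zero ha] at hg
  exact_mod_cast hg

theorem dedekindPsi_pos' {M : ℕ} (hM : M ≠ 0) : 0 < dedekindPsi M := by
  rw [dedekindPsi]
  have h1 : (1 : ℕ) ∈ M.divisors.filter (fun d => Squarefree d) := by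
    simp [hM]
  have hle : M / 1 ≤ ∑ d ∈ M.divisors.filter (fun d => Squarefree d), M / d :=
    Finset.single_le_sum (f := fun d => M / d) (fun _ _ => Nat.zero_le _) h1
  have : 0 < M / 1 := by
    rw [Nat.div_one]; exact Nat.pos_of_ne_zero hM
  exact lt_of_lt_of_le this hle

/-- the levels used in the final glue: `M = N · b²` with `b ∈ {2, 3}`. -/
theorem dvd_mul_sq {N b : ℕ} (hb : b = 2 ∨ b = 3) :
    (b ^ 2 = 4 ∨ b ^ 2 = 9) ∧ b ^ 2 ∣ N * b ^ 2 := by
  refine ⟨?_, Dvd.intro_left N rfl⟩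
  rcases hb with rfl | rfl
  · left; norm_num
  · right; norm_num

end Fermat.Agent.S18.GV
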