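import Fermat.Agent.S18.FinalNS
import Fermat.Agent.S18.GVArith
import Fermat.Agent.Lib.Gamma0Count.PrimCount

/-!
# S18 (C76), final glue, part 3: S18 from the pole count of `J` in characteristic `ℓ`

* `PoleCount A ℓ`: `J` has exactly `cuspCount M'` poles in `F_k(M')` for every level `M'` prime
  to `ℓ`;
* `exists_psi_eq`: `ψ(b²) ∣ ψ(N b²)`;
* `starRed_of_polecount`: `(*)` at level `N b²`, `b ∈ {2, 3}`, `b ≠ ℓ`;
* `s18_of_polecount`: the statement of S18 from `PoleCount`.
-/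

set_option autoImplicit false
set_option linter.unusedSectionVars false
set_option linter.unusedVariables false
set_option linter.style.haveILetI false
set_option synthInstance.maxHeartbeats 400000
set_option maxHeartbeats 1000000

noncomputable section

open AlgebraicCurve ModularCurve IntermediateField Fermat.Agent.Lib.FF

namespace Fermat.Agent.S18.Final

local notation "Qb" => AlgebraicClosure ℚ

/-- **(COUNT)**: in characteristic `ℓ`, `J` has exactly `cuspCount M'` poles in `F_k(M')` -/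
def PoleCount (A : ValuationSubring (AlgebraicClosure ℚ)) (ℓ : ℕ) : Prop :=
  ∀ (M' : ℕ) [NeZero M'], ¬ ℓ ∣ M' →
    nPoles (K := IsLocalRing.ResidueField A) (GV.jK (IsLocalRing.ResidueField A) M')
      = cuspCount M'

theorem exists_psi_eq (N b : ℕ) (hN : N ≠ 0) (hb : b.Prime) :
    ∃ n : ℕ, dedekindPsi (N * b ^ 2) = n * dedekindPsi (b ^ 2) := by
  obtain ⟨e, m', hm', hNe⟩ := Nat.exists_eq_pow_mul_and_not_dvd hN b hb.ne_one
  have hcop : (b ^ (e + 2)).Coprime m' :=
    Nat.Coprime.pow_left _ ((Nat.Prime.coprime_iff_not_dvd hb).2 hm')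
  have h1 : N * b ^ 2 = b ^ (e + 2) * m' := by
    rw [hNe]; ring
  rw [h1, Fermat.Agent.Lib.Gamma0Count.dedekindPsi_mul hcop,
    Fermat.Agent.Lib.Gamma0Count.dedekindPsi_prime_pow hb (by omega),
    Fermat.Agent.Lib.Gamma0Count.dedekindPsi_prime_pow hb (by omega)]
  refine ⟨b ^ e * dedekindPsi m', ?_⟩
  have h2 : e + 2 - 1 = e + 1 := by omega
  have h3 : 2 - 1 = 1 := by omega
  rw [h2, h3]
  ring

variable (A : ValuationSubring (AlgebraicClosure ℚ)) (ℓ : ℕ) [hℓ : Fact ℓ.Prime]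
variable (hA : A.LiesOverPrime ℓ)

include hA in
/-- `(*)` at the level `N b²` -/
theorem starRed_of_polecount (hPC : PoleCount A ℓ) (N : ℕ) [NeZero N] (b : ℕ) [NeZero b]
    (hb : b.Prime) (hb23 : b = 2 ∨ b = 3) (hbℓ : b ≠ ℓ) (hℓN : ¬ ℓ ∣ N) :
    Desc.StarRed A ℓ (N * b ^ 2) := by
  have hℓM : ¬ ℓ ∣ N * b ^ 2 := by
    intro h
    rcases (Nat.Prime.dvd_mul hℓ.out).1 h with h | h
    · exact hℓN h
    · have := (Nat.prime_dvd_prime_iff_eq hℓ.out hb).1 (hℓ.out.dvd_of_dvd_pow h)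
      exact hbℓ this.symm
  have ha := (GV.dvd_mul_sq (N := N) hb23).1
  have haM := (GV.dvd_mul_sq (N := N) hb23).2
  have hℓa : ¬ ℓ ∣ b ^ 2 := fun h => hℓM (h.trans haM)
  obtain ⟨n, hn⟩ := exists_psi_eq N b (NeZero.ne N) hb
  apply starRed_of_ns A ℓ hA (N * b ^ 2) hℓM
  intro g hg
  have harith := GV.g3 ha haM hn g hg
  have hc₀ := hPC (b ^ 2) hℓa
  have hc := hPC (N * b ^ 2) hℓM
  exact ns_of_polecount A ℓ hA (N * b ^ 2) hℓM (b ^ 2) haM (GV.genusFormula_eq_zero ha) n hn
    hc₀.ge hc.le g harith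

include hA in
/-- **S18 from the pole count.** -/
theorem s18_of_polecount (hPC : PoleCount A ℓ) (N : ℕ) [NeZero N] (hℓN : ¬ ℓ ∣ N)
    (h : ModularCurve.ReductionInputsModL A N) (m : ℕ) (hm : ¬ ℓ ∣ m)
    (z : ModularCurve.JZero N) (hmz : m • z = 0) (hz : ModularCurve.reductionModL A N z = 0) :
    z = 0 := by
  haveI := ResClosed.isAlgClosed_residueField A
  have hconst : ∀ f : modularFunctionFieldFullC (IsLocalRing.ResidueField A) N, f ≠ 0 →
      (∀ Q : Place (IsLocalRing.ResidueField A)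
        (modularFunctionFieldFullC (IsLocalRing.ResidueField A) N), Q.ord f = 0) →
      ∃ c : IsLocalRing.ResidueField A,
        algebraMap (IsLocalRing.ResidueField A)
          (modularFunctionFieldFullC (IsLocalRing.ResidueField A) N) c = f := by
    intro f _ hf
    obtain ⟨c, hc⟩ := Fermat.Agent.Lib.FFs.const_of_isFF1s (isFF1s_jK A ℓ hA N) f
      (fun v => (hf v).ge)
    exact ⟨c, hc.symm⟩
  by_cases h2 : ℓ = 2
  · -- `b = 3`
    haveI : NeZero (3 : ℕ) := ⟨by norm_num⟩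
    have hstar := starRed_of_polecount A ℓ hA hPC N 3 Nat.prime_three (Or.inr rfl)
      (by omega) hℓN
    exact Desc.s18_of_starRed N A 3 Nat.prime_three 2 hconst hstar h m hm z hmz hz
  · -- `b = 2`
    haveI : NeZero (2 : ℕ) := ⟨by norm_num⟩
    have hstar := starRed_of_polecount A ℓ hA hPC N 2 Nat.prime_two (Or.inl rfl)
      (fun h => h2 h.symm) hℓN
    exact Desc.s18_of_starRed N A 2 Nat.prime_two 2 hconst hstar h m hm z hmz hz

end Fermat.Agent.S18.Final
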