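import Fermat.Agent.S18.SepK
import Fermat.Agent.Lib.FFs.Sep
import Fermat.Agent.S28.Prime
import Fermat.Prelude.Def_ModularCurve_X0ModL

/-!
# S18: `J` is a separating element of `F_k(M)`

`k` a perfect field of characteristic `ℓ`, `F_k(M) = modularFunctionFieldFullC k M ⊆ k((q))`.
If `F_k(M)` is finite over `k(J)`, then `J` is a separating transcendental element:
`IsFF1s k F_k(M) J`.  Also for any other transcendental element `t` of `F_k(M)` with `ℓ ∤ ord_q t`.
-/

set_option autoImplicit false
set_option linter.unusedSectionVars false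
set_option linter.unusedVariables false
set_option linter.style.haveILetI false
set_option linter.deprecated false

open Polynomial IntermediateField ModularCurve

namespace Fermat.Agent.S18.SepK

variable (k : Type*) [Field k]

theorem order_jqModC : (jqModC k).order = -1 := by
  have hne : jqModC k ≠ 0 := jqModC_ne_zero_of_nontrivial k
  apply le_antisymm
  · exact HahnSeries.order_le_of_coeff_ne_zero (by rw [coeff_jqModC_neg_one]; exact one_ne_zero)
  · by_contra hlt
    rw [not_le] at hlt
    have h1 : (jqModC k).coeff (jqModC k).order ≠ 0 := by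
      rwa [ne_eq, HahnSeries.coeff_order_eq_zero]
    exact h1 (coeff_jqModC_of_lt k hlt)

/-- `J` as an element of `F_k(M)` -/
noncomputable def jK (M : ℕ) [NeZero M] : modularFunctionFieldFullC k M :=
  ⟨jqModC k, jqModC_mem_full k M⟩

theorem coe_jK (M : ℕ) [NeZero M] : ((jK k M : modularFunctionFieldFullC k M) : LaurentSeries k)
    = jqModC k := rfl

theorem transcendental_jK (M : ℕ) [NeZero M] : Transcendental k (jK k M) := by
  intro halg
  apply Fermat.Agent.S28.transcendental_jqModC' (k := k)
  have := halg.algHom (modularFunctionFieldFullC k M).val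
  exact this

/-- a separating element of a subfield of `k((q))` from its order -/
theorem isFF1s_of_order (ℓ : ℕ) [hℓ : Fact ℓ.Prime] [CharP k ℓ] [PerfectField k]
    (F : IntermediateField k (LaurentSeries k)) (x : F)
    (hx : ¬ (ℓ : ℤ) ∣ (x : LaurentSeries k).order) (htr : Transcendental k x)
    (hfin : FiniteDimensional k⟮x⟯ F) : Fermat.Agent.Lib.FFs.IsFF1s k F x :=
  ⟨htr, hfin, isSeparable_of_order ℓ (algebraMap F (LaurentSeries k)) x hx
    (Algebra.IsAlgebraic.of_finite _ _)⟩

/-- **`J` is a separating element of `F_k(M)`** -/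
theorem isFF1s_jK (ℓ : ℕ) [hℓ : Fact ℓ.Prime] [CharP k ℓ] [PerfectField k] (M : ℕ) [NeZero M]
    (hfin : FiniteDimensional k⟮jK k M⟯ (modularFunctionFieldFullC k M)) :
    Fermat.Agent.Lib.FFs.IsFF1s k (modularFunctionFieldFullC k M) (jK k M) := by
  refine isFF1s_of_order k ℓ _ _ ?_ (transcendental_jK k M) hfin
  rw [coe_jK, order_jqModC]
  intro h
  have h1 : (ℓ : ℤ) ∣ 1 := (dvd_neg).mp h
  have h2 := Int.eq_one_of_dvd_one (Int.natCast_nonneg ℓ) h1
  have := hℓ.out.one_lt
  omega

end Fermat.Agent.S18.SepK
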