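import Fermat.Agent.S18.GVDeg
import Fermat.Agent.S18.SepJ
import Fermat.Agent.Lib.ModCs.CountS
import Fermat.Agent.Lib.ModC.Counts

/-!
# S18 (C76): the number of poles of `J` in `F_k(M)` is the number of cusps

`nPoles_of_modelK`: from a model (cusp embeddings) of `F_k(M)` at `y = J⁻¹`, width `M`,
`δ = T`: `nPoles J = cuspCount M`.  (Port of `ModC.nPoles_of_model` to characteristic `ℓ`.)
-/

set_option autoImplicit false
set_option linter.unusedSectionVars false
set_option linter.style.haveILetI false
set_option synthInstance.maxHeartbeats 400000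
set_option maxHeartbeats 1000000

noncomputable section

namespace Fermat.Agent.S18.GV

open ModularCurve Polynomial IntermediateField AlgebraicCurve Fermat.Agent.Lib.FF
open Fermat.Agent.Lib.FFs Fermat.Agent.Lib.ModC Fermat.Agent.Lib.Gamma0Count
open scoped MatrixGroups

local notation "Qb" => AlgebraicClosure ℚ

variable (A : ValuationSubring (AlgebraicClosure ℚ)) (ℓ : ℕ) [hℓ : Fact ℓ.Prime]
variable (hA : A.LiesOverPrime ℓ) (M : ℕ) [NeZero M] (hℓM : ¬ ℓ ∣ M)

include hA in
/-- `J` is a separating element of `F_k(M)` (any level `M`) -/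
theorem isFF1s_jK [IsAlgClosed (IsLocalRing.ResidueField A)] :
    IsFF1s (IsLocalRing.ResidueField A)
      (modularFunctionFieldFullC (IsLocalRing.ResidueField A) M)
      (jK (IsLocalRing.ResidueField A) M) := by
  haveI := charP_residueField A ℓ hA
  exact Fermat.Agent.S18.SepK.isFF1s_jK (IsLocalRing.ResidueField A) ℓ M
    (finiteDimensional_ffC A ℓ hA M)

include hA in
/-- the place facts of `F_k(M)` (any level `M`) -/
theorem placeFacts_ffC [IsAlgClosed (IsLocalRing.ResidueField A)] :
    PlaceFacts (IsLocalRing.ResidueField A)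
      (modularFunctionFieldFullC (IsLocalRing.ResidueField A) M) :=
  placeFacts_of_isFF1s (isFF1s_jK A ℓ hA M)

include hA hℓM in
/-- **the number of poles of `J` in `F_k(M)` is `cuspCount M`**, from a model at the cusps -/
theorem nPoles_of_modelK [IsAlgClosed (IsLocalRing.ResidueField A)]
    (Mod : Model (IsLocalRing.ResidueField A)
      (modularFunctionFieldFullC (IsLocalRing.ResidueField A) M) M
      (jK (IsLocalRing.ResidueField A) M)⁻¹ M ModularGroup.T) :
    nPoles (K := IsLocalRing.ResidueField A) (jK (IsLocalRing.ResidueField A) M)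
      = cuspCount M := by
  haveI := finite_quotient_Gamma0 M
  have hx := isFF1s_jK A ℓ hA M
  have hy := hx.inv
  have h := Mod.card_zeros_s (Nat.pos_of_ne_zero (NeZero.ne M)) hy
    (by rw [finrank_adjoin_inv, finrank_ffC A ℓ hA M hℓM, card_quotient])
  have h3 := h.trans (card_orbits_T M)
  rw [nPoles, ← h3]
  apply Nat.card_congr
  exact Equiv.subtypeEquivRight (fun v => by rw [Place.ord_inv]; omega)

end Fermat.Agent.S18.GV
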