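import Mathlib
import Fermat.Agent.S18.CuspModel
import Fermat.Agent.S18.GVPoles
import Fermat.Agent.S18.FinalGlue

/-!
# S18 (C76): the pole count `nPoles J = cuspCount M` in characteristic `ℓ`, and S18
-/

set_option autoImplicit false

namespace Fermat.Agent.S18.Cusp

open ModularCurve

/-- **(COUNT)**: for every level `M'` prime to `ℓ`, `J` has exactly `cuspCount M'` poles in
`F_k(M')`. -/
theorem poleCount (A : ValuationSubring (AlgebraicClosure ℚ)) (ℓ : ℕ) [Fact ℓ.Prime]
    (hA : A.LiesOverPrime ℓ) : Fermat.Agent.S18.Final.PoleCount A ℓ := by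
  intro M' _ hℓM'
  haveI := Fermat.Agent.S18.ResClosed.isAlgClosed_residueField A
  exact Fermat.Agent.S18.GV.nPoles_of_modelK A ℓ hA M' hℓM' (infModelK A ℓ hA M' hℓM')

end Fermat.Agent.S18.Cusp
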