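import Fermat.Agent.S18.GVFF

/-!
# S18 (C76): the elements of `F(M)` have their `q`-coefficients in a number field

`isFin_of_eps_mem_ff`: `ε y ∈ F(M)` ⟹ `IsFin y`; hence `Red (ε y) (red y)`.
-/

set_option autoImplicit false
set_option linter.unusedSectionVars false

noncomputable section

namespace Fermat.Agent.S18.GV

open ModularCurve Polynomial IntermediateField

variable {L : Type*} [Field L] [Algebra ℚ L]

/-- the coefficients of `x : L((q))` lie in a finite extension of `ℚ` -/
def IsFinL (x : LaurentSeries L) : Prop :=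
  ∃ K : IntermediateField ℚ L, FiniteDimensional ℚ K ∧ ∀ n, x.coeff n ∈ K

/-- the junk-valued retraction `L → K` -/
def toK (K : IntermediateField ℚ L) : ZeroHom L K where
  toFun c := haveI := Classical.propDecidable; if h : c ∈ K then ⟨c, h⟩ else 0
  map_zero' := by
    rw [dif_pos K.zero_mem]; rfl

theorem toK_of_mem (K : IntermediateField ℚ L) {c : L} (h : c ∈ K) : ((toK K c : K) : L) = c := by
  show (((haveI := Classical.propDecidable; if h : c ∈ K then (⟨c, h⟩ : K) else 0) : K) : L) = c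
  rw [dif_pos h]

theorem coeffMap_map_toK (K : IntermediateField ℚ L) {x : LaurentSeries L}
    (hx : ∀ n, x.coeff n ∈ K) :
    coeffMap (algebraMap K L) (x.map (toK K)) = x := by
  apply HahnSeries.ext
  funext n
  rw [coeffMap_coeff]
  show algebraMap K L (toK K (x.coeff n)) = x.coeff n
  exact toK_of_mem K (hx n)

theorem IsFinL.inv {x : LaurentSeries L} (hx : IsFinL x) : IsFinL x⁻¹ := by
  obtain ⟨K, hK, hxK⟩ := hx
  refine ⟨K, hK, fun n => ?_⟩
  have h1 := coeffMap_map_toK K hxK
  have h2 : x⁻¹ = coeffMap (algebraMap K L) (x.map (toK K))⁻¹ := by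
    rw [map_inv₀, h1]
  rw [h2, coeffMap_coeff]
  exact (((x.map (toK K))⁻¹).coeff n).2

theorem IsFinL.add {x y : LaurentSeries L} (hx : IsFinL x) (hy : IsFinL y) : IsFinL (x + y) := by
  obtain ⟨K₁, h₁, hK₁⟩ := hx
  obtain ⟨K₂, h₂, hK₂⟩ := hy
  refine ⟨K₁ ⊔ K₂, IntermediateField.finiteDimensional_sup K₁ K₂, fun n => ?_⟩
  rw [HahnSeries.coeff_add]
  exact add_mem ((le_sup_left : K₁ ≤ K₁ ⊔ K₂) (hK₁ n)) ((le_sup_right : K₂ ≤ K₁ ⊔ K₂) (hK₂ n))

theorem IsFinL.neg {x : LaurentSeries L} (hx : IsFinL x) : IsFinL (-x) := by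
  obtain ⟨K₁, h₁, hK₁⟩ := hx
  refine ⟨K₁, h₁, fun n => ?_⟩
  rw [HahnSeries.coeff_neg]
  exact neg_mem (hK₁ n)

theorem IsFinL.mul {x y : LaurentSeries L} (hx : IsFinL x) (hy : IsFinL y) : IsFinL (x * y) := by
  obtain ⟨K₁, h₁, hK₁⟩ := hx
  obtain ⟨K₂, h₂, hK₂⟩ := hy
  refine ⟨K₁ ⊔ K₂, IntermediateField.finiteDimensional_sup K₁ K₂, fun n => ?_⟩
  rw [HahnSeries.coeff_mul]
  refine sum_mem fun ij _ => ?_
  exact mul_mem ((le_sup_left : K₁ ≤ K₁ ⊔ K₂) (hK₁ _)) ((le_sup_right : K₂ ≤ K₁ ⊔ K₂) (hK₂ _))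

theorem isFinL_one : IsFinL (1 : LaurentSeries L) := by
  refine ⟨⊥, inferInstance, fun n => ?_⟩
  rw [HahnSeries.coeff_one]
  split_ifs
  · exact one_mem _
  · exact zero_mem _

theorem isFinL_zero : IsFinL (0 : LaurentSeries L) :=
  ⟨⊥, inferInstance, fun n => by rw [HahnSeries.coeff_zero]; exact zero_mem _⟩

theorem isFinL_coeffEmb (x : LaurentSeries ℚ) : IsFinL (coeffEmb L x) := by
  refine ⟨⊥, inferInstance, fun n => ?_⟩
  rw [coeffEmb_coeff]
  exact IntermediateField.algebraMap_mem _ _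

variable [Algebra.IsAlgebraic ℚ L]

theorem isFinL_C (c : L) : IsFinL (HahnSeries.C c : LaurentSeries L) := by
  have hc : IsIntegral ℚ c := (Algebra.IsAlgebraic.isAlgebraic c).isIntegral
  refine ⟨IntermediateField.adjoin ℚ {c}, IntermediateField.adjoin.finiteDimensional hc,
    fun n => ?_⟩
  show ((HahnSeries.single 0 c).coeff n) ∈ _
  by_cases hn : n = 0
  · subst hn
    rw [HahnSeries.coeff_single_same]
    exact IntermediateField.mem_adjoin_simple_self ℚ _
  · rw [HahnSeries.coeff_single_of_ne hn]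
    exact zero_mem _

/-- the field of Laurent series with coefficients in a number field -/
def finIF : IntermediateField L (LaurentSeries L) where
  carrier := {x | IsFinL x}
  mul_mem' := fun hx hy => hx.mul hy
  one_mem' := isFinL_one
  add_mem' := fun hx hy => hx.add hy
  zero_mem' := isFinL_zero
  inv_mem' := fun _ hx => hx.inv
  algebraMap_mem' := fun c => by
    show IsFinL (algebraMap L (LaurentSeries L) c)
    rw [algebraMap_laurentSeries_eq_single]
    exact isFinL_C c

/-- the elements of `F(M)` have coefficients in a number field -/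
theorem isFinL_of_mem_ff (F₀ : IntermediateField ℚ (LaurentSeries ℚ)) {x : LaurentSeries L}
    (hx : x ∈ laurentBaseChange L F₀) : IsFinL x := by
  have hle : laurentBaseChange L F₀ ≤ finIF := by
    rw [laurentBaseChange, IntermediateField.adjoin_le_iff]
    rintro _ ⟨y, _, rfl⟩
    exact isFinL_coeffEmb y
  exact hle hx

variable (A : ValuationSubring L)

theorem isFin_iff_isFinL (y : LaurentSeries A) : IsFin A y ↔ IsFinL (eps A y) := Iff.rfl

/-- **integral series in `F(M)` are of finite type** -/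
theorem isFin_of_eps_mem_ff (F₀ : IntermediateField ℚ (LaurentSeries ℚ)) {y : LaurentSeries A}
    (hy : eps A y ∈ laurentBaseChange L F₀) : IsFin A y :=
  isFinL_of_mem_ff F₀ hy

/-- **integral series in `F(M)` reduce coefficientwise** -/
theorem red_eps_of_mem_ff (F₀ : IntermediateField ℚ (LaurentSeries ℚ)) {y : LaurentSeries A}
    (hy : eps A y ∈ laurentBaseChange L F₀) : Red A (eps A y) (red A y) :=
  red_eps_of_isFin A (isFin_of_eps_mem_ff A F₀ hy)

/-- the same in the prelude's notation -/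
theorem red_coeffMap_of_mem_ff (F₀ : IntermediateField ℚ (LaurentSeries ℚ)) {y : LaurentSeries A}
    (hy : coeffMap A.subtype y ∈ laurentBaseChange L F₀) :
    Red A (coeffMap A.subtype y) (coeffMap (IsLocalRing.residue A) y) :=
  red_eps_of_mem_ff A F₀ hy

end Fermat.Agent.S18.GV
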