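import Mathlib
import Fermat.Prelude.Def_ModularCurve_ReductionModL

/-!
# S18, step (1): `S18(N) ⇐ (*)_N`

`StarProp A ℓ N` is the `r`-free statement `(*)_N`:
if `y₁, y₂` are integral `q`-expansions of elements of `F(N)` with the same nonzero
reduction, and `m • D = div(y₁) - div(y₂)` with `ℓ ∤ m`, then `D` is principal.

`s18_of_star`: S18 at level `N` follows from `(*)_N`, the finiteness of divisors of functions
in characteristic `0`, and "functions without zeros and poles are constant" in
characteristic `ℓ`.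
-/

set_option autoImplicit false
set_option synthInstance.maxHeartbeats 400000

noncomputable section

open HahnSeries IntermediateField AlgebraicCurve ModularCurve

namespace Fermat.Agent.S18

/-- `(*)_N`, the `r`-free torsion statement at level `N`. -/
def StarProp (A : ValuationSubring (AlgebraicClosure ℚ)) (ℓ N : ℕ) : Prop :=
  ∀ (y₁ y₂ : LaurentSeries A)
    (h₁ : coeffMap A.subtype y₁ ∈ modularFunctionFieldBar N)
    (h₂ : coeffMap A.subtype y₂ ∈ modularFunctionFieldBar N),
    coeffMap (IsLocalRing.residue A) y₁ = coeffMap (IsLocalRing.residue A) y₂ →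
    coeffMap (IsLocalRing.residue A) y₁ ≠ 0 →
    ∀ (D : Divisor (AlgebraicClosure ℚ) (modularFunctionFieldBar N)) (m : ℕ), ¬ ℓ ∣ m →
      (∀ P : Place (AlgebraicClosure ℚ) (modularFunctionFieldBar N),
        (m : ℤ) * D P = P.ord (⟨coeffMap A.subtype y₁, h₁⟩ : modularFunctionFieldBar N)
          - P.ord (⟨coeffMap A.subtype y₂, h₂⟩ : modularFunctionFieldBar N)) →
      D ∈ Divisor.principal (K := AlgebraicClosure ℚ) (F := modularFunctionFieldBar N)

section General

variable {K F : Type*} [Field K] [Field F] [Algebra K F]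

/-- Nonzero constants have order zero at every place. -/
theorem ord_algebraMap (P : Place K F) {c : K} (hc : c ≠ 0) : P.ord (algebraMap K F c) = 0 := by
  have h1 : algebraMap K F c ∈ P.toValuationSubring := P.algebraMap_mem' c
  have h2 : algebraMap K F c⁻¹ ∈ P.toValuationSubring := P.algebraMap_mem' c⁻¹
  have hmul : (⟨algebraMap K F c, h1⟩ : P.toValuationSubring) * ⟨algebraMap K F c⁻¹, h2⟩ = 1 := by
    apply Subtype.ext
    show algebraMap K F c * algebraMap K F c⁻¹ = 1
    rw [← map_mul, mul_inv_cancel₀ hc, map_one]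
  have hu : IsUnit (⟨algebraMap K F c, h1⟩ : P.toValuationSubring) :=
    IsUnit.of_mul_eq_one _ hmul
  obtain ⟨u, hu'⟩ := hu
  have := P.ord_coe_unit u
  rw [hu'] at this
  exact this

theorem ord_div (P : Place K F) {f g : F} (hf : f ≠ 0) (hg : g ≠ 0) :
    P.ord (f / g) = P.ord f - P.ord g := by
  rw [div_eq_mul_inv, P.ord_mul hf (inv_ne_zero hg), P.ord_inv]
  ring

end General

section Lift

variable (A : ValuationSubring (AlgebraicClosure ℚ)) (N : ℕ)

theorem coeffMap_subtype_qExpand_jqModC (d : ℕ) [NeZero d] :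
    coeffMap A.subtype (qExpand A d (jqModC A)) =
      coeffEmb (AlgebraicClosure ℚ) (qExpand ℚ d jq) := by
  rw [coeffMap_qExpand, coeffMap_jqModC, coeffEmb, coeffMap_qExpand, ← jqModC_rat, coeffMap_jqModC]

theorem isIntegralExp_qExpand_jqModC {d : ℕ} [NeZero d] (hd : d ∣ N) :
    coeffMap A.subtype (qExpand A d (jqModC A)) ∈ modularFunctionFieldBar N := by
  rw [coeffMap_subtype_qExpand_jqModC]
  exact coeffEmb_mem_laurentBaseChange _ (jqd_mem_full N hd)

theorem coeffMap_C {R S : Type*} [CommRing R] [CommRing S] (f : R →+* S) (c : R) :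
    coeffMap f (HahnSeries.C c : LaurentSeries R) = HahnSeries.C (f c) := by
  show coeffMap f (HahnSeries.single 0 c) = HahnSeries.single 0 (f c)
  rw [coeffMap_single]

theorem algebraMap_eq_C {k : Type*} [Field k] (c : k) :
    algebraMap k (LaurentSeries k) c = HahnSeries.C c := by
  rw [algebraMap_laurentSeries_eq_single]
  rfl

/-- Every element of the `k`-algebra generated by the `j(q^d)` lifts to an integral
`q`-expansion of an element of `F(N)`. -/
theorem exists_lift_of_mem_adjoin {x : LaurentSeries (IsLocalRing.ResidueField A)}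
    (hx : x ∈ Algebra.adjoin (IsLocalRing.ResidueField A)
      (divisorExpansionsC (IsLocalRing.ResidueField A) N)) :
    ∃ y : LaurentSeries A, coeffMap A.subtype y ∈ modularFunctionFieldBar N ∧
      coeffMap (IsLocalRing.residue A) y = x := by
  induction hx using Algebra.adjoin_induction with
  | mem x hx =>
    obtain ⟨d, hd0, hd, rfl⟩ := hx
    have := hd0
    refine ⟨qExpand A d (jqModC A), isIntegralExp_qExpand_jqModC A N hd, ?_⟩
    rw [coeffMap_qExpand, coeffMap_jqModC]
  | algebraMap c =>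
    obtain ⟨a, rfl⟩ := IsLocalRing.residue_surjective c
    refine ⟨HahnSeries.C a, ?_, ?_⟩
    · rw [coeffMap_C]
      have : (HahnSeries.C (A.subtype a) : LaurentSeries (AlgebraicClosure ℚ)) =
          algebraMap (AlgebraicClosure ℚ) (LaurentSeries (AlgebraicClosure ℚ)) (A.subtype a) :=
        (algebraMap_eq_C _).symm
      rw [this]
      exact (modularFunctionFieldBar N).algebraMap_mem _
    · rw [coeffMap_C, algebraMap_eq_C]
  | add x y _ _ hx hy =>
    obtain ⟨a, ha, rfl⟩ := hx
    obtain ⟨b, hb, rfl⟩ := hy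
    exact ⟨a + b, by rw [map_add]; exact add_mem ha hb, map_add _ _ _⟩
  | mul x y _ _ hx hy =>
    obtain ⟨a, ha, rfl⟩ := hx
    obtain ⟨b, hb, rfl⟩ := hy
    exact ⟨a * b, by rw [map_mul]; exact mul_mem ha hb, map_mul _ _ _⟩

theorem adjoin_le_full {x : LaurentSeries (IsLocalRing.ResidueField A)}
    (hx : x ∈ Algebra.adjoin (IsLocalRing.ResidueField A)
      (divisorExpansionsC (IsLocalRing.ResidueField A) N)) :
    x ∈ modularFunctionFieldFullC (IsLocalRing.ResidueField A) N :=
  IntermediateField.algebra_adjoin_le_adjoin _ _ hx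

/-- Every nonzero element of `F_k(N)` is a quotient of reductions of integral expansions. -/
theorem exists_lift_div (γ : modularFunctionFieldFullC (IsLocalRing.ResidueField A) N)
    (hγ : γ ≠ 0) :
    ∃ (y₁ y₂ : LaurentSeries A)
      (_ : coeffMap A.subtype y₁ ∈ modularFunctionFieldBar N)
      (_ : coeffMap A.subtype y₂ ∈ modularFunctionFieldBar N)
      (hk₁ : coeffMap (IsLocalRing.residue A) y₁ ∈
        modularFunctionFieldFullC (IsLocalRing.ResidueField A) N)
      (hk₂ : coeffMap (IsLocalRing.residue A) y₂ ∈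
        modularFunctionFieldFullC (IsLocalRing.ResidueField A) N),
      coeffMap (IsLocalRing.residue A) y₁ ≠ 0 ∧ coeffMap (IsLocalRing.residue A) y₂ ≠ 0 ∧
      γ * ⟨_, hk₂⟩ = ⟨_, hk₁⟩ := by
  obtain ⟨r, hr, s, hs, hrs⟩ := IntermediateField.mem_adjoin_iff_div.1 γ.2
  have hγ' : (γ : LaurentSeries (IsLocalRing.ResidueField A)) ≠ 0 := fun h => hγ (Subtype.ext h)
  have hs0 : s ≠ 0 := by
    rintro rfl
    rw [div_zero] at hrs
    exact hγ' hrs
  have hr0 : r ≠ 0 := by
    rintro rfl
    rw [zero_div] at hrs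
    exact hγ' hrs
  obtain ⟨y₁, h₁, rfl⟩ := exists_lift_of_mem_adjoin A N hr
  obtain ⟨y₂, h₂, rfl⟩ := exists_lift_of_mem_adjoin A N hs
  refine ⟨y₁, y₂, h₁, h₂, adjoin_le_full A N hr, adjoin_le_full A N hs, hr0, hs0, ?_⟩
  apply Subtype.ext
  show (γ : LaurentSeries (IsLocalRing.ResidueField A)) * _ = _
  rw [hrs, div_mul_cancel₀ _ hs0]

end Lift

section Main

variable (A : ValuationSubring (AlgebraicClosure ℚ)) (N : ℕ)

local notation "𝕜" => IsLocalRing.ResidueField A
local notation "Fbar" => modularFunctionFieldBar N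
local notation "Fk" => modularFunctionFieldFullC (IsLocalRing.ResidueField A) N

/-- Data of an integral expansion with nonzero reduction inside `F_k(N)`. -/
structure IntData where
  y : LaurentSeries A
  mem : coeffMap A.subtype y ∈ modularFunctionFieldBar N
  memk : coeffMap (IsLocalRing.residue A) y ∈
    modularFunctionFieldFullC (IsLocalRing.ResidueField A) N
  ne : coeffMap (IsLocalRing.residue A) y ≠ 0

variable {A N}

/-- The function in characteristic zero. -/
def IntData.f (d : IntData A N) : modularFunctionFieldBar N := ⟨_, d.mem⟩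

/-- The reduction. -/
def IntData.fk (d : IntData A N) : modularFunctionFieldFullC (IsLocalRing.ResidueField A) N :=
  ⟨_, d.memk⟩

theorem IntData.fk_ne_zero (d : IntData A N) : d.fk ≠ 0 := fun h => d.ne (congrArg Subtype.val h)

theorem IntData.f_ne_zero (d : IntData A N) : d.f ≠ 0 := by
  intro h
  apply d.ne
  have h0 : coeffMap A.subtype d.y = 0 := congrArg Subtype.val h
  have hy : d.y = 0 := by
    ext k
    have := congrArg (fun z => z.coeff k) h0
    simp only [coeffMap_coeff, HahnSeries.coeff_zero] at this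
    have h1 : (A.subtype (d.y.coeff k) : AlgebraicClosure ℚ) = A.subtype 0 := by
      rw [this, map_zero]
    rw [HahnSeries.coeff_zero]
    exact h1
  rw [hy, map_zero]

/-- Product of integral data. -/
def IntData.mul (d e : IntData A N) : IntData A N where
  y := d.y * e.y
  mem := by rw [map_mul]; exact mul_mem d.mem e.mem
  memk := by rw [map_mul]; exact mul_mem d.memk e.memk
  ne := by rw [map_mul]; exact mul_ne_zero d.ne e.ne

theorem IntData.mul_f (d e : IntData A N) : (d.mul e).f = d.f * e.f :=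
  Subtype.ext (map_mul _ _ _)

theorem IntData.mul_fk (d e : IntData A N) : (d.mul e).fk = d.fk * e.fk :=
  Subtype.ext (map_mul _ _ _)

/-- The unit datum. -/
def IntData.one : IntData A N where
  y := 1
  mem := by rw [map_one]; exact one_mem _
  memk := by rw [map_one]; exact one_mem _
  ne := by rw [map_one]; exact one_ne_zero

theorem IntData.one_f : (IntData.one : IntData A N).f = 1 := Subtype.ext (map_one _)

theorem IntData.one_fk : (IntData.one : IntData A N).fk = 1 := Subtype.ext (map_one _)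

/-- Scaling an integral datum by a unit constant. -/
def IntData.smul (a : A) (ha : IsLocalRing.residue A a ≠ 0) (d : IntData A N) : IntData A N where
  y := HahnSeries.C a * d.y
  mem := by
    rw [map_mul, coeffMap_C]
    refine mul_mem ?_ d.mem
    have : (HahnSeries.C (A.subtype a) : LaurentSeries (AlgebraicClosure ℚ)) =
        algebraMap (AlgebraicClosure ℚ) (LaurentSeries (AlgebraicClosure ℚ)) (A.subtype a) :=
      (algebraMap_eq_C _).symm
    rw [this]
    exact (modularFunctionFieldBar N).algebraMap_mem _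
  memk := by
    rw [map_mul, coeffMap_C]
    refine mul_mem ?_ d.memk
    rw [← algebraMap_eq_C]
    exact (modularFunctionFieldFullC (IsLocalRing.ResidueField A) N).algebraMap_mem _
  ne := by
    rw [map_mul, coeffMap_C]
    refine mul_ne_zero ?_ d.ne
    rw [← algebraMap_eq_C]
    intro h
    exact ha ((map_eq_zero _).1 h)

theorem IntData.smul_f (a : A) (ha : IsLocalRing.residue A a ≠ 0) (d : IntData A N) :
    (d.smul a ha).f = algebraMap (AlgebraicClosure ℚ) (modularFunctionFieldBar N) (A.subtype a)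
      * d.f := by
  apply Subtype.ext
  show coeffMap A.subtype (HahnSeries.C a * d.y) = _
  rw [map_mul, coeffMap_C, ← algebraMap_eq_C]
  rfl

theorem IntData.smul_fk (a : A) (ha : IsLocalRing.residue A a ≠ 0) (d : IntData A N) :
    (d.smul a ha).fk = algebraMap (IsLocalRing.ResidueField A)
      (modularFunctionFieldFullC (IsLocalRing.ResidueField A) N) (IsLocalRing.residue A a)
      * d.fk := by
  apply Subtype.ext
  show coeffMap (IsLocalRing.residue A) (HahnSeries.C a * d.y) = _
  rw [map_mul, coeffMap_C, ← algebraMap_eq_C]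
  rfl

/-- The divisor of a nonzero function, given finiteness of its zeros and poles. -/
def divOfFin {K F : Type*} [Field K] [Field F] [Algebra K F] (f : F)
    (hf : {P : Place K F | P.ord f ≠ 0}.Finite) : Divisor K F :=
  Finsupp.ofSupportFinite (fun P => P.ord f) hf

theorem divOfFin_apply {K F : Type*} [Field K] [Field F] [Algebra K F] (f : F)
    (hf : {P : Place K F | P.ord f ≠ 0}.Finite) (P : Place K F) :
    divOfFin f hf P = P.ord f := rfl

theorem mapDomain_sub' {α β : Type*} (r : α → β) (D E : α →₀ ℤ) :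
    Finsupp.mapDomain r (D - E) = Finsupp.mapDomain r D - Finsupp.mapDomain r E := by
  rw [← Finsupp.mapDomain.addMonoidHom_apply, map_sub, Finsupp.mapDomain.addMonoidHom_apply,
    Finsupp.mapDomain.addMonoidHom_apply]

theorem mapDomain_nsmul' {α β : Type*} (r : α → β) (m : ℕ) (D : α →₀ ℤ) :
    Finsupp.mapDomain r (m • D) = m • Finsupp.mapDomain r D := by
  rw [← Finsupp.mapDomain.addMonoidHom_apply, map_nsmul, Finsupp.mapDomain.addMonoidHom_apply]

/-- Elements of the closure of the integral principal divisors are differences of divisors of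
integral data. -/
theorem exists_intData_of_mem_closure
    {E : Divisor (AlgebraicClosure ℚ) (modularFunctionFieldBar N)}
    (hE : E ∈ AddSubgroup.closure (integralPrincipalDivisors A (IsLocalRing.residue A) N)) :
    ∃ d₁ d₂ : IntData A N, ∀ P : Place (AlgebraicClosure ℚ) (modularFunctionFieldBar N),
      E P = P.ord d₁.f - P.ord d₂.f := by
  induction hE using AddSubgroup.closure_induction with
  | mem E hE =>
    obtain ⟨y, hy, hyk, hne, hD⟩ := hE
    refine ⟨⟨y, hy, hyk, hne⟩, IntData.one, fun P => ?_⟩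
    rw [hD P, IntData.one_f, Place.ord_one, sub_zero]
    rfl
  | zero =>
    refine ⟨IntData.one, IntData.one, fun P => ?_⟩
    rw [sub_self]
    rfl
  | add E E' _ _ hE hE' =>
    obtain ⟨d₁, d₂, h⟩ := hE
    obtain ⟨e₁, e₂, h'⟩ := hE'
    refine ⟨d₁.mul e₁, d₂.mul e₂, fun P => ?_⟩
    rw [Finsupp.add_apply, h P, h' P, IntData.mul_f, IntData.mul_f,
      P.ord_mul d₁.f_ne_zero e₁.f_ne_zero, P.ord_mul d₂.f_ne_zero e₂.f_ne_zero]
    ring
  | neg E _ hE =>
    obtain ⟨d₁, d₂, h⟩ := hE
    refine ⟨d₂, d₁, fun P => ?_⟩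
    rw [Finsupp.neg_apply, h P]
    ring

set_option maxHeartbeats 400000 in
/-- **Step (1)**: S18 at level `N` follows from `(*)_N`. -/
theorem s18_of_star (N : ℕ) [NeZero N] {ℓ : ℕ} (A : ValuationSubring (AlgebraicClosure ℚ))
    (hfin : ∀ f : modularFunctionFieldBar N, f ≠ 0 →
      {P : Place (AlgebraicClosure ℚ) (modularFunctionFieldBar N) | P.ord f ≠ 0}.Finite)
    (hconst : ∀ f : modularFunctionFieldFullC (IsLocalRing.ResidueField A) N, f ≠ 0 →
      (∀ Q : Place (IsLocalRing.ResidueField A)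
        (modularFunctionFieldFullC (IsLocalRing.ResidueField A) N), Q.ord f = 0) →
      ∃ c : IsLocalRing.ResidueField A,
        algebraMap (IsLocalRing.ResidueField A)
          (modularFunctionFieldFullC (IsLocalRing.ResidueField A) N) c = f)
    (hstar : StarProp A ℓ N)
    (h : ReductionInputsModL A N) (m : ℕ) (hm : ¬ ℓ ∣ m) (z : JZero N)
    (hmz : m • z = 0) (hz : reductionModL A N z = 0) : z = 0 := by
  obtain ⟨D₀, rfl⟩ := Pic0.mk_surjective z
  set r := placeReductionModL h with hrdef
  have hr : IsPlaceReductionModL A N r := isPlaceReductionModL_placeReductionModL h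
  have hgen : PrincipalGeneratedByIntegral A (IsLocalRing.residue A) N := h.choose_spec.2
  -- the reduction of `D₀` is principal
  rw [reductionModL_mk h D₀] at hz
  have hz' : Finsupp.mapDomain r (D₀ : Divisor (AlgebraicClosure ℚ) (modularFunctionFieldBar N)) ∈
      Divisor.principal (K := IsLocalRing.ResidueField A)
        (F := modularFunctionFieldFullC (IsLocalRing.ResidueField A) N) := by
    have := (QuotientAddGroup.eq_zero_iff _).1 hz
    exact this
  obtain ⟨γ, hγ, hγD⟩ := hz'
  -- `m • D₀` is principal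
  have hmD : m • (D₀ : Divisor (AlgebraicClosure ℚ) (modularFunctionFieldBar N)) ∈
      Divisor.principal (K := AlgebraicClosure ℚ) (F := modularFunctionFieldBar N) := by
    have h1 : Pic0.mk (m • D₀) = 0 := hmz
    have := (QuotientAddGroup.eq_zero_iff _).1 h1
    exact this
  -- write `γ` as a quotient of reductions
  obtain ⟨y₁, y₂, h₁, h₂, hk₁, hk₂, hne₁, hne₂, hγy⟩ := exists_lift_div A N γ hγ
  let c₁ : IntData A N := ⟨y₁, h₁, hk₁, hne₁⟩
  let c₂ : IntData A N := ⟨y₂, h₂, hk₂, hne₂⟩
  let E₁ := divOfFin c₁.f (hfin _ c₁.f_ne_zero)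
  let E₂ := divOfFin c₂.f (hfin _ c₂.f_ne_zero)
  have hE₁ : ∀ Q, Finsupp.mapDomain r E₁ Q = Q.ord c₁.fk :=
    hr.2 y₁ h₁ hk₁ hne₁ E₁ (fun P => rfl)
  have hE₂ : ∀ Q, Finsupp.mapDomain r E₂ Q = Q.ord c₂.fk :=
    hr.2 y₂ h₂ hk₂ hne₂ E₂ (fun P => rfl)
  have hE₁p : E₁ ∈ Divisor.principal (K := AlgebraicClosure ℚ) (F := modularFunctionFieldBar N) :=
    ⟨c₁.f, c₁.f_ne_zero, fun P => rfl⟩
  have hE₂p : E₂ ∈ Divisor.principal (K := AlgebraicClosure ℚ) (F := modularFunctionFieldBar N) :=
    ⟨c₂.f, c₂.f_ne_zero, fun P => rfl⟩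
  set D₁ : Divisor (AlgebraicClosure ℚ) (modularFunctionFieldBar N) :=
    (D₀ : Divisor (AlgebraicClosure ℚ) (modularFunctionFieldBar N)) - (E₁ - E₂) with hD₁
  -- the reduction of `D₁` vanishes
  have hrD₁ : Finsupp.mapDomain r D₁ = 0 := by
    ext Q
    rw [hD₁, mapDomain_sub', mapDomain_sub', Finsupp.sub_apply, Finsupp.sub_apply, hγD Q, hE₁ Q,
      hE₂ Q]
    have hmul : Q.ord (γ * c₂.fk) = Q.ord γ + Q.ord c₂.fk := Q.ord_mul hγ c₂.fk_ne_zero
    have : γ * c₂.fk = c₁.fk := hγy
    rw [this] at hmul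
    rw [hmul]
    simp
  -- `m • D₁` is principal
  have hmD₁ : m • D₁ ∈
      Divisor.principal (K := AlgebraicClosure ℚ) (F := modularFunctionFieldBar N) := by
    rw [hD₁, smul_sub]
    exact sub_mem hmD (AddSubgroup.nsmul_mem _ (sub_mem hE₁p hE₂p) m)
  obtain ⟨d₁, d₂, hd⟩ := exists_intData_of_mem_closure (hgen hmD₁)
  -- reduce
  let G₁ := divOfFin d₁.f (hfin _ d₁.f_ne_zero)
  let G₂ := divOfFin d₂.f (hfin _ d₂.f_ne_zero)
  have hG₁ : ∀ Q, Finsupp.mapDomain r G₁ Q = Q.ord d₁.fk :=
    hr.2 d₁.y d₁.mem d₁.memk d₁.ne G₁ (fun P => rfl)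
  have hG₂ : ∀ Q, Finsupp.mapDomain r G₂ Q = Q.ord d₂.fk :=
    hr.2 d₂.y d₂.mem d₂.memk d₂.ne G₂ (fun P => rfl)
  have hmG : m • D₁ = G₁ - G₂ := by
    ext P
    rw [hd P, Finsupp.sub_apply]
    rfl
  have hord : ∀ Q : Place (IsLocalRing.ResidueField A)
      (modularFunctionFieldFullC (IsLocalRing.ResidueField A) N), Q.ord d₁.fk = Q.ord d₂.fk := by
    intro Q
    have h0 : Finsupp.mapDomain r (m • D₁) Q = 0 := by
      rw [mapDomain_nsmul', hrD₁, smul_zero]
      rfl
    rw [hmG, mapDomain_sub', Finsupp.sub_apply, hG₁ Q, hG₂ Q] at h0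
    exact sub_eq_zero.1 h0
  obtain ⟨c, hc⟩ := hconst (d₁.fk / d₂.fk) (div_ne_zero d₁.fk_ne_zero d₂.fk_ne_zero) (fun Q => by
    rw [ord_div Q d₁.fk_ne_zero d₂.fk_ne_zero, hord Q, sub_self])
  have hc0 : c ≠ 0 := by
    rintro rfl
    rw [map_zero] at hc
    exact div_ne_zero d₁.fk_ne_zero d₂.fk_ne_zero hc.symm
  obtain ⟨a, rfl⟩ := IsLocalRing.residue_surjective c
  have ha0 : (A.subtype a : AlgebraicClosure ℚ) ≠ 0 := by
    intro h0
    apply hc0
    have : a = 0 := Subtype.ext h0
    rw [this, map_zero]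
  let d₂' : IntData A N := d₂.smul a hc0
  have hfk : d₂'.fk = d₁.fk := by
    rw [IntData.smul_fk, hc, div_mul_cancel₀ _ d₂.fk_ne_zero]
  have hf : ∀ P : Place (AlgebraicClosure ℚ) (modularFunctionFieldBar N),
      P.ord d₂'.f = P.ord d₂.f := by
    intro P
    rw [IntData.smul_f, P.ord_mul ((map_ne_zero _).2 ha0) d₂.f_ne_zero, ord_algebraMap P ha0,
      zero_add]
  have hD₁p : D₁ ∈ Divisor.principal (K := AlgebraicClosure ℚ) (F := modularFunctionFieldBar N) :=
    hstar d₁.y d₂'.y d₁.mem d₂'.mem (congrArg Subtype.val hfk).symm d₁.ne D₁ m hm (fun P => by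
      have h1 := hd P
      rw [Finsupp.smul_apply, nsmul_eq_mul] at h1
      have h2 := hf P
      show (m : ℤ) * D₁ P = P.ord d₁.f - P.ord d₂'.f
      rw [h2, ← h1])
  -- conclude
  have hD₀p : (D₀ : Divisor (AlgebraicClosure ℚ) (modularFunctionFieldBar N)) ∈
      Divisor.principal (K := AlgebraicClosure ℚ) (F := modularFunctionFieldBar N) := by
    have : (D₀ : Divisor (AlgebraicClosure ℚ) (modularFunctionFieldBar N)) = D₁ + (E₁ - E₂) := by
      rw [hD₁]
      abel
    rw [this]
    exact add_mem hD₁p (sub_mem hE₁p hE₂p)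
  exact (QuotientAddGroup.eq_zero_iff _).2 hD₀p

end Main

end Fermat.Agent.S18
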