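import Mathlib
import Fermat.Agent.S18.Descend
import Fermat.Agent.S18.Reduce
import Fermat.Agent.S18.GVFinL

/-!
# S18, steps (1) + (2) assembled

* `starProp_of_starRed`: the reduction form `StarRed` of `(*)_N` implies the Laurent form
  `StarProp` used by `s18_of_star`;
* `starRed_of_pow`: `StarRed A ℓ (N * b ^ k) → StarRed A ℓ N` for a prime `b`;
* `s18_of_starRed`: S18 at level `N` from `(*)` at level `N * b ^ k`.
-/

set_option autoImplicit false
set_option synthInstance.maxHeartbeats 400000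
set_option linter.unusedSectionVars false

noncomputable section

open ModularCurve IntermediateField AlgebraicCurve

namespace Fermat.Agent.S18.Desc

local notation "Lb" => AlgebraicClosure ℚ
local notation "E" => LaurentSeries (AlgebraicClosure ℚ)

variable (A : ValuationSubring (AlgebraicClosure ℚ)) (ℓ : ℕ)

theorem StarRed.congr {M M' : ℕ} [NeZero M] [NeZero M'] (e : M = M')
    (h : StarRed A ℓ M) : StarRed A ℓ M' := by
  subst e
  exact h

/-- `(*)` descends along powers of `V_b`. -/
theorem starRed_of_pow (N b : ℕ) [NeZero N] [NeZero b] (hb : b.Prime) (k : ℕ)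
    (h : StarRed A ℓ (N * b ^ k)) : StarRed A ℓ N := by
  induction k with
  | zero =>
    exact StarRed.congr A ℓ (by rw [pow_zero, mul_one]) h
  | succ k ih =>
    apply ih
    apply starRed_descend (N * b ^ k) b hb A ℓ
    exact StarRed.congr A ℓ (by rw [pow_succ, mul_assoc]) h

/-- The reduction form of `(*)_N` implies the Laurent form. -/
theorem starProp_of_starRed (N : ℕ) [NeZero N] (h : StarRed A ℓ N) : StarProp A ℓ N := by
  intro y₁ y₂ h₁ h₂ heq hne D m hm hD
  have : Algebra.IsAlgebraic ℚ (AlgebraicClosure ℚ) := AlgebraicClosure.isAlgebraic ℚ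
  have hne₂ : coeffMap (IsLocalRing.residue A) y₂ ≠ 0 := heq ▸ hne
  have hr₁ := GV.red_coeffMap_of_mem_ff A (modularFunctionFieldFull N) h₁
  have hr₂ := GV.red_coeffMap_of_mem_ff A (modularFunctionFieldFull N) h₂
  have hy₁ : coeffMap A.subtype y₁ ≠ 0 := by
    intro h0
    rw [h0] at hr₁
    exact hne (GV.Red.unique A hr₁ (GV.red_zero A))
  have hy₂ : coeffMap A.subtype y₂ ≠ 0 := by
    intro h0
    rw [h0] at hr₂
    exact hne₂ (GV.Red.unique A hr₂ (GV.red_zero A))
  set f₁ : modularFunctionFieldBar N := ⟨coeffMap A.subtype y₁, h₁⟩ with hf₁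
  set f₂ : modularFunctionFieldBar N := ⟨coeffMap A.subtype y₂, h₂⟩ with hf₂
  have hf₁0 : f₁ ≠ 0 := fun h0 => hy₁ (congrArg Subtype.val h0)
  have hf₂0 : f₂ ≠ 0 := fun h0 => hy₂ (congrArg Subtype.val h0)
  have hred : GV.Red A ((f₁ / f₂ : modularFunctionFieldBar N) : E) 1 := by
    have h3 := GV.Red.mul A hr₁ (GV.Red.inv A hr₂ hne₂)
    rw [heq, mul_inv_cancel₀ hne₂] at h3
    have h4 : ((f₁ / f₂ : modularFunctionFieldBar N) : E)
        = coeffMap A.subtype y₁ * (coeffMap A.subtype y₂)⁻¹ := by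
      rw [div_eq_mul_inv]
      rfl
    rw [h4]
    exact h3
  exact h (f₁ / f₂) hred D m hm (fun P => by
    rw [hD P, ord_div P hf₁0 hf₂0])

/-- **Steps (1) + (2).** S18 at level `N` follows from `(*)` at level `N * b ^ k`. -/
theorem s18_of_starRed (N : ℕ) [NeZero N] {ℓ : ℕ} (A : ValuationSubring (AlgebraicClosure ℚ))
    (b : ℕ) [NeZero b] (hb : b.Prime) (k : ℕ)
    (hconst : ∀ f : modularFunctionFieldFullC (IsLocalRing.ResidueField A) N, f ≠ 0 →
      (∀ Q : Place (IsLocalRing.ResidueField A)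
        (modularFunctionFieldFullC (IsLocalRing.ResidueField A) N), Q.ord f = 0) →
      ∃ c : IsLocalRing.ResidueField A,
        algebraMap (IsLocalRing.ResidueField A)
          (modularFunctionFieldFullC (IsLocalRing.ResidueField A) N) c = f)
    (hstar : StarRed A ℓ (N * b ^ k))
    (h : ReductionInputsModL A N) (m : ℕ) (hm : ¬ ℓ ∣ m) (z : JZero N)
    (hmz : m • z = 0) (hz : reductionModL A N z = 0) : z = 0 :=
  s18_of_star N A
    (fun f hf => Fermat.Agent.Lib.FF.finite_ord_ne_zero (Fermat.Agent.S24.isFF1_jBar N) f hf)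
    hconst (starProp_of_starRed A ℓ N (starRed_of_pow A ℓ N b hb k hstar)) h m hm z hmz hz

end Fermat.Agent.S18.Desc
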