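import Fermat.Agent.S18.DeuringRR

/-!
# S18, piece (3c): Deuring reduction — the hyperplane lemma

A multiplicatively stable family of hyperplanes `H n ⊂ L(n Dk + B)` is of the form
`L(n Dk + B - Q)` for a place `Q`.
-/

set_option autoImplicit false
set_option linter.unusedSectionVars false
set_option linter.style.haveILetI false
set_option linter.unusedSimpArgs false
set_option linter.unusedTactic false

open AlgebraicCurve Fermat.Agent.Lib.FF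

namespace Fermat.Agent.S18.Deuring

variable {K F : Type*} [Field K] [Field F] [Algebra K F]

theorem exists_place_of_degree_pos {Dk : Divisor K F} (hψ : 0 < Divisor.degree Dk) :
    Nonempty (Place K F) := by
  by_contra h
  rw [not_nonempty_iff] at h
  have : Dk = 0 := by
    ext v
    exact (h.false v).elim
  rw [this, map_zero] at hψ
  exact lt_irrefl _ hψ

/-- the residual divisor of a section -/
theorem residual_nonneg (hpf : PlaceFacts K F) {G : Divisor K F} {φ : F} (h0 : φ ≠ 0)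
    (hφ : φ ∈ riemannRochSpace G) : 0 ≤ hpf.divOf φ + G := by
  rw [Finsupp.le_def]
  intro v
  have := (mem_rrSpace_iff_of_ne_zero h0).mp hφ v
  rw [Finsupp.add_apply, hpf.divOf_apply]
  simp only [Finsupp.coe_zero, Pi.zero_apply]
  omega

/-- sections of `G` vanishing on the residual divisor of `φ ∈ L(G')` are multiples of `φ` by
sections of `G - G'` -/
theorem div_mem_of_mem_sub_residual (hpf : PlaceFacts K F) {G G' : Divisor K F} {φ h : F}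
    (h0 : φ ≠ 0) (hh : h ∈ riemannRochSpace (G - (hpf.divOf φ + G'))) :
    h * φ⁻¹ ∈ riemannRochSpace (G - G') := by
  by_cases hh0 : h = 0
  · rw [hh0, zero_mul]; exact Submodule.zero_mem _
  have hinv : φ⁻¹ ≠ 0 := inv_ne_zero h0
  rw [mem_rrSpace_iff_of_ne_zero (mul_ne_zero hh0 hinv)]
  intro v
  have := (mem_rrSpace_iff_of_ne_zero hh0).mp hh v
  rw [Finsupp.sub_apply, Finsupp.add_apply, hpf.divOf_apply] at this
  rw [v.ord_mul hh0 hinv, v.ord_inv, Finsupp.sub_apply]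
  omega

theorem degree_nsmul' (Dk : Divisor K F) (n : ℕ) :
    Divisor.degree (n • Dk) = n * Divisor.degree Dk := by
  rw [map_nsmul, nsmul_eq_mul]

theorem le_mul_of_pos {ψ : ℤ} (hψ : 0 < ψ) (m : ℕ) : (m : ℤ) ≤ m * ψ := by
  have : (0 : ℤ) ≤ m := Int.natCast_nonneg m
  nlinarith

/-- **the hyperplane lemma** -/
theorem hyperplane_base_point [Infinite K] (hpf : PlaceFacts K F) {g : ℕ} {c : ℤ}
    (hR : RThm K F g c) (Dk : Divisor K F) (hψ : 0 < Divisor.degree Dk)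
    (B : Divisor K F) (N₀ m₀ : ℕ) (H : ℕ → Submodule K F)
    (h_le : ∀ n, N₀ ≤ n → H n ≤ riemannRochSpace (n • Dk + B))
    (h_ne : ∀ n, N₀ ≤ n → H n ≠ riemannRochSpace (n • Dk + B))
    (h_nz : ∃ n₁, N₀ ≤ n₁ ∧ H n₁ ≠ ⊥)
    (h_mul : ∀ n m, N₀ ≤ n → m₀ ≤ m → ∀ φ ∈ H n, ∀ χ ∈ riemannRochSpace (m • Dk),
      χ * φ ∈ H (n + m)) :
    ∃ Q : Place K F, ∀ n, N₀ ≤ n →
      H n ≤ riemannRochSpace (n • Dk + B - Finsupp.single Q 1) := by
  classical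
  by_contra hcon
  have hQ : ∀ Q : Place K F, ∃ n, N₀ ≤ n ∧ ∃ φ ∈ H n,
      φ ∉ riemannRochSpace (n • Dk + B - Finsupp.single Q 1) := by
    intro Q
    by_contra hn
    apply hcon
    refine ⟨Q, fun n hn' φ hφ => ?_⟩
    by_contra hφn
    exact hn ⟨n, hn', φ, hφ, hφn⟩
  choose nQ hnQ φQ hφQ hφQn using hQ
  obtain ⟨Q₀⟩ := exists_place_of_degree_pos hψ
  obtain ⟨n₁, hn₁, hnz⟩ := h_nz
  obtain ⟨φ₀, hφ₀, hφ₀0⟩ : ∃ φ₀ ∈ H n₁, φ₀ ≠ 0 := by
    by_contra hc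
    apply hnz
    rw [Submodule.eq_bot_iff]
    intro φ hφ
    by_contra hn
    exact hc ⟨φ, hφ, hn⟩
  -- residual divisor of φ₀
  set Z : Divisor K F := hpf.divOf φ₀ + (n₁ • Dk + B) with hZdef
  have hZ : 0 ≤ Z := residual_nonneg hpf hφ₀0 (h_le n₁ hn₁ hφ₀)
  set S' : Finset (Place K F) := insert Q₀ Z.support with hS'def
  -- thresholds
  set m₁ : ℕ := m₀ + (c + 1).toNat with hm₁def
  have hm₁ : ∀ m : ℕ, m₁ ≤ m → m₀ ≤ m ∧ c + 1 ≤ Divisor.degree (m • Dk) := by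
    intro m hm
    refine ⟨by omega, ?_⟩
    rw [degree_nsmul']
    have h1 := le_mul_of_pos hψ m
    have h2 : c + 1 ≤ ((c + 1).toNat : ℤ) := Int.self_le_toNat _
    have h3 : ((c + 1).toNat : ℤ) ≤ m := by
      have : (c + 1).toNat ≤ m := by omega
      exact_mod_cast this
    omega
  set n₂ : ℕ := n₁ + (∑ Q ∈ S', nQ Q) + m₁ with hn₂def
  have hn₂Q : ∀ Q ∈ S', nQ Q + m₁ ≤ n₂ := by
    intro Q hQ
    have := Finset.single_le_sum (f := nQ) (fun i _ => Nat.zero_le _) hQ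
    omega
  have hn₂N : N₀ ≤ n₂ := by omega
  -- sections at level n₂ not vanishing at Q, for Q ∈ S'
  have hS : ∀ Q ∈ S', ∃ φ ∈ H n₂,
      φ ∉ riemannRochSpace (n₂ • Dk + B - Finsupp.single Q 1) := by
    intro Q hQ
    obtain ⟨hm0, hmdeg⟩ := hm₁ (n₂ - nQ Q) (by have := hn₂Q Q hQ; omega)
    obtain ⟨χ, hχ, hχn⟩ := exists_notMem_sub_single hpf hR Q hmdeg
    obtain ⟨hχ0, hχord⟩ := ord_eq_of_notMem_sub_single hχ hχn
    obtain ⟨hφ0, hφord⟩ := ord_eq_of_notMem_sub_single (h_le _ (hnQ Q) (hφQ Q)) (hφQn Q)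
    have hmem := h_mul (nQ Q) (n₂ - nQ Q) (hnQ Q) hm0 (φQ Q) (hφQ Q) χ hχ
    have hsum : nQ Q + (n₂ - nQ Q) = n₂ := by have := hn₂Q Q hQ; omega
    rw [hsum] at hmem
    refine ⟨χ * φQ Q, hmem, notMem_sub_single_of_ord_eq (mul_ne_zero hχ0 hφ0) ?_⟩
    rw [Q.ord_mul hχ0 hφ0, hχord, hφord]
    simp only [Finsupp.add_apply, Finsupp.smul_apply, nsmul_eq_mul]
    have : ((n₂ - nQ Q : ℕ) : ℤ) = (n₂ : ℤ) - nQ Q := by
      have := hn₂Q Q hQ
      omega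
    rw [this]
    ring
  obtain ⟨φ₂, hφ₂, hφ₂n⟩ := exists_forall_notMem hpf (H n₂) (n₂ • Dk + B) S' hS
  have hφ₂0 : φ₂ ≠ 0 :=
    (ord_eq_of_notMem_sub_single (h_le n₂ hn₂N hφ₂) (hφ₂n Q₀ (Finset.mem_insert_self _ _))).1
  set Z₂ : Divisor K F := hpf.divOf φ₂ + (n₂ • Dk + B) with hZ₂def
  have hZ₂ : 0 ≤ Z₂ := residual_nonneg hpf hφ₂0 (h_le n₂ hn₂N hφ₂)
  have hZ₂S : ∀ Q ∈ S', Z₂ Q = 0 := by
    intro Q hQ
    have := (ord_eq_of_notMem_sub_single (h_le n₂ hn₂N hφ₂) (hφ₂n Q hQ)).2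
    rw [hZ₂def, Finsupp.add_apply, hpf.divOf_apply, this]
    ring
  -- a generic multiplier χ
  obtain ⟨hm0, hmdeg⟩ := hm₁ (n₂ - n₁) (by omega)
  set T : Finset (Place K F) := insert Q₀ Z₂.support with hTdef
  have hT : ∀ Q ∈ T, ∃ χ ∈ riemannRochSpace ((n₂ - n₁) • Dk),
      χ ∉ riemannRochSpace ((n₂ - n₁) • Dk - Finsupp.single Q 1) :=
    fun Q _ => exists_notMem_sub_single hpf hR Q hmdeg
  obtain ⟨χ, hχ, hχn⟩ := exists_forall_notMem hpf _ ((n₂ - n₁) • Dk) T hT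
  have hχ0 : χ ≠ 0 :=
    (ord_eq_of_notMem_sub_single hχ (hχn Q₀ (Finset.mem_insert_self _ _))).1
  have hφ₁mem : χ * φ₀ ∈ H n₂ := by
    have := h_mul n₁ (n₂ - n₁) hn₁ hm0 φ₀ hφ₀ χ hχ
    have hsum : n₁ + (n₂ - n₁) = n₂ := by omega
    rwa [hsum] at this
  have hφ₁0 : χ * φ₀ ≠ 0 := mul_ne_zero hχ0 hφ₀0
  set Z₁ : Divisor K F := hpf.divOf (χ * φ₀) + (n₂ • Dk + B) with hZ₁def
  have hZ₁ : 0 ≤ Z₁ := residual_nonneg hpf hφ₁0 (h_le n₂ hn₂N hφ₁mem)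
  have hZ₁apply : ∀ Q, Z₁ Q = Z Q + (Q.ord χ + ((n₂ - n₁ : ℕ) : ℤ) * Dk Q) := by
    intro Q
    rw [hZ₁def, hZdef]
    simp only [Finsupp.add_apply, hpf.divOf_apply, Finsupp.smul_apply, smul_eq_mul,
      nsmul_eq_mul]
    rw [Q.ord_mul hχ0 hφ₀0]
    have : ((n₂ - n₁ : ℕ) : ℤ) = (n₂ : ℤ) - n₁ := by omega
    rw [this]
    push_cast
    ring
  have hdisj : ∀ Q, Z₁ Q = 0 ∨ Z₂ Q = 0 := by
    intro Q
    by_cases hQ2 : Z₂ Q = 0
    · exact Or.inr hQ2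
    left
    have hQT : Q ∈ T := Finset.mem_insert_of_mem (Finsupp.mem_support_iff.mpr hQ2)
    have hχord := (ord_eq_of_notMem_sub_single hχ (hχn Q hQT)).2
    have hQS : Q ∉ S' := fun h => hQ2 (hZ₂S Q h)
    have hZQ : Z Q = 0 := by
      by_contra hne
      exact hQS (Finset.mem_insert_of_mem (Finsupp.mem_support_iff.mpr hne))
    rw [hZ₁apply, hZQ, hχord]
    simp only [Finsupp.smul_apply, smul_eq_mul, nsmul_eq_mul]
    ring
  -- the pencil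
  set dB : ℤ := Divisor.degree B with hdB
  set ψ : ℤ := Divisor.degree Dk with hψdef
  set m' : ℕ := m₀ + n₂ + (c + dB).toNat with hm'def
  set G : Divisor K F := (n₂ + m') • Dk + B with hGdef
  have hdegZ₁ : Divisor.degree Z₁ = n₂ * ψ + dB := by
    rw [hZ₁def, map_add, hpf.degree_divOf, zero_add, map_add, degree_nsmul']
  have hdegZ₂ : Divisor.degree Z₂ = n₂ * ψ + dB := by
    rw [hZ₂def, map_add, hpf.degree_divOf, zero_add, map_add, degree_nsmul']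
  have hdegG : c ≤ Divisor.degree (G - Z₁ - Z₂) := by
    rw [map_sub, map_sub, hdegZ₁, hdegZ₂, hGdef, map_add, degree_nsmul']
    have h1 : c + dB ≤ ((c + dB).toNat : ℤ) := Int.self_le_toNat _
    have h2 := le_mul_of_pos hψ (m₀ + (c + dB).toNat)
    have h3 : ((n₂ + m' : ℕ) : ℤ) = 2 * n₂ + ((m₀ + (c + dB).toNat : ℕ) : ℤ) := by
      rw [hm'def]; push_cast; ring
    rw [h3]
    push_cast at h2 ⊢
    nlinarith
  have hsup := rrSpace_sup_of_disjoint hpf hR Q₀ hZ₁ hZ₂ hdisj hdegG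
  have hm'0 : m₀ ≤ m' := by omega
  have hmulmem : ∀ (φ : F), φ ≠ 0 → φ ∈ H n₂ →
      riemannRochSpace (G - (hpf.divOf φ + (n₂ • Dk + B))) ≤ H (n₂ + m') := by
    intro φ hφ0 hφ h hh
    have h1 := div_mem_of_mem_sub_residual hpf hφ0 hh
    have hGsub : G - (n₂ • Dk + B) = m' • Dk := by
      rw [hGdef, add_smul]; abel
    rw [hGsub] at h1
    have h2 := h_mul n₂ m' hn₂N hm'0 φ hφ _ h1
    rwa [mul_assoc, inv_mul_cancel₀ hφ0, mul_one] at h2
  have hfinal : riemannRochSpace G ≤ H (n₂ + m') := by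
    rw [← hsup]
    exact sup_le (hmulmem _ hφ₁0 hφ₁mem) (hmulmem _ hφ₂0 hφ₂)
  exact h_ne (n₂ + m') (by omega) (le_antisymm (h_le _ (by omega)) hfinal)

end Fermat.Agent.S18.Deuring
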