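import Fermat.Agent.S18.DeuringRed
import Fermat.Agent.S18.DeuringHP

/-!
# S18, piece (3c): Deuring reduction — reduction of effective divisors

`Bar 𝔞 𝔟`: the reduction of `L(nD - 𝔞)` is `L_k(n Dk - 𝔟)` for all large `n`.
We construct `r : Place L F → Place k Fk` with `Bar 𝔞 (r_* 𝔞)` for all effective `𝔞`, and prove
`r_* (div f) = div a` whenever `Red f a`, `a ≠ 0`.
-/

set_option autoImplicit false
set_option linter.unusedSectionVars false
set_option linter.style.haveILetI false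
set_option linter.unusedSimpArgs false
set_option linter.unusedTactic false

open AlgebraicCurve Fermat.Agent.Lib.FF

namespace Fermat.Agent.S18.Deuring

variable {L k F Fk : Type*} [Field L] [Field k] [Field F] [Field Fk] [Algebra L F] [Algebra k Fk]
variable {A : ValuationSubring L} {res : A →+* k} {Red : F → Fk → Prop}
  {D : Divisor L F} {Dk : Divisor k Fk} {g : ℕ} {c : ℤ}

theorem exists_threshold {ψ : ℤ} (hψ : 0 < ψ) (b : ℤ) : ∃ N : ℕ, ∀ n : ℕ, N ≤ n → b ≤ n * ψ := by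
  refine ⟨b.toNat, fun n hn => ?_⟩
  have h1 : b ≤ (b.toNat : ℤ) := Int.self_le_toNat _
  have h2 : (b.toNat : ℤ) ≤ n := by exact_mod_cast hn
  have h3 := le_mul_of_pos hψ n
  omega

/-- `Bar 𝔞 𝔟`: the reduction of `L(nD - 𝔞)` is `L_k(n Dk - 𝔟)` for all large `n` -/
def Bar (S : Setup A res Red D Dk g c) (𝔞 : Divisor L F) (𝔟 : Divisor k Fk) : Prop :=
  ∃ N : ℕ, ∀ n, N ≤ n →
    redSpace S.ax (riemannRochSpace (n • D - 𝔞)) = riemannRochSpace (n • Dk - 𝔟)

theorem Setup.degk_pos (S : Setup A res Red D Dk g c) : 0 < Divisor.degree Dk :=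
  S.deg_eq ▸ S.deg_pos

variable (S : Setup A res Red D Dk g c)

theorem bar_zero : Bar S 0 0 := by
  obtain ⟨ck, hRk⟩ := S.rthm_k
  obtain ⟨N₁, hN₁⟩ := exists_threshold S.deg_pos c
  obtain ⟨N₂, hN₂⟩ := exists_threshold S.deg_pos ck
  refine ⟨max N₁ N₂, fun n hn => ?_⟩
  rw [sub_zero, sub_zero]
  exact S.redSpace_nsmul_eq hRk n (hN₁ n (le_trans (le_max_left _ _) hn))
    (hN₂ n (le_trans (le_max_right _ _) hn))

theorem Bar.degree_eq {𝔞 : Divisor L F} {𝔟 : Divisor k Fk} (h : Bar S 𝔞 𝔟) :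
    Divisor.degree 𝔞 = Divisor.degree 𝔟 := by
  obtain ⟨ck, hRk⟩ := S.rthm_k
  obtain ⟨N, hN⟩ := h
  obtain ⟨N₁, hN₁⟩ := exists_threshold S.deg_pos (c + Divisor.degree 𝔞)
  obtain ⟨N₂, hN₂⟩ := exists_threshold S.deg_pos (ck + Divisor.degree 𝔟)
  set n := max N (max N₁ N₂) with hn
  have h1 := hN n (le_max_left _ _)
  have h2 := hN₁ n (le_trans (le_max_left _ _) (le_max_right _ _))
  have h3 := hN₂ n (le_trans (le_max_right _ _) (le_max_right _ _))
  have e1 := S.RF.eq (n • D - 𝔞) (by rw [map_sub, degree_nsmul']; omega)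
  have e2 := hRk.eq (n • Dk - 𝔟) (by rw [map_sub, degree_nsmul', ← S.deg_eq]; omega)
  have e3 := S.finrank_redSpace (n • D - 𝔞)
  rw [h1] at e3
  rw [map_sub, degree_nsmul'] at e1 e2
  rw [← S.deg_eq] at e2
  omega

theorem Bar.unique {𝔞 : Divisor L F} {𝔟 𝔟' : Divisor k Fk} (h : Bar S 𝔞 𝔟) (h' : Bar S 𝔞 𝔟') :
    𝔟 = 𝔟' := by
  obtain ⟨ck, hRk⟩ := S.rthm_k
  have d1 := h.degree_eq S
  have d2 := h'.degree_eq S
  obtain ⟨N, hN⟩ := h
  obtain ⟨N', hN'⟩ := h'
  obtain ⟨N₂, hN₂⟩ := exists_threshold S.degk_pos (ck + 1 + Divisor.degree 𝔟)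
  set n := max N (max N' N₂) with hn
  have h1 := hN n (le_max_left _ _)
  have h2 := hN' n (le_trans (le_max_left _ _) (le_max_right _ _))
  have h3 := hN₂ n (le_trans (le_max_right _ _) (le_max_right _ _))
  refine eq_of_rrSpace_sub_eq S.hpfk hRk (G := n • Dk) ?_ ?_ (h1.symm.trans h2)
  · rw [map_sub, degree_nsmul']; omega
  · rw [map_sub, degree_nsmul']; omega

section Step

variable [Infinite k]

/-- the step: adding one place -/
theorem Bar.step {𝔞 : Divisor L F} {𝔟 : Divisor k Fk} (h : Bar S 𝔞 𝔟) (P : Place L F) :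
    ∃ Q : Place k Fk, Bar S (𝔞 + Finsupp.single P 1) (𝔟 + Finsupp.single Q 1) := by
  obtain ⟨ck, hRk⟩ := S.rthm_k
  obtain ⟨Q₀⟩ := S.exists_placek
  have hd := h.degree_eq S
  obtain ⟨N, hN⟩ := h
  obtain ⟨N₁, hN₁⟩ := exists_threshold S.deg_pos (c + 1 + Divisor.degree 𝔞)
  obtain ⟨N₂, hN₂⟩ := exists_threshold S.deg_pos (ck + 1 + Divisor.degree 𝔞)
  obtain ⟨N₃, hN₃⟩ := exists_threshold S.deg_pos (g + 1 + Divisor.degree 𝔞)
  obtain ⟨M₁, hM₁⟩ := exists_threshold S.deg_pos c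
  obtain ⟨M₂, hM₂⟩ := exists_threshold S.deg_pos ck
  set N₀ := max N (max N₁ (max N₂ N₃)) with hN₀
  set m₀ := max M₁ M₂ with hm₀
  have hNa : ∀ n, N₀ ≤ n → N ≤ n := fun n hn => le_trans (le_max_left _ _) hn
  have hNb : ∀ n, N₀ ≤ n → N₁ ≤ n := fun n hn =>
    le_trans (le_trans (le_max_left _ _) (le_max_right _ _)) hn
  have hNc : ∀ n, N₀ ≤ n → N₂ ≤ n := fun n hn =>
    le_trans (le_trans (le_trans (le_max_left _ _) (le_max_right _ _)) (le_max_right _ _)) hn
  have hNd : ∀ n, N₀ ≤ n → N₃ ≤ n := fun n hn =>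
    le_trans (le_trans (le_trans (le_max_right _ _) (le_max_right _ _)) (le_max_right _ _)) hn
  set H : ℕ → Submodule k Fk := fun n =>
    redSpace S.ax (riemannRochSpace (n • D - (𝔞 + Finsupp.single P 1))) with hH
  have hsub : ∀ n : ℕ, n • D - (𝔞 + Finsupp.single P 1) = n • D - 𝔞 - Finsupp.single P 1 :=
    fun n => by abel
  have hBk : ∀ n : ℕ, n • Dk + -𝔟 = n • Dk - 𝔟 := fun n => by abel
  have h_le : ∀ n, N₀ ≤ n → H n ≤ riemannRochSpace (n • Dk + -𝔟) := by
    intro n hn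
    rw [hBk, ← hN n (hNa n hn)]
    apply redSpace_mono
    apply rrSpace_mono
    rw [hsub]
    exact sub_single_le _ _
  have h_dim : ∀ n, N₀ ≤ n →
      Module.finrank k (H n) + 1 = Module.finrank k (riemannRochSpace (n • Dk + -𝔟)) := by
    intro n hn
    have e1 : Module.finrank k (H n)
        = Module.finrank L (riemannRochSpace (n • D - 𝔞 - Finsupp.single P 1)) := by
      rw [← hsub]; exact S.finrank_redSpace _
    have e2 : Module.finrank k (riemannRochSpace (n • Dk + -𝔟))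
        = Module.finrank L (riemannRochSpace (n • D - 𝔞)) := by
      rw [hBk, ← hN n (hNa n hn)]; exact S.finrank_redSpace _
    rw [e1, e2]
    refine finrank_sub_single S.hpf S.RF P ?_
    rw [map_sub, degree_nsmul']
    have := hN₁ n (hNb n hn)
    omega
  have h_ne : ∀ n, N₀ ≤ n → H n ≠ riemannRochSpace (n • Dk + -𝔟) := by
    intro n hn heq
    have := h_dim n hn
    rw [heq] at this
    omega
  have h_nz : ∃ n₁, N₀ ≤ n₁ ∧ H n₁ ≠ ⊥ := by
    refine ⟨N₀, le_refl _, fun hbot => ?_⟩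
    have h1 : Module.finrank k (H N₀) = 0 := by rw [hbot, finrank_bot]
    have h2 : Module.finrank k (H N₀)
        = Module.finrank L (riemannRochSpace (N₀ • D - (𝔞 + Finsupp.single P 1))) :=
      S.finrank_redSpace _
    have h3 := S.RF.ge (N₀ • D - (𝔞 + Finsupp.single P 1))
    rw [map_sub, map_add, degree_nsmul', S.hpf.degree_single] at h3
    have := hN₃ N₀ (hNd N₀ (le_refl _))
    omega
  have h_mul : ∀ n m, N₀ ≤ n → m₀ ≤ m → ∀ φ ∈ H n, ∀ χ ∈ riemannRochSpace (m • Dk),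
      χ * φ ∈ H (n + m) := by
    intro n m hn hm φ hφ χ hχ
    have hsurj := S.redSpace_nsmul_eq hRk m (hM₁ m (le_trans (le_max_left _ _) hm))
      (hM₂ m (le_trans (le_max_right _ _) hm))
    rw [← hsurj] at hχ
    obtain ⟨y, hy, hyχ⟩ := hχ
    obtain ⟨x, hx, hxφ⟩ := hφ
    refine ⟨y * x, ?_, S.ax.mul hyχ hxφ⟩
    have := mul_mem_rrSpace hy hx
    have heq : m • D + (n • D - (𝔞 + Finsupp.single P 1))
        = (n + m) • D - (𝔞 + Finsupp.single P 1) := by
      rw [add_smul]; abel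
    rwa [heq] at this
  obtain ⟨Q, hQ⟩ := hyperplane_base_point S.hpfk hRk Dk S.degk_pos (-𝔟) N₀ m₀ H h_le h_ne h_nz
    h_mul
  refine ⟨Q, N₀, fun n hn => ?_⟩
  have hrw : n • Dk - (𝔟 + Finsupp.single Q 1) = n • Dk + -𝔟 - Finsupp.single Q 1 := by abel
  rw [hrw]
  haveI := finite_rrSpace S.hpfk Q₀ (n • Dk + -𝔟 - Finsupp.single Q 1)
  refine Submodule.eq_of_le_of_finrank_eq (hQ n hn) ?_
  have h1 := h_dim n hn
  have h2 := finrank_sub_single S.hpfk hRk (E := n • Dk + -𝔟) Q (by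
    rw [map_add, map_neg, degree_nsmul', ← S.deg_eq, ← hd]
    have := hN₂ n (hNc n hn)
    omega)
  show Module.finrank k (H n) = _
  omega

/-- the reduction of places -/
noncomputable def rmap (P : Place L F) : Place k Fk :=
  ((bar_zero S).step S P).choose

theorem rmap_spec (P : Place L F) :
    Bar S (0 + Finsupp.single P 1) (0 + Finsupp.single (rmap S P) 1) :=
  ((bar_zero S).step S P).choose_spec

/-- independence of the context -/
theorem Bar.step_eq {𝔞 : Divisor L F} {𝔟 : Divisor k Fk} (h : Bar S 𝔞 𝔟) {P : Place L F}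
    {Q : Place k Fk} (h' : Bar S (𝔞 + Finsupp.single P 1) (𝔟 + Finsupp.single Q 1)) :
    Q = rmap S P := by
  classical
  obtain ⟨ck, hRk⟩ := S.rthm_k
  have hd := h.degree_eq S
  obtain ⟨N₁, hN₁⟩ := h
  obtain ⟨N₂, hN₂⟩ := h'
  obtain ⟨N₃, hN₃⟩ := rmap_spec S P
  obtain ⟨N₄, hN₄⟩ := exists_threshold S.degk_pos (ck + 1 + Divisor.degree 𝔟)
  obtain ⟨N₅, hN₅⟩ := exists_threshold S.degk_pos (ck + 1 + 1)
  set n := max N₁ (max N₂ N₄) with hn
  set m := max N₃ N₅ with hm
  have e1 := hN₁ n (le_max_left _ _)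
  have e2 := hN₂ (n + m) (le_trans (le_trans (le_max_left _ _) (le_max_right _ _))
    (Nat.le_add_right _ _))
  have e3 := hN₃ m (le_max_left _ _)
  have t4 := hN₄ n (le_trans (le_max_right _ _) (le_max_right _ _))
  have t5 := hN₅ m (le_max_right _ _)
  obtain ⟨φ, hφ, hφ0, hφord⟩ := exists_ord_eq S.hpfk hRk (E := n • Dk - 𝔟) Q (by
    rw [map_sub, degree_nsmul']; omega)
  obtain ⟨χ, hχ, hχ0, hχord⟩ := exists_ord_eq S.hpfk hRk
    (E := m • Dk - (0 + Finsupp.single (rmap S P) 1)) Q (by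
    rw [map_sub, degree_nsmul', map_add, map_zero, S.hpfk.degree_single]; omega)
  rw [← e1] at hφ
  rw [← e3] at hχ
  obtain ⟨y, hy, hyφ⟩ := hφ
  obtain ⟨x, hx, hxχ⟩ := hχ
  have hmem : χ * φ ∈ riemannRochSpace ((n + m) • Dk - (𝔟 + Finsupp.single Q 1)) := by
    rw [← e2]
    refine ⟨x * y, ?_, S.ax.mul hxχ hyφ⟩
    have := mul_mem_rrSpace hx hy
    have heq : m • D - (0 + Finsupp.single P 1) + (n • D - 𝔞)
        = (n + m) • D - (𝔞 + Finsupp.single P 1) := by
      rw [add_smul]; abel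
    rwa [heq] at this
  have hord := (mem_rrSpace_iff_of_ne_zero (mul_ne_zero hχ0 hφ0)).mp hmem Q
  rw [Q.ord_mul hχ0 hφ0, hχord, hφord] at hord
  simp only [Finsupp.sub_apply, Finsupp.add_apply, Finsupp.smul_apply, nsmul_eq_mul,
    Finsupp.single_eq_same, Finsupp.coe_zero, Pi.zero_apply, add_smul] at hord
  by_contra hne
  rw [Finsupp.single_eq_of_ne (fun h => hne h)] at hord
  push_cast at hord
  linarith

/-- **reduction of effective divisors** -/
theorem bar_mapDomain (𝔞 : Divisor L F) (h𝔞 : 0 ≤ 𝔞) :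
    Bar S 𝔞 (Finsupp.mapDomain (rmap S) 𝔞) := by
  refine divisor_induction S.hpf (p := fun 𝔞 => Bar S 𝔞 (Finsupp.mapDomain (rmap S) 𝔞)) 0 ?_ ?_
    𝔞 h𝔞
  · rw [Finsupp.mapDomain_zero]
    exact bar_zero S
  · intro 𝔞' P _ ih
    obtain ⟨Q, hQ⟩ := ih.step S P
    have := ih.step_eq S hQ
    subst this
    rw [Finsupp.mapDomain_add, Finsupp.mapDomain_single]
    exact hQ

end Step

/-- sections of `G - G'` times `a` are sections of `G - (div a + G')` -/
theorem mul_mem_sub_residual {K F' : Type*} [Field K] [Field F'] [Algebra K F']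
    (hpf : PlaceFacts K F') {G G' : Divisor K F'} {a χ : F'}
    (h0 : a ≠ 0) (hχ : χ ∈ riemannRochSpace (G - G')) :
    χ * a ∈ riemannRochSpace (G - (hpf.divOf a + G')) := by
  by_cases hχ0 : χ = 0
  · rw [hχ0, zero_mul]; exact Submodule.zero_mem _
  rw [mem_rrSpace_iff_of_ne_zero (mul_ne_zero hχ0 h0)]
  intro v
  have := (mem_rrSpace_iff_of_ne_zero hχ0).mp hχ v
  rw [Finsupp.sub_apply] at this
  rw [v.ord_mul hχ0 h0, Finsupp.sub_apply, Finsupp.add_apply, hpf.divOf_apply]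
  omega

/-- principal divisors: the reduction of the divisor of zeros of a section -/
theorem bar_section {n₁ : ℕ} {f : F} {a : Fk} (_hf : f ∈ riemannRochSpace (n₁ • D))
    (hfa : Red f a) (ha : a ≠ 0) :
    Bar S (S.hpf.divOf f + n₁ • D) (S.hpfk.divOf a + n₁ • Dk) := by
  obtain ⟨ck, hRk⟩ := S.rthm_k
  have hf0 : f ≠ 0 := S.ax.ne_zero hfa ha
  obtain ⟨M₁, hM₁⟩ := exists_threshold S.deg_pos c
  obtain ⟨M₂, hM₂⟩ := exists_threshold S.deg_pos ck
  refine ⟨n₁ + max M₁ M₂, fun m hm => ?_⟩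
  have hsurj := S.redSpace_nsmul_eq hRk (m - n₁)
    (hM₁ _ (by have := le_max_left M₁ M₂; omega)) (hM₂ _ (by have := le_max_right M₁ M₂; omega))
  have hD : m • D - n₁ • D = (m - n₁) • D := by
    have : m = (m - n₁) + n₁ := by omega
    conv_lhs => rw [this, add_smul]
    abel
  have hDk : m • Dk - n₁ • Dk = (m - n₁) • Dk := by
    have : m = (m - n₁) + n₁ := by omega
    conv_lhs => rw [this, add_smul]
    abel
  apply le_antisymm
  · rintro b ⟨x, hx, hxb⟩
    have h1 := div_mem_of_mem_sub_residual S.hpf hf0 hx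
    rw [hD] at h1
    have h2 : b * a⁻¹ ∈ redSpace S.ax (riemannRochSpace ((m - n₁) • D)) :=
      ⟨x * f⁻¹, h1, S.ax.mul hxb (S.ax.inv hfa ha)⟩
    rw [hsurj, ← hDk] at h2
    have h3 := mul_mem_sub_residual S.hpfk ha h2
    rwa [mul_assoc, inv_mul_cancel₀ ha, mul_one] at h3
  · intro b hb
    have h1 := div_mem_of_mem_sub_residual S.hpfk ha hb
    rw [hDk, ← hsurj] at h1
    obtain ⟨y, hy, hyb⟩ := h1
    rw [← hD] at hy
    have h2 := mul_mem_sub_residual S.hpf hf0 hy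
    refine ⟨y * f, h2, ?_⟩
    have := S.ax.mul hyb hfa
    rwa [mul_assoc, inv_mul_cancel₀ ha, mul_one] at this

section Main

variable [Infinite k]

theorem divOf_one {K F' : Type*} [Field K] [Field F'] [Algebra K F']
    (hpf : PlaceFacts K F') : hpf.divOf (1 : F') = 0 := by
  ext v
  rw [hpf.divOf_apply]
  simp

theorem one_mem_rrSpace_of_nonneg {K F' : Type*} [Field K] [Field F'] [Algebra K F']
    {E : Divisor K F'} (hE : 0 ≤ E) : (1 : F') ∈ riemannRochSpace E := by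
  rw [mem_rrSpace_iff_of_ne_zero one_ne_zero]
  intro v
  have := Finsupp.le_def.mp hE v
  simp only [Finsupp.coe_zero, Pi.zero_apply] at this
  rw [Place.ord_one]
  omega

/-- reduction of sections -/
theorem mapDomain_section {n₁ : ℕ} {f : F} {a : Fk} (hf : f ∈ riemannRochSpace (n₁ • D))
    (hfa : Red f a) (ha : a ≠ 0) :
    Finsupp.mapDomain (rmap S) (S.hpf.divOf f + n₁ • D) = S.hpfk.divOf a + n₁ • Dk := by
  have hf0 : f ≠ 0 := S.ax.ne_zero hfa ha
  have h1 := bar_section S hf hfa ha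
  have h2 := bar_mapDomain S (S.hpf.divOf f + n₁ • D) (residual_nonneg S.hpf hf0 hf)
  exact h2.unique S h1

/-- `r_* D = Dk` -/
theorem mapDomain_D : Finsupp.mapDomain (rmap S) D = Dk := by
  have h1 : (1 : F) ∈ riemannRochSpace (1 • D) := by
    rw [one_smul]; exact one_mem_rrSpace_of_nonneg S.D_nonneg
  have := mapDomain_section S h1 S.ax.one one_ne_zero
  rwa [divOf_one, divOf_one, zero_add, zero_add, one_smul, one_smul] at this

/-- `r_* (div f) = div a` for sections `f` -/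
theorem mapDomain_divOf_section {n₁ : ℕ} {f : F} {a : Fk}
    (hf : f ∈ riemannRochSpace (n₁ • D)) (hfa : Red f a) (ha : a ≠ 0) :
    Finsupp.mapDomain (rmap S) (S.hpf.divOf f) = S.hpfk.divOf a := by
  have := mapDomain_section S hf hfa ha
  rw [Finsupp.mapDomain_add, Finsupp.mapDomain_smul, mapDomain_D S] at this
  exact add_right_cancel this

/-- the pole divisor of `x` is bounded by `posPart (-div x)` -/
theorem divOf_add_posPart_nonneg {K F' : Type*} [Field K] [Field F'] [Algebra K F']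
    (hpf : PlaceFacts K F') (x : F') : 0 ≤ hpf.divOf x + posPart (-(hpf.divOf x)) := by
  rw [Finsupp.le_def]
  intro v
  rw [Finsupp.add_apply, posPart_apply, Finsupp.neg_apply]
  simp only [Finsupp.coe_zero, Pi.zero_apply]
  have := le_max_left (-(hpf.divOf x v)) 0
  omega

theorem posPart_nonneg {K F' : Type*} [Field K] [Field F'] [Algebra K F']
    (E : Divisor K F') : 0 ≤ posPart E := by
  rw [Finsupp.le_def]
  intro v
  rw [posPart_apply]
  exact le_max_right _ _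

theorem divOf_mul {K F' : Type*} [Field K] [Field F'] [Algebra K F']
    (hpf : PlaceFacts K F') {x y : F'} (hx : x ≠ 0) (hy : y ≠ 0) :
    hpf.divOf (x * y) = hpf.divOf x + hpf.divOf y := by
  ext v
  rw [Finsupp.add_apply, hpf.divOf_apply, hpf.divOf_apply, hpf.divOf_apply, v.ord_mul hx hy]

/-- **(R5)**: `r_* (div x) = div a` whenever `Red x a`, `a ≠ 0` -/
theorem mapDomain_divOf {x : F} {a : Fk} (hxa : Red x a) (ha : a ≠ 0) :
    Finsupp.mapDomain (rmap S) (S.hpf.divOf x) = S.hpfk.divOf a := by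
  have hx0 : x ≠ 0 := S.ax.ne_zero hxa ha
  set X : Divisor L F := posPart (-(S.hpf.divOf x)) with hX
  have hXnn : 0 ≤ X := posPart_nonneg _
  obtain ⟨N, hN⟩ := exists_threshold S.deg_pos (g + Divisor.degree X)
  have hdeg : (g : ℤ) ≤ Divisor.degree (N • D - X) := by
    rw [map_sub, degree_nsmul']
    have := hN N (le_refl _)
    omega
  obtain ⟨y₀, hy₀, hy₀0⟩ := exists_ne_zero_mem S.hpf S.RF hdeg
  obtain ⟨c₀, hc₀, b, hb, hyb⟩ := S.ax.scale y₀ hy₀0
  set y : F := c₀ • y₀ with hy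
  have hymem : y ∈ riemannRochSpace (N • D - X) := Submodule.smul_mem _ _ hy₀
  have hy0 : y ≠ 0 := S.ax.ne_zero hyb hb
  have hyD : y ∈ riemannRochSpace (N • D) := rrSpace_mono (sub_le_self _ hXnn) hymem
  have hxy : x * y ∈ riemannRochSpace (N • D) := by
    rw [mem_rrSpace_iff_of_ne_zero (mul_ne_zero hx0 hy0)]
    intro v
    have h1 := (mem_rrSpace_iff_of_ne_zero hy0).mp hymem v
    have h2 := Finsupp.le_def.mp (divOf_add_posPart_nonneg S.hpf x) v
    rw [Finsupp.sub_apply] at h1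
    rw [Finsupp.add_apply, S.hpf.divOf_apply, ← hX] at h2
    simp only [Finsupp.coe_zero, Pi.zero_apply] at h2
    rw [v.ord_mul hx0 hy0]
    omega
  have e1 := mapDomain_divOf_section S hxy (S.ax.mul hxa hyb) (mul_ne_zero ha hb)
  have e2 := mapDomain_divOf_section S hyD hyb hb
  rw [divOf_mul S.hpf hx0 hy0, divOf_mul S.hpfk ha hb, Finsupp.mapDomain_add, e2] at e1
  exact add_right_cancel e1

end Main

end Fermat.Agent.S18.Deuring
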