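import Fermat.Agent.S18.DeuringNS

/-!
# S18, piece (U2): torsion step — local tools

Unique scaling for the reduction relation, fibre estimates from (R5), lifted uniformisers,
Lemma V (a lifted uniformiser is a coordinate on the disc) and Lemma C.
-/

set_option autoImplicit false
set_option linter.unusedSectionVars false
set_option linter.style.haveILetI false
set_option linter.unusedSimpArgs false
set_option linter.unusedTactic false

open AlgebraicCurve Fermat.Agent.Lib.FF
open scoped Classical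

namespace Fermat.Agent.S18.Deuring

variable {L k F Fk : Type*} [Field L] [Field k] [Field F] [Field Fk] [Algebra L F] [Algebra k Fk]
variable {A : ValuationSubring L} {res : A →+* k} {Red : F → Fk → Prop}
  {D : Divisor L F} {Dk : Divisor k Fk} {g : ℕ} {c : ℤ}

/-! ### the reduction relation -/

section Ax

variable (ax : RedAx A res Red)
include ax

theorem RedAx.smul (u : A) {x : F} {a : Fk} (h : Red x a) :
    Red ((u : L) • x) (algebraMap k Fk (res u) * a) := by
  rw [Algebra.smul_def]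
  exact ax.mul (ax.const u) h

theorem RedAx.neg {x : F} {a : Fk} (h : Red x a) : Red (-x) (-a) := by
  have := ax.smul (-1 : A) h
  simpa using this

theorem RedAx.sub {x y : F} {a b : Fk} (hx : Red x a) (hy : Red y b) : Red (x - y) (a - b) := by
  rw [sub_eq_add_neg, sub_eq_add_neg]
  exact ax.add hx (ax.neg hy)

theorem RedAx.pow {x : F} {a : Fk} (h : Red x a) (n : ℕ) : Red (x ^ n) (a ^ n) := by
  induction n with
  | zero => simpa using ax.one
  | succ n ih => rw [pow_succ, pow_succ]; exact ax.mul ih h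

theorem RedAx.sum {ι : Type*} (s : Finset ι) (x : ι → F) (a : ι → Fk)
    (h : ∀ i ∈ s, Red (x i) (a i)) : Red (∑ i ∈ s, x i) (∑ i ∈ s, a i) := by
  induction s using Finset.induction_on with
  | empty => simpa using ax.zero
  | insert i s hi ih =>
    rw [Finset.sum_insert hi, Finset.sum_insert hi]
    exact ax.add (h i (Finset.mem_insert_self _ _))
      (ih fun j hj => h j (Finset.mem_insert_of_mem hj))

/-- the kernel of `res` contains the non-units -/
theorem RedAx.res_eq_zero (u : A) (hu : (u : L)⁻¹ ∉ A) : res u = 0 := by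
  by_contra hne
  obtain ⟨v, hv⟩ := ax.res_surj (res u)⁻¹
  have h1 : res (1 - u * v) = 0 := by
    rw [map_sub, map_one, map_mul, hv, mul_inv_cancel₀ hne, sub_self]
  have hker : RingHom.ker res ≤ IsLocalRing.maximalIdeal A :=
    IsLocalRing.le_maximalIdeal (RingHom.ker_ne_top res)
  have h2 : (1 - u * v) ∈ IsLocalRing.maximalIdeal A := hker h1
  have h3 : IsUnit (1 - (1 - u * v)) :=
    IsLocalRing.isUnit_one_sub_self_of_mem_nonunits _ h2
  rw [sub_sub_cancel] at h3
  have h4 : IsUnit u := isUnit_of_mul_isUnit_left h3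
  obtain ⟨w, hw⟩ := h4.exists_right_inv
  apply hu
  have h5 : (u : L) * (w : L) = 1 := by
    have := congrArg (Subtype.val) hw
    simpa using this
  have h6 : (u : L)⁻¹ = (w : L) := by
    rw [inv_eq_iff_eq_inv]
    exact (eq_inv_of_mul_eq_one_left h5)
  rw [h6]
  exact w.2

/-- every constant is integral, or its inverse is integral with residue zero -/
theorem RedAx.mem_or (c' : L) :
    (∃ u : A, (u : L) = c') ∨ (c' ≠ 0 ∧ ∃ u : A, (u : L) = c'⁻¹ ∧ res u = 0) := by
  by_cases hc : c' ∈ A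
  · exact Or.inl ⟨⟨c', hc⟩, rfl⟩
  · right
    have hinv : c'⁻¹ ∈ A := (A.mem_or_inv_mem c').resolve_left hc
    refine ⟨?_, ⟨c'⁻¹, hinv⟩, rfl, ax.res_eq_zero _ ?_⟩
    · rintro rfl
      exact hc A.zero_mem
    · simpa using hc

/-- unique scaling -/
theorem RedAx.unique_scaling {x : F} {a b : Fk} {c' : L} (hxa : Red x a) (ha : a ≠ 0)
    (hcb : Red (c' • x) b) (hb : b ≠ 0) :
    ∃ u : A, (u : L) = c' ∧ res u ≠ 0 ∧ b = algebraMap k Fk (res u) * a := by
  have hc0 : c' ≠ 0 := by
    rintro rfl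
    rw [zero_smul] at hcb
    exact hb (ax.unique hcb ax.zero)
  rcases ax.mem_or c' with ⟨u, hu⟩ | ⟨-, u, hu, hu0⟩
  · have h1 := ax.smul u hxa
    rw [hu] at h1
    have hbu := ax.unique hcb h1
    refine ⟨u, hu, ?_, hbu⟩
    intro h0
    rw [hbu, h0, map_zero, zero_mul] at hb
    exact hb rfl
  · exfalso
    have h1 := ax.smul u hcb
    rw [hu, hu0, map_zero, zero_mul, smul_smul, inv_mul_cancel₀ hc0, one_smul] at h1
    exact ha (ax.unique hxa h1)

end Ax

/-! ### orders and constants -/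

section Ord

variable {K F' : Type*} [Field K] [Field F'] [Algebra K F']

theorem ord_smul_of_ne_zero (v : Place K F') {a : K} (ha : a ≠ 0) (x : F') :
    v.ord (a • x) = v.ord x := by
  by_cases hx : x = 0
  · rw [hx, smul_zero]
  rw [Algebra.smul_def, v.ord_mul ((map_ne_zero _).mpr ha) hx, ord_algebraMap, zero_add]

theorem ord_algebraMap_mul (v : Place K F') {a : K} (ha : a ≠ 0) (x : F') :
    v.ord (algebraMap K F' a * x) = v.ord x := by
  rw [← Algebra.smul_def]
  exact ord_smul_of_ne_zero v ha x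

theorem divOf_smul (hpf : PlaceFacts K F') {a : K} (ha : a ≠ 0) (x : F') :
    hpf.divOf (a • x) = hpf.divOf x := by
  ext v
  rw [hpf.divOf_apply, hpf.divOf_apply, ord_smul_of_ne_zero v ha]

theorem ord_pow' (v : Place K F') (x : F') (n : ℕ) : v.ord (x ^ n) = n * v.ord x := by
  rw [← zpow_natCast, v.ord_zpow]

theorem ord_sub_one_nonneg (v : Place K F') {x : F'} (hx : 0 ≤ v.ord x) : 0 ≤ v.ord (x - 1) := by
  by_cases h : x - 1 = 0
  · rw [h]; simp
  have := ord_sub v (f := x) (g := 1) h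
  rw [Place.ord_one] at this
  have := le_min hx (le_refl (0 : ℤ))
  omega

theorem ord_sub_algebraMap_nonneg (v : Place K F') {x : F'} (hx : 0 ≤ v.ord x) (a : K) :
    0 ≤ v.ord (x - algebraMap K F' a) := by
  by_cases h : x - algebraMap K F' a = 0
  · rw [h]; simp
  have := ord_sub v (f := x) (g := algebraMap K F' a) h
  rw [ord_algebraMap] at this
  have := le_min hx (le_refl (0 : ℤ))
  omega

end Ord

/-! ### fibre estimates from (R5) -/

section R5

variable (S : Setup A res Red D Dk g c) [Infinite k]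

theorem rmap_ord {x : F} {a : Fk} (hxa : Red x a) (ha : a ≠ 0) (Q : Place k Fk) :
    Finsupp.mapDomain (rmap S) (S.hpf.divOf x) Q = Q.ord a := by
  rw [mapDomain_divOf S hxa ha, S.hpfk.divOf_apply]

theorem ord_le_of_fibre {x : F} {a : Fk} (hxa : Red x a) (ha : a ≠ 0) {Q : Place k Fk}
    (hnn : ∀ P, rmap S P = Q → 0 ≤ P.ord x) {P₁ : Place L F} (hP₁ : rmap S P₁ = Q) :
    P₁.ord x ≤ Q.ord a := by
  rw [← rmap_ord S hxa ha Q]
  have := le_mapDomain_apply (rmap S) (E := S.hpf.divOf x) (Q := Q)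
    (fun P hP => by rw [S.hpf.divOf_apply]; exact hnn P hP) hP₁
  rwa [S.hpf.divOf_apply] at this

theorem ord_nonneg_of_fibre {x : F} {a : Fk} (hxa : Red x a) (ha : a ≠ 0) {Q : Place k Fk}
    (hnn : ∀ P, rmap S P = Q → 0 ≤ P.ord x) : 0 ≤ Q.ord a := by
  rw [← rmap_ord S hxa ha Q]
  exact mapDomain_apply_nonneg (rmap S)
    (fun P hP => by rw [S.hpf.divOf_apply]; exact hnn P hP)

theorem ord_eq_zero_of_fibre {x : F} {a : Fk} (hxa : Red x a) (ha : a ≠ 0) {Q : Place k Fk}
    (hnn : ∀ P, rmap S P = Q → 0 ≤ P.ord x) {P₁ : Place L F} (hP₁ : rmap S P₁ = Q)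
    (hle : Q.ord a ≤ P₁.ord x) {P : Place L F} (hP : rmap S P = Q) (hne : P ≠ P₁) :
    P.ord x = 0 := by
  have := eq_zero_of_mapDomain_apply_le (rmap S) (E := S.hpf.divOf x) (Q := Q)
    (fun P hP => by rw [S.hpf.divOf_apply]; exact hnn P hP) hP₁
    (by rw [rmap_ord S hxa ha Q, S.hpf.divOf_apply]; exact hle) hP hne
  rwa [S.hpf.divOf_apply] at this

/-- the fibre over a place with `Dk Q = 0` does not meet `D` -/
theorem D_eq_zero_of_fibre {Q : Place k Fk} (hQ : Dk Q = 0) {P : Place L F}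
    (hP : rmap S P = Q) : D P = 0 := by
  have h1 := le_mapDomain_apply (rmap S) (E := D) (Q := Q)
    (fun P _ => Finsupp.le_def.mp S.D_nonneg P) hP
  rw [mapDomain_D S, hQ] at h1
  have h2 := Finsupp.le_def.mp S.D_nonneg P
  simp only [Finsupp.coe_zero, Pi.zero_apply] at h2
  omega

/-- lifted uniformisers -/
theorem exists_lift_uniformizer (Q : Place k Fk) (hQ : Dk Q = 0) :
    ∃ τ : F, ∃ t : Fk, Red τ t ∧ Q.ord t = 1 ∧ ∀ P, rmap S P = Q → 0 ≤ P.ord τ := by
  obtain ⟨ck, hRk⟩ := S.rthm_k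
  obtain ⟨N₁, hN₁⟩ := exists_threshold S.deg_pos c
  obtain ⟨N₂, hN₂⟩ := exists_threshold S.deg_pos (ck + 2)
  set n := max N₁ N₂ with hn
  have h1 := hN₁ n (le_max_left _ _)
  have h2 := hN₂ n (le_max_right _ _)
  have hsurj := S.redSpace_nsmul_eq hRk n h1 (by omega)
  obtain ⟨t, ht, ht0, htord⟩ := exists_ord_eq S.hpfk hRk (E := n • Dk - Finsupp.single Q 1) Q (by
    rw [map_sub, degree_nsmul', S.hpfk.degree_single, ← S.deg_eq]; omega)
  have htmem : t ∈ riemannRochSpace (n • Dk) := rrSpace_mono (sub_single_le _ _) ht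
  rw [← hsurj] at htmem
  obtain ⟨τ, hτ, hτt⟩ := htmem
  refine ⟨τ, t, hτt, ?_, ?_⟩
  · rw [htord, Finsupp.sub_apply, Finsupp.smul_apply, hQ, Finsupp.single_eq_same]
    simp
  · intro P hP
    have hτ0 : τ ≠ 0 := S.ax.ne_zero hτt ht0
    have := (mem_rrSpace_iff_of_ne_zero hτ0).mp hτ P
    rw [Finsupp.smul_apply, D_eq_zero_of_fibre S hQ hP] at this
    simpa using this

/-- **Lemma V**: a lifted uniformiser is a coordinate on the disc -/
theorem lemmaV {Q : Place k Fk} {τ : F} {t : Fk} (hτ : Red τ t) (ht : Q.ord t = 1)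
    (hreg : ∀ P, rmap S P = Q → 0 ≤ P.ord τ) {P₁ : Place L F} (hP₁ : rmap S P₁ = Q) :
    ∃ c₁ : L, Red (τ - algebraMap L F c₁) t ∧ P₁.ord (τ - algebraMap L F c₁) = 1 ∧
      ∀ P, rmap S P = Q → P ≠ P₁ → P.ord (τ - algebraMap L F c₁) = 0 := by
  have ht0 : t ≠ 0 := by
    rintro rfl
    simp at ht
  have hτ0 : τ ≠ 0 := S.ax.ne_zero hτ ht0
  obtain ⟨c₁, hc₁⟩ := exists_eq_or_ord_sub_pos P₁ (S.hpf.res P₁) τ (hreg P₁ hP₁)
  have hnot : τ ≠ algebraMap L F c₁ := by
    intro heq
    rcases S.ax.mem_or c₁ with ⟨u, hu⟩ | ⟨hc0, u, hu, hu0⟩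
    · have h1 := S.ax.const u
      rw [hu, ← heq] at h1
      have := S.ax.unique hτ h1
      rw [this, ord_algebraMap] at ht
      omega
    · have h1 := S.ax.smul u hτ
      rw [hu, hu0, map_zero, zero_mul, heq, Algebra.smul_def, ← map_mul,
        inv_mul_cancel₀ hc0, map_one] at h1
      exact one_ne_zero (S.ax.unique S.ax.one h1)
  have hpos : 0 < P₁.ord (τ - algebraMap L F c₁) := hc₁.resolve_left hnot
  set x : F := τ - algebraMap L F c₁ with hx
  have hx0 : x ≠ 0 := sub_ne_zero.mpr hnot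
  have hxnn : ∀ P, rmap S P = Q → 0 ≤ P.ord x := fun P hP =>
    ord_sub_algebraMap_nonneg P (hreg P hP) c₁
  -- `c₁` is integral with residue zero
  have hc : ∃ u : A, (u : L) = c₁ ∧ res u = 0 := by
    rcases S.ax.mem_or c₁ with ⟨u, hu⟩ | ⟨hc0, u, hu, hu0⟩
    · refine ⟨u, hu, ?_⟩
      by_contra hne
      have h1 : Red x (t - algebraMap k Fk (res u)) := by
        have := S.ax.sub hτ (S.ax.const u)
        rwa [hu] at this
      have hne' : algebraMap k Fk (res u) ≠ 0 := (map_ne_zero _).mpr hne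
      have hord : Q.ord (t - algebraMap k Fk (res u)) = 0 := by
        have h2 : Q.ord (-algebraMap k Fk (res u)) < Q.ord t := by
          rw [ord_neg, ord_algebraMap, ht]; omega
        have := ord_add_of_lt Q h2 (neg_ne_zero.mpr hne')
        rw [ord_neg, ord_algebraMap, neg_add_eq_sub] at this
        exact this
      have hne'' : t - algebraMap k Fk (res u) ≠ 0 := by
        intro h0
        have : t = algebraMap k Fk (res u) := sub_eq_zero.mp h0
        rw [this, ord_algebraMap] at ht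
        omega
      have := ord_le_of_fibre S h1 hne'' hxnn hP₁
      omega
    · exfalso
      have hu0' : (u : L) ≠ 0 := by rw [hu]; exact inv_ne_zero hc0
      have h1 : Red (1 - (u : L) • τ) (1 - algebraMap k Fk (res u) * t) :=
        S.ax.sub S.ax.one (S.ax.smul u hτ)
      rw [hu0, map_zero, zero_mul, sub_zero] at h1
      have hy : 1 - (u : L) • τ = -((u : L) • x) := by
        rw [hx, smul_sub, Algebra.smul_def (u : L) (algebraMap L F c₁), ← map_mul, hu,
          inv_mul_cancel₀ hc0, map_one]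
        ring
      rw [hy] at h1
      have hord : ∀ P : Place L F, P.ord (-((u : L) • x)) = P.ord x := fun P => by
        rw [ord_neg, ord_smul_of_ne_zero P hu0']
      have := ord_le_of_fibre S h1 one_ne_zero
        (fun P hP => by rw [hord]; exact hxnn P hP) hP₁
      rw [hord, Place.ord_one] at this
      omega
  obtain ⟨u, hu, hu0⟩ := hc
  have hxt : Red x t := by
    have := S.ax.sub hτ (S.ax.const u)
    rwa [hu, hu0, map_zero, sub_zero] at this
  have hle := ord_le_of_fibre S hxt ht0 hxnn hP₁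
  have h1 : P₁.ord x = 1 := by omega
  exact ⟨c₁, hxt, h1, fun P hP hne =>
    ord_eq_zero_of_fibre S hxt ht0 hxnn hP₁ (by omega) hP hne⟩

end R5

section LemmaC

variable (ax : RedAx A res Red)
include ax

/-- **Lemma C** -/
theorem lemmaC (Q : Place k Fk) {Ψ Ρ : F} {ψ ρ φ : Fk} (hΨ : Red Ψ ψ) (hΡ : Red Ρ ρ)
    (hψ0 : ψ ≠ 0) (hψord : 0 ≤ Q.ord ψ) (hρ0 : ρ ≠ 0) (hρ : Q.ord ρ = -1) {α β : L}
    (hα : α ≠ 0) (hβ : β ≠ 0) (hφ : Red (α • Ψ + β • Ρ) φ) (hφ0 : φ ≠ 0) :
    -1 ≤ Q.ord φ := by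
  have key : ∀ (y : Fk), y ≠ 0 → -1 ≤ Q.ord y → ∀ (Y : F) (γ : L), Red Y y →
      γ • Y = α • Ψ + β • Ρ → -1 ≤ Q.ord φ := by
    intro y hy0 hyord Y γ hYy hγ
    rw [← hγ] at hφ
    obtain ⟨u, -, hu0, hφy⟩ := ax.unique_scaling hYy hy0 hφ hφ0
    rw [hφy, ord_algebraMap_mul Q hu0]
    exact hyord
  -- orders of `a ψ + b ρ`
  have hsum1 : ∀ b : k, (ψ + algebraMap k Fk b * ρ ≠ 0 ∧
      -1 ≤ Q.ord (ψ + algebraMap k Fk b * ρ)) := by
    intro b
    by_cases hb : b = 0
    · rw [hb, map_zero, zero_mul, add_zero]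
      exact ⟨hψ0, by omega⟩
    · have h1 : Q.ord (algebraMap k Fk b * ρ) = -1 := by rw [ord_algebraMap_mul Q hb, hρ]
      have h2 : algebraMap k Fk b * ρ ≠ 0 := mul_ne_zero ((map_ne_zero _).mpr hb) hρ0
      have h3 := ord_add_of_lt Q (f := algebraMap k Fk b * ρ) (g := ψ) (by omega) h2
      rw [add_comm] at h3
      refine ⟨?_, by omega⟩
      intro h0
      rw [h0] at h3
      simp at h3
      omega
  have hsum2 : ∀ a : k, (algebraMap k Fk a * ψ + ρ ≠ 0 ∧
      -1 ≤ Q.ord (algebraMap k Fk a * ψ + ρ)) := by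
    intro a
    by_cases ha : a = 0
    · rw [ha, map_zero, zero_mul, zero_add]
      exact ⟨hρ0, by omega⟩
    · have h1 : Q.ord (algebraMap k Fk a * ψ) = Q.ord ψ := ord_algebraMap_mul Q ha ψ
      have h3 := ord_add_of_lt Q (f := ρ) (g := algebraMap k Fk a * ψ) (by omega) hρ0
      rw [add_comm] at h3
      refine ⟨?_, by omega⟩
      intro h0'
      rw [h0'] at h3
      simp at h3
      omega
  rcases ax.mem_or (β / α) with ⟨u, hu⟩ | ⟨-, u, hu, hu0⟩
  · have hY := ax.add hΨ (ax.smul u hΡ)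
    have := hsum1 (res u)
    refine key _ this.1 this.2 _ α hY ?_
    rw [smul_add, smul_smul, hu, mul_div_cancel₀ _ hα]
  · have hu' : (u : L) = α / β := by rw [hu, inv_div]
    have hY := ax.add (ax.smul u hΨ) hΡ
    have := hsum2 (res u)
    refine key _ this.1 this.2 _ β hY ?_
    rw [smul_add, smul_smul, hu', mul_div_cancel₀ _ hβ]

end LemmaC



end Fermat.Agent.S18.Deuring
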