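import Fermat.Agent.S18.DeuringBar

/-!
# S18, piece (U2): side facts for the torsion step

* fibre sums of `Finsupp.mapDomain`;
* infinitely many places, non-special finite sets of places;
* lifted uniformisers;
* unique scaling for the reduction relation.
-/

set_option autoImplicit false
set_option linter.unusedSectionVars false
set_option linter.style.haveILetI false
set_option linter.unusedSimpArgs false
set_option linter.unusedTactic false

open AlgebraicCurve Fermat.Agent.Lib.FF
open scoped Classical

namespace Fermat.Agent.S18.Deuring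

/-! ### fibre sums -/

section Fibre

variable {α β : Type*} (r : α → β)

theorem mapDomain_apply_sum (E : α →₀ ℤ) (Q : β) :
    Finsupp.mapDomain r E Q = ∑ P ∈ E.support, if r P = Q then E P else 0 := by
  classical
  rw [Finsupp.mapDomain, Finsupp.sum, Finsupp.finsetSum_apply]
  refine Finset.sum_congr rfl fun P _ => ?_
  rw [Finsupp.single_apply]

theorem mapDomain_apply_nonneg {E : α →₀ ℤ} {Q : β} (hnn : ∀ P, r P = Q → 0 ≤ E P) :
    0 ≤ Finsupp.mapDomain r E Q := by
  classical
  rw [mapDomain_apply_sum]
  refine Finset.sum_nonneg fun P _ => ?_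
  split_ifs with h
  · exact hnn P h
  · exact le_refl _

theorem le_mapDomain_apply {E : α →₀ ℤ} {Q : β} (hnn : ∀ P, r P = Q → 0 ≤ E P) {P₁ : α}
    (hP₁ : r P₁ = Q) : E P₁ ≤ Finsupp.mapDomain r E Q := by
  classical
  by_cases hmem : P₁ ∈ E.support
  · rw [mapDomain_apply_sum]
    have h := Finset.single_le_sum (f := fun P => if r P = Q then E P else 0) (s := E.support)
      (fun P _ => by
        show 0 ≤ (if r P = Q then E P else 0)
        split_ifs with h
        · exact hnn P h
        · exact le_refl _) hmem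
    simpa [hP₁] using h
  · rw [Finsupp.notMem_support_iff.mp hmem]
    exact mapDomain_apply_nonneg r hnn

theorem eq_zero_of_mapDomain_apply_le {E : α →₀ ℤ} {Q : β} (hnn : ∀ P, r P = Q → 0 ≤ E P)
    {P₁ : α} (hP₁ : r P₁ = Q) (hle : Finsupp.mapDomain r E Q ≤ E P₁) {P : α} (hP : r P = Q)
    (hne : P ≠ P₁) : E P = 0 := by
  classical
  set E' : α →₀ ℤ := E - Finsupp.single P₁ (E P₁) with hE'
  have hnn' : ∀ P', r P' = Q → 0 ≤ E' P' := by
    intro P' hP'
    rw [hE', Finsupp.sub_apply, Finsupp.single_apply]
    split_ifs with h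
    · subst h; simp
    · simpa using hnn P' hP'
  have h1 := le_mapDomain_apply r hnn' hP
  have h2 : Finsupp.mapDomain r E' Q = Finsupp.mapDomain r E Q - E P₁ := by
    rw [hE', sub_eq_add_neg, Finsupp.mapDomain_add, ← Finsupp.single_neg,
      Finsupp.mapDomain_single, Finsupp.add_apply, Finsupp.single_apply, if_pos hP₁]
    ring
  have h3 : E' P = E P := by
    rw [hE', Finsupp.sub_apply, Finsupp.single_apply, if_neg (fun h => hne h.symm), sub_zero]
  have := hnn P hP
  omega

theorem mapDomain_nonneg {E : α →₀ ℤ} (hE : 0 ≤ E) : 0 ≤ Finsupp.mapDomain r E := by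
  rw [Finsupp.le_def]
  intro Q
  exact mapDomain_apply_nonneg r fun P _ => Finsupp.le_def.mp hE P

end Fibre

/-! ### places -/

section Places

variable {K F : Type*} [Field K] [Field F] [Algebra K F] (hpf : PlaceFacts K F)
include hpf

/-- a function with a pole has a zero -/
theorem exists_ord_pos_of_ord_neg {h : F} (_h0 : h ≠ 0) {Q₀ : Place K F} (hQ₀ : Q₀.ord h < 0) :
    ∃ Q : Place K F, 0 < Q.ord h := by
  classical
  by_contra hcon
  have hall : ∀ Q : Place K F, Q.ord h ≤ 0 := fun Q => by
    by_contra hq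
    exact hcon ⟨Q, not_le.mp hq⟩
  have hdeg := hpf.degree_divOf h
  rw [degree_eq_sum_of_res hpf.res (hpf.divOf h) _ (le_refl _)] at hdeg
  have hmem : Q₀ ∈ (hpf.divOf h).support := by
    rw [Finsupp.mem_support_iff, hpf.divOf_apply]
    omega
  have hle : ∑ v ∈ (hpf.divOf h).support, hpf.divOf h v ≤ hpf.divOf h Q₀ := by
    have := Finset.sum_le_sum (s := (hpf.divOf h).support)
      (f := fun v => hpf.divOf h v) (g := fun v => if v = Q₀ then hpf.divOf h Q₀ else 0)
      (fun v _ => by
        show hpf.divOf h v ≤ if v = Q₀ then hpf.divOf h Q₀ else 0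
        split_ifs with hv
        · rw [hv]
        · rw [hpf.divOf_apply]; exact hall v)
    rw [Finset.sum_ite_eq' _ Q₀, if_pos hmem] at this
    exact this
  rw [hdeg, hpf.divOf_apply] at hle
  omega

theorem ord_const_sub_pos_eq {f : F} {Q : Place K F} {a b : K}
    (ha : 0 < Q.ord (f - algebraMap K F a)) (hb : 0 < Q.ord (f - algebraMap K F b)) : a = b := by
  by_contra hne
  have hab : algebraMap K F (b - a) ≠ 0 := by
    rw [Ne, map_eq_zero, sub_eq_zero]
    exact fun h => hne h.symm
  have h1 : (f - algebraMap K F a) - (f - algebraMap K F b) = algebraMap K F (b - a) := by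
    rw [map_sub]; ring
  have h2 := ord_sub Q (f := f - algebraMap K F a) (g := f - algebraMap K F b) (by rwa [h1])
  rw [h1, ord_algebraMap] at h2
  have := lt_min ha hb
  omega

/-- infinitely many places -/
theorem infinite_place [Infinite K] {g : ℕ} {c : ℤ} (hR : RThm K F g c) (P₀ : Place K F) :
    Infinite (Place K F) := by
  set n : ℕ := (c + 1).toNat + 1 with hn
  have hdeg : c + 1 ≤ Divisor.degree (n • Finsupp.single P₀ (1 : ℤ)) := by
    rw [map_nsmul, hpf.degree_single, nsmul_eq_mul, mul_one]
    have : c + 1 ≤ ((c + 1).toNat : ℤ) := Int.self_le_toNat _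
    rw [hn]; push_cast; omega
  obtain ⟨f, hf, hf0, hford⟩ := exists_ord_eq hpf hR P₀ hdeg
  have hfneg : P₀.ord f < 0 := by
    rw [hford]
    simp only [Finsupp.smul_apply, Finsupp.single_eq_same, nsmul_eq_mul, mul_one]
    rw [hn]; push_cast; omega
  have hord : ∀ a : K, P₀.ord (f - algebraMap K F a) < 0 := by
    intro a
    have h1 : P₀.ord f < P₀.ord (algebraMap K F (-a)) := by rwa [ord_algebraMap]
    have := ord_add_of_lt P₀ h1 hf0
    rw [map_neg, ← sub_eq_add_neg] at this
    rwa [this]
  have hne : ∀ a : K, f - algebraMap K F a ≠ 0 := by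
    intro a h0
    have := hord a
    rw [h0] at this
    simp at this
  have hz : ∀ a : K, ∃ Q : Place K F, 0 < Q.ord (f - algebraMap K F a) :=
    fun a => exists_ord_pos_of_ord_neg hpf (hne a) (hord a)
  choose z hz using hz
  exact Infinite.of_injective z fun a b hab =>
    ord_const_sub_pos_eq hpf (hz a) (by rw [hab]; exact hz b)

end Places

/-! ### non-special sets of places -/

section NS

variable {K F : Type*} [Field K] [Field F] [Algebra K F]

/-- the sum of the places of a finite set -/
noncomputable def sumPl (Qs : Finset (Place K F)) : Divisor K F :=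
  ∑ Q ∈ Qs, Finsupp.single Q (1 : ℤ)

theorem sumPl_apply (Qs : Finset (Place K F)) (Q : Place K F) :
    sumPl Qs Q = if Q ∈ Qs then 1 else 0 := by
  classical
  rw [sumPl, Finsupp.finsetSum_apply]
  simp only [Finsupp.single_apply]
  rw [Finset.sum_ite_eq' Qs Q]

theorem sumPl_nonneg (Qs : Finset (Place K F)) : 0 ≤ sumPl Qs := by
  rw [Finsupp.le_def]
  intro Q
  rw [sumPl_apply]
  split_ifs <;> simp

theorem sumPl_insert {Qs : Finset (Place K F)} {Q : Place K F} (hQ : Q ∉ Qs) :
    sumPl (insert Q Qs) = sumPl Qs + Finsupp.single Q 1 := by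
  classical
  rw [sumPl, Finset.sum_insert hQ, add_comm]
  rfl

theorem sumPl_empty : sumPl (∅ : Finset (Place K F)) = 0 := by
  rw [sumPl, Finset.sum_empty]

variable (hpf : PlaceFacts K F)
include hpf

theorem degree_sumPl (Qs : Finset (Place K F)) : Divisor.degree (sumPl Qs) = Qs.card := by
  classical
  rw [sumPl, map_sum]
  simp only [hpf.degree_single]
  simp

theorem finrank_rrSpace_zero' (P₀ : Place K F) :
    Module.finrank K (riemannRochSpace (0 : Divisor K F)) = 1 := by
  have h1 := finrank_rrSpace_le hpf P₀ (0 : Divisor K F) (by rw [map_zero]; omega)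
  rw [map_zero] at h1
  haveI := finite_rrSpace hpf P₀ (0 : Divisor K F)
  have h2 : 0 < Module.finrank K (riemannRochSpace (0 : Divisor K F)) := by
    rw [Module.finrank_pos_iff_exists_ne_zero]
    exact ⟨⟨1, one_mem_rrSpace_of_nonneg (le_refl _)⟩, fun h => one_ne_zero (congrArg Subtype.val h)⟩
  omega

/-- if `ℓ(E) = 1` and `E ≥ 0` then `L(E)` consists of constants -/
theorem exists_const_of_finrank_eq_one (P₀ : Place K F) {E : Divisor K F} (hE : 0 ≤ E)
    (h1 : Module.finrank K (riemannRochSpace E) = 1) {φ : F} (hφ : φ ∈ riemannRochSpace E) :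
    ∃ a : K, φ = algebraMap K F a := by
  haveI := finite_rrSpace hpf P₀ E
  have hone : (1 : F) ∈ riemannRochSpace E := one_mem_rrSpace_of_nonneg hE
  obtain ⟨a, ha⟩ := (finrank_eq_one_iff_of_nonzero' (⟨1, hone⟩ : riemannRochSpace E)
    (fun h => one_ne_zero (congrArg Subtype.val h))).mp h1 ⟨φ, hφ⟩
  refine ⟨a, ?_⟩
  have := congrArg Subtype.val ha
  simp only [Submodule.coe_smul] at this
  rw [← this, Algebra.smul_def, mul_one]

/-- adding distinct "jump" places increases `ℓ` by one each time -/
theorem finrank_add_sumPl_of_jumps (P₀ : Place K F) (E : Divisor K F)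
    (Y : Finset (Place K F)) (hY : ∀ Q ∈ Y, E Q = 0)
    (hjump : ∀ Q ∈ Y, ∃ f ∈ riemannRochSpace (E + Finsupp.single Q 1), f ∉ riemannRochSpace E) :
    Module.finrank K (riemannRochSpace (E + sumPl Y))
      = Module.finrank K (riemannRochSpace E) + Y.card := by
  classical
  induction Y using Finset.induction_on with
  | empty => rw [sumPl_empty, add_zero, Finset.card_empty, add_zero]
  | insert Q Y' hQ ih =>
    have ih' := ih (fun Q' hQ' => hY Q' (Finset.mem_insert_of_mem hQ'))
      (fun Q' hQ' => hjump Q' (Finset.mem_insert_of_mem hQ'))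
    obtain ⟨f, hf, hfn⟩ := hjump Q (Finset.mem_insert_self _ _)
    obtain ⟨hf0, hford⟩ := ord_eq_of_mem_of_notMem hf hfn
    rw [hY Q (Finset.mem_insert_self _ _)] at hford
    rw [sumPl_insert hQ, ← add_assoc, Finset.card_insert_of_notMem hQ]
    have hle : E + Finsupp.single Q 1 ≤ E + sumPl Y' + Finsupp.single Q 1 := by
      have := sumPl_nonneg Y'
      rw [Finsupp.le_def] at this ⊢
      intro v
      have := this v
      simp only [Finsupp.add_apply, Finsupp.coe_zero, Pi.zero_apply] at *
      omega
    have hfn' : f ∉ riemannRochSpace (E + sumPl Y') := by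
      intro hmem
      have := (mem_rrSpace_iff_of_ne_zero hf0).mp hmem Q
      rw [Finsupp.add_apply, sumPl_apply, if_neg hQ, hY Q (Finset.mem_insert_self _ _), hford]
        at this
      omega
    rw [finrank_rrSpace_add_single_eq hpf _ Q (finite_rrSpace hpf P₀ _) (rrSpace_mono hle hf)
      hfn', ih']
    ring

/-- **non-special sets of places** -/
theorem exists_nonspecial [Infinite K] {g : ℕ} {c : ℤ} (hR : RThm K F g c) (P₀ : Place K F)
    (T : Finset (Place K F)) :
    ∀ i : ℕ, i ≤ g → ∃ Qs : Finset (Place K F), Qs.card = i ∧ Disjoint Qs T ∧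
      Module.finrank K (riemannRochSpace (sumPl Qs)) = 1 := by
  classical
  haveI := infinite_place hpf hR P₀
  intro i
  induction i with
  | zero =>
    intro _
    exact ⟨∅, rfl, Finset.disjoint_empty_left _, by
      rw [sumPl_empty]; exact finrank_rrSpace_zero' hpf P₀⟩
  | succ i ih =>
    intro hi
    obtain ⟨Qs, hcard, hdisj, hrank⟩ := ih (by omega)
    by_contra hcon
    -- every place outside `Qs ∪ T` is a jump
    have hjump : ∀ Q : Place K F, Q ∉ Qs ∪ T →
        ∃ f ∈ riemannRochSpace (sumPl Qs + Finsupp.single Q 1), f ∉ riemannRochSpace (sumPl Qs) := by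
      intro Q hQ
      by_contra hno
      apply hcon
      have hQs : Q ∉ Qs := fun h => hQ (Finset.mem_union_left _ h)
      have hQT : Q ∉ T := fun h => hQ (Finset.mem_union_right _ h)
      refine ⟨insert Q Qs, by rw [Finset.card_insert_of_notMem hQs, hcard], ?_, ?_⟩
      · rw [Finset.disjoint_insert_left]
        exact ⟨hQT, hdisj⟩
      · rw [sumPl_insert hQs]
        have hle : riemannRochSpace (sumPl Qs + Finsupp.single Q 1) ≤ riemannRochSpace (sumPl Qs) := by
          intro f hf
          by_contra hfn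
          exact hno ⟨f, hf, hfn⟩
        rw [le_antisymm hle (rrSpace_mono (le_add_single _ _)), hrank]
    -- choose many places outside
    set N : ℕ := (c - i).toNat + 1 with hN
    obtain ⟨t, hsub, htcard⟩ := Infinite.exists_superset_card_eq (Qs ∪ T) ((Qs ∪ T).card + N)
      (Nat.le_add_right _ _)
    set Y : Finset (Place K F) := t \ (Qs ∪ T) with hY
    have hYcard : Y.card = N := by
      rw [hY, Finset.card_sdiff_of_subset hsub, htcard]
      omega
    have hYout : ∀ Q ∈ Y, Q ∉ Qs ∪ T := fun Q hQ => (Finset.mem_sdiff.mp hQ).2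
    have h1 := finrank_add_sumPl_of_jumps hpf P₀ (sumPl Qs) Y
      (fun Q hQ => by
        rw [sumPl_apply, if_neg (fun h => hYout Q hQ (Finset.mem_union_left _ h))])
      (fun Q hQ => hjump Q (hYout Q hQ))
    have h2 := hR.eq (sumPl Qs + sumPl Y) (by
      rw [map_add, degree_sumPl hpf, degree_sumPl hpf, hcard, hYcard, hN]
      have : c - i ≤ ((c - i).toNat : ℤ) := Int.self_le_toNat _
      push_cast
      omega)
    rw [map_add, degree_sumPl hpf, degree_sumPl hpf, hcard, hYcard, h1, hrank, hYcard] at h2
    push_cast at h2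
    omega

end NS

end Fermat.Agent.S18.Deuring
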