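import Fermat.Agent.Lib.FunctionField.RRSpace

/-!
# S18, piece (3c): Deuring reduction — abstract Riemann–Roch-space lemmas

`K` a field, `F/K` a field extension with `PlaceFacts` and Riemann's theorem `RThm K F g c`:
`ℓ(E) + g ≥ deg E + 1` for all `E`, with equality for `deg E ≥ c`.
We prove: base-point-freeness, generic sections (`K` infinite), the pencil lemma
`L(G - Z₁) ⊔ L(G - Z₂) = L(G)` for effective `Z₁, Z₂` with disjoint supports, and uniqueness of `E`
in `L(G - E)`.
-/

set_option autoImplicit false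
set_option linter.unusedSectionVars false
set_option linter.style.haveILetI false

open AlgebraicCurve Fermat.Agent.Lib.FF

namespace Fermat.Agent.S18.Deuring

/-- Riemann's theorem with genus `g` and threshold `c`. -/
structure RThm (K F : Type*) [Field K] [Field F] [Algebra K F] (g : ℕ) (c : ℤ) : Prop where
  ge : ∀ E : Divisor K F,
    Divisor.degree E + 1 ≤ (Module.finrank K (riemannRochSpace E) : ℤ) + g
  eq : ∀ E : Divisor K F, c ≤ Divisor.degree E →
    (Module.finrank K (riemannRochSpace E) : ℤ) + g = Divisor.degree E + 1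

variable {K F : Type*} [Field K] [Field F] [Algebra K F]

theorem sub_single_add_single (E : Divisor K F) (Q : Place K F) :
    E - Finsupp.single Q 1 + Finsupp.single Q 1 = E := sub_add_cancel _ _

theorem sub_single_le (E : Divisor K F) (Q : Place K F) : E - Finsupp.single Q 1 ≤ E := by
  have := le_add_single (E - Finsupp.single Q 1) Q
  rwa [sub_single_add_single] at this

/-- an element of `L(E) \ L(E - Q)` has exact order `-E(Q)` at `Q` -/
theorem ord_eq_of_notMem_sub_single {E : Divisor K F} {Q : Place K F} {φ : F}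
    (h1 : φ ∈ riemannRochSpace E) (h2 : φ ∉ riemannRochSpace (E - Finsupp.single Q 1)) :
    φ ≠ 0 ∧ Q.ord φ = - E Q := by
  have h1' : φ ∈ riemannRochSpace (E - Finsupp.single Q 1 + Finsupp.single Q 1) := by
    rwa [sub_single_add_single]
  obtain ⟨h0, h⟩ := ord_eq_of_mem_of_notMem h1' h2
  refine ⟨h0, ?_⟩
  rw [h, Finsupp.sub_apply, Finsupp.single_eq_same]
  ring

/-- conversely, exact order `-E(Q)` means not in `L(E - Q)` -/
theorem notMem_sub_single_of_ord_eq {E : Divisor K F} {Q : Place K F} {φ : F}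
    (h0 : φ ≠ 0) (h : Q.ord φ = - E Q) : φ ∉ riemannRochSpace (E - Finsupp.single Q 1) := by
  intro hmem
  have := (mem_rrSpace_iff_of_ne_zero h0).mp hmem Q
  rw [Finsupp.sub_apply, Finsupp.single_eq_same] at this
  omega

theorem mem_sub_single_iff {E : Divisor K F} {Q : Place K F} {φ : F}
    (h1 : φ ∈ riemannRochSpace E) :
    φ ∈ riemannRochSpace (E - Finsupp.single Q 1) ↔ φ = 0 ∨ - E Q + 1 ≤ Q.ord φ := by
  constructor
  · intro h
    by_cases h0 : φ = 0
    · exact Or.inl h0
    · right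
      have := (mem_rrSpace_iff_of_ne_zero h0).mp h Q
      rw [Finsupp.sub_apply, Finsupp.single_eq_same] at this
      omega
  · rintro (h | h)
    · rw [h]; exact Submodule.zero_mem _
    · by_cases h0 : φ = 0
      · rw [h0]; exact Submodule.zero_mem _
      rw [mem_rrSpace_iff_of_ne_zero h0]
      intro v
      by_cases hv : v = Q
      · subst hv
        rw [Finsupp.sub_apply, Finsupp.single_eq_same]
        omega
      · have := (mem_rrSpace_iff_of_ne_zero h0).mp h1 v
        rw [Finsupp.sub_apply, Finsupp.single_eq_of_ne hv, sub_zero]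
        exact this

/-- `φ ∈ L(E)`, `ψ ∈ L(E')` ⇒ `φ ψ ∈ L(E + E')` -/
theorem mul_mem_rrSpace {E E' : Divisor K F} {φ ψ : F}
    (hφ : φ ∈ riemannRochSpace E) (hψ : ψ ∈ riemannRochSpace E') :
    φ * ψ ∈ riemannRochSpace (E + E') := by
  by_cases h1 : φ = 0
  · rw [h1, zero_mul]; exact Submodule.zero_mem _
  by_cases h2 : ψ = 0
  · rw [h2, mul_zero]; exact Submodule.zero_mem _
  rw [mem_rrSpace_iff_of_ne_zero (mul_ne_zero h1 h2)]
  intro v
  have a := (mem_rrSpace_iff_of_ne_zero h1).mp hφ v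
  have b := (mem_rrSpace_iff_of_ne_zero h2).mp hψ v
  rw [v.ord_mul h1 h2, Finsupp.add_apply]
  omega

section PF

variable (hpf : PlaceFacts K F)
include hpf

/-- `φ ≠ 0`, `h ∈ L(E + div φ)` ⇒ `φ h ∈ L(E)`; and conversely -/
theorem mul_mem_iff {φ : F} (hφ : φ ≠ 0) (E : Divisor K F) (h : F) :
    φ * h ∈ riemannRochSpace (E - hpf.divOf φ) ↔ h ∈ riemannRochSpace E := by
  by_cases h0 : h = 0
  · simp [h0]
  rw [mem_rrSpace_iff_of_ne_zero (mul_ne_zero hφ h0), mem_rrSpace_iff_of_ne_zero h0]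
  refine forall_congr' fun v => ?_
  rw [v.ord_mul hφ h0, Finsupp.sub_apply, hpf.divOf_apply]
  constructor <;> intro h <;> omega

theorem degree_sub_single (E : Divisor K F) (Q : Place K F) :
    Divisor.degree (E - Finsupp.single Q 1) = Divisor.degree E - 1 := by
  rw [map_sub, hpf.degree_single]

section R

variable {g : ℕ} {c : ℤ} (hR : RThm K F g c)
include hR

theorem finrank_sub_single {E : Divisor K F} (Q : Place K F) (hE : c + 1 ≤ Divisor.degree E) :
    Module.finrank K (riemannRochSpace (E - Finsupp.single Q 1)) + 1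
      = Module.finrank K (riemannRochSpace E) := by
  have h1 := hR.eq E (by omega)
  have h2 := hR.eq (E - Finsupp.single Q 1) (by rw [degree_sub_single hpf]; omega)
  rw [degree_sub_single hpf] at h2
  omega

/-- base-point-freeness: there is a section of exact order `-E(Q)` at `Q` -/
theorem exists_notMem_sub_single {E : Divisor K F} (Q : Place K F)
    (hE : c + 1 ≤ Divisor.degree E) :
    ∃ φ ∈ riemannRochSpace E, φ ∉ riemannRochSpace (E - Finsupp.single Q 1) := by
  by_contra hcon
  have hle : riemannRochSpace E ≤ riemannRochSpace (E - Finsupp.single Q 1) := by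
    intro φ hφ
    by_contra hn
    exact hcon ⟨φ, hφ, hn⟩
  haveI := finite_rrSpace hpf Q (E - Finsupp.single Q 1)
  have := Submodule.finrank_mono hle
  have := finrank_sub_single hpf hR Q hE
  omega

theorem exists_ord_eq {E : Divisor K F} (Q : Place K F) (hE : c + 1 ≤ Divisor.degree E) :
    ∃ φ ∈ riemannRochSpace E, φ ≠ 0 ∧ Q.ord φ = - E Q := by
  obtain ⟨φ, h1, h2⟩ := exists_notMem_sub_single hpf hR Q hE
  exact ⟨φ, h1, ord_eq_of_notMem_sub_single h1 h2⟩

/-- nonzero sections exist -/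
theorem exists_ne_zero_mem {E : Divisor K F} (hE : (g : ℤ) ≤ Divisor.degree E) :
    ∃ φ ∈ riemannRochSpace E, φ ≠ 0 := by
  have h := hR.ge E
  have hpos : 0 < Module.finrank K (riemannRochSpace E) := by omega
  by_contra hcon
  have hbot : riemannRochSpace E = ⊥ := by
    rw [Submodule.eq_bot_iff]
    intro φ hφ
    by_contra hn
    exact hcon ⟨φ, hφ, hn⟩
  rw [hbot, finrank_bot] at hpos
  exact lt_irrefl _ hpos

/-- uniqueness of `E` in `L(G - E)` -/
theorem eq_of_rrSpace_sub_eq {G E E' : Divisor K F}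
    (h1 : c + 1 ≤ Divisor.degree (G - E)) (h2 : c + 1 ≤ Divisor.degree (G - E'))
    (h : riemannRochSpace (G - E) = riemannRochSpace (G - E')) : E = E' := by
  have key : ∀ {E E' : Divisor K F}, c + 1 ≤ Divisor.degree (G - E) →
      riemannRochSpace (G - E) ≤ riemannRochSpace (G - E') → ∀ Q, E' Q ≤ E Q := by
    intro E E' h1 hle Q
    obtain ⟨φ, hφ, h0, hord⟩ := exists_ord_eq hpf hR Q h1
    have := (mem_rrSpace_iff_of_ne_zero h0).mp (hle hφ) Q
    rw [hord, Finsupp.sub_apply, Finsupp.sub_apply] at this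
    omega
  ext Q
  exact le_antisymm (key h2 h.ge Q) (key h1 h.le Q)

/-- the intersection `L(G - Z₁) ⊓ L(G - Z₂)` for effective `Z₁, Z₂` with disjoint supports -/
theorem rrSpace_inf_of_disjoint {G Z₁ Z₂ : Divisor K F} (hZ₁ : 0 ≤ Z₁) (hZ₂ : 0 ≤ Z₂)
    (hdisj : ∀ Q, Z₁ Q = 0 ∨ Z₂ Q = 0) :
    riemannRochSpace (G - Z₁) ⊓ riemannRochSpace (G - Z₂) = riemannRochSpace (G - Z₁ - Z₂) := by
  ext f
  rw [Submodule.mem_inf]
  by_cases h0 : f = 0
  · simp [h0]
  rw [mem_rrSpace_iff_of_ne_zero h0, mem_rrSpace_iff_of_ne_zero h0,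
    mem_rrSpace_iff_of_ne_zero h0]
  constructor
  · rintro ⟨a, b⟩ v
    have a' := a v
    have b' := b v
    have z1 := Finsupp.le_def.mp hZ₁ v
    have z2 := Finsupp.le_def.mp hZ₂ v
    simp only [Finsupp.coe_sub, Pi.sub_apply, Finsupp.coe_zero, Pi.zero_apply] at *
    rcases hdisj v with h | h <;> omega
  · intro a
    constructor <;> intro v
    · have a' := a v
      have z1 := Finsupp.le_def.mp hZ₁ v
      have z2 := Finsupp.le_def.mp hZ₂ v
      simp only [Finsupp.coe_sub, Pi.sub_apply, Finsupp.coe_zero, Pi.zero_apply] at *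
      omega
    · have a' := a v
      have z1 := Finsupp.le_def.mp hZ₁ v
      have z2 := Finsupp.le_def.mp hZ₂ v
      simp only [Finsupp.coe_sub, Pi.sub_apply, Finsupp.coe_zero, Pi.zero_apply] at *
      omega

/-- the pencil lemma -/
theorem rrSpace_sup_of_disjoint (P₀ : Place K F) {G Z₁ Z₂ : Divisor K F} (hZ₁ : 0 ≤ Z₁)
    (hZ₂ : 0 ≤ Z₂) (hdisj : ∀ Q, Z₁ Q = 0 ∨ Z₂ Q = 0)
    (hdeg : c ≤ Divisor.degree (G - Z₁ - Z₂)) :
    riemannRochSpace (G - Z₁) ⊔ riemannRochSpace (G - Z₂) = riemannRochSpace G := by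
  have d1 := degree_nonneg_of_nonneg hpf hZ₁
  have d2 := degree_nonneg_of_nonneg hpf hZ₂
  have hle1 : G - Z₁ ≤ G := sub_le_self G hZ₁
  have hle2 : G - Z₂ ≤ G := sub_le_self G hZ₂
  have hle : riemannRochSpace (G - Z₁) ⊔ riemannRochSpace (G - Z₂) ≤ riemannRochSpace G :=
    sup_le (rrSpace_mono hle1) (rrSpace_mono hle2)
  haveI := finite_rrSpace hpf P₀ G
  haveI := finite_rrSpace hpf P₀ (G - Z₁)
  haveI := finite_rrSpace hpf P₀ (G - Z₂)
  refine Submodule.eq_of_le_of_finrank_eq hle ?_
  have hsum := Submodule.finrank_sup_add_finrank_inf_eq (riemannRochSpace (G - Z₁))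
    (riemannRochSpace (G - Z₂))
  rw [rrSpace_inf_of_disjoint hpf hR hZ₁ hZ₂ hdisj] at hsum
  simp only [map_sub] at hdeg
  have e0 := hR.eq G (by omega)
  have e1 := hR.eq (G - Z₁) (by rw [map_sub]; omega)
  have e2 := hR.eq (G - Z₂) (by rw [map_sub]; omega)
  have e3 := hR.eq (G - Z₁ - Z₂) (by simp only [map_sub]; omega)
  simp only [map_sub] at e1 e2 e3
  omega

end R

/-- generic sections: if for each `Q ∈ S` some element of `H` is not in `L(G - Q)`, then a single
element of `H` works for all `Q ∈ S` -/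
theorem exists_forall_notMem [Infinite K] (H : Submodule K F) (G : Divisor K F)
    (S : Finset (Place K F))
    (hS : ∀ Q ∈ S, ∃ φ ∈ H, φ ∉ riemannRochSpace (G - Finsupp.single Q 1)) :
    ∃ φ ∈ H, ∀ Q ∈ S, φ ∉ riemannRochSpace (G - Finsupp.single Q 1) := by
  classical
  let s : Finset (Subspace K H) :=
    S.image fun Q => (riemannRochSpace (G - Finsupp.single Q 1)).comap H.subtype
  have hs : (⊤ : Subspace K H) ∉ s := by
    intro htop
    obtain ⟨Q, hQ, hQtop⟩ := Finset.mem_image.mp htop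
    obtain ⟨φ, hφ, hφn⟩ := hS Q hQ
    have : (⟨φ, hφ⟩ : H) ∈ (riemannRochSpace (G - Finsupp.single Q 1)).comap H.subtype := by
      rw [hQtop]; exact Submodule.mem_top
    exact hφn this
  have hne := Subspace.biUnion_ne_univ_of_top_notMem hs
  obtain ⟨x, hx⟩ := (Set.ne_univ_iff_exists_notMem _).mp hne
  refine ⟨x.1, x.2, fun Q hQ hmem => hx ?_⟩
  simp only [Set.mem_iUnion]
  exact ⟨_, Finset.mem_image_of_mem _ hQ, hmem⟩

end PF

end Fermat.Agent.S18.Deuring
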