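import Fermat.Agent.S18.DeuringRR

/-!
# S18, piece (3c): Deuring reduction — abstract reduction data, Riemann's theorem in the residue
function field, surjectivity of the reduction of `L(nD)`.
-/

set_option autoImplicit false
set_option linter.unusedSectionVars false
set_option linter.style.haveILetI false

open AlgebraicCurve Fermat.Agent.Lib.FF

namespace Fermat.Agent.S18.Deuring

variable {L k F Fk : Type*} [Field L] [Field k] [Field F] [Field Fk] [Algebra L F] [Algebra k Fk]

/-- axioms of an abstract reduction `Red x a` ("`x` is integral for the Gauss valuation, with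
residue `a`") -/
structure RedAx (A : ValuationSubring L) (res : A →+* k) (Red : F → Fk → Prop) : Prop where
  res_surj : Function.Surjective res
  unique : ∀ {x : F} {a b : Fk}, Red x a → Red x b → a = b
  add : ∀ {x y : F} {a b : Fk}, Red x a → Red y b → Red (x + y) (a + b)
  mul : ∀ {x y : F} {a b : Fk}, Red x a → Red y b → Red (x * y) (a * b)
  const : ∀ c : A, Red (algebraMap L F (c : L)) (algebraMap k Fk (res c))
  inv : ∀ {x : F} {a : Fk}, Red x a → a ≠ 0 → Red x⁻¹ a⁻¹
  scale : ∀ x : F, x ≠ 0 → ∃ c : L, c ≠ 0 ∧ ∃ a : Fk, a ≠ 0 ∧ Red (c • x) a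

section Ax

variable {A : ValuationSubring L} {res : A →+* k} {Red : F → Fk → Prop}

theorem RedAx.zero (ax : RedAx A res Red) : Red 0 0 := by
  have := ax.const 0
  simpa using this

theorem RedAx.one (ax : RedAx A res Red) : Red 1 1 := by
  have := ax.const 1
  simpa using this

theorem RedAx.ne_zero (ax : RedAx A res Red) {x : F} {a : Fk} (h : Red x a) (ha : a ≠ 0) :
    x ≠ 0 := by
  rintro rfl
  exact ha (ax.unique h ax.zero)

/-- the reduction of an `L`-subspace of `F` -/
def redSpace (ax : RedAx A res Red) (V : Submodule L F) : Submodule k Fk where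
  carrier := {a | ∃ x ∈ V, Red x a}
  zero_mem' := ⟨0, V.zero_mem, ax.zero⟩
  add_mem' := by
    rintro a b ⟨x, hx, hxa⟩ ⟨y, hy, hyb⟩
    exact ⟨x + y, V.add_mem hx hy, ax.add hxa hyb⟩
  smul_mem' := by
    rintro c a ⟨x, hx, hxa⟩
    obtain ⟨c', rfl⟩ := ax.res_surj c
    refine ⟨(c' : L) • x, V.smul_mem _ hx, ?_⟩
    rw [Algebra.smul_def, Algebra.smul_def]
    exact ax.mul (ax.const c') hxa

theorem mem_redSpace {ax : RedAx A res Red} {V : Submodule L F} {a : Fk} :
    a ∈ redSpace ax V ↔ ∃ x ∈ V, Red x a := Iff.rfl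

theorem redSpace_mono (ax : RedAx A res Red) {V W : Submodule L F} (h : V ≤ W) :
    redSpace ax V ≤ redSpace ax W := by
  rintro a ⟨x, hx, hxa⟩
  exact ⟨x, h hx, hxa⟩

end Ax

/-- the hypotheses of the Deuring reduction theorem -/
structure Setup (A : ValuationSubring L) (res : A →+* k) (Red : F → Fk → Prop)
    (D : Divisor L F) (Dk : Divisor k Fk) (g : ℕ) (c : ℤ) : Prop where
  hpf : PlaceFacts L F
  hpfk : PlaceFacts k Fk
  ax : RedAx A res Red
  D_nonneg : 0 ≤ D
  Dk_nonneg : 0 ≤ Dk
  deg_eq : Divisor.degree D = Divisor.degree Dk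
  deg_pos : 0 < Divisor.degree D
  H1 : ∀ V : Submodule L F, Module.Finite L V →
    Module.finrank k (redSpace ax V) = Module.finrank L V
  H2 : ∀ (n : ℕ) (x : F) (a : Fk), x ∈ riemannRochSpace (n • D) → Red x a →
    a ∈ riemannRochSpace (n • Dk)
  RF : RThm L F g c
  NS : ∃ E : Divisor k Fk,
    (Module.finrank k (riemannRochSpace E) : ℤ) + g ≤ Divisor.degree E + 1

section Setup

variable {A : ValuationSubring L} {res : A →+* k} {Red : F → Fk → Prop}
  {D : Divisor L F} {Dk : Divisor k Fk} {g : ℕ} {c : ℤ}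

theorem Setup.exists_place (S : Setup A res Red D Dk g c) : Nonempty (Place L F) := by
  by_contra h
  rw [not_nonempty_iff] at h
  have : D = 0 := by
    ext v
    exact (h.false v).elim
  have hp := S.deg_pos
  rw [this, map_zero] at hp
  exact lt_irrefl _ hp

theorem Setup.exists_placek (S : Setup A res Red D Dk g c) : Nonempty (Place k Fk) := by
  by_contra h
  rw [not_nonempty_iff] at h
  have : Dk = 0 := by
    ext v
    exact (h.false v).elim
  have hp := S.deg_pos
  rw [S.deg_eq, this, map_zero] at hp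
  exact lt_irrefl _ hp

theorem Setup.finrank_redSpace (S : Setup A res Red D Dk g c) (E : Divisor L F) :
    Module.finrank k (redSpace S.ax (riemannRochSpace E))
      = Module.finrank L (riemannRochSpace E) := by
  obtain ⟨P₀⟩ := S.exists_place
  exact S.H1 _ (finite_rrSpace S.hpf P₀ E)

theorem Setup.redSpace_le (S : Setup A res Red D Dk g c) (n : ℕ) :
    redSpace S.ax (riemannRochSpace (n • D)) ≤ riemannRochSpace (n • Dk) := by
  rintro a ⟨x, hx, hxa⟩
  exact S.H2 n x a hx hxa

/-- lower bound for `ℓ_k(n Dk)` -/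
theorem Setup.finrank_nsmul_ge (S : Setup A res Red D Dk g c) (n : ℕ) :
    (n : ℤ) * Divisor.degree Dk + 1
      ≤ (Module.finrank k (riemannRochSpace (n • Dk)) : ℤ) + g := by
  obtain ⟨Q₀⟩ := S.exists_placek
  haveI := finite_rrSpace S.hpfk Q₀ (n • Dk)
  have h1 := Submodule.finrank_mono (S.redSpace_le n)
  rw [S.finrank_redSpace] at h1
  have h2 := S.RF.ge (n • D)
  rw [map_nsmul, S.deg_eq, nsmul_eq_mul] at h2
  omega

end Setup

section Defect

variable {K : Type*} {F' : Type*} [Field K] [Field F'] [Algebra K F']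
variable (hpf : PlaceFacts K F')
include hpf

/-- the "defect" `deg E + 1 - ℓ(E)` is monotone -/
theorem defect_mono (P₀ : Place K F') {E E' : Divisor K F'} (h : E ≤ E') :
    Divisor.degree E - (Module.finrank K (riemannRochSpace E) : ℤ)
      ≤ Divisor.degree E' - (Module.finrank K (riemannRochSpace E') : ℤ) := by
  have := finrank_rrSpace_sub_le hpf P₀ h
  omega

/-- the defect is invariant under linear equivalence -/
theorem defect_add_divOf {z : F'} (hz : z ≠ 0) (E : Divisor K F') :
    Divisor.degree (E + hpf.divOf z) - (Module.finrank K (riemannRochSpace (E + hpf.divOf z)) : ℤ)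
      = Divisor.degree E - (Module.finrank K (riemannRochSpace E) : ℤ) := by
  rw [finrank_rrSpace_add_divOf hpf hz, map_add, hpf.degree_divOf, add_zero]

/-- if `L(E' - E)` contains a nonzero function then `defect E ≤ defect E'` -/
theorem defect_le_of_mem (P₀ : Place K F') {E E' : Divisor K F'} {f : F'} (hf : f ≠ 0)
    (hmem : f ∈ riemannRochSpace (E' - E)) :
    Divisor.degree E - (Module.finrank K (riemannRochSpace E) : ℤ)
      ≤ Divisor.degree E' - (Module.finrank K (riemannRochSpace E') : ℤ) := by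
  have hle : E ≤ E' + hpf.divOf f := by
    rw [Finsupp.le_def]
    intro v
    have := (mem_rrSpace_iff_of_ne_zero hf).mp hmem v
    rw [Finsupp.sub_apply] at this
    rw [Finsupp.add_apply, hpf.divOf_apply]
    omega
  have h1 := defect_mono hpf P₀ hle
  rw [defect_add_divOf hpf hf] at h1
  exact h1

end Defect

/-- the positive part of a divisor -/
noncomputable def posPart {K : Type*} {F' : Type*} [Field K] [Field F'] [Algebra K F']
    (E : Divisor K F') : Divisor K F' :=
  Finsupp.mapRange (fun z : ℤ => max z 0) (by simp) E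

theorem posPart_apply {K : Type*} {F' : Type*} [Field K] [Field F'] [Algebra K F']
    (E : Divisor K F') (v : Place K F') : posPart E v = max (E v) 0 := by
  simp [posPart]

section Setup2

variable {A : ValuationSubring L} {res : A →+* k} {Red : F → Fk → Prop}
  {D : Divisor L F} {Dk : Divisor k Fk} {g : ℕ} {c : ℤ}

/-- Riemann's inequality in the residue function field, with the genus of `F` -/
theorem Setup.riemann_ge (S : Setup A res Red D Dk g c) (E : Divisor k Fk) :
    Divisor.degree E + 1 ≤ (Module.finrank k (riemannRochSpace E) : ℤ) + g := by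
  obtain ⟨Q₀⟩ := S.exists_placek
  have hψ : 0 < Divisor.degree Dk := S.deg_eq ▸ S.deg_pos
  -- choose n large
  set dE : ℤ := Divisor.degree (posPart E) with hdE
  obtain ⟨n, hn⟩ : ∃ n : ℕ, dE + g < (n : ℤ) * Divisor.degree Dk := by
    refine ⟨(dE + g).toNat + 1, ?_⟩
    have h1 : dE + g ≤ ((dE + g).toNat : ℤ) := Int.self_le_toNat _
    push_cast
    nlinarith
  have hle1 : n • Dk - posPart E ≤ n • Dk := by
    apply sub_le_self
    rw [Finsupp.le_def]
    intro v
    rw [posPart_apply]
    exact le_max_right _ _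
  have hle2 : n • Dk - posPart E ≤ n • Dk - E := by
    apply sub_le_sub_left
    rw [Finsupp.le_def]
    intro v
    rw [posPart_apply]
    exact le_max_left _ _
  have h1 := finrank_rrSpace_sub_le S.hpfk Q₀ hle1
  have h2 := S.finrank_nsmul_ge n
  rw [map_sub, map_nsmul, nsmul_eq_mul] at h1
  have hpos : 0 < Module.finrank k (riemannRochSpace (n • Dk - posPart E)) := by omega
  have hex : ∃ f ∈ riemannRochSpace (n • Dk - posPart E), f ≠ 0 := by
    by_contra hcon
    have hbot : riemannRochSpace (n • Dk - posPart E) = ⊥ := by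
      rw [Submodule.eq_bot_iff]
      intro φ hφ
      by_contra hn
      exact hcon ⟨φ, hφ, hn⟩
    rw [hbot, finrank_bot] at hpos
    exact lt_irrefl _ hpos
  obtain ⟨f, hf, hf0⟩ := hex
  have h3 := defect_le_of_mem S.hpfk Q₀ hf0 (rrSpace_mono hle2 hf)
  rw [map_nsmul, nsmul_eq_mul] at h3
  omega

/-- Riemann's theorem in the residue function field, with the genus of `F` -/
theorem Setup.rthm_k (S : Setup A res Red D Dk g c) : ∃ ck : ℤ, RThm k Fk g ck := by
  obtain ⟨Q₀⟩ := S.exists_placek
  obtain ⟨E₀, hE₀⟩ := S.NS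
  refine ⟨Divisor.degree E₀ + g, ⟨S.riemann_ge, ?_⟩⟩
  intro E hE
  have h1 := S.riemann_ge E
  have h2 := S.riemann_ge (E - E₀)
  rw [map_sub] at h2
  have hpos : 0 < Module.finrank k (riemannRochSpace (E - E₀)) := by omega
  have hex : ∃ f ∈ riemannRochSpace (E - E₀), f ≠ 0 := by
    by_contra hcon
    have hbot : riemannRochSpace (E - E₀) = ⊥ := by
      rw [Submodule.eq_bot_iff]
      intro φ hφ
      by_contra hn
      exact hcon ⟨φ, hφ, hn⟩
    rw [hbot, finrank_bot] at hpos
    exact lt_irrefl _ hpos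
  obtain ⟨f, hf, hf0⟩ := hex
  have h3 := defect_le_of_mem S.hpfk Q₀ hf0 hf
  omega

/-- reduction of `L(E)` is all of `L_k(E')` as soon as it is contained in it and the degrees are
equal and large -/
theorem Setup.redSpace_eq (S : Setup A res Red D Dk g c) {ck : ℤ} (hRk : RThm k Fk g ck)
    {E : Divisor L F} {E' : Divisor k Fk}
    (hle : redSpace S.ax (riemannRochSpace E) ≤ riemannRochSpace E')
    (hdeg : Divisor.degree E = Divisor.degree E') (h1 : c ≤ Divisor.degree E)
    (h2 : ck ≤ Divisor.degree E) :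
    redSpace S.ax (riemannRochSpace E) = riemannRochSpace E' := by
  obtain ⟨Q₀⟩ := S.exists_placek
  haveI := finite_rrSpace S.hpfk Q₀ E'
  refine Submodule.eq_of_le_of_finrank_eq hle ?_
  rw [S.finrank_redSpace]
  have e1 := S.RF.eq E h1
  have e2 := hRk.eq E' (hdeg ▸ h2)
  omega

theorem Setup.redSpace_nsmul_eq (S : Setup A res Red D Dk g c) {ck : ℤ} (hRk : RThm k Fk g ck)
    (n : ℕ) (h1 : c ≤ n * Divisor.degree D) (h2 : ck ≤ n * Divisor.degree D) :
    redSpace S.ax (riemannRochSpace (n • D)) = riemannRochSpace (n • Dk) := by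
  refine S.redSpace_eq hRk (S.redSpace_le n) ?_ ?_ ?_
  · rw [map_nsmul, map_nsmul, S.deg_eq]
  · rw [map_nsmul, nsmul_eq_mul]; exact h1
  · rw [map_nsmul, nsmul_eq_mul]; exact h2

end Setup2

end Fermat.Agent.S18.Deuring
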