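import Fermat.Agent.S18.DeuringLoc

/-!
# S18, piece (U2): the torsion step

In the situation of `Setup` (good reduction in Deuring's sense):
if `Red f 1`, `div f = m • D₀` and `(m : k) ≠ 0`, then `D₀` is principal.
-/

set_option autoImplicit false
set_option linter.unusedSectionVars false
set_option linter.style.haveILetI false
set_option linter.unusedSimpArgs false
set_option linter.unusedTactic false
set_option linter.unusedVariables false

open AlgebraicCurve Fermat.Agent.Lib.FF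
open scoped Classical

namespace Fermat.Agent.S18.Deuring

variable {L k F Fk : Type*} [Field L] [Field k] [Field F] [Field Fk] [Algebra L F] [Algebra k Fk]
variable {A : ValuationSubring L} {res : A →+* k} {Red : F → Fk → Prop}
  {D : Divisor L F} {Dk : Divisor k Fk} {g : ℕ} {c : ℤ}

theorem exists_fibre_of_mapDomain_ne_zero {α β : Type*} (r : α → β) {E : α →₀ ℤ} {Q : β}
    (h : Finsupp.mapDomain r E Q ≠ 0) : ∃ P, r P = Q ∧ E P ≠ 0 := by
  by_contra hcon
  apply h
  rw [mapDomain_apply_sum]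
  refine Finset.sum_eq_zero fun P _ => ?_
  split_ifs with hP
  · by_contra hne
    exact hcon ⟨P, hP, hne⟩
  · rfl

/-- an effective divisor reducing to `sumPl Qs`: structure of the fibres -/
theorem fibre_structure {α β : Type*} (r : α → β) {E : α →₀ ℤ} (hE : 0 ≤ E)
    {Ē : β →₀ ℤ} (hr : Finsupp.mapDomain r E = Ē) :
    (∀ P, Ē (r P) = 0 → E P = 0) ∧
    (∀ Q, Ē Q = 1 → ∃ P₁, r P₁ = Q ∧ E P₁ = 1 ∧ ∀ P, r P = Q → P ≠ P₁ → E P = 0) := by
  have hnn : ∀ Q P, r P = Q → 0 ≤ E P := fun Q P _ => Finsupp.le_def.mp hE P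
  constructor
  · intro P hP
    have h1 := le_mapDomain_apply r (hnn (r P)) (P₁ := P) rfl
    rw [hr, hP] at h1
    have := hnn _ P rfl
    omega
  · intro Q hQ
    have hne : Finsupp.mapDomain r E Q ≠ 0 := by rw [hr, hQ]; exact one_ne_zero
    obtain ⟨P₁, hP₁, hEP₁⟩ := exists_fibre_of_mapDomain_ne_zero r hne
    have h1 := le_mapDomain_apply r (hnn Q) hP₁
    rw [hr, hQ] at h1
    have h2 := hnn Q P₁ hP₁
    have h3 : E P₁ = 1 := by omega
    refine ⟨P₁, hP₁, h3, fun P hP hPne => ?_⟩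
    exact eq_zero_of_mapDomain_apply_le r (hnn Q) hP₁ (by rw [hr, hQ, h3]) hP hPne

section Local

variable (S : Setup A res Red D Dk g c) [Infinite k]

/-- **the local step** -/
theorem local_step {Q : Place k Fk} (hQ : Dk Q = 0) {f₂ : F} (hf₂ : Red f₂ 1)
    {m : ℕ} (hm : (m : k) ≠ 0) {P P' : Place L F} (hP : rmap S P = Q) (hP' : rmap S P' = Q)
    (hne : P' ≠ P) (hordP : P.ord f₂ = -(m : ℤ)) (hordP' : P'.ord f₂ = m)
    (hord0 : ∀ P'', rmap S P'' = Q → P'' ≠ P → P'' ≠ P' → P''.ord f₂ = 0)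
    {c' : L} {φ : Fk} (hφ : Red (c' • (f₂ - 1)) φ) (hφ0 : φ ≠ 0) : -1 ≤ Q.ord φ := by
  have ax := S.ax
  obtain ⟨τ, t, hτt, ht, hreg⟩ := exists_lift_uniformizer S Q hQ
  have ht0 : t ≠ 0 := by
    rintro rfl
    simp at ht
  obtain ⟨c₁, hx, hxP, hx0⟩ := lemmaV S hτt ht hreg hP
  obtain ⟨c₂, hx', hx'P', hx'0⟩ := lemmaV S hτt ht hreg hP'
  set x : F := τ - algebraMap L F c₁ with hxdef
  set x' : F := τ - algebraMap L F c₂ with hx'def
  have hxne : x ≠ 0 := ax.ne_zero hx ht0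
  have hx'ne : x' ≠ 0 := ax.ne_zero hx' ht0
  have hf₂0 : f₂ ≠ 0 := ax.ne_zero hf₂ one_ne_zero
  have hm0 : m ≠ 0 := by
    rintro rfl
    simp at hm
  have hc'0 : c' ≠ 0 := by
    rintro rfl
    rw [zero_smul] at hφ
    exact hφ0 (ax.unique hφ ax.zero)
  set δ : L := c₁ - c₂ with hδ
  have hxx' : x' - x = algebraMap L F δ := by
    rw [hxdef, hx'def, hδ, map_sub]; ring
  have hδ0 : δ ≠ 0 := by
    intro h0
    have heq : x' = x := by
      have := hxx'
      rw [h0, map_zero] at this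
      exact sub_eq_zero.mp this
    have h1 := hx0 P' hP' hne
    rw [← heq] at h1
    omega
  have htm : t ^ m ≠ 0 := pow_ne_zero _ ht0
  have hxm : x ^ m ≠ 0 := pow_ne_zero _ hxne
  have hx'm : x' ^ m ≠ 0 := pow_ne_zero _ hx'ne
  -- `e = x'^m / x^m`
  set e : F := x' ^ m * (x ^ m)⁻¹ with he
  have hRe : Red e 1 := by
    have := ax.mul (ax.pow hx' m) (ax.inv (ax.pow hx m) htm)
    rwa [mul_inv_cancel₀ htm] at this
  -- `U = f₂ / e`
  set U : F := f₂ * (x ^ m * (x' ^ m)⁻¹) with hU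
  have hRU : Red U 1 := by
    have := ax.mul hf₂ (ax.mul (ax.pow hx m) (ax.inv (ax.pow hx' m) htm))
    rwa [mul_inv_cancel₀ htm, mul_one] at this
  have hUe : f₂ = U * e := by
    rw [hU, he]
    field_simp
  have hU0 : U ≠ 0 := ax.ne_zero hRU one_ne_zero
  have hUord : ∀ P'', rmap S P'' = Q → P''.ord U = 0 := by
    intro P'' hP''
    have h1 : P''.ord U = P''.ord f₂ + (m * P''.ord x - m * P''.ord x') := by
      rw [hU, P''.ord_mul hf₂0 (mul_ne_zero hxm (inv_ne_zero hx'm)),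
        P''.ord_mul hxm (inv_ne_zero hx'm), P''.ord_inv, ord_pow', ord_pow']
      ring
    rw [h1]
    by_cases h2 : P'' = P
    · subst h2
      rw [hordP, hxP, hx'0 _ hP'' (fun h => hne h.symm)]
      ring
    · by_cases h3 : P'' = P'
      · subst h3
        rw [hordP', hx'P', hx0 _ hP'' h2]
        ring
      · rw [hord0 P'' hP'' h2 h3, hx0 _ hP'' h2, hx'0 _ hP'' h3]
        ring
  -- the geometric sum
  set Ρ : F := ∑ j ∈ Finset.range m, x' ^ j * x ^ (m - 1 - j) with hΡ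
  have hgeom : Ρ * (x' - x) = x' ^ m - x ^ m := geom_sum₂_mul x' x m
  have hRΡ : Red Ρ ((m : Fk) * t ^ (m - 1)) := by
    have h1 := ax.sum (Finset.range m) (fun j => x' ^ j * x ^ (m - 1 - j))
      (fun j => t ^ j * t ^ (m - 1 - j)) (fun j _ => ax.mul (ax.pow hx' j) (ax.pow hx (m - 1 - j)))
    have h2 : ∑ j ∈ Finset.range m, t ^ j * t ^ (m - 1 - j) = (m : Fk) * t ^ (m - 1) := by
      have h3 : ∀ j ∈ Finset.range m, t ^ j * t ^ (m - 1 - j) = t ^ (m - 1) := by
        intro j hj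
        rw [← pow_add]
        have := Finset.mem_range.mp hj
        have h4 : j + (m - 1 - j) = m - 1 := by omega
        rw [h4]
      rw [Finset.sum_congr rfl h3, Finset.sum_const, Finset.card_range, nsmul_eq_mul]
    rwa [h2] at h1
  have hmFk : (m : Fk) ≠ 0 := by
    have : (m : Fk) = algebraMap k Fk (m : k) := by simp
    rw [this]
    exact (map_ne_zero _).mpr hm
  set Ρ' : F := Ρ * (x ^ m)⁻¹ with hΡ'
  set ρ : Fk := (m : Fk) * t ^ (m - 1) * (t ^ m)⁻¹ with hρ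
  have hRΡ' : Red Ρ' ρ := ax.mul hRΡ (ax.inv (ax.pow hx m) htm)
  have hρ0 : ρ ≠ 0 :=
    mul_ne_zero (mul_ne_zero hmFk (pow_ne_zero _ ht0)) (inv_ne_zero htm)
  have hρord : Q.ord ρ = -1 := by
    have hmord : Q.ord (m : Fk) = 0 := by
      have : (m : Fk) = algebraMap k Fk (m : k) := by simp
      rw [this, ord_algebraMap]
    rw [hρ, Q.ord_mul (mul_ne_zero hmFk (pow_ne_zero _ ht0)) (inv_ne_zero htm),
      Q.ord_mul hmFk (pow_ne_zero _ ht0), Q.ord_inv, ord_pow', ord_pow', ht, hmord]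
    have : ((m - 1 : ℕ) : ℤ) = (m : ℤ) - 1 := by omega
    rw [this]
    ring
  have he1 : e - 1 = δ • Ρ' := by
    rw [hΡ', Algebra.smul_def, ← hxx', he]
    have : x' ^ m = Ρ * (x' - x) + x ^ m := by rw [hgeom]; ring
    rw [this]
    field_simp
    ring
  have hh : f₂ - 1 = (U - 1) * e + δ • Ρ' := by
    rw [← he1, hUe]; ring
  by_cases hU1 : U = 1
  · have h1 : c' • (f₂ - 1) = (c' * δ) • Ρ' := by
      rw [hh, hU1, sub_self, zero_mul, zero_add, smul_smul]
    rw [h1] at hφ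
    obtain ⟨u, -, hu0, hφy⟩ := ax.unique_scaling hRΡ' hρ0 hφ hφ0
    rw [hφy, ord_algebraMap_mul Q hu0, hρord]
  · obtain ⟨cU, hcU, ψ, hψ0, hUψ⟩ := ax.scale (U - 1) (sub_ne_zero.mpr hU1)
    have hψord : 0 ≤ Q.ord ψ := by
      refine ord_nonneg_of_fibre S hUψ hψ0 (fun P'' hP'' => ?_)
      rw [ord_smul_of_ne_zero P'' hcU]
      exact ord_sub_one_nonneg P'' (by rw [hUord P'' hP''])
    set Ψ : F := (cU • (U - 1)) * e with hΨ
    have hRΨ : Red Ψ ψ := by
      have := ax.mul hUψ hRe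
      rwa [mul_one] at this
    have h1 : c' • (f₂ - 1) = (c' / cU) • Ψ + (c' * δ) • Ρ' := by
      have h2 : (c' / cU) • Ψ = c' • ((U - 1) * e) := by
        rw [hΨ, smul_mul_assoc, smul_smul, div_mul_cancel₀ _ hcU]
      rw [hh, h2, smul_add, smul_smul]
    rw [h1] at hφ
    exact lemmaC ax Q hRΨ hRΡ' hψ0 hψord hρ0 hρord (div_ne_zero hc'0 hcU)
      (mul_ne_zero hc'0 hδ0) hφ hφ0

end Local

section Main

variable (S : Setup A res Red D Dk g c) [Infinite k]
include S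

/-- normalisation of the value at a place of good position -/
theorem value_integral {f₁ : F} (hf₁ : Red f₁ 1) {P₀ : Place L F}
    (hreg : ∀ P, rmap S P = rmap S P₀ → P.ord f₁ = 0) {v₀ : L}
    (hpos : 0 < P₀.ord (f₁ - algebraMap L F v₀)) :
    ∃ u : A, (u : L) = v₀ ∧ res u = 1 := by
  have ax := S.ax
  have hnn : ∀ P, rmap S P = rmap S P₀ → 0 ≤ P.ord (f₁ - algebraMap L F v₀) := fun P hP =>
    ord_sub_algebraMap_nonneg P (by rw [hreg P hP]) v₀
  rcases ax.mem_or v₀ with ⟨u, hu⟩ | ⟨hv0, u, hu, hu0⟩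
  · refine ⟨u, hu, ?_⟩
    by_contra hne
    have h1 : Red (f₁ - algebraMap L F v₀) (1 - algebraMap k Fk (res u)) := by
      have := ax.sub hf₁ (ax.const u)
      rwa [hu] at this
    have h2 : (1 : Fk) - algebraMap k Fk (res u) = algebraMap k Fk (1 - res u) := by
      rw [map_sub, map_one]
    have h3 : (1 : k) - res u ≠ 0 := fun h => hne (sub_eq_zero.mp h).symm
    rw [h2] at h1
    have := ord_le_of_fibre S h1 ((map_ne_zero _).mpr h3) hnn (P₁ := P₀) rfl
    rw [ord_algebraMap] at this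
    omega
  · exfalso
    have hu0' : (u : L) ≠ 0 := by rw [hu]; exact inv_ne_zero hv0
    have h1 : Red (1 - (u : L) • f₁) (1 - algebraMap k Fk (res u) * 1) :=
      ax.sub ax.one (ax.smul u hf₁)
    rw [hu0, map_zero, zero_mul, sub_zero] at h1
    have hy : 1 - (u : L) • f₁ = -((u : L) • (f₁ - algebraMap L F v₀)) := by
      rw [smul_sub, Algebra.smul_def (u : L) (algebraMap L F v₀), ← map_mul, hu,
        inv_mul_cancel₀ hv0, map_one]
      ring
    rw [hy] at h1
    have hord : ∀ P : Place L F, P.ord (-((u : L) • (f₁ - algebraMap L F v₀)))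
        = P.ord (f₁ - algebraMap L F v₀) := fun P => by
      rw [ord_neg, ord_smul_of_ne_zero P hu0']
    have := ord_le_of_fibre S h1 one_ne_zero
      (fun P hP => by rw [hord]; exact hnn P hP) (P₁ := P₀) rfl
    rw [hord, Place.ord_one] at this
    omega

/-- **the torsion step**: `Red f 1`, `div f = m • D₀`, `(m : k) ≠ 0` ⇒ `D₀` is principal -/
theorem star_of_setup {f : F} (hf : Red f 1) (D₀ : Divisor L F) (m : ℕ) (hm : (m : k) ≠ 0)
    (hdiv : ∀ P, (m : ℤ) * D₀ P = P.ord f) : ∃ s : F, s ≠ 0 ∧ ∀ P, D₀ P = P.ord s := by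
  have ax := S.ax
  obtain ⟨ck, hRk⟩ := S.rthm_k
  obtain ⟨P₀⟩ := S.exists_place
  obtain ⟨Q₀⟩ := S.exists_placek
  have hmN : m ≠ 0 := by
    rintro rfl
    simp at hm
  have hm0 : (m : ℤ) ≠ 0 := by exact_mod_cast hmN
  have hf0 : f ≠ 0 := ax.ne_zero hf one_ne_zero
  -- Step 1
  have hdivf : S.hpf.divOf f = m • D₀ := by
    ext P
    rw [S.hpf.divOf_apply, Finsupp.smul_apply, nsmul_eq_mul]
    exact (hdiv P).symm
  have hrD₀ : Finsupp.mapDomain (rmap S) D₀ = 0 := by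
    have h1 := mapDomain_divOf S hf one_ne_zero
    rw [divOf_one, hdivf, Finsupp.mapDomain_smul] at h1
    ext Q
    have h2 := congrArg (fun E : Divisor k Fk => E Q) h1
    simp only [Finsupp.smul_apply, nsmul_eq_mul, Finsupp.coe_zero, Pi.zero_apply] at h2
    rcases mul_eq_zero.mp h2 with h | h
    · exact absurd h hm0
    · simpa using h
  have hdegD₀ : Divisor.degree D₀ = 0 := by
    have h1 := S.hpf.degree_divOf f
    rw [hdivf, map_nsmul, nsmul_eq_mul] at h1
    rcases mul_eq_zero.mp h1 with h | h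
    · exact absurd h hm0
    · exact h
  -- Step 2: non-special places
  set T : Finset (Place k Fk) := insert (rmap S P₀) Dk.support with hT
  obtain ⟨Qs, hcard, hdisj, hrank⟩ := exists_nonspecial S.hpfk hRk Q₀ T g le_rfl
  have hQsDk : ∀ Q ∈ Qs, Dk Q = 0 := by
    intro Q hQ
    by_contra hne
    exact Finset.disjoint_left.mp hdisj hQ
      (Finset.mem_insert_of_mem (Finsupp.mem_support_iff.mpr hne))
  have hQsP₀ : rmap S P₀ ∉ Qs := fun h =>
    Finset.disjoint_left.mp hdisj h (Finset.mem_insert_self _ _)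
  have hpt : ∀ Q ∈ Qs, ∃ P, rmap S P = Q := by
    intro Q hQ
    obtain ⟨τ, t, hτt, ht, -⟩ := exists_lift_uniformizer S Q (hQsDk Q hQ)
    have ht0 : t ≠ 0 := by
      rintro rfl
      simp at ht
    have h1 := rmap_ord S hτt ht0 Q
    rw [ht] at h1
    obtain ⟨P, hP, -⟩ := exists_fibre_of_mapDomain_ne_zero (rmap S)
      (by rw [h1]; exact one_ne_zero)
    exact ⟨P, hP⟩
  haveI : Nonempty (Place L F) := ⟨P₀⟩
  choose! pt hpt using hpt
  set G₀ : Divisor L F := ∑ Q ∈ Qs, Finsupp.single (pt Q) (1 : ℤ) with hG₀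
  have hG₀nn : 0 ≤ G₀ := by
    rw [hG₀]
    refine Finset.sum_nonneg fun Q _ => ?_
    rw [Finsupp.le_def]
    intro v
    rw [Finsupp.single_apply]
    split_ifs <;> simp
  have hrG₀ : Finsupp.mapDomain (rmap S) G₀ = sumPl Qs := by
    rw [hG₀, Finsupp.mapDomain_finsetSum, sumPl]
    refine Finset.sum_congr rfl fun Q hQ => ?_
    rw [Finsupp.mapDomain_single, hpt Q hQ]
  have hdegG₀ : Divisor.degree G₀ = g := by
    rw [hG₀, map_sum]
    simp only [S.hpf.degree_single]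
    simp [hcard]
  -- Step 3: the section `s`
  obtain ⟨s₀, hs₀, hs₀0⟩ := exists_ne_zero_mem S.hpf S.RF (E := G₀ + D₀)
    (by rw [map_add, hdegG₀, hdegD₀, add_zero])
  obtain ⟨c₁, hc₁, st, hst0, hRs₁⟩ := ax.scale s₀ hs₀0
  have hs₁mem : c₁ • s₀ ∈ riemannRochSpace (G₀ + D₀) := Submodule.smul_mem _ _ hs₀
  have hs₁0 : c₁ • s₀ ≠ 0 := ax.ne_zero hRs₁ hst0
  have hstmem : st ∈ riemannRochSpace (sumPl Qs) := by
    rw [mem_rrSpace_iff_of_ne_zero hst0]
    intro Q
    have hZ₁ : 0 ≤ S.hpf.divOf (c₁ • s₀) + (G₀ + D₀) := residual_nonneg S.hpf hs₁0 hs₁mem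
    have h1 := Finsupp.le_def.mp (mapDomain_nonneg (rmap S) hZ₁) Q
    rw [Finsupp.mapDomain_add, Finsupp.mapDomain_add, mapDomain_divOf S hRs₁ hst0, hrG₀, hrD₀,
      add_zero, Finsupp.add_apply, S.hpfk.divOf_apply] at h1
    simp only [Finsupp.coe_zero, Pi.zero_apply] at h1
    omega
  obtain ⟨a₁, ha₁⟩ := exists_const_of_finrank_eq_one S.hpfk Q₀ (sumPl_nonneg Qs) hrank hstmem
  have ha₁0 : a₁ ≠ 0 := by
    rintro rfl
    rw [map_zero] at ha₁
    exact hst0 ha₁
  obtain ⟨u₁, hu₁⟩ := ax.res_surj a₁⁻¹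
  set s : F := (u₁ : L) • (c₁ • s₀) with hs
  have hRs : Red s 1 := by
    have := ax.smul u₁ hRs₁
    rwa [hu₁, ha₁, ← map_mul, inv_mul_cancel₀ ha₁0, map_one] at this
  have hs0 : s ≠ 0 := ax.ne_zero hRs one_ne_zero
  have hsmem : s ∈ riemannRochSpace (G₀ + D₀) := Submodule.smul_mem _ _ hs₁mem
  set Z : Divisor L F := S.hpf.divOf s + (G₀ + D₀) with hZ
  have hZnn : 0 ≤ Z := residual_nonneg S.hpf hs0 hsmem
  have hrZ : Finsupp.mapDomain (rmap S) Z = sumPl Qs := by
    rw [hZ, Finsupp.mapDomain_add, Finsupp.mapDomain_add, mapDomain_divOf S hRs one_ne_zero,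
      divOf_one, hrG₀, hrD₀, add_zero, zero_add]
  have hZapply : ∀ P, Z P = P.ord s + (G₀ P + D₀ P) := fun P => by
    rw [hZ, Finsupp.add_apply, Finsupp.add_apply, S.hpf.divOf_apply]
  -- Step 4
  set f₁ : F := f * s ^ m with hf₁
  have hRf₁ : Red f₁ 1 := by
    have := ax.mul hf (ax.pow hRs m)
    rwa [one_pow, mul_one] at this
  have hf₁0 : f₁ ≠ 0 := ax.ne_zero hRf₁ one_ne_zero
  have hordf₁ : ∀ P : Place L F, P.ord f₁ = m * (Z P - G₀ P) := by
    intro P
    rw [hf₁, P.ord_mul hf0 (pow_ne_zero _ hs0), ord_pow', ← hdiv P, hZapply]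
    ring
  obtain ⟨fsZ0, fsZ1⟩ := fibre_structure (rmap S) hZnn hrZ
  obtain ⟨fsG0, fsG1⟩ := fibre_structure (rmap S) hG₀nn hrG₀
  have hout : ∀ P, rmap S P ∉ Qs → P.ord f₁ = 0 := by
    intro P hP
    have h0 : sumPl Qs (rmap S P) = 0 := by rw [sumPl_apply, if_neg hP]
    rw [hordf₁, fsZ0 P h0, fsG0 P h0]
    ring
  have hP₀reg : ∀ P, rmap S P = rmap S P₀ → P.ord f₁ = 0 := fun P hP =>
    hout P (by rw [hP]; exact hQsP₀)
  obtain ⟨v₀, hv₀⟩ := exists_eq_or_ord_sub_pos P₀ (S.hpf.res P₀) f₁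
    (by rw [hP₀reg P₀ rfl])
  rcases hv₀ with hconst | hpos
  · -- `f₁` is constant: `Z = G₀`
    refine ⟨s⁻¹, inv_ne_zero hs0, fun P => ?_⟩
    have h1 : P.ord f₁ = 0 := by
      rw [hconst]
      exact ord_algebraMap P v₀
    rw [hordf₁] at h1
    have h2 : Z P - G₀ P = 0 := by
      rcases mul_eq_zero.mp h1 with h | h
      · exact absurd h hm0
      · exact h
    rw [hZapply] at h2
    rw [P.ord_inv]
    omega
  · exfalso
    obtain ⟨u₀, hu₀, hu₀1⟩ := value_integral S hRf₁ hP₀reg hpos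
    have hv₀0 : v₀ ≠ 0 := by
      rintro rfl
      have : u₀ = 0 := Subtype.ext hu₀
      rw [this, map_zero] at hu₀1
      exact zero_ne_one hu₀1
    have hRv : Red (algebraMap L F v₀)⁻¹ 1 := by
      have h1 := ax.const u₀
      rw [hu₀, hu₀1, map_one] at h1
      have := ax.inv h1 one_ne_zero
      rwa [inv_one] at this
    set f₂ : F := (algebraMap L F v₀)⁻¹ * f₁ with hf₂
    have hRf₂ : Red f₂ 1 := by
      have := ax.mul hRv hRf₁
      rwa [mul_one] at this
    have hv₀F : (algebraMap L F v₀)⁻¹ ≠ 0 := inv_ne_zero ((map_ne_zero _).mpr hv₀0)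
    have hordf₂ : ∀ P : Place L F, P.ord f₂ = P.ord f₁ := by
      intro P
      rw [hf₂, P.ord_mul hv₀F hf₁0, P.ord_inv, ord_algebraMap]
      ring
    have hf₂1 : f₂ - 1 = (algebraMap L F v₀)⁻¹ * (f₁ - algebraMap L F v₀) := by
      rw [hf₂, mul_sub, inv_mul_cancel₀ ((map_ne_zero _).mpr hv₀0)]
    have hsub0 : f₁ - algebraMap L F v₀ ≠ 0 := by
      intro h0
      rw [h0] at hpos
      simp at hpos
    have hf₂10 : f₂ - 1 ≠ 0 := by
      rw [hf₂1]
      exact mul_ne_zero hv₀F hsub0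
    have hposf₂ : 0 < P₀.ord (f₂ - 1) := by
      rw [hf₂1, P₀.ord_mul hv₀F hsub0, P₀.ord_inv, ord_algebraMap]
      omega
    obtain ⟨c', hc', φ, hφ0, hRφ⟩ := ax.scale (f₂ - 1) hf₂10
    have hordc' : ∀ P : Place L F, P.ord (c' • (f₂ - 1)) = P.ord (f₂ - 1) := fun P =>
      ord_smul_of_ne_zero P hc' _
    -- `φ ∈ L_k(sumPl Qs)`
    have hφmem : φ ∈ riemannRochSpace (sumPl Qs) := by
      rw [mem_rrSpace_iff_of_ne_zero hφ0]
      intro Q
      rw [sumPl_apply]
      split_ifs with hQ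
      · -- the local step
        have h1 : sumPl Qs Q = 1 := by rw [sumPl_apply, if_pos hQ]
        obtain ⟨PZ, hPZ, hZPZ, hZother⟩ := fsZ1 Q h1
        obtain ⟨PG, hPG, hGPG, hGother⟩ := fsG1 Q h1
        by_cases hPP : PZ = PG
        · have hreg : ∀ P, rmap S P = Q → 0 ≤ P.ord (c' • (f₂ - 1)) := by
            intro P hP
            rw [hordc']
            refine ord_sub_one_nonneg P ?_
            rw [hordf₂, hordf₁]
            by_cases hPeq : P = PG
            · rw [hPeq, hGPG, ← hPP, hZPZ]; simp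
            · rw [hGother P hP hPeq, hZother P hP (by rw [hPP]; exact hPeq)]; simp
          have := ord_nonneg_of_fibre S hRφ hφ0 hreg
          omega
        · refine local_step S (hQsDk Q hQ) hRf₂ hm hPG hPZ hPP ?_ ?_ ?_ hRφ hφ0
          · rw [hordf₂, hordf₁, hGPG, hZother PG hPG (fun h => hPP h.symm)]
            ring
          · rw [hordf₂, hordf₁, hZPZ, hGother PZ hPZ hPP]
            ring
          · intro P hP h1 h2
            rw [hordf₂, hordf₁, hZother P hP h2, hGother P hP h1]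
            ring
      · have hreg : ∀ P, rmap S P = Q → 0 ≤ P.ord (c' • (f₂ - 1)) := by
          intro P hP
          rw [hordc']
          refine ord_sub_one_nonneg P ?_
          rw [hordf₂, hout P (by rw [hP]; exact hQ)]
        have := ord_nonneg_of_fibre S hRφ hφ0 hreg
        omega
    obtain ⟨b, hb⟩ := exists_const_of_finrank_eq_one S.hpfk Q₀ (sumPl_nonneg Qs) hrank hφmem
    have hreg₀ : ∀ P, rmap S P = rmap S P₀ → 0 ≤ P.ord (c' • (f₂ - 1)) := by
      intro P hP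
      rw [hordc']
      refine ord_sub_one_nonneg P ?_
      rw [hordf₂, hP₀reg P hP]
    have := ord_le_of_fibre S hRφ hφ0 hreg₀ (P₁ := P₀) rfl
    rw [hordc', hb, ord_algebraMap] at this
    omega

end Main

end Fermat.Agent.S18.Deuring
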