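import Mathlib
import Fermat.Agent.Lib.FFs.RH
import Fermat.Agent.Lib.FFs.Const
import Fermat.Agent.Lib.FunctionField.OrdPlace

/-!
# S18 (C76), piece (P5): the non-special divisor from two pole counts

`F / F₀` function fields over an algebraically closed field `k` (any characteristic), `F₀` of
genus `0`, `J₀ ∈ F₀` separating for `F₀` and for `F`.  If `J₀` has at least `c₀` poles in `F₀`
and at most `c` poles in `F`, `[F : k(J₀)] = n [F₀ : k(J₀)]` and
`2 g - 2 + 2 n ≤ n c₀ - c`, then `F` has a divisor `E` with `l(E) + g ≤ deg E + 1`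
(Riemann–Hurwitz over `F₀ ≅ k(x₀)`, ramification counted over the poles of `J₀` only).
-/

set_option autoImplicit false
set_option linter.unusedSectionVars false

noncomputable section

open AlgebraicCurve IntermediateField Fermat.Agent.Lib.FF Fermat.Agent.Lib.FFs

namespace Fermat.Agent.S18.NSC

section Rational

variable {k F₀ : Type*} [Field k] [IsAlgClosed k] [Field F₀] [Algebra k F₀]

/-- In a function field of genus `0` every place is the unique zero, of order one, of a
function `y` with `[F₀ : k(y)] = 1`. -/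
theorem exists_simple_zero {J₀ : F₀} (h₀ : IsFF1s k F₀ J₀)
    (hR0 : ∀ E : Divisor k F₀,
      Divisor.degree E + 1 ≤ (Module.finrank k (riemannRochSpace E) : ℤ))
    (v : Place k F₀) :
    ∃ y : F₀, Transcendental k y ∧ Module.finrank k⟮y⟯ F₀ = 1 ∧ v.ord y = 1 ∧
      ∀ w : Place k F₀, 0 < w.ord y → w = v := by
  classical
  have hpf := placeFacts_of_isFF1s h₀
  set E : Divisor k F₀ := Finsupp.single v 1 with hE
  have hdeg : Divisor.degree E = 1 := by
    rw [hE, Divisor.degree_single, deg_eq_one h₀ v]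
    simp
  have h2 : (2 : ℤ) ≤ (Module.finrank k (riemannRochSpace E) : ℤ) := by
    have := hR0 E
    rw [hdeg] at this
    linarith
  have h1mem : (1 : F₀) ∈ riemannRochSpace E := by
    rw [mem_riemannRochSpace_iff]
    intro w
    right
    rw [Place.ord_one, hE]
    by_cases hw : w = v
    · subst hw
      simp
    · rw [Finsupp.single_eq_of_ne hw]
      simp
  -- a nonconstant element of `L(v)`
  obtain ⟨x, hxE, hxc⟩ : ∃ x : F₀, x ∈ riemannRochSpace E ∧ ∀ c : k, x ≠ algebraMap k F₀ c := by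
    by_contra hcon
    push Not at hcon
    have hle : Module.finrank k (riemannRochSpace E) ≤ 1 := by
      apply finrank_le_one (⟨1, h1mem⟩ : riemannRochSpace E)
      intro w
      obtain ⟨c, hc⟩ := hcon w.1 w.2
      refine ⟨c, ?_⟩
      apply Subtype.ext
      show c • (1 : F₀) = w.1
      rw [hc, Algebra.smul_def, mul_one]
    have : (Module.finrank k (riemannRochSpace E) : ℤ) ≤ 1 := by exact_mod_cast hle
    linarith
  have hx0 : x ≠ 0 := by
    intro h
    exact hxc 0 (by rw [h, map_zero])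
  have hxtr : Transcendental k x := by
    intro halg
    obtain ⟨c, hc⟩ := exists_algebraMap_eq_of_isAlgebraic halg
    exact hxc c hc.symm
  have hxord : ∀ w : Place k F₀, -E w ≤ w.ord x := by
    intro w
    rcases (mem_riemannRochSpace_iff.1 hxE) w with h | h
    · exact absurd h hx0
    · exact h
  set y : F₀ := x⁻¹ with hy
  have hytr : Transcendental k y := transcendental_inv hxtr
  have hyff : IsFF1 k F₀ y := isFF1_of_transcendental h₀.toFF1 y hytr
  have hpos : 0 < Module.finrank k⟮y⟯ F₀ := by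
    have := hyff.finite
    exact Module.finrank_pos
  have hsum := hpf.sum_ord_zeros y hytr
  have hzero : ∀ w : Place k F₀, 0 < w.ord y → w = v := by
    intro w hw
    rw [hy, w.ord_inv] at hw
    have h1 := hxord w
    by_contra hne
    rw [hE, Finsupp.single_eq_of_ne hne] at h1
    omega
  have hv1 : v.ord y ≤ 1 := by
    rw [hy, v.ord_inv]
    have h1 := hxord v
    rw [hE, Finsupp.single_eq_same] at h1
    omega
  have hsub : (hpf.finite_zeros y hytr).toFinset ⊆ {v} := by
    intro w hw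
    rw [Set.Finite.mem_toFinset] at hw
    rw [Finset.mem_singleton]
    exact hzero w hw
  have hsum_le : ∑ w ∈ (hpf.finite_zeros y hytr).toFinset, w.ord y ≤ 1 := by
    rcases Finset.subset_singleton_iff.1 hsub with h | h
    · rw [h, Finset.sum_empty]
      exact zero_le_one
    · rw [h, Finset.sum_singleton]
      exact hv1
  have hfin1 : Module.finrank k⟮y⟯ F₀ = 1 := by
    have : (Module.finrank k⟮y⟯ F₀ : ℤ) ≤ 1 := by rw [← hsum]; exact hsum_le
    omega
  refine ⟨y, hytr, hfin1, ?_, hzero⟩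
  rcases Finset.subset_singleton_iff.1 hsub with h | h
  · rw [h, Finset.sum_empty, hfin1] at hsum
    norm_num at hsum
  · rw [h, Finset.sum_singleton, hfin1] at hsum
    exact_mod_cast hsum

end Rational

section Lift

variable {k F₀ F : Type*} [Field k] [IsAlgClosed k] [Field F₀] [Field F]
  [Algebra k F₀] [Algebra k F] [Algebra F₀ F] [IsScalarTower k F₀ F]

theorem transcendental_algebraMap {y : F₀} (hy : Transcendental k y) :
    Transcendental k (algebraMap F₀ F y) := by
  rw [transcendental_iff] at hy ⊢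
  intro p hp
  apply hy p
  have h1 : Polynomial.aeval (algebraMap F₀ F y) p
      = (IsScalarTower.toAlgHom k F₀ F) (Polynomial.aeval y p) :=
    Polynomial.aeval_algHom_apply (IsScalarTower.toAlgHom k F₀ F) y p
  rw [h1] at hp
  exact (map_eq_zero_iff _ (algebraMap F₀ F).injective).1 hp

theorem adjoin_algebraMap (y : F₀) :
    (k⟮y⟯).map (IsScalarTower.toAlgHom k F₀ F) = k⟮algebraMap F₀ F y⟯ := by
  rw [IntermediateField.adjoin_map, Set.image_singleton]
  rfl

/-- An element `y` of `F₀` with `[F₀ : k(y)] = 1` is separating of degree `n` on `F`. -/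
theorem lift_of_finrank_one {J₀ : F₀} (h : IsFF1s k F (algebraMap F₀ F J₀)) {n : ℕ}
    (hd₀ : 0 < Module.finrank k⟮J₀⟯ F₀)
    (hn : Module.finrank k⟮algebraMap F₀ F J₀⟯ F = n * Module.finrank k⟮J₀⟯ F₀)
    {y : F₀} (hy : Transcendental k y) (hy1 : Module.finrank k⟮y⟯ F₀ = 1) :
    IsFF1s k F (algebraMap F₀ F y) ∧ Module.finrank k⟮algebraMap F₀ F y⟯ F = n := by
  have htop : k⟮y⟯ = ⊤ := IntermediateField.finrank_eq_one_iff_eq_top.1 hy1
  have hle : k⟮algebraMap F₀ F J₀⟯ ≤ k⟮algebraMap F₀ F y⟯ := by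
    rw [← adjoin_algebraMap, ← adjoin_algebraMap]
    apply IntermediateField.map_mono
    rw [htop]
    exact le_top
  have hytr : Transcendental k (algebraMap F₀ F y) := transcendental_algebraMap hy
  have hff : IsFF1 k F (algebraMap F₀ F y) := isFF1_of_transcendental h.toFF1 _ hytr
  have hrel : relfinrank (k⟮algebraMap F₀ F J₀⟯) (k⟮algebraMap F₀ F y⟯)
      = Module.finrank k⟮J₀⟯ F₀ := by
    rw [← adjoin_algebraMap, ← adjoin_algebraMap, relfinrank_map_map, htop, relfinrank_top_right]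
  have hmul := relfinrank_mul_finrank_top hle
  rw [hrel, hn] at hmul
  have hfin : Module.finrank k⟮algebraMap F₀ F y⟯ F = n := by
    have : Module.finrank k⟮J₀⟯ F₀ * Module.finrank k⟮algebraMap F₀ F y⟯ F
        = Module.finrank k⟮J₀⟯ F₀ * n := by rw [hmul, mul_comm]
    exact Nat.eq_of_mul_eq_mul_left hd₀ this
  refine ⟨⟨hytr, hff.finite, ?_⟩, hfin⟩
  have := h.separable
  have hsep : Algebra.IsSeparable (extendScalars hle) F :=
    Algebra.isSeparable_tower_top_of_isSeparable k⟮algebraMap F₀ F J₀⟯ (extendScalars hle) F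
  exact hsep

end Lift

section Main

variable {k F₀ F : Type*} [Field k] [IsAlgClosed k] [Field F₀] [Field F]
  [Algebra k F₀] [Algebra k F] [Algebra F₀ F] [IsScalarTower k F₀ F]

/-- Every place of `F` which is not trivial on `F₀` restricts to a place of `F₀`. -/
theorem exists_restrict (v₀ : Place k F₀) (Q : Place k F) :
    ∃ (v : Place k F₀) (d : ℕ),
      (∃ f : F₀, f ≠ 0 ∧ Q.ord (algebraMap F₀ F f) ≠ 0) →
        0 < d ∧ ∀ f : F₀, f ≠ 0 → Q.ord (algebraMap F₀ F f) = d * v.ord f := by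
  have hne : ∀ f : F₀, f ≠ 0 → algebraMap F₀ F f ≠ 0 := fun f hf =>
    (map_ne_zero (algebraMap F₀ F)).2 hf
  by_cases hnt : ∃ f : F₀, f ≠ 0 ∧ Q.ord (algebraMap F₀ F f) ≠ 0
  · obtain ⟨v, d, hd, -, hv⟩ := exists_place_of_ord (K := k)
      (fun f : F₀ => Q.ord (algebraMap F₀ F f))
      (fun f g hf hg => by
        show Q.ord (algebraMap F₀ F (f * g)) = _
        rw [map_mul]
        exact Q.ord_mul (hne f hf) (hne g hg))
      (fun f g hf hg hfg => by
        show min (Q.ord (algebraMap F₀ F f)) (Q.ord (algebraMap F₀ F g))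
          ≤ Q.ord (algebraMap F₀ F (f + g))
        rw [map_add]
        exact Fermat.Agent.Lib.FF.ord_add Q (by rw [← map_add]; exact hne _ hfg))
      (fun c _ => by
        show Q.ord (algebraMap F₀ F (algebraMap k F₀ c)) = 0
        rw [← IsScalarTower.algebraMap_apply]
        exact Fermat.Agent.Lib.FF.ord_algebraMap Q c)
      hnt
    exact ⟨v, d, fun _ => ⟨hd, hv⟩⟩
  · exact ⟨v₀, 1, fun h => absurd h hnt⟩

/-- **(P5)** Riemann–Hurwitz lower bound for `F / F₀`, `F₀` of genus `0`, with ramification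
counted over the poles of `J₀` only. -/
theorem ns_of_counts (J₀ : F₀) (h₀ : IsFF1s k F₀ J₀) (h : IsFF1s k F (algebraMap F₀ F J₀))
    (hR0 : ∀ E : Divisor k F₀,
      Divisor.degree E + 1 ≤ (Module.finrank k (riemannRochSpace E) : ℤ))
    (n c₀ c : ℕ) (g : ℤ)
    (hn : Module.finrank k⟮algebraMap F₀ F J₀⟯ F = n * Module.finrank k⟮J₀⟯ F₀)
    (hc₀ : c₀ ≤ nPoles (K := k) J₀)
    (hc : nPoles (K := k) (algebraMap F₀ F J₀) ≤ c)
    (harith : 2 * g - 2 + 2 * (n : ℤ) ≤ n * c₀ - c) :
    ∃ E : Divisor k F,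
      (Module.finrank k (riemannRochSpace E) : ℤ) + g ≤ Divisor.degree E + 1 := by
  classical
  have hne : ∀ f : F₀, f ≠ 0 → algebraMap F₀ F f ≠ 0 := fun f hf =>
    (map_ne_zero (algebraMap F₀ F)).2 hf
  have hJ₀0 : J₀ ≠ 0 := by
    rintro rfl
    exact h₀.transcendental isAlgebraic_zero
  have hd₀ : 0 < Module.finrank k⟮J₀⟯ F₀ := by
    have := h₀.finite
    exact Module.finrank_pos
  have hpf := placeFacts_of_isFF1s h
  have hpf₀ := placeFacts_of_isFF1s h₀
  obtain ⟨vinf⟩ := exists_place_of_isFF1s h₀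
  choose rv rd hrvd using exists_restrict (k := k) (F := F) vinf
  -- the poles
  have hSfin : {Q : Place k F | Q.ord (algebraMap F₀ F J₀) < 0}.Finite :=
    (hpf.finite_ord_ne_zero _ (hne J₀ hJ₀0)).subset fun Q hQ => ne_of_lt hQ
  have hPfin : {v : Place k F₀ | v.ord J₀ < 0}.Finite :=
    (hpf₀.finite_ord_ne_zero _ hJ₀0).subset fun Q hQ => ne_of_lt hQ
  set S := hSfin.toFinset with hS
  set P₀ := hPfin.toFinset with hP₀
  have hScard : S.card = nPoles (K := k) (algebraMap F₀ F J₀) :=
    (Nat.card_eq_card_finite_toFinset hSfin).symm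
  have hPcard : P₀.card = nPoles (K := k) J₀ :=
    (Nat.card_eq_card_finite_toFinset hPfin).symm
  have hmemS : ∀ Q, Q ∈ S ↔ Q.ord (algebraMap F₀ F J₀) < 0 := fun Q => by
    rw [hS, Set.Finite.mem_toFinset]
    rfl
  have hmemP : ∀ v, v ∈ P₀ ↔ v.ord J₀ < 0 := fun v => by
    rw [hP₀, Set.Finite.mem_toFinset]
    rfl
  have hSdata : ∀ Q ∈ S, 0 < rd Q ∧
      ∀ f : F₀, f ≠ 0 → Q.ord (algebraMap F₀ F f) = rd Q * (rv Q).ord f :=
    fun Q hQ => hrvd Q ⟨J₀, hJ₀0, ne_of_lt ((hmemS Q).1 hQ)⟩
  have hSP : ∀ Q ∈ S, rv Q ∈ P₀ := by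
    intro Q hQ
    rw [hmemP]
    have h1 := (hmemS Q).1 hQ
    rw [(hSdata Q hQ).2 J₀ hJ₀0] at h1
    have h2 : (0 : ℤ) < rd Q := by exact_mod_cast (hSdata Q hQ).1
    by_contra hcon
    rw [not_lt] at hcon
    have := mul_nonneg h2.le hcon
    omega
  -- a function with a single simple zero at each place of `F₀`
  choose y hytr hy1 hyv hyz using exists_simple_zero h₀ hR0
  have hy0 : ∀ v, y v ≠ 0 := fun v h0 => by
    have := hytr v
    rw [h0] at this
    exact this isAlgebraic_zero
  have hlift : ∀ v, IsFF1s k F (algebraMap F₀ F (y v)) ∧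
      Module.finrank k⟮algebraMap F₀ F (y v)⟯ F = n :=
    fun v => lift_of_finrank_one h hd₀ hn (hytr v) (hy1 v)
  -- the fibre sums
  have hfib : ∀ v ∈ P₀, ∑ Q ∈ S with rv Q = v, (rd Q : ℤ) = n := by
    intro v hv
    obtain ⟨hl1, hl2⟩ := hlift v
    have hs := sum_ord_zeros hl1
    rw [hl2] at hs
    have hkey : ∀ Q : Place k F, 0 < Q.ord (algebraMap F₀ F (y v)) →
        (Q ∈ S ∧ rv Q = v) ∧ Q.ord (algebraMap F₀ F (y v)) = rd Q := by
      intro Q hQ'
      have hdata := hrvd Q ⟨y v, hy0 v, hQ'.ne'⟩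
      have hd : (0 : ℤ) < rd Q := by exact_mod_cast hdata.1
      have h1 : 0 < (rv Q).ord (y v) := by
        rw [hdata.2 (y v) (hy0 v)] at hQ'
        by_contra hcon
        rw [not_lt] at hcon
        have := mul_nonpos_of_nonneg_of_nonpos hd.le hcon
        omega
      have hv' : rv Q = v := hyz v (rv Q) h1
      refine ⟨⟨?_, hv'⟩, ?_⟩
      · rw [hmemS, hdata.2 J₀ hJ₀0, hv']
        exact mul_neg_of_pos_of_neg hd ((hmemP v).1 hv)
      · rw [hdata.2 (y v) (hy0 v), hv', hyv v, mul_one]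
    rw [← hs]
    apply Finset.sum_congr
    · ext Q
      rw [Finset.mem_filter]
      constructor
      · rintro ⟨hQS, hQv⟩
        refine (Set.Finite.mem_toFinset _).2 ?_
        show 0 < Q.ord (algebraMap F₀ F (y v))
        rw [(hSdata Q hQS).2 (y v) (hy0 v), hQv, hyv v, mul_one]
        exact_mod_cast (hSdata Q hQS).1
      · intro hQ
        have hQ1 := hQ
        rw [Set.Finite.mem_toFinset] at hQ1
        exact (hkey Q hQ1).1
    · intro Q hQ
      have hQ1 := hQ
      rw [Set.Finite.mem_toFinset] at hQ1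
      exact ((hkey Q hQ1).2).symm
  have htot : ∑ Q ∈ S, (rd Q : ℤ) = (n : ℤ) * P₀.card := by
    rw [← Finset.sum_fiberwise_of_maps_to hSP, Finset.sum_congr rfl hfib, Finset.sum_const,
      nsmul_eq_mul, mul_comm]
  -- the global coordinate
  set x₀ : F₀ := (y vinf)⁻¹ with hx₀
  have hx₀tr : Transcendental k x₀ := transcendental_inv (hytr vinf)
  have hx₀1 : Module.finrank k⟮x₀⟯ F₀ = 1 := by
    rw [hx₀, finrank_adjoin_inv]
    exact hy1 vinf
  have hx₀0 : x₀ ≠ 0 := inv_ne_zero (hy0 vinf)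
  obtain ⟨hxs, hxn⟩ := lift_of_finrank_one h hd₀ hn hx₀tr hx₀1
  refine exists_divisor_of_ramification hxs S (fun Q => (rd Q : ℤ)) ?_ g ?_
  · intro Q hQ
    obtain ⟨hd, hdata⟩ := hSdata Q hQ
    have hdZ : (0 : ℤ) < rd Q := by exact_mod_cast hd
    by_cases hv : rv Q = vinf
    · left
      rw [hdata x₀ hx₀0, hv, hx₀, Place.ord_inv, hyv vinf]
      simp
    · right
      have h1 : ¬ 0 < (rv Q).ord (y vinf) := fun h0 => hv (hyz vinf (rv Q) h0)
      have h2 : 0 ≤ (rv Q).ord x₀ := by
        rw [hx₀, Place.ord_inv]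
        omega
      have hmem : x₀ ∈ (rv Q).toValuationSubring := mem_of_ord_nonneg (rv Q) h2
      obtain ⟨a, ha | ha⟩ := exists_sub_mem_maximalIdeal h₀ (rv Q) x₀ hmem
      · exfalso
        apply hx₀tr
        rw [ha]
        exact isAlgebraic_algebraMap a
      · refine ⟨a, ?_⟩
        have hne0 : x₀ - algebraMap k F₀ a ≠ 0 := by
          intro h0
          rw [h0, Place.ord_zero] at ha
          exact lt_irrefl _ ha
        have h3 : algebraMap F₀ F x₀ - algebraMap k F a
            = algebraMap F₀ F (x₀ - algebraMap k F₀ a) := by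
          rw [map_sub, ← IsScalarTower.algebraMap_apply]
        rw [h3, hdata _ hne0]
        have : (rd Q : ℤ) * 1 ≤ rd Q * (rv Q).ord (x₀ - algebraMap k F₀ a) :=
          mul_le_mul_of_nonneg_left (by omega) hdZ.le
        linarith
  · rw [hxn, Finset.sum_sub_distrib, htot, Finset.sum_const, nsmul_eq_mul, mul_one, hScard,
      hPcard]
    have h1 : (n : ℤ) * c₀ ≤ n * nPoles (K := k) J₀ :=
      mul_le_mul_of_nonneg_left (by exact_mod_cast hc₀) (by positivity)
    have h2 : (nPoles (K := k) (algebraMap F₀ F J₀) : ℤ) ≤ c := by exact_mod_cast hc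
    linarith

end Main

end Fermat.Agent.S18.NSC
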