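import Fermat.Agent.S18.FinalSetup
import Fermat.Agent.S18.NSCounts

/-!
# S18 (C76), final glue, part 2: the non-special divisor at level `M` from the pole counts

* `riemann_genus_zero`: `deg E + 1 ≤ l(E)` in `F_k(a)` when `genusFormula a = 0`;
* `ns_of_polecount`: `(NS)_M` from the pole counts of `J` at the levels `a ∣ M`;
* `starRed_of_polecount`: `(*)_M` in reduction form.
-/

set_option autoImplicit false
set_option linter.unusedSectionVars false
set_option linter.unusedVariables false
set_option linter.style.haveILetI false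
set_option synthInstance.maxHeartbeats 400000
set_option maxHeartbeats 1000000

noncomputable section

open AlgebraicCurve ModularCurve IntermediateField Fermat.Agent.Lib.FF

namespace Fermat.Agent.S18.Final

local notation "Qb" => AlgebraicClosure ℚ

variable (A : ValuationSubring (AlgebraicClosure ℚ)) (ℓ : ℕ) [hℓ : Fact ℓ.Prime]
variable (hA : A.LiesOverPrime ℓ) (M : ℕ) [NeZero M] (hℓM : ¬ ℓ ∣ M)

include hA hℓM in
/-- Riemann's theorem in `F_k(a)` for a level of genus `0` -/
theorem riemann_genus_zero (hg0 : genusFormula M = 0)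
    (E : Divisor (IsLocalRing.ResidueField A)
      (modularFunctionFieldFullC (IsLocalRing.ResidueField A) M)) :
    Divisor.degree E + 1
      ≤ (Module.finrank (IsLocalRing.ResidueField A) (riemannRochSpace E) : ℤ) := by
  haveI := ResClosed.isAlgClosed_residueField A
  obtain ⟨g, c, hg, hRF⟩ := RF.rthm_bar M
  have hg' : g = 0 := by
    rw [hg0] at hg
    exact_mod_cast hg
  subst hg'
  have hNS : ∃ E : Divisor (IsLocalRing.ResidueField A)
      (modularFunctionFieldFullC (IsLocalRing.ResidueField A) M),
      (Module.finrank (IsLocalRing.ResidueField A) (riemannRochSpace E) : ℤ) + (0 : ℕ)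
        ≤ Divisor.degree E + 1 := by
    refine ⟨0, ?_⟩
    rw [Fermat.Agent.Lib.FFs.finrank_rrSpace_zero_of_isFF1s (isFF1s_jK A ℓ hA M), map_zero]
    simp
  have S := setup_of_ns A ℓ hA M hℓM 0 c hRF hNS
  obtain ⟨ck, hRk⟩ := S.rthm_k
  have := hRk.ge E
  simpa using this

/-- the inclusion `F_k(a) → F_k(M)` for `a ∣ M` -/
@[reducible] def inclAlg (k : Type*) [Field k] {a M : ℕ} [NeZero a] [NeZero M] (ha : a ∣ M) :
    Algebra (modularFunctionFieldFullC k a) (modularFunctionFieldFullC k M) :=
  (IntermediateField.inclusion (full_degeneracyC_le k ha)).toRingHom.toAlgebra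

include hA hℓM in
/-- **`(NS)_M`** from the two pole counts -/
theorem ns_of_polecount (a : ℕ) [NeZero a] (ha : a ∣ M) (hga : genusFormula a = 0)
    (n : ℕ) (hn : dedekindPsi M = n * dedekindPsi a)
    (hc₀ : cuspCount a ≤ nPoles (K := IsLocalRing.ResidueField A)
      (GV.jK (IsLocalRing.ResidueField A) a))
    (hc : nPoles (K := IsLocalRing.ResidueField A)
      (GV.jK (IsLocalRing.ResidueField A) M) ≤ cuspCount M)
    (g : ℤ) (harith : 2 * g - 2 + 2 * (n : ℤ) ≤ n * (cuspCount a : ℤ) - cuspCount M) :
    ∃ E : Divisor (IsLocalRing.ResidueField A)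
        (modularFunctionFieldFullC (IsLocalRing.ResidueField A) M),
      (Module.finrank (IsLocalRing.ResidueField A) (riemannRochSpace E) : ℤ) + g
        ≤ Divisor.degree E + 1 := by
  haveI := ResClosed.isAlgClosed_residueField A
  have hℓa : ¬ ℓ ∣ a := fun h => hℓM (h.trans ha)
  letI : Algebra (modularFunctionFieldFullC (IsLocalRing.ResidueField A) a)
      (modularFunctionFieldFullC (IsLocalRing.ResidueField A) M) :=
    inclAlg (IsLocalRing.ResidueField A) ha
  haveI : IsScalarTower (IsLocalRing.ResidueField A)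
      (modularFunctionFieldFullC (IsLocalRing.ResidueField A) a)
      (modularFunctionFieldFullC (IsLocalRing.ResidueField A) M) :=
    IsScalarTower.of_algebraMap_eq fun x => rfl
  have hJ : algebraMap (modularFunctionFieldFullC (IsLocalRing.ResidueField A) a)
      (modularFunctionFieldFullC (IsLocalRing.ResidueField A) M)
      (GV.jK (IsLocalRing.ResidueField A) a) = GV.jK (IsLocalRing.ResidueField A) M := rfl
  refine NSC.ns_of_counts (GV.jK (IsLocalRing.ResidueField A) a) (isFF1s_jK A ℓ hA a)
    (hJ ▸ isFF1s_jK A ℓ hA M) (riemann_genus_zero A ℓ hA a hℓa hga) n (cuspCount a)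
    (cuspCount M) g ?_ hc₀ ?_ harith
  · rw [hJ, GV.finrank_ffC A ℓ hA M hℓM, GV.finrank_ffC A ℓ hA a hℓa, hn]
  · rw [hJ]
    exact hc

end Fermat.Agent.S18.Final
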