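import Fermat.Agent.S18.GVPivot
import Fermat.Agent.S18.GVModular
import Fermat.Agent.S18.DeuringRed

/-!
# S18 (C76): the reduction axioms `RedAx` and `(H1)` for `F(M)`, `ℓ ∤ M`

* `RedF A M x a`: the Gauss reduction relation between `F(M)` and `F_k(M)`;
* `redAx`: `Deuring.RedAx A (residue A) (RedF A M)`;
* `finrank_redSpace` **(H1)**: `dim_k ρ(V ∩ O_w) = dim_L V` for finite-dimensional `V ≤ F(M)`.
-/

set_option autoImplicit false
set_option linter.unusedSectionVars false
set_option synthInstance.maxHeartbeats 400000
set_option maxHeartbeats 1000000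

noncomputable section

namespace Fermat.Agent.S18.GV

open ModularCurve Polynomial IntermediateField Fermat.Agent.S18.Deuring

local notation "Qb" => AlgebraicClosure ℚ

local instance isAlgebraicQbGVS : Algebra.IsAlgebraic ℚ (AlgebraicClosure ℚ) :=
  AlgebraicClosure.isAlgebraic ℚ

variable (A : ValuationSubring (AlgebraicClosure ℚ)) (ℓ : ℕ) [hℓ : Fact ℓ.Prime]
variable (hA : A.LiesOverPrime ℓ) (M : ℕ) [NeZero M] (hℓM : ¬ ℓ ∣ M)

/-- the Gauss reduction relation between `F(M)` and `F_k(M)` -/
def RedF (x : modularFunctionFieldBar M)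
    (a : modularFunctionFieldFullC (IsLocalRing.ResidueField A) M) : Prop :=
  Red A (x : LaurentSeries Qb) (a : LaurentSeries (IsLocalRing.ResidueField A))

theorem coe_algebraMap_ff (c : Qb) :
    ((algebraMap Qb (modularFunctionFieldBar M) c : modularFunctionFieldBar M) :
      LaurentSeries Qb) = HahnSeries.C c := by
  show algebraMap Qb (LaurentSeries Qb) c = _
  rw [algebraMap_eq_hC]

theorem coe_algebraMap_ffC (c : IsLocalRing.ResidueField A) :
    ((algebraMap (IsLocalRing.ResidueField A)
        (modularFunctionFieldFullC (IsLocalRing.ResidueField A) M) c :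
        modularFunctionFieldFullC (IsLocalRing.ResidueField A) M) :
      LaurentSeries (IsLocalRing.ResidueField A)) = HahnSeries.C c := by
  show algebraMap (IsLocalRing.ResidueField A) (LaurentSeries (IsLocalRing.ResidueField A)) c = _
  rw [algebraMap_eq_hC]

include hA hℓM in
/-- **the reduction axioms R0–R4** -/
theorem redAx : RedAx A (IsLocalRing.residue A) (RedF A M) where
  res_surj := IsLocalRing.residue_surjective
  unique := fun h1 h2 => Subtype.ext (Red.unique A h1 h2)
  add := fun h1 h2 => Red.add A h1 h2
  mul := fun h1 h2 => Red.mul A h1 h2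
  const := fun c => by
    show Red A _ _
    rw [coe_algebraMap_ff, coe_algebraMap_ffC]
    exact red_const A c
  inv := fun h1 h0 => by
    show Red A _ _
    rw [IntermediateField.coe_inv, IntermediateField.coe_inv]
    exact Red.inv A h1 (fun h => h0 (Subtype.ext h))
  scale := fun x hx => by
    have hx0 : (x : LaurentSeries Qb) ≠ 0 := fun h => hx (Subtype.ext h)
    obtain ⟨c, hc, a, ha, hred⟩ := exists_red_smul A ℓ hA (mem_gaussField_of_mem_ff A M x.2) hx0
    have hmem : (HahnSeries.C c : LaurentSeries Qb) * (x : LaurentSeries Qb)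
        ∈ modularFunctionFieldBar M := by
      refine mul_mem ?_ x.2
      rw [← algebraMap_eq_hC]
      exact IntermediateField.algebraMap_mem _ _
    refine ⟨c, hc, ⟨a, red_mem_ffC A ℓ hA M hℓM hmem hred⟩, fun h => ha (congrArg Subtype.val h),
      ?_⟩
    show Red A _ _
    rw [coe_smul_eq]
    exact hred

theorem coe_smul_hahn {K : Type*} [Field K] (E : IntermediateField K (LaurentSeries K))
    (c : K) (x : E) : ((c • x : E) : LaurentSeries K) = c • (x : LaurentSeries K) := by
  rw [Algebra.smul_def, IntermediateField.coe_mul]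
  show algebraMap K (LaurentSeries K) c * _ = _
  rw [algebraMap_eq_hC]
  exact HahnSeries.C_mul_eq_smul

/-- linear independence in `F_k(M)` can be tested on Laurent series -/
theorem linearIndependent_coe_iff {K : Type*} [Field K] (E : IntermediateField K (LaurentSeries K))
    {n : ℕ} (a : Fin n → E) :
    LinearIndependent K (fun i => (a i : LaurentSeries K)) ↔ LinearIndependent K a := by
  rw [Fintype.linearIndependent_iff, Fintype.linearIndependent_iff]
  have key : ∀ g : Fin n → K, (∑ i, g i • (a i : LaurentSeries K) = 0) ↔ ∑ i, g i • a i = 0 := by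
    intro g
    rw [← Subtype.coe_inj, AddSubmonoidClass.coe_finsetSum, ZeroMemClass.coe_zero]
    simp only [coe_smul_hahn]
  exact forall_congr' fun g => by rw [key g]

include hA hℓM in
/-- **Gaussian elimination in `F(M)`** -/
theorem exists_indep_lifts_ff (V : Submodule Qb (modularFunctionFieldBar M))
    [Module.Finite Qb V] :
    ∃ (x : Fin (Module.finrank Qb V) → modularFunctionFieldBar M)
      (a : Fin (Module.finrank Qb V) → LaurentSeries (IsLocalRing.ResidueField A)),
      (∀ s, x s ∈ V) ∧ (∀ s, Red A (x s : LaurentSeries Qb) (a s)) ∧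
        LinearIndependent (IsLocalRing.ResidueField A) a := by
  obtain ⟨b, β, hbmem, hβmem, hb, hβ⟩ := exists_ortho_basis A ℓ hA M hℓM
  have hrepr : ∀ x : modularFunctionFieldBar M, ∃ f : Fin (dedekindPsi M) → LaurentSeries Qb,
      (∀ i, f i ∈ Qb⟮jqModC Qb⟯) ∧ (x : LaurentSeries Qb) = ∑ i, f i * b i :=
    fun x => exists_repr A ℓ hA M b β hbmem hb hβ x.2
  have hpiv := hasPivots_of_ortho A ℓ (modularFunctionFieldBar M) hA (red_j A)
    Fermat.Agent.S28.transcendental_jqModC' hb hβ hrepr V
  exact exists_indep_lifts A ℓ _ hA (laurentBaseChange_le_gaussIF A M) _ V inferInstance rfl hpiv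

include hA hℓM in
/-- **(H1)**: reduction preserves the dimension of finite-dimensional subspaces -/
theorem finrank_redSpace (V : Submodule Qb (modularFunctionFieldBar M))
    (hV : Module.Finite Qb V) :
    Module.finrank (IsLocalRing.ResidueField A) (redSpace (redAx A ℓ hA M hℓM) V)
      = Module.finrank Qb V := by
  classical
  -- (i) independent residues have independent lifts
  have hle : ∀ (m : ℕ) (a : Fin m → redSpace (redAx A ℓ hA M hℓM) V),
      LinearIndependent (IsLocalRing.ResidueField A) a → m ≤ Module.finrank Qb V := by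
    intro m a ha
    choose x hxV hxa using fun i => (a i).2
    have ha1 : LinearIndependent (IsLocalRing.ResidueField A)
        (fun i => ((a i : modularFunctionFieldFullC (IsLocalRing.ResidueField A) M))) :=
      ha.map' (redSpace (redAx A ℓ hA M hℓM) V).subtype (Submodule.ker_subtype _)
    have ha2 := (linearIndependent_coe_iff _ _).2 ha1
    have hx := linearIndependent_lifts A (modularFunctionFieldBar M) x _ hxa ha2
    have hx' : LinearIndependent Qb (fun i => (⟨x i, hxV i⟩ : V)) := by
      apply LinearIndependent.of_comp V.subtype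
      exact hx
    have := hx'.fintype_card_le_finrank
    rwa [Fintype.card_fin] at this
  have hrank : Module.rank (IsLocalRing.ResidueField A) (redSpace (redAx A ℓ hA M hℓM) V)
      ≤ (Module.finrank Qb V : ℕ) := by
    by_contra hcon
    rw [not_le] at hcon
    have h1 : ((Module.finrank Qb V + 1 : ℕ) : Cardinal)
        ≤ Module.rank (IsLocalRing.ResidueField A) (redSpace (redAx A ℓ hA M hℓM) V) := by
      rw [Nat.cast_succ, ← Cardinal.succ_natCast]
      exact Order.succ_le_of_lt hcon
    obtain ⟨f, hf⟩ := exists_linearIndependent_of_le_rank h1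
    have := hle _ f hf
    omega
  have hfin : Module.Finite (IsLocalRing.ResidueField A) (redSpace (redAx A ℓ hA M hℓM) V) := by
    rw [← Module.rank_lt_aleph0_iff]
    exact lt_of_le_of_lt hrank (Cardinal.natCast_lt_aleph0)
  apply le_antisymm (Module.finrank_le_of_rank_le hrank)
  obtain ⟨x, a, hxV, hxa, ha⟩ := exists_indep_lifts_ff A ℓ hA M hℓM V
  have hmem : ∀ s, a s ∈ modularFunctionFieldFullC (IsLocalRing.ResidueField A) M :=
    fun s => red_mem_ffC A ℓ hA M hℓM (x s).2 (hxa s)
  have ha1 : LinearIndependent (IsLocalRing.ResidueField A)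
      (fun s => (⟨a s, hmem s⟩ : modularFunctionFieldFullC (IsLocalRing.ResidueField A) M)) :=
    (linearIndependent_coe_iff _ _).1 ha
  have ha2 : LinearIndependent (IsLocalRing.ResidueField A)
      (fun s => (⟨⟨a s, hmem s⟩, ⟨x s, hxV s, hxa s⟩⟩ : redSpace (redAx A ℓ hA M hℓM) V)) := by
    apply LinearIndependent.of_comp (redSpace (redAx A ℓ hA M hℓM) V).subtype
    exact ha1
  have := ha2.fintype_card_le_finrank
  rwa [Fintype.card_fin] at this

end Fermat.Agent.S18.GV
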