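import Fermat.Agent.Lib.FFs.CharZero
import Fermat.Agent.S18.DeuringRR
import Fermat.Agent.S24

/-!
# S18, input (RF): Riemann's theorem for the function field of `X₀(M)` over `ℚ̄`, with the
genus given by the genus formula
-/

set_option autoImplicit false
set_option linter.unusedSectionVars false
set_option linter.style.haveILetI false

open AlgebraicCurve ModularCurve Fermat.Agent.Lib.FF

namespace Fermat.Agent.S18.RF

/-- canonical divisors exist on the function field of `X₀(M)` over `ℚ̄` -/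
theorem hasCanonicalDivisor_bar (M : ℕ) [NeZero M] :
    HasCanonicalDivisor (K := AlgebraicClosure ℚ) (F := ↥(modularFunctionFieldBar M)) :=
  Fermat.Agent.Lib.FFs.hasCanonicalDivisor_of_isFF1 (Fermat.Agent.S24.isFF1_jBar M)

/-- Riemann's theorem in characteristic zero, in `RThm` form -/
theorem rthm_of_isFF1 {K F : Type*} [Field K] [Field F] [Algebra K F] [IsAlgClosed K]
    [CharZero K] {x : F} (hx : IsFF1 K F x) [HasCanonicalDivisor (K := K) (F := F)] :
    ∃ c : ℤ, Fermat.Agent.S18.Deuring.RThm K F (genus K F) c := by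
  obtain ⟨c, h1, h2⟩ := Fermat.Agent.Lib.FFs.riemann_theorem_genus hx
  exact ⟨c, ⟨h1, h2⟩⟩

/-- Riemann's theorem in any characteristic, in `RThm` form -/
theorem rthm_of_isFF1s {K F : Type*} [Field K] [Field F] [Algebra K F] [IsAlgClosed K]
    {x : F} (hx : Fermat.Agent.Lib.FFs.IsFF1s K F x) :
    ∃ (g : ℕ) (c : ℤ), Fermat.Agent.S18.Deuring.RThm K F g c := by
  obtain ⟨g, c, h1, h2⟩ := Fermat.Agent.Lib.FFs.riemann_theorem hx
  exact ⟨g, c, ⟨h1, h2⟩⟩

/-- **(RF)**: Riemann's theorem for `F(M)` over `ℚ̄` with `g = genusFormula M` -/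
theorem rthm_bar (M : ℕ) [NeZero M] :
    ∃ (g : ℕ) (c : ℤ), (g : ℚ) = genusFormula M ∧
      Fermat.Agent.S18.Deuring.RThm (AlgebraicClosure ℚ) (modularFunctionFieldBar M) g c := by
  haveI := hasCanonicalDivisor_bar M
  obtain ⟨c, hc⟩ := rthm_of_isFF1 (Fermat.Agent.S24.isFF1_jBar M)
  exact ⟨_, c, Fermat.Agent.S24.result M, hc⟩

end Fermat.Agent.S18.RF
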