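import Mathlib

/-!
# S18: the residue field of a valuation ring of an algebraically closed field is algebraically
closed
-/

set_option autoImplicit false

open Polynomial

namespace Fermat.Agent.S18.ResClosed

variable {L : Type*} [Field L] [IsAlgClosed L] (A : ValuationSubring L)

/-- every monic polynomial over the residue field of a valuation ring of an algebraically closed
field has a root -/
theorem exists_root_residue (p : (IsLocalRing.ResidueField A)[X]) (hp : p.Monic)
    (hdeg : p.natDegree ≠ 0) : ∃ x, p.eval x = 0 := by
  have hlift : p ∈ Polynomial.lifts (IsLocalRing.residue A) := by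
    rw [Polynomial.lifts_iff_coeff_lifts]
    intro n
    exact IsLocalRing.residue_surjective _
  obtain ⟨q, hq, hqdeg, hqm⟩ := Polynomial.lifts_and_natDegree_eq_and_monic hlift hp
  -- a root of `q` in `L`
  have hq' : (q.map (algebraMap A L)).degree ≠ 0 := by
    rw [Polynomial.degree_map_eq_of_injective (IsFractionRing.injective A L)]
    rw [Polynomial.degree_eq_natDegree hqm.ne_zero, hqdeg]
    exact_mod_cast hdeg
  obtain ⟨α, hα⟩ := IsAlgClosed.exists_root (q.map (algebraMap A L)) hq'
  have hint : IsIntegral A α := ⟨q, hqm, by
    rw [← Polynomial.eval_map]
    exact hα⟩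
  obtain ⟨a, ha⟩ := (IsIntegrallyClosed.isIntegral_iff (R := A) (K := L)).mp hint
  refine ⟨IsLocalRing.residue A a, ?_⟩
  rw [← hq, Polynomial.eval_map, Polynomial.eval₂_at_apply]
  have h0 : q.eval a = 0 := by
    apply IsFractionRing.injective A L
    rw [map_zero, ← Polynomial.eval₂_at_apply, ← Polynomial.eval_map, ha]
    exact hα
  rw [h0, map_zero]

/-- the residue field of a valuation ring of an algebraically closed field is algebraically
closed -/
theorem isAlgClosed_residueField : IsAlgClosed (IsLocalRing.ResidueField A) :=
  IsAlgClosed.of_exists_root _ fun p hp hirr =>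
    exists_root_residue A p hp (fun h => by
      have := Polynomial.natDegree_pos_iff_degree_pos.mpr
        (Polynomial.degree_pos_of_irreducible hirr)
      omega)

theorem infinite_residueField : Infinite (IsLocalRing.ResidueField A) :=
  haveI := isAlgClosed_residueField A
  inferInstance

theorem perfectField_residueField : PerfectField (IsLocalRing.ResidueField A) :=
  haveI := isAlgClosed_residueField A
  inferInstance

end Fermat.Agent.S18.ResClosed
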