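import Fermat.Agent.S18.GVH2
import Fermat.Agent.S18.GVSetup
import Fermat.Agent.S18.GVDeg
import Fermat.Agent.S18.SepJ
import Fermat.Agent.S18.RF
import Fermat.Agent.S18.ResClosed
import Fermat.Agent.S18.DeuringTors
import Fermat.Agent.S18.DescendTop
import Fermat.Agent.Lib.FFs.Const
import Fermat.Agent.Lib.FunctionField.DWMain

/-!
# S18 (C76), final glue, part 1: the Deuring `Setup` for `F(M) ⇝ F_k(M)`, `ℓ ∤ M`

* `isFF1s_jK`, `placeFacts_k`, `placeFacts_bar`: the function-field facts on both sides;
* `degree_poleDiv_bar`, `degree_poleDiv_k`: both polar divisors of `j` have degree `ψ(M)`;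
* `setup_of_ns`: the `Deuring.Setup` from a non-special divisor on the residue side;
* `starRed_of_ns`: `(*)_M` in reduction form.
-/

set_option autoImplicit false
set_option linter.unusedSectionVars false
set_option linter.unusedVariables false
set_option linter.style.haveILetI false
set_option synthInstance.maxHeartbeats 400000
set_option maxHeartbeats 1000000

noncomputable section

open AlgebraicCurve ModularCurve IntermediateField Fermat.Agent.Lib.FF

namespace Fermat.Agent.S18.Final

local notation "Qb" => AlgebraicClosure ℚ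

variable (A : ValuationSubring (AlgebraicClosure ℚ)) (ℓ : ℕ) [hℓ : Fact ℓ.Prime]
variable (hA : A.LiesOverPrime ℓ) (M : ℕ) [NeZero M] (hℓM : ¬ ℓ ∣ M)

include hA in
/-- `J` is a separating element of `F_k(M)` -/
theorem isFF1s_jK :
    Fermat.Agent.Lib.FFs.IsFF1s (IsLocalRing.ResidueField A)
      (modularFunctionFieldFullC (IsLocalRing.ResidueField A) M)
      (GV.jK (IsLocalRing.ResidueField A) M) := by
  haveI := GV.charP_residueField A ℓ hA
  haveI := ResClosed.perfectField_residueField A
  exact SepK.isFF1s_jK (IsLocalRing.ResidueField A) ℓ M (GV.finiteDimensional_ffC A ℓ hA M)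

include hA in
theorem placeFacts_k :
    PlaceFacts (IsLocalRing.ResidueField A)
      (modularFunctionFieldFullC (IsLocalRing.ResidueField A) M) :=
  haveI := ResClosed.isAlgClosed_residueField A
  Fermat.Agent.Lib.FFs.placeFacts_of_isFF1s (isFF1s_jK A ℓ hA M)

theorem placeFacts_bar : PlaceFacts Qb (modularFunctionFieldBar M) :=
  placeFacts_of_isFF1 (Fermat.Agent.S24.isFF1_jBar M)

theorem degree_poleDiv_bar (hpf : PlaceFacts Qb (modularFunctionFieldBar M)) :
    Divisor.degree (hpf.poleDiv (Fermat.Agent.S24.jBar M)) = (dedekindPsi M : ℤ) := by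
  rw [hpf.degree_poleDiv (Fermat.Agent.S24.isFF1_jBar M).transcendental,
    Fermat.Agent.S24.finrank_jBar]

include hA hℓM in
theorem degree_poleDiv_k (hpfk : PlaceFacts (IsLocalRing.ResidueField A)
      (modularFunctionFieldFullC (IsLocalRing.ResidueField A) M)) :
    Divisor.degree (hpfk.poleDiv (GV.jK (IsLocalRing.ResidueField A) M))
      = (dedekindPsi M : ℤ) := by
  rw [hpfk.degree_poleDiv (isFF1s_jK A ℓ hA M).transcendental, GV.finrank_ffC A ℓ hA M hℓM]

theorem dedekindPsi_pos : 0 < dedekindPsi M := by
  have h := Fermat.Agent.S24.finrank_jBar M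
  haveI := (Fermat.Agent.S24.isFF1_jBar M).finite
  have h2 : 0 < Module.finrank Qb⟮Fermat.Agent.S24.jBar M⟯ (modularFunctionFieldBar M) :=
    Module.finrank_pos
  omega

include hA hℓM in
/-- **the Deuring setup at level `M`**, from a non-special divisor on the residue side -/
theorem setup_of_ns (g : ℕ) (c : ℤ)
    (hRF : Deuring.RThm Qb (modularFunctionFieldBar M) g c)
    (hNS : ∃ E : Divisor (IsLocalRing.ResidueField A)
        (modularFunctionFieldFullC (IsLocalRing.ResidueField A) M),
      (Module.finrank (IsLocalRing.ResidueField A) (riemannRochSpace E) : ℤ) + g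
        ≤ Divisor.degree E + 1) :
    Deuring.Setup A (IsLocalRing.residue A) (GV.RedF A M)
      ((placeFacts_bar M).poleDiv (Fermat.Agent.S24.jBar M))
      ((placeFacts_k A ℓ hA M).poleDiv (GV.jK (IsLocalRing.ResidueField A) M)) g c where
  hpf := placeFacts_bar M
  hpfk := placeFacts_k A ℓ hA M
  ax := GV.redAx A ℓ hA M hℓM
  D_nonneg := by
    rw [Finsupp.le_def]
    intro v
    rw [PlaceFacts.poleDiv_apply]
    exact le_max_right _ _
  Dk_nonneg := by
    rw [Finsupp.le_def]
    intro v
    rw [PlaceFacts.poleDiv_apply]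
    exact le_max_right _ _
  deg_eq := by
    rw [degree_poleDiv_bar, degree_poleDiv_k A ℓ hA M hℓM]
  deg_pos := by
    rw [degree_poleDiv_bar]
    exact_mod_cast dedekindPsi_pos M
  H1 := fun V hV => GV.finrank_redSpace A ℓ hA M hℓM V hV
  H2 := fun n x a hx hxa =>
    haveI := ResClosed.isAlgClosed_residueField A
    GV.h2 A ℓ hA M hℓM _ _ n x a hx hxa
  RF := hRF
  NS := hNS

include hA hℓM in
/-- **`(*)_M`** in reduction form, from a non-special divisor on the residue side -/
theorem starRed_of_ns
    (hNS : ∀ g : ℕ, (g : ℚ) = genusFormula M →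
      ∃ E : Divisor (IsLocalRing.ResidueField A)
        (modularFunctionFieldFullC (IsLocalRing.ResidueField A) M),
      (Module.finrank (IsLocalRing.ResidueField A) (riemannRochSpace E) : ℤ) + g
        ≤ Divisor.degree E + 1) :
    Desc.StarRed A ℓ M := by
  obtain ⟨g, c, hg, hRF⟩ := RF.rthm_bar M
  have S := setup_of_ns A ℓ hA M hℓM g c hRF (hNS g hg)
  haveI := ResClosed.infinite_residueField A
  haveI := GV.charP_residueField A ℓ hA
  intro f hf D m hm hD
  have hmk : ((m : ℕ) : IsLocalRing.ResidueField A) ≠ 0 := by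
    intro h0
    exact hm ((CharP.cast_eq_zero_iff (IsLocalRing.ResidueField A) ℓ m).1 h0)
  obtain ⟨s, hs0, hs⟩ := Deuring.star_of_setup S (f := f) hf D m hmk hD
  exact ⟨s, hs0, hs⟩

end Fermat.Agent.S18.Final
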