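import Fermat.Agent.S18.GVH2
import Fermat.Agent.S18.GVArith

/-!
# S18 (C76): the pole divisors `D = (j)_∞` of `F(M)/ℚ̄` and `Dk = (J)_∞` of `F_k(M)/k`

`D_nonneg`, `Dk_nonneg`, `deg D = ψ(M) = deg Dk`, `deg_pos`: the numerical fields of
`Deuring.Setup`.
-/

set_option autoImplicit false
set_option linter.unusedSectionVars false
set_option linter.style.haveILetI false
set_option synthInstance.maxHeartbeats 400000
set_option maxHeartbeats 1000000

noncomputable section

namespace Fermat.Agent.S18.GV

open ModularCurve Polynomial IntermediateField AlgebraicCurve Fermat.Agent.Lib.FF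

local notation "Qb" => AlgebraicClosure ℚ

local instance isAlgebraicQbGVDegEq : Algebra.IsAlgebraic ℚ (AlgebraicClosure ℚ) :=
  AlgebraicClosure.isAlgebraic ℚ

variable (A : ValuationSubring (AlgebraicClosure ℚ)) (ℓ : ℕ) [hℓ : Fact ℓ.Prime]
variable (hA : A.LiesOverPrime ℓ) (M : ℕ) [NeZero M] (hℓM : ¬ ℓ ∣ M)

theorem placeFacts_poleDiv_nonneg {K F : Type*} [Field K] [Field F] [Algebra K F]
    (hpf : PlaceFacts K F) (x : F) : 0 ≤ hpf.poleDiv x := by
  rw [Finsupp.le_def]
  intro v
  rw [hpf.poleDiv_apply]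
  exact le_max_right _ _

theorem transcendental_jK' (k : Type*) [Field k] : Transcendental k (jK k M) := by
  intro halg
  apply Fermat.Agent.S28.transcendental_jqModC' (k := k)
  have := halg.algHom (modularFunctionFieldFullC k M).val
  exact this

/-- `deg (j)_∞ = ψ(M)` in characteristic `0` -/
theorem degree_poleDiv_jBar (hpf : PlaceFacts Qb (modularFunctionFieldBar M)) :
    Divisor.degree (hpf.poleDiv (Fermat.Agent.S24.jBar M)) = (dedekindPsi M : ℤ) := by
  rw [hpf.degree_poleDiv (Fermat.Agent.S24.isFF1_jBar M).transcendental,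
    Fermat.Agent.S24.finrank_jBar]

include hA hℓM in
/-- `deg (J)_∞ = ψ(M)` in characteristic `ℓ` -/
theorem degree_poleDiv_jK
    (hpfk : PlaceFacts (IsLocalRing.ResidueField A)
      (modularFunctionFieldFullC (IsLocalRing.ResidueField A) M)) :
    Divisor.degree (hpfk.poleDiv (jK (IsLocalRing.ResidueField A) M)) = (dedekindPsi M : ℤ) := by
  rw [hpfk.degree_poleDiv (transcendental_jK' M _), finrank_ffC A ℓ hA M hℓM]

include hA hℓM in
/-- the field `deg_eq` of `Deuring.Setup` -/
theorem deg_eq (hpf : PlaceFacts Qb (modularFunctionFieldBar M))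
    (hpfk : PlaceFacts (IsLocalRing.ResidueField A)
      (modularFunctionFieldFullC (IsLocalRing.ResidueField A) M)) :
    Divisor.degree (hpf.poleDiv (Fermat.Agent.S24.jBar M))
      = Divisor.degree (hpfk.poleDiv (jK (IsLocalRing.ResidueField A) M)) := by
  rw [degree_poleDiv_jBar M hpf, degree_poleDiv_jK A ℓ hA M hℓM hpfk]

/-- the field `deg_pos` of `Deuring.Setup` -/
theorem deg_pos (hpf : PlaceFacts Qb (modularFunctionFieldBar M)) :
    0 < Divisor.degree (hpf.poleDiv (Fermat.Agent.S24.jBar M)) := by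
  rw [degree_poleDiv_jBar M hpf]
  exact_mod_cast dedekindPsi_pos' (NeZero.ne M)

include hA hℓM in
/-- **the `Deuring.Setup` instance at level `M`** (`ℓ ∤ M`), from the place facts of `F_k(M)`,
Riemann's theorem for `F(M)` and the Riemann inequality witness `NS` for `F_k(M)`. -/
theorem setup_of [IsAlgClosed (IsLocalRing.ResidueField A)]
    (hpf : PlaceFacts Qb (modularFunctionFieldBar M))
    (hpfk : PlaceFacts (IsLocalRing.ResidueField A)
      (modularFunctionFieldFullC (IsLocalRing.ResidueField A) M))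
    {g : ℕ} {c : ℤ}
    (hRF : Fermat.Agent.S18.Deuring.RThm Qb (modularFunctionFieldBar M) g c)
    (hNS : ∃ E : Divisor (IsLocalRing.ResidueField A)
        (modularFunctionFieldFullC (IsLocalRing.ResidueField A) M),
      (Module.finrank (IsLocalRing.ResidueField A) (riemannRochSpace E) : ℤ) + g
        ≤ Divisor.degree E + 1) :
    Fermat.Agent.S18.Deuring.Setup A (IsLocalRing.residue A) (RedF A M)
      (hpf.poleDiv (Fermat.Agent.S24.jBar M))
      (hpfk.poleDiv (jK (IsLocalRing.ResidueField A) M)) g c where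
  hpf := hpf
  hpfk := hpfk
  ax := redAx A ℓ hA M hℓM
  D_nonneg := placeFacts_poleDiv_nonneg hpf _
  Dk_nonneg := placeFacts_poleDiv_nonneg hpfk _
  deg_eq := deg_eq A ℓ hA M hℓM hpf hpfk
  deg_pos := deg_pos M hpf
  H1 := fun V hV => finrank_redSpace A ℓ hA M hℓM V hV
  H2 := fun n x a hx hxa => h2 A ℓ hA M hℓM hpf hpfk n x a hx hxa
  RF := hRF
  NS := hNS

end Fermat.Agent.S18.GV
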