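import Fermat.Agent.S18.GVOrtho

/-!
# S18 (C76), Gaussian elimination for the Gauss valuation (abstract part of (H1))

`E` an intermediate field of `L((q))/L` inside the Gauss field.

* `linearIndependent_lifts`: lifts of `k`-linearly independent residues are `L`-linearly
  independent;
* `HasPivots V`: every `w ∈ V` with nonzero residue admits a norm-decreasing functional `λ` on `V`
  with `λ w = 1`;
* `exists_indep_lifts`: a finite-dimensional `V` with pivots has a basis in the Gauss ring whose
  residues are `k`-linearly independent.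
-/

set_option autoImplicit false
set_option linter.unusedSectionVars false

noncomputable section

namespace Fermat.Agent.S18.GV

open ModularCurve Polynomial IntermediateField

variable {L : Type*} [Field L] [Algebra ℚ L] (A : ValuationSubring L)
variable [Algebra.IsAlgebraic ℚ L] (ℓ : ℕ) [hℓ : Fact ℓ.Prime]
variable (E : IntermediateField L (LaurentSeries L))

theorem coe_smul_eq (c : L) (x : E) :
    ((c • x : E) : LaurentSeries L) = HahnSeries.C c * (x : LaurentSeries L) := by
  rw [Algebra.smul_def, IntermediateField.coe_mul]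
  show algebraMap L (LaurentSeries L) c * _ = _
  rw [algebraMap_eq_hC]

/-- a constant in the Gauss ring is integral -/
theorem mem_of_C_mem_gaussRing (hA : A.LiesOverPrime ℓ) {c : L}
    (h : (HahnSeries.C c : LaurentSeries L) ∈ gaussRing A) : c ∈ A := by
  refine mem_of_C_mul_mem A ℓ hA (red_one A) one_ne_zero ?_
  rwa [mul_one]

/-- scaling a finite family of constants: the quotients by a largest one are integral -/
theorem exists_max_const {n : ℕ} (g : Fin n → L) (hne : ∃ i, g i ≠ 0) :
    ∃ i₀, g i₀ ≠ 0 ∧ ∀ i, g i / g i₀ ∈ A := by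
  classical
  have hS : (Finset.univ.filter fun i => g i ≠ 0).Nonempty := by
    obtain ⟨i, hi⟩ := hne
    exact ⟨i, by simp [hi]⟩
  obtain ⟨i₀, hi₀, hmax⟩ := Finset.exists_max_image _ (fun i => A.valuation (g i)) hS
  have h0 : g i₀ ≠ 0 := (Finset.mem_filter.mp hi₀).2
  refine ⟨i₀, h0, fun i => ?_⟩
  by_cases hi : g i = 0
  · rw [hi, zero_div]; exact A.zero_mem
  · rw [← A.valuation_le_one_iff, map_div₀]
    exact div_le_one_of_le₀ (hmax i (by simp [hi])) zero_le

/-- **lifts of independent residues are independent** -/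
theorem linearIndependent_lifts {n : ℕ} (x : Fin n → E)
    (a : Fin n → LaurentSeries (IsLocalRing.ResidueField A))
    (hxa : ∀ i, Red A (x i : LaurentSeries L) (a i))
    (ha : LinearIndependent (IsLocalRing.ResidueField A) a) : LinearIndependent L x := by
  rw [Fintype.linearIndependent_iff]
  intro g hg
  by_contra hcon
  simp only [not_forall] at hcon
  obtain ⟨i₀, hi₀, hmem⟩ := exists_max_const A g hcon
  have h1 : ∑ i, (HahnSeries.C (g i / g i₀) : LaurentSeries L) * (x i : LaurentSeries L) = 0 := by
    have h2 := congrArg (fun y : E => (y : LaurentSeries L)) hg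
    simp only [ZeroMemClass.coe_zero, AddSubmonoidClass.coe_finsetSum, coe_smul_eq] at h2
    have h3 : ∑ i, (HahnSeries.C (g i / g i₀) : LaurentSeries L) * (x i : LaurentSeries L)
        = HahnSeries.C (g i₀)⁻¹ * ∑ i, HahnSeries.C (g i) * (x i : LaurentSeries L) := by
      rw [Finset.mul_sum]
      refine Finset.sum_congr rfl fun i _ => ?_
      rw [← mul_assoc, ← map_mul, inv_mul_eq_div]
    rw [h3, h2, mul_zero]
  have h2 : Red A (∑ i, (HahnSeries.C (g i / g i₀) : LaurentSeries L) * (x i : LaurentSeries L))
      (∑ i, HahnSeries.C (IsLocalRing.residue A ⟨g i / g i₀, hmem i⟩) * a i) :=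
    Red.sum A _ fun i _ => (red_const A ⟨g i / g i₀, hmem i⟩).mul A (hxa i)
  rw [h1] at h2
  have h3 := (red_zero A).unique A h2
  rw [Fintype.linearIndependent_iff] at ha
  have h4 := ha (fun i => IsLocalRing.residue A ⟨g i / g i₀, hmem i⟩) (by
    rw [h3]
    refine Finset.sum_congr rfl fun i _ => ?_
    exact HahnSeries.C_mul_eq_smul.symm) i₀
  have h5 : (⟨g i₀ / g i₀, hmem i₀⟩ : A) = 1 := Subtype.ext (div_self hi₀)
  rw [h5, map_one] at h4
  exact one_ne_zero h4

/-- pivots: norm-decreasing functionals -/
def HasPivots (V : Submodule L E) : Prop :=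
  ∀ w ∈ V, ∀ a : LaurentSeries (IsLocalRing.ResidueField A), Red A (w : LaurentSeries L) a →
    a ≠ 0 → ∃ lam : E →ₗ[L] L, (∀ x ∈ V, (x : LaurentSeries L) ∈ gaussRing A → lam x ∈ A) ∧
      lam w = 1

theorem HasPivots.mono {V W : Submodule L E} (h : V ≤ W) (hW : HasPivots A E W) :
    HasPivots A E V := by
  intro w hw a hwa ha
  obtain ⟨lam, h1, h2⟩ := hW w (h hw) a hwa ha
  exact ⟨lam, fun x hx => h1 x (h hx), h2⟩

/-- a norm-decreasing functional maps elements with residue `0` into the maximal ideal -/
theorem val_lam_lt_one (hA : A.LiesOverPrime ℓ) {V : Submodule L E} (lam : E →ₗ[L] L)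
    (hlam : ∀ x ∈ V, (x : LaurentSeries L) ∈ gaussRing A → lam x ∈ A) {z : E} (hz : z ∈ V)
    (hz0 : Red A (z : LaurentSeries L) 0) : A.valuation (lam z) < 1 := by
  obtain ⟨c, y, hy, hc, hzy⟩ := (red_zero_iff A ℓ hA).1 hz0
  by_cases hc0 : (c : L) = 0
  · have : z = 0 := by
      apply Subtype.ext
      rw [hzy, hc0, map_zero, zero_mul]
      rfl
    rw [this, map_zero, map_zero]
    exact zero_lt_one
  · have hyE : y ∈ E := by
      have : y = HahnSeries.C (c : L)⁻¹ * (z : LaurentSeries L) := by
        rw [hzy, ← mul_assoc, ← map_mul, inv_mul_cancel₀ hc0, map_one, one_mul]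
      rw [this]
      refine E.mul_mem ?_ z.2
      rw [← algebraMap_eq_hC]
      exact E.algebraMap_mem _
    have hzy' : z = (c : L) • (⟨y, hyE⟩ : E) := by
      apply Subtype.ext
      rw [coe_smul_eq]
      exact hzy
    have hyV : (⟨y, hyE⟩ : E) ∈ V := by
      have : (⟨y, hyE⟩ : E) = (c : L)⁻¹ • z := by
        rw [hzy', smul_smul, inv_mul_cancel₀ hc0, one_smul]
      rw [this]
      exact V.smul_mem _ hz
    have h1 := hlam _ hyV hy
    rw [hzy', map_smul, smul_eq_mul, map_mul]
    calc A.valuation (c : L) * A.valuation (lam ⟨y, hyE⟩)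
        ≤ A.valuation (c : L) * 1 := by
          gcongr
          exact (A.valuation_le_one_iff _).2 h1
      _ < 1 := by rw [mul_one]; exact hc

set_option synthInstance.maxHeartbeats 400000 in
set_option maxHeartbeats 1000000 in
/-- **Gaussian elimination**: a finite-dimensional subspace with pivots has a basis in the Gauss
ring with `k`-linearly independent residues. -/
theorem exists_indep_lifts (hA : A.LiesOverPrime ℓ) (hE : E ≤ gaussIF A) :
    ∀ (n : ℕ) (V : Submodule L E), Module.Finite L V → Module.finrank L V = n →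
      HasPivots A E V →
      ∃ (x : Fin n → E) (a : Fin n → LaurentSeries (IsLocalRing.ResidueField A)),
        (∀ s, x s ∈ V) ∧ (∀ s, Red A (x s : LaurentSeries L) (a s)) ∧
        LinearIndependent (IsLocalRing.ResidueField A) a := by
  intro n
  induction n with
  | zero =>
    intro V _ _ _
    exact ⟨Fin.elim0, Fin.elim0, fun s => s.elim0, fun s => s.elim0, linearIndependent_empty_type⟩
  | succ n ih =>
    intro V hfin hrank hpiv
    have hVne : V ≠ ⊥ := by
      rintro rfl
      rw [finrank_bot] at hrank
      omega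
    obtain ⟨v, hvV, hv0⟩ := Submodule.exists_mem_ne_zero_of_ne_bot hVne
    have hv0' : (v : LaurentSeries L) ≠ 0 := fun h => hv0 (Subtype.ext h)
    obtain ⟨c, hc, a₀, ha₀, hred⟩ := exists_red_smul A ℓ hA (hE v.2) hv0'
    have hwV : c • v ∈ V := V.smul_mem c hvV
    have hredw : Red A ((c • v : E) : LaurentSeries L) a₀ := by
      rw [coe_smul_eq]; exact hred
    obtain ⟨lam, hlam, hlamw⟩ := hpiv (c • v) hwV a₀ hredw ha₀
    -- the kernel of the pivot functional
    have hfin₁ : Module.Finite L ↥(V ⊓ LinearMap.ker lam) :=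
      Submodule.finiteDimensional_of_le (inf_le_left : V ⊓ LinearMap.ker lam ≤ V)
    have hrank₁ : Module.finrank L ↥(V ⊓ LinearMap.ker lam) = n := by
      have h1 := LinearMap.finrank_range_add_finrank_ker (lam.domRestrict V)
      have h2 : LinearMap.range (lam.domRestrict V) = ⊤ := by
        rw [eq_top_iff]
        intro y _
        refine ⟨y • (⟨c • v, hwV⟩ : V), ?_⟩
        rw [map_smul, LinearMap.domRestrict_apply, hlamw, smul_eq_mul, mul_one]
      have h3 : Module.finrank L ↥(LinearMap.range (lam.domRestrict V)) = 1 := by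
        rw [h2, finrank_top, Module.finrank_self]
      have h4 : (LinearMap.ker (lam.domRestrict V)).map V.subtype = V ⊓ LinearMap.ker lam := by
        ext y
        constructor
        · rintro ⟨z, hz, rfl⟩
          exact ⟨z.2, hz⟩
        · rintro ⟨hy1, hy2⟩
          exact ⟨⟨y, hy1⟩, hy2, rfl⟩
      rw [← h4, Submodule.finrank_map_subtype_eq]
      omega
    obtain ⟨x', a', hx'V, hx'a', ha'⟩ := ih (V ⊓ LinearMap.ker lam) hfin₁ hrank₁
      (hpiv.mono A E inf_le_left)
    refine ⟨Fin.cons (c • v) x', Fin.cons a₀ a', ?_, ?_, ?_⟩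
    · intro s
      refine Fin.cases ?_ (fun i => ?_) s
      · rw [Fin.cons_zero]; exact hwV
      · rw [Fin.cons_succ]; exact (hx'V i).1
    · intro s
      refine Fin.cases ?_ (fun i => ?_) s
      · rw [Fin.cons_zero, Fin.cons_zero]; exact hredw
      · rw [Fin.cons_succ, Fin.cons_succ]; exact hx'a' i
    · refine ha'.finCons ?_
      intro hmem
      rw [Submodule.mem_span_range_iff_exists_fun] at hmem
      obtain ⟨ā, hā⟩ := hmem
      choose cc hcc using fun i => IsLocalRing.residue_surjective (ā i)
      -- z = w - Σ cᵢ xᵢ has residue 0 and λ z = 1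
      have hzV : c • v - ∑ i, ((cc i : A) : L) • x' i ∈ V :=
        V.sub_mem hwV (V.sum_mem fun i _ => V.smul_mem _ (hx'V i).1)
      have hz0 : Red A ((c • v - ∑ i, ((cc i : A) : L) • x' i : E) : LaurentSeries L) 0 := by
        have h1 : Red A (∑ i, (HahnSeries.C ((cc i : A) : L) : LaurentSeries L)
            * (x' i : LaurentSeries L))
            (∑ i, HahnSeries.C (IsLocalRing.residue A (cc i)) * a' i) :=
          Red.sum A _ fun i _ => (red_const A (cc i)).mul A (hx'a' i)
        have h2 := hredw.sub A h1
        have h3 : a₀ - ∑ i, HahnSeries.C (IsLocalRing.residue A (cc i)) * a' i = 0 := by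
          rw [sub_eq_zero, ← hā]
          refine Finset.sum_congr rfl fun i _ => ?_
          rw [hcc i]
          exact HahnSeries.C_mul_eq_smul.symm
        rw [h3] at h2
        convert h2 using 1
        rw [AddSubgroupClass.coe_sub, AddSubmonoidClass.coe_finsetSum]
        congr 1
        refine Finset.sum_congr rfl fun i _ => ?_
        rw [coe_smul_eq]
      have hlt := val_lam_lt_one A ℓ E hA lam hlam hzV hz0
      have hlz : lam (c • v - ∑ i, ((cc i : A) : L) • x' i) = 1 := by
        rw [map_sub, hlamw, map_sum]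
        have : ∑ i, lam (((cc i : A) : L) • x' i) = 0 := by
          refine Finset.sum_eq_zero fun i _ => ?_
          rw [map_smul, LinearMap.mem_ker.mp (hx'V i).2, smul_zero]
        rw [this, sub_zero]
      rw [hlz, map_one] at hlt
      exact lt_irrefl _ hlt

end Fermat.Agent.S18.GV
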