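import Mathlib
import Fermat.Prelude.Def_ModularCurve_LaurentCoeff
import Fermat.Prelude.Def_FLTPrelim_Ramification
import Fermat.Agent.S05.Arith

/-!
# S18 (C76), Gauss valuation over a valuation ring `A ⊆ L` (`L/ℚ` algebraic): integral series

* `eps A : A((q)) →+* L((q))` (injective), `red A : A((q)) →+* k((q))`, `k` the residue field;
* `IsFin A P`: the coefficients of `P : A((q))` lie in a finite extension of `ℚ`;
* `exists_val_pow_factorial`: discreteness of the valuation on a finite extension of `ℚ`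
  (no Dedekind theory: two terms of the minimal equation have equal valuation);
* `exists_normal_form`: `P ≠ 0`, `IsFin P` ⟹ `P = C c * P'` with `c ≠ 0`, `IsFin P'`, `red P' ≠ 0`.
-/

set_option autoImplicit false
set_option linter.unusedSectionVars false

noncomputable section

namespace Fermat.Agent.S18.GV

open ModularCurve Polynomial

variable {L : Type*} [Field L] [Algebra ℚ L] (A : ValuationSubring L)

/-- the inclusion `A((q)) → L((q))` -/
def eps : LaurentSeries A →+* LaurentSeries L :=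
  coeffMap A.subtype

/-- the reduction `A((q)) → k((q))` -/
def red : LaurentSeries A →+* LaurentSeries (IsLocalRing.ResidueField A) :=
  coeffMap (IsLocalRing.residue A)

@[simp] theorem eps_coeff (P : LaurentSeries A) (n : ℤ) :
    (eps A P).coeff n = ((P.coeff n : A) : L) := rfl

@[simp] theorem red_coeff (P : LaurentSeries A) (n : ℤ) :
    (red A P).coeff n = IsLocalRing.residue A (P.coeff n) := rfl

theorem eps_injective : Function.Injective (eps A) := by
  intro P Q h
  apply HahnSeries.ext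
  funext n
  have := congrArg (fun x => x.coeff n) h
  simp only [eps_coeff] at this
  exact Subtype.ext this

theorem eps_eq_zero_iff (P : LaurentSeries A) : eps A P = 0 ↔ P = 0 := by
  rw [← (eps A).map_zero]
  exact (eps_injective A).eq_iff

theorem red_one_ne_zero : red A 1 ≠ 0 := by
  rw [map_one]; exact one_ne_zero

theorem eps_ne_zero_of_red {Q : LaurentSeries A} (hQ : red A Q ≠ 0) : eps A Q ≠ 0 := by
  intro h
  rw [eps_eq_zero_iff] at h
  exact hQ (by rw [h, map_zero])

theorem ne_zero_of_red {Q : LaurentSeries A} (hQ : red A Q ≠ 0) : Q ≠ 0 := by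
  rintro rfl
  exact hQ (map_zero _)

theorem eps_C (c : A) : eps A (HahnSeries.C c) = HahnSeries.C (c : L) := by
  apply HahnSeries.ext
  funext n
  rw [eps_coeff]
  show (((HahnSeries.single 0 c).coeff n : A) : L) = (HahnSeries.single 0 (c : L)).coeff n
  by_cases hn : n = 0
  · subst hn
    rw [HahnSeries.coeff_single_same, HahnSeries.coeff_single_same]
  · rw [HahnSeries.coeff_single_of_ne hn, HahnSeries.coeff_single_of_ne hn]
    rfl

theorem red_C (c : A) : red A (HahnSeries.C c) = HahnSeries.C (IsLocalRing.residue A c) := by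
  apply HahnSeries.ext
  funext n
  rw [red_coeff]
  show IsLocalRing.residue A ((HahnSeries.single 0 c).coeff n) =
    (HahnSeries.single 0 (IsLocalRing.residue A c)).coeff n
  by_cases hn : n = 0
  · subst hn
    rw [HahnSeries.coeff_single_same, HahnSeries.coeff_single_same]
  · rw [HahnSeries.coeff_single_of_ne hn, HahnSeries.coeff_single_of_ne hn, map_zero]

/-! ### Series with coefficients in a finite extension of `ℚ` -/

/-- the coefficients of `P` lie in a finite extension of `ℚ` -/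
def IsFin (P : LaurentSeries A) : Prop :=
  ∃ K : IntermediateField ℚ L, FiniteDimensional ℚ K ∧ ∀ n, ((P.coeff n : A) : L) ∈ K

theorem isFin_zero : IsFin A 0 :=
  ⟨⊥, inferInstance, fun n => by simp⟩

theorem isFin_one : IsFin A 1 := by
  refine ⟨⊥, inferInstance, fun n => ?_⟩
  rw [HahnSeries.coeff_one]
  split_ifs
  · simp
  · simp

theorem IsFin.add {P Q : LaurentSeries A} (hP : IsFin A P) (hQ : IsFin A Q) : IsFin A (P + Q) := by
  obtain ⟨K₁, h₁, hK₁⟩ := hP
  obtain ⟨K₂, h₂, hK₂⟩ := hQ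
  refine ⟨K₁ ⊔ K₂, IntermediateField.finiteDimensional_sup K₁ K₂, fun n => ?_⟩
  rw [HahnSeries.coeff_add, Subring.coe_add]
  exact add_mem ((le_sup_left : K₁ ≤ K₁ ⊔ K₂) (hK₁ n)) ((le_sup_right : K₂ ≤ K₁ ⊔ K₂) (hK₂ n))

theorem IsFin.neg {P : LaurentSeries A} (hP : IsFin A P) : IsFin A (-P) := by
  obtain ⟨K₁, h₁, hK₁⟩ := hP
  refine ⟨K₁, h₁, fun n => ?_⟩
  rw [HahnSeries.coeff_neg, Subring.coe_neg]
  exact neg_mem (hK₁ n)

theorem IsFin.mul {P Q : LaurentSeries A} (hP : IsFin A P) (hQ : IsFin A Q) : IsFin A (P * Q) := by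
  obtain ⟨K₁, h₁, hK₁⟩ := hP
  obtain ⟨K₂, h₂, hK₂⟩ := hQ
  refine ⟨K₁ ⊔ K₂, IntermediateField.finiteDimensional_sup K₁ K₂, fun n => ?_⟩
  rw [HahnSeries.coeff_mul, ← A.subtype_apply, map_sum]
  refine sum_mem fun ij _ => ?_
  rw [map_mul]
  exact mul_mem ((le_sup_left : K₁ ≤ K₁ ⊔ K₂) (hK₁ _)) ((le_sup_right : K₂ ≤ K₁ ⊔ K₂) (hK₂ _))

theorem isFin_C [Algebra.IsAlgebraic ℚ L] (c : A) : IsFin A (HahnSeries.C c) := by
  have hc : IsIntegral ℚ (c : L) := (Algebra.IsAlgebraic.isAlgebraic (c : L)).isIntegral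
  refine ⟨IntermediateField.adjoin ℚ {(c : L)}, IntermediateField.adjoin.finiteDimensional hc,
    fun n => ?_⟩
  show (((HahnSeries.single 0 c).coeff n : A) : L) ∈ _
  by_cases hn : n = 0
  · subst hn
    rw [HahnSeries.coeff_single_same]
    exact IntermediateField.mem_adjoin_simple_self ℚ _
  · rw [HahnSeries.coeff_single_of_ne hn]
    simp

/-- the subring of series with coefficients in a finite extension of `ℚ` -/
def finSeries : Subring (LaurentSeries A) where
  carrier := {P | IsFin A P}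
  mul_mem' := fun hP hQ => hP.mul A hQ
  one_mem' := isFin_one A
  add_mem' := fun hP hQ => hP.add A hQ
  zero_mem' := isFin_zero A
  neg_mem' := fun hP => hP.neg A

/-! ### Discreteness -/

variable (ℓ : ℕ) [hℓ : Fact ℓ.Prime]

theorem val_ell_lt_one (hA : A.LiesOverPrime ℓ) : A.valuation (ℓ : L) < 1 :=
  (A.mem_nonunits_iff).1 hA

theorem val_ell_ne_zero : A.valuation (ℓ : L) ≠ 0 := by
  have := algebraRat.charZero L
  rw [Ne, map_eq_zero]
  exact Nat.cast_ne_zero.mpr hℓ.out.ne_zero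

theorem val_natCast_eq_pow (hA : A.LiesOverPrime ℓ) (n : ℕ) (hn : n ≠ 0) :
    ∃ a : ℕ, A.valuation (n : L) = A.valuation (ℓ : L) ^ a := by
  obtain ⟨e, n', hn', rfl⟩ := Nat.exists_eq_pow_mul_and_not_dvd hn ℓ hℓ.out.ne_one
  refine ⟨e, ?_⟩
  push_cast
  rw [map_mul, map_pow, Fermat.Agent.S05.val_natCast_eq_one A hℓ.out hA hn', mul_one]

theorem val_rat_eq_zpow (hA : A.LiesOverPrime ℓ) (r : ℚ) (hr : r ≠ 0) :
    ∃ m : ℤ, A.valuation (algebraMap ℚ L r) = A.valuation (ℓ : L) ^ m := by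
  have hnum : r.num.natAbs ≠ 0 := by
    rw [Ne, Int.natAbs_eq_zero, Rat.num_eq_zero]
    exact hr
  obtain ⟨a, ha⟩ := val_natCast_eq_pow A ℓ hA r.num.natAbs hnum
  obtain ⟨b, hb⟩ := val_natCast_eq_pow A ℓ hA r.den r.den_nz
  refine ⟨(a : ℤ) - b, ?_⟩
  have hr' : algebraMap ℚ L r = (r.num : L) / (r.den : L) := by
    conv_lhs => rw [← Rat.num_div_den r]
    rw [map_div₀]
    simp
  have hnum' : A.valuation (r.num : L) = A.valuation ((r.num.natAbs : ℕ) : L) := by
    rcases Int.natAbs_eq r.num with h | h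
    · conv_lhs => rw [h]
      simp
    · conv_lhs => rw [h]
      simp
  rw [hr', map_div₀, hnum', ha, hb, zpow_sub₀ (val_ell_ne_zero A ℓ), zpow_natCast, zpow_natCast]

/-- if `c ≠ 0` is a root of a nonzero rational polynomial of degree `≤ d`, then some power
`v(c)^i`, `0 < i ≤ d`, lies in `v(ℓ)^ℤ`. -/
theorem exists_pow_val_eq (hA : A.LiesOverPrime ℓ) (c : L) (hc : c ≠ 0) (p : ℚ[X]) (hp0 : p ≠ 0)
    (hpc : Polynomial.aeval c p = 0) :
    ∃ i : ℕ, 0 < i ∧ i ≤ p.natDegree ∧ ∃ m : ℤ, A.valuation c ^ i = A.valuation (ℓ : L) ^ m := by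
  classical
  set t : ℕ → L := fun i => algebraMap ℚ L (p.coeff i) * c ^ i with ht
  have hsum : ∑ i ∈ p.support, t i = 0 := by
    rw [← hpc, Polynomial.aeval_def, Polynomial.eval₂_eq_sum, Polynomial.sum_def]
  have hne : p.support.Nonempty := by
    rw [Finset.nonempty_iff_ne_empty, Ne, Polynomial.support_eq_empty]
    exact hp0
  have ht0 : ∀ i ∈ p.support, A.valuation (t i) ≠ 0 := by
    intro i hi
    rw [Ne, map_eq_zero, ht]
    simp only [mul_eq_zero, not_or]
    refine ⟨?_, pow_ne_zero _ hc⟩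
    rw [map_eq_zero_iff _ (algebraMap ℚ L).injective]
    exact Polynomial.mem_support_iff.mp hi
  obtain ⟨i₀, hi₀, hmax⟩ := Finset.exists_max_image p.support (fun i => A.valuation (t i)) hne
  have hex : ∃ i₁ ∈ p.support, i₁ ≠ i₀ ∧ A.valuation (t i₁) = A.valuation (t i₀) := by
    by_contra hcon
    push Not at hcon
    have hlt : ∀ i ∈ p.support \ {i₀}, A.valuation (t i) < A.valuation (t i₀) := by
      intro i hi
      rw [Finset.mem_sdiff, Finset.mem_singleton] at hi
      exact lt_of_le_of_ne (hmax i hi.1) (hcon i hi.1 hi.2)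
    have := Valuation.map_sum_eq_of_lt A.valuation hi₀ hlt
    rw [hsum, map_zero] at this
    exact ht0 i₀ hi₀ this.symm
  obtain ⟨i₁, hi₁, hne₁, heq⟩ := hex
  -- valuations of the coefficients
  have hcoef : ∀ i ∈ p.support, ∃ m : ℤ,
      A.valuation (algebraMap ℚ L (p.coeff i)) = A.valuation (ℓ : L) ^ m :=
    fun i hi => val_rat_eq_zpow A ℓ hA _ (Polynomial.mem_support_iff.mp hi)
  have hvc : A.valuation c ≠ 0 := by rwa [Ne, map_eq_zero]
  have hvl := val_ell_ne_zero A ℓ
  -- general step: lo < hi in the support with equal valuations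
  have step : ∀ lo hi : ℕ, lo ∈ p.support → hi ∈ p.support → lo < hi →
      A.valuation (t lo) = A.valuation (t hi) →
      ∃ i : ℕ, 0 < i ∧ i ≤ p.natDegree ∧ ∃ m : ℤ,
        A.valuation c ^ i = A.valuation (ℓ : L) ^ m := by
    intro lo hi hlo hhi hlt h
    obtain ⟨a, ha⟩ := hcoef lo hlo
    obtain ⟨b, hb⟩ := hcoef hi hhi
    refine ⟨hi - lo, Nat.sub_pos_of_lt hlt,
      le_trans (Nat.sub_le _ _) (Polynomial.le_natDegree_of_mem_supp _ hhi), a - b, ?_⟩
    simp only [ht, map_mul, map_pow, ha, hb] at h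
    have hpow : A.valuation c ^ hi = A.valuation c ^ (hi - lo) * A.valuation c ^ lo := by
      rw [← pow_add, Nat.sub_add_cancel hlt.le]
    rw [hpow] at h
    have hlo0 : A.valuation c ^ lo ≠ 0 := pow_ne_zero _ hvc
    have hb0 : A.valuation (ℓ : L) ^ b ≠ 0 := zpow_ne_zero _ hvl
    rw [zpow_sub₀ hvl, eq_div_iff hb0]
    have h' : (A.valuation c ^ (hi - lo) * A.valuation (ℓ : L) ^ b) * A.valuation c ^ lo =
        A.valuation (ℓ : L) ^ a * A.valuation c ^ lo := by
      rw [h]
      simp only [mul_comm, mul_left_comm]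
    exact mul_right_cancel₀ hlo0 h'
  rcases lt_or_gt_of_ne hne₁ with h | h
  · exact step i₁ i₀ hi₁ hi₀ h heq
  · exact step i₀ i₁ hi₀ hi₁ h heq.symm

/-- **discreteness**: on a finite extension `K` of `ℚ` of degree `d`, `v(c)^{d!} ∈ v(ℓ)^ℤ`. -/
theorem exists_val_pow_factorial [Algebra.IsAlgebraic ℚ L] (hA : A.LiesOverPrime ℓ)
    (K : IntermediateField ℚ L) [FiniteDimensional ℚ K] (c : L) (hcK : c ∈ K) (hc : c ≠ 0) :
    ∃ m : ℤ, A.valuation c ^ (Module.finrank ℚ K).factorial = A.valuation (ℓ : L) ^ m := by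
  have hint : IsIntegral ℚ c := (Algebra.IsAlgebraic.isAlgebraic c).isIntegral
  have hp0 : minpoly ℚ c ≠ 0 := minpoly.ne_zero hint
  have hroot : Polynomial.aeval c (minpoly ℚ c) = 0 := minpoly.aeval ℚ c
  obtain ⟨i, hi0, hid, m, hm⟩ := exists_pow_val_eq A ℓ hA c hc _ hp0 hroot
  have hle : IntermediateField.adjoin ℚ {c} ≤ K := by
    rw [IntermediateField.adjoin_simple_le_iff]; exact hcK
  have hdeg : (minpoly ℚ c).natDegree ≤ Module.finrank ℚ K := by
    rw [← IntermediateField.adjoin.finrank hint]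
    exact IntermediateField.finrank_le_of_le_right hle
  have hdvd : i ∣ (Module.finrank ℚ K).factorial := Nat.dvd_factorial hi0 (hid.trans hdeg)
  obtain ⟨e, he⟩ := hdvd
  refine ⟨m * e, ?_⟩
  rw [he, pow_mul, hm, zpow_mul, zpow_natCast]

theorem coeff_hmap {R S : Type*} [Zero R] [Zero S] (P : HahnSeries ℤ R) (f : ZeroHom R S) (n : ℤ) :
    (P.map f).coeff n = f (P.coeff n) := rfl

open Classical in
/-- division by `c₀` on `A` (junk value `0` when the quotient is not in `A`) -/
def divBy (c₀ : L) : ZeroHom A A where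
  toFun c := if h : (c : L) / c₀ ∈ A then ⟨(c : L) / c₀, h⟩ else 0
  map_zero' := by
    have h : ((0 : A) : L) / c₀ ∈ A := by
      rw [ZeroMemClass.coe_zero, zero_div]; exact A.zero_mem
    rw [dif_pos h]
    apply Subtype.ext
    simp

theorem divBy_apply_of_mem (c₀ : L) (c : A) (h : (c : L) / c₀ ∈ A) :
    ((divBy A c₀ c : A) : L) = (c : L) / c₀ := by
  simp only [divBy, ZeroHom.coe_mk, dif_pos h]

/-- **normal form**: a nonzero integral series with coefficients in a finite extension of `ℚ`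
is `c · P'` with `c ∈ A ∖ 0` and `P'` of nonzero reduction. -/
theorem exists_normal_form [Algebra.IsAlgebraic ℚ L] (hA : A.LiesOverPrime ℓ)
    (P : LaurentSeries A) (hP : P ≠ 0)
    (hfin : IsFin A P) :
    ∃ (c : A) (P' : LaurentSeries A), c ≠ 0 ∧ IsFin A P' ∧ P = HahnSeries.C c * P' ∧
      red A P' ≠ 0 := by
  classical
  obtain ⟨K, hK, hcK⟩ := hfin
  set N := (Module.finrank ℚ K).factorial with hN
  have hN0 : N ≠ 0 := Nat.factorial_ne_zero _
  have hvl := val_ell_ne_zero A ℓ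
  have hvl1 := val_ell_lt_one A ℓ hA
  -- every nonzero coefficient has `v^N = v(ℓ)^m` with `m : ℕ`
  have hnat : ∀ n, P.coeff n ≠ 0 → ∃ m : ℕ,
      A.valuation ((P.coeff n : A) : L) ^ N = A.valuation (ℓ : L) ^ m := by
    intro n hn
    have hn' : ((P.coeff n : A) : L) ≠ 0 := fun h => hn (Subtype.ext h)
    obtain ⟨m, hm⟩ := exists_val_pow_factorial A ℓ hA K _ (hcK n) hn'
    rcases le_or_gt 0 m with h0 | h0
    · obtain ⟨m', rfl⟩ := Int.eq_ofNat_of_zero_le h0
      exact ⟨m', by rw [hm, zpow_natCast]⟩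
    · exfalso
      have h1 : A.valuation ((P.coeff n : A) : L) ^ N ≤ 1 :=
        pow_le_one₀ zero_le ((A.valuation_le_one_iff _).2 (P.coeff n).2)
      rw [hm] at h1
      obtain ⟨m', hm'⟩ : ∃ m' : ℕ, m = -((m' : ℤ) + 1) := ⟨(-m - 1).toNat, by omega⟩
      have hlt : A.valuation (ℓ : L) ^ (m' + 1) < 1 :=
        pow_lt_one₀ zero_le hvl1 (Nat.succ_ne_zero _)
      have hpos : 0 < A.valuation (ℓ : L) ^ (m' + 1) :=
        lt_of_le_of_ne zero_le (pow_ne_zero _ hvl).symm
      have hgt : 1 < (A.valuation (ℓ : L) ^ (m' + 1))⁻¹ := (one_lt_inv₀ hpos).2 hlt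
      rw [hm', zpow_neg] at h1
      have : A.valuation (ℓ : L) ^ ((m' : ℤ) + 1) = A.valuation (ℓ : L) ^ (m' + 1) := by
        rw [← zpow_natCast]; push_cast; rfl
      rw [this] at h1
      exact absurd h1 (not_le.mpr hgt)
  -- the minimal exponent
  obtain ⟨n₁, hn₁⟩ : ∃ n, P.coeff n ≠ 0 := by
    by_contra hall
    push Not at hall
    exact hP (HahnSeries.ext (funext hall))
  have hex : ∃ m : ℕ, ∃ n, P.coeff n ≠ 0 ∧
      A.valuation ((P.coeff n : A) : L) ^ N = A.valuation (ℓ : L) ^ m := by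
    obtain ⟨m, hm⟩ := hnat n₁ hn₁
    exact ⟨m, n₁, hn₁, hm⟩
  obtain ⟨n₀, hn₀, hm₀⟩ := Nat.find_spec hex
  set m₀ := Nat.find hex with hm₀def
  set c₀ : A := P.coeff n₀ with hc₀
  have hc₀L : (c₀ : L) ≠ 0 := fun h => hn₀ (Subtype.ext h)
  -- `c₀` has maximal valuation
  have hmaxv : ∀ n, A.valuation ((P.coeff n : A) : L) ≤ A.valuation (c₀ : L) := by
    intro n
    by_cases hn : P.coeff n = 0
    · rw [hn]; simp
    obtain ⟨m, hm⟩ := hnat n hn
    have hle : m₀ ≤ m := Nat.find_min' hex ⟨n, hn, hm⟩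
    by_contra hcon
    rw [not_le] at hcon
    have h1 : A.valuation (c₀ : L) ^ N < A.valuation ((P.coeff n : A) : L) ^ N :=
      pow_lt_pow_left₀ hcon zero_le hN0
    rw [hm₀, hm] at h1
    have h2 : A.valuation (ℓ : L) ^ m ≤ A.valuation (ℓ : L) ^ m₀ :=
      pow_le_pow_of_le_one zero_le hvl1.le hle
    exact absurd h2 (not_le.mpr h1)
  have hdiv : ∀ n, ((P.coeff n : A) : L) / (c₀ : L) ∈ A := by
    intro n
    rw [← A.valuation_le_one_iff, map_div₀]
    exact div_le_one_of_le₀ (hmaxv n) zero_le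
  refine ⟨c₀, P.map (divBy A (c₀ : L)), fun h => hn₀ h, ⟨K, hK, fun n => ?_⟩, ?_, ?_⟩
  · rw [coeff_hmap, divBy_apply_of_mem A _ _ (hdiv n)]
    exact div_mem (hcK n) (hcK n₀)
  · apply HahnSeries.ext
    funext n
    rw [HahnSeries.C_mul_eq_smul, HahnSeries.coeff_smul, smul_eq_mul, coeff_hmap]
    apply Subtype.ext
    rw [Subring.coe_mul, divBy_apply_of_mem A _ _ (hdiv n)]
    field_simp
  · intro h0
    have := congrArg (fun x => x.coeff n₀) h0
    simp only [red_coeff, coeff_hmap, HahnSeries.coeff_zero] at this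
    have hone : divBy A (c₀ : L) (P.coeff n₀) = 1 := by
      apply Subtype.ext
      rw [divBy_apply_of_mem A _ _ (hdiv n₀)]
      show (c₀ : L) / (c₀ : L) = ((1 : A) : L)
      rw [div_self hc₀L]
      rfl
    rw [hone, map_one] at this
    exact one_ne_zero this

end Fermat.Agent.S18.GV
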