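import Fermat.Agent.S18.GVInt
import Fermat.Agent.Lib.FFs.Const
import Fermat.Agent.Lib.FunctionField.DWMain

/-!
# S18 (C76): **(H2)** — the reduction of `L(n·(j)_∞)` lies in `L_k(n·(J)_∞)`

`h2`: `x ∈ L(n • poleDiv j)`, `RedF x a` ⟹ `a ∈ L_k(n • poleDiv J)`.
-/

set_option autoImplicit false
set_option linter.unusedSectionVars false
set_option linter.style.haveILetI false
set_option synthInstance.maxHeartbeats 400000
set_option maxHeartbeats 1000000

noncomputable section

namespace Fermat.Agent.S18.GV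

open ModularCurve Polynomial IntermediateField AlgebraicCurve Fermat.Agent.Lib.FF

local notation "Qb" => AlgebraicClosure ℚ

local instance isAlgebraicQbGVH : Algebra.IsAlgebraic ℚ (AlgebraicClosure ℚ) :=
  AlgebraicClosure.isAlgebraic ℚ

variable (A : ValuationSubring (AlgebraicClosure ℚ)) (ℓ : ℕ) [hℓ : Fact ℓ.Prime]
variable (hA : A.LiesOverPrime ℓ) (M : ℕ) [NeZero M] (hℓM : ¬ ℓ ∣ M)

theorem coe_jK (k : Type*) [Field k] :
    ((jK k M : modularFunctionFieldFullC k M) : LaurentSeries k) = jqModC k := rfl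

theorem red_jBar : Red A ((Fermat.Agent.S24.jBar M : modularFunctionFieldBar M) : LaurentSeries Qb)
    ((jK (IsLocalRing.ResidueField A) M : modularFunctionFieldFullC (IsLocalRing.ResidueField A) M) :
      LaurentSeries (IsLocalRing.ResidueField A)) := by
  rw [coe_jBar, coe_jK]
  exact red_j A

theorem jK_ne_zero (k : Type*) [Field k] : jK k M ≠ 0 := by
  intro h
  have := congrArg (fun z : modularFunctionFieldFullC k M => (z : LaurentSeries k)) h
  exact jqModC_ne_zero_of_nontrivial k this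

include hA hℓM in
/-- regularity at the finite places is preserved -/
theorem isIntegral_red_j (x : modularFunctionFieldBar M)
    (a : modularFunctionFieldFullC (IsLocalRing.ResidueField A) M)
    (hx : IsIntegral (Algebra.adjoin Qb {Fermat.Agent.S24.jBar M}) x)
    (hxa : RedF A M x a) :
    IsIntegral (Algebra.adjoin (IsLocalRing.ResidueField A)
      {jK (IsLocalRing.ResidueField A) M}) a := by
  refine isIntegral_red A ℓ hA M hℓM _ _ (red_jBar A M) ?_ ?_ x hx a hxa
  · rw [coe_jK]
    exact Fermat.Agent.S28.transcendental_jqModC'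
  · intro f hf
    rw [coe_jBar]
    exact hf

include hA hℓM in
/-- regularity at the infinite places is preserved -/
theorem isIntegral_red_jinv (x : modularFunctionFieldBar M)
    (a : modularFunctionFieldFullC (IsLocalRing.ResidueField A) M)
    (hx : IsIntegral (Algebra.adjoin Qb {(Fermat.Agent.S24.jBar M)⁻¹}) x)
    (hxa : RedF A M x a) :
    IsIntegral (Algebra.adjoin (IsLocalRing.ResidueField A)
      {(jK (IsLocalRing.ResidueField A) M)⁻¹}) a := by
  have hJ0 : (jqModC (IsLocalRing.ResidueField A)) ≠ 0 := jqModC_ne_zero_of_nontrivial _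
  refine isIntegral_red A ℓ hA M hℓM _ _ ?_ ?_ ?_ x hx a hxa
  · rw [IntermediateField.coe_inv, IntermediateField.coe_inv, coe_jBar, coe_jK]
    exact (red_j A).inv A hJ0
  · rw [IntermediateField.coe_inv, coe_jK]
    exact transcendental_inv Fermat.Agent.S28.transcendental_jqModC'
  · intro f hf
    rw [IntermediateField.coe_inv, coe_jBar, adjoin_inv_eq]
    exact hf

include hA hℓM in
/-- **(H2)** -/
theorem h2 [IsAlgClosed (IsLocalRing.ResidueField A)]
    (hpf : PlaceFacts Qb (modularFunctionFieldBar M))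
    (hpfk : PlaceFacts (IsLocalRing.ResidueField A)
      (modularFunctionFieldFullC (IsLocalRing.ResidueField A) M))
    (n : ℕ) (x : modularFunctionFieldBar M)
    (a : modularFunctionFieldFullC (IsLocalRing.ResidueField A) M)
    (hx : x ∈ riemannRochSpace (n • hpf.poleDiv (Fermat.Agent.S24.jBar M)))
    (hxa : RedF A M x a) :
    a ∈ riemannRochSpace (n • hpfk.poleDiv (jK (IsLocalRing.ResidueField A) M)) := by
  have hff := Fermat.Agent.S24.isFF1_jBar M
  have hj0 : Fermat.Agent.S24.jBar M ≠ 0 := fun h =>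
    hff.transcendental (h ▸ isAlgebraic_zero)
  rw [mem_rrSpace_iff] at hx
  -- regularity of `x` at the finite places
  have hreg : ∀ Q : Place Qb (modularFunctionFieldBar M),
      0 ≤ Q.ord (Fermat.Agent.S24.jBar M) → 0 ≤ Q.ord x := by
    intro Q hQ
    rcases hx Q with h0 | h1
    · rw [h0, Q.ord_zero]
    · rw [Finsupp.smul_apply, hpf.poleDiv_of_nonneg hQ, smul_zero, neg_zero] at h1
      exact h1
  -- regularity of `x / j^n` at the infinite places
  have hinf : ∀ Q : Place Qb (modularFunctionFieldBar M),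
      0 ≤ Q.ord (Fermat.Agent.S24.jBar M)⁻¹ →
        0 ≤ Q.ord (x * ((Fermat.Agent.S24.jBar M)⁻¹) ^ n) := by
    intro Q hQ
    rw [Q.ord_inv] at hQ
    by_cases hx0 : x = 0
    · rw [hx0, zero_mul, Q.ord_zero]
    have hjn : ((Fermat.Agent.S24.jBar M)⁻¹) ^ n ≠ 0 := pow_ne_zero _ (inv_ne_zero hj0)
    have hord : Q.ord (((Fermat.Agent.S24.jBar M)⁻¹) ^ n)
        = -((n : ℤ) * Q.ord (Fermat.Agent.S24.jBar M)) := by
      rw [inv_pow, Q.ord_inv, ← zpow_natCast, Q.ord_zpow]
    rw [Q.ord_mul hx0 hjn, hord]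
    rcases lt_or_eq_of_le (neg_nonneg.mp hQ) with hlt | heq
    · rcases hx Q with h0 | h1
      · exact absurd h0 hx0
      · rw [Finsupp.smul_apply, hpf.poleDiv_of_neg hlt, nsmul_eq_mul] at h1
        linarith
    · rw [heq, mul_zero, neg_zero, add_zero]
      exact hreg Q (by rw [heq])
  have hint1 := Fermat.Agent.Lib.FFs.isIntegral_of_forall_ord_nonneg
    (Fermat.Agent.Lib.FFs.IsFF1s.of_isFF1 hff) x hreg
  have hint2 := Fermat.Agent.Lib.FFs.isIntegral_of_forall_ord_nonneg
    (Fermat.Agent.Lib.FFs.IsFF1s.of_isFF1 hff.inv) _ hinf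
  have hJ0 := jK_ne_zero M (IsLocalRing.ResidueField A)
  have hred2 : RedF A M (x * ((Fermat.Agent.S24.jBar M)⁻¹) ^ n)
      (a * ((jK (IsLocalRing.ResidueField A) M)⁻¹) ^ n) := by
    have hax := redAx A ℓ hA M hℓM
    exact hax.mul hxa (by
      have h1 : RedF A M (Fermat.Agent.S24.jBar M)⁻¹ (jK (IsLocalRing.ResidueField A) M)⁻¹ :=
        hax.inv (red_jBar A M) hJ0
      clear hint1 hint2 hinf hreg hx
      induction n with
      | zero => rw [pow_zero, pow_zero]; exact hax.one
      | succ n ih => rw [pow_succ, pow_succ]; exact hax.mul ih h1)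
  have hk1 := isIntegral_red_j A ℓ hA M hℓM x a hint1 hxa
  have hk2 := isIntegral_red_jinv A ℓ hA M hℓM _ _ hint2 hred2
  rw [mem_rrSpace_iff]
  intro Q
  by_cases ha0 : a = 0
  · exact Or.inl ha0
  right
  by_cases hQ : 0 ≤ Q.ord (jK (IsLocalRing.ResidueField A) M)
  · rw [Finsupp.smul_apply, hpfk.poleDiv_of_nonneg hQ, smul_zero, neg_zero]
    exact Fermat.Agent.Lib.FFs.ord_nonneg_of_isIntegral hk1 Q hQ
  · rw [not_le] at hQ
    have h1 := Fermat.Agent.Lib.FFs.ord_nonneg_of_isIntegral hk2 Q (by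
      rw [Q.ord_inv]; omega)
    have hJn : ((jK (IsLocalRing.ResidueField A) M)⁻¹) ^ n ≠ 0 := pow_ne_zero _ (inv_ne_zero hJ0)
    have hord : Q.ord (((jK (IsLocalRing.ResidueField A) M)⁻¹) ^ n)
        = -((n : ℤ) * Q.ord (jK (IsLocalRing.ResidueField A) M)) := by
      rw [inv_pow, Q.ord_inv, ← zpow_natCast, Q.ord_zpow]
    rw [Q.ord_mul ha0 hJn, hord] at h1
    rw [Finsupp.smul_apply, hpfk.poleDiv_of_neg hQ, nsmul_eq_mul]
    linarith

end Fermat.Agent.S18.GV
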