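import Fermat.Agent.S18.GVSetup
import Fermat.Agent.S18.GVDeg
import Fermat.Agent.Lib.FFs.Trace

/-!
# S18 (C76): reduction preserves integrality over `K[t]` (core of (H2))

`t ∈ F(M)` with `ℚ̄(t) = ℚ̄(j)`, `Red t T`, `T` transcendental over `k`. If `y ∈ F(M)` is integral
over `ℚ̄[t]` and `Red y a`, then `a` is integral over `k[T]` (`isIntegral_red`).

Proof: `O_w ∩ F(M)` is a finite module over the Gauss ring `O` of `ℚ̄(t)` (orthonormal basis), so
`y` is integral over `O`; hence the minimal polynomial of `y` over `ℚ̄(t)` has coefficients in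
`ℚ̄[t] ∩ O = A[t]` (Gauss lemma) and can be reduced.
-/

set_option autoImplicit false
set_option linter.unusedSectionVars false
set_option linter.style.haveILetI false
set_option synthInstance.maxHeartbeats 400000
set_option maxHeartbeats 1000000

noncomputable section

namespace Fermat.Agent.S18.GV

open ModularCurve Polynomial IntermediateField
open scoped IntermediateField.algebraAdjoinAdjoin

local notation "Qb" => AlgebraicClosure ℚ

local instance isAlgebraicQbGVI : Algebra.IsAlgebraic ℚ (AlgebraicClosure ℚ) :=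
  AlgebraicClosure.isAlgebraic ℚ

variable (A : ValuationSubring (AlgebraicClosure ℚ)) (ℓ : ℕ) [hℓ : Fact ℓ.Prime]
variable (hA : A.LiesOverPrime ℓ) (M : ℕ) [NeZero M] (hℓM : ¬ ℓ ∣ M)

/-- the Gauss valuation ring of `ℚ̄(t) ≤ F(M)` -/
def gaussO (hA : A.LiesOverPrime ℓ) (t : modularFunctionFieldBar M) :
    ValuationSubring Qb⟮t⟯ where
  carrier := {z | (((z : Qb⟮t⟯) : modularFunctionFieldBar M) : LaurentSeries Qb) ∈ gaussRing A}
  mul_mem' := fun ha hb => (gaussRing A).mul_mem ha hb
  one_mem' := (gaussRing A).one_mem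
  add_mem' := fun ha hb => (gaussRing A).add_mem ha hb
  zero_mem' := (gaussRing A).zero_mem
  neg_mem' := fun ha => (gaussRing A).neg_mem ha
  mem_or_inv_mem' := fun z =>
    mem_or_inv_mem_gaussRing A ℓ hA (mem_gaussField_of_mem_ff A M (z : modularFunctionFieldBar M).2)

theorem mem_gaussO_iff (t : modularFunctionFieldBar M) (z : Qb⟮t⟯) :
    z ∈ gaussO A ℓ M hA t ↔
      (((z : Qb⟮t⟯) : modularFunctionFieldBar M) : LaurentSeries Qb) ∈ gaussRing A := Iff.rfl

/-- the `O`-algebra structure of `F(M)` -/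
@[reducible] def algebraGaussO (t : modularFunctionFieldBar M) :
    Algebra (gaussO A ℓ M hA t) (modularFunctionFieldBar M) :=
  RingHom.toAlgebra ((algebraMap Qb⟮t⟯ (modularFunctionFieldBar M)).comp
    (gaussO A ℓ M hA t).subtype)

include hℓM in
/-- **`O_w ∩ F(M)` is integral over the Gauss ring of `ℚ̄(t)`** -/
theorem isIntegral_gaussO (t : modularFunctionFieldBar M)
    (hgen : ∀ f : LaurentSeries Qb, f ∈ Qb⟮jqModC Qb⟯ → f ∈ Qb⟮(t : LaurentSeries Qb)⟯)
    (y : modularFunctionFieldBar M) (hy : (y : LaurentSeries Qb) ∈ gaussRing A) :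
    letI := algebraGaussO A ℓ hA M t
    IsIntegral (gaussO A ℓ M hA t) y := by
  letI := algebraGaussO A ℓ hA M t
  obtain ⟨b, β, hbmem, hβmem, hb, hβ⟩ := exists_ortho_basis A ℓ hA M hℓM
  -- the subalgebra of integral elements
  let S : Subalgebra (gaussO A ℓ M hA t) (modularFunctionFieldBar M) :=
    { carrier := {z | (z : LaurentSeries Qb) ∈ gaussRing A}
      mul_mem' := fun ha hb => (gaussRing A).mul_mem ha hb
      one_mem' := (gaussRing A).one_mem
      add_mem' := fun ha hb => (gaussRing A).add_mem ha hb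
      zero_mem' := (gaussRing A).zero_mem
      algebraMap_mem' := fun o => o.2 }
  refine IsIntegral.of_mem_of_fg S ?_ y hy
  have hspan : S.toSubmodule = Submodule.span (gaussO A ℓ M hA t)
      (Set.range fun i => (⟨b i, hbmem i⟩ : modularFunctionFieldBar M)) := by
    apply le_antisymm
    · intro z hz
      have hz' : (z : LaurentSeries Qb) ∈ gaussRing A := hz
      obtain ⟨f, hf, hzf⟩ := exists_repr A ℓ hA M b β hbmem hb hβ z.2
      have hsum : ∑ i, f i * b i ∈ gaussRing A := by rw [← hzf]; exact hz'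
      obtain ⟨φ, hφ, -, -⟩ := ortho_red A ℓ hA (red_j A)
        Fermat.Agent.S28.transcendental_jqModC' hb hβ f hf hsum
      have hft : ∀ i, f i ∈ Qb⟮(t : LaurentSeries Qb)⟯ := fun i => hgen _ (hf i)
      have hle : Qb⟮(t : LaurentSeries Qb)⟯ ≤ modularFunctionFieldBar M := by
        rw [IntermediateField.adjoin_simple_le_iff]; exact t.2
      have hfK : ∀ i, (⟨f i, hle (hft i)⟩ : modularFunctionFieldBar M) ∈ Qb⟮t⟯ :=
        fun i => mem_adjoin_simple_of_coe _ t (hft i)
      rw [Submodule.mem_span_range_iff_exists_fun]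
      refine ⟨fun i => ⟨⟨⟨f i, hle (hft i)⟩, hfK i⟩, (hφ i).mem⟩, ?_⟩
      apply Subtype.ext
      rw [AddSubmonoidClass.coe_finsetSum, hzf]
      rfl
    · rw [Submodule.span_le]
      rintro _ ⟨i, rfl⟩
      exact (hb i).mem
  rw [hspan]
  exact Submodule.fg_span (Set.finite_range _)

include hA hℓM in
/-- **reduction preserves integrality over `K[t]`** -/
theorem isIntegral_red (t : modularFunctionFieldBar M)
    (T : modularFunctionFieldFullC (IsLocalRing.ResidueField A) M)
    (ht : Red A (t : LaurentSeries Qb) (T : LaurentSeries (IsLocalRing.ResidueField A)))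
    (hT : Transcendental (IsLocalRing.ResidueField A)
      (T : LaurentSeries (IsLocalRing.ResidueField A)))
    (hgen : ∀ f : LaurentSeries Qb, f ∈ Qb⟮jqModC Qb⟯ → f ∈ Qb⟮(t : LaurentSeries Qb)⟯)
    (y : modularFunctionFieldBar M) (hy : IsIntegral (Algebra.adjoin Qb {t}) y)
    (a : modularFunctionFieldFullC (IsLocalRing.ResidueField A) M)
    (hya : Red A (y : LaurentSeries Qb) (a : LaurentSeries (IsLocalRing.ResidueField A))) :
    IsIntegral (Algebra.adjoin (IsLocalRing.ResidueField A) {T}) a := by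
  letI := algebraGaussO A ℓ hA M t
  haveI : IsScalarTower (gaussO A ℓ M hA t) Qb⟮t⟯ (modularFunctionFieldBar M) :=
    IsScalarTower.of_algebraMap_eq (fun _ => rfl)
  have hO := isIntegral_gaussO A ℓ hA M hℓM t hgen y hya.mem
  haveI := Fermat.Agent.Lib.FF.isPrincipalIdealRing_adjoin Qb t
  have e1 := minpoly.isIntegrallyClosed_eq_field_fractions' Qb⟮t⟯ hy
  have e2 := minpoly.isIntegrallyClosed_eq_field_fractions' Qb⟮t⟯ hO
  have hyK : IsIntegral Qb⟮t⟯ y := hy.tower_top
  -- the coefficients are polynomials in `t`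
  have hc1 : ∀ i, ∃ p : Qb[X],
      ((((minpoly Qb⟮t⟯ y).coeff i : Qb⟮t⟯) : modularFunctionFieldBar M) : LaurentSeries Qb)
        = aeval (t : LaurentSeries Qb) p := by
    intro i
    rw [e1, Polynomial.coeff_map]
    have h1 := ((minpoly (Algebra.adjoin Qb {t}) y).coeff i).2
    have h2 : (((minpoly (Algebra.adjoin Qb {t}) y).coeff i : Algebra.adjoin Qb {t}) :
        modularFunctionFieldBar M) ∈
        (aeval t : Qb[X] →ₐ[Qb] modularFunctionFieldBar M).range := by
      rw [← Algebra.adjoin_singleton_eq_range_aeval]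
      exact h1
    obtain ⟨p, hp⟩ := h2
    refine ⟨p, ?_⟩
    rw [← coe_aeval_ff]
    exact congrArg (fun z : modularFunctionFieldBar M => (z : LaurentSeries Qb)) hp.symm
  -- the coefficients are `w`-integral
  have hc2 : ∀ i,
      ((((minpoly Qb⟮t⟯ y).coeff i : Qb⟮t⟯) : modularFunctionFieldBar M) : LaurentSeries Qb)
        ∈ gaussRing A := by
    intro i
    rw [e2, Polynomial.coeff_map]
    exact ((minpoly (gaussO A ℓ M hA t) y).coeff i).2
  choose p hp using hc1
  have hP : ∀ i, ∃ P : A[X], p i = P.map A.subtype := fun i =>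
    exists_of_aeval_mem_gaussRing A ℓ hA ht hT (p i) (by rw [← hp]; exact hc2 i)
  choose P hP using hP
  have hredc : ∀ i, Red A
      ((((minpoly Qb⟮t⟯ y).coeff i : Qb⟮t⟯) : modularFunctionFieldBar M) : LaurentSeries Qb)
      (aeval (T : LaurentSeries (IsLocalRing.ResidueField A))
        ((P i).map (IsLocalRing.residue A))) := by
    intro i
    rw [hp, hP]
    exact red_aeval A (P i) ht
  -- the equation
  have hm : (minpoly Qb⟮t⟯ y).Monic := minpoly.monic hyK
  have heq : aeval y (minpoly Qb⟮t⟯ y) = 0 := minpoly.aeval _ _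
  rw [hm.as_sum, map_add, map_pow, aeval_X, map_sum] at heq
  have hexp : (y : LaurentSeries Qb) ^ (minpoly Qb⟮t⟯ y).natDegree
      + ∑ i ∈ Finset.range (minpoly Qb⟮t⟯ y).natDegree,
        ((((minpoly Qb⟮t⟯ y).coeff i : Qb⟮t⟯) : modularFunctionFieldBar M) : LaurentSeries Qb)
          * (y : LaurentSeries Qb) ^ i = 0 := by
    have h0 := congrArg (fun z : modularFunctionFieldBar M => (z : LaurentSeries Qb)) heq
    simp only [ZeroMemClass.coe_zero] at h0
    rw [← h0, AddMemClass.coe_add, AddSubmonoidClass.coe_finsetSum]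
    congr 1
    refine Finset.sum_congr rfl fun i _ => ?_
    rw [map_mul, map_pow, aeval_X, aeval_C]
    rfl
  have hred : Red A 0 ((a : LaurentSeries (IsLocalRing.ResidueField A))
      ^ (minpoly Qb⟮t⟯ y).natDegree
      + ∑ i ∈ Finset.range (minpoly Qb⟮t⟯ y).natDegree,
        aeval (T : LaurentSeries (IsLocalRing.ResidueField A))
          ((P i).map (IsLocalRing.residue A))
          * (a : LaurentSeries (IsLocalRing.ResidueField A)) ^ i) := by
    rw [← hexp]
    exact (hya.pow A _).add A (Red.sum A _ fun i _ => (hredc i).mul A (hya.pow A i))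
  have h0 := (red_zero A).unique A hred
  -- the monic polynomial over `k[T]`
  have hmemT : ∀ q : (IsLocalRing.ResidueField A)[X],
      aeval T q ∈ Algebra.adjoin (IsLocalRing.ResidueField A) {T} := fun q => by
    rw [Algebra.adjoin_singleton_eq_range_aeval]
    exact ⟨q, rfl⟩
  refine ⟨X ^ (minpoly Qb⟮t⟯ y).natDegree + ∑ i ∈ Finset.range (minpoly Qb⟮t⟯ y).natDegree,
    Polynomial.C (⟨aeval T ((P i).map (IsLocalRing.residue A)), hmemT _⟩ :
      Algebra.adjoin (IsLocalRing.ResidueField A) {T}) * X ^ i, ?_, ?_⟩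
  · apply Polynomial.monic_X_pow_add
    refine lt_of_le_of_lt (Polynomial.degree_sum_le _ _) ?_
    rw [Finset.sup_lt_iff (WithBot.bot_lt_coe _)]
    intro i hi
    refine lt_of_le_of_lt (Polynomial.degree_C_mul_X_pow_le _ _) ?_
    exact_mod_cast Finset.mem_range.mp hi
  · rw [Polynomial.eval₂_add, Polynomial.eval₂_pow, Polynomial.eval₂_X, Polynomial.eval₂_finsetSum]
    apply Subtype.ext
    rw [ZeroMemClass.coe_zero, h0, AddMemClass.coe_add, AddSubmonoidClass.coe_finsetSum]
    congr 1
    refine Finset.sum_congr rfl fun i _ => ?_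
    rw [Polynomial.eval₂_mul, Polynomial.eval₂_C, Polynomial.eval₂_pow, Polynomial.eval₂_X,
      ← coe_aeval_ff]
    rfl

end Fermat.Agent.S18.GV
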