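import Fermat.Agent.S18.GVPoly

/-!
# S18 (C76), orthonormal families for the Gauss valuation

Let `Red t T` with `T` transcendental over `k`, and `b i` with residues `β i` linearly independent
over `k(T)`. Then the `b i` are orthonormal over `L(t)`:

* `ortho`: a nonzero vector `f` with entries in `L(t)` can be scaled by a constant so that all
  `f i` become integral and `∑ f i * b i` has the nonzero residue `∑ γ i * β i`;
* `ortho_ne_zero`: the `b i` are linearly independent over `L(t)`;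
* `ortho_red`: if `∑ f i * b i` is integral then all `f i` are integral with residues in `k(T)`
  and the residue of the sum is `∑ φ i * β i`.
-/

set_option autoImplicit false
set_option linter.unusedSectionVars false

noncomputable section

namespace Fermat.Agent.S18.GV

open ModularCurve Polynomial IntermediateField

variable {L : Type*} [Field L] [Algebra ℚ L] (A : ValuationSubring L)

theorem Red.sum {ι : Type*} (s : Finset ι) {x : ι → LaurentSeries L}
    {a : ι → LaurentSeries (IsLocalRing.ResidueField A)} (h : ∀ i ∈ s, Red A (x i) (a i)) :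
    Red A (∑ i ∈ s, x i) (∑ i ∈ s, a i) := by
  classical
  induction s using Finset.induction_on with
  | empty => simpa using red_zero A
  | insert i s hi ih =>
    rw [Finset.sum_insert hi, Finset.sum_insert hi]
    exact (h i (Finset.mem_insert_self i s)).add A
      (ih fun j hj => h j (Finset.mem_insert_of_mem hj))

variable [Algebra.IsAlgebraic ℚ L] (ℓ : ℕ) [hℓ : Fact ℓ.Prime]

/-- unit form with residue, including `0` -/
theorem exists_unit_form' (hA : A.LiesOverPrime ℓ) {x : LaurentSeries L}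
    (hx : x ∈ gaussField A) :
    ∃ (c : L) (u : LaurentSeries L) (a : LaurentSeries (IsLocalRing.ResidueField A)),
      Red A u a ∧ x = HahnSeries.C c * u ∧ (x = 0 → c = 0) ∧ (x ≠ 0 → c ≠ 0 ∧ a ≠ 0) := by
  by_cases hx0 : x = 0
  · exact ⟨0, 0, 0, red_zero A, by rw [hx0, mul_zero], fun _ => rfl, fun h => absurd hx0 h⟩
  · obtain ⟨c, u, hc, hu, hxu⟩ := exists_unit_form A ℓ hA hx hx0
    exact ⟨c, u, rho A u, ⟨u.2, rfl⟩, hxu, fun h => absurd h hx0, fun _ => ⟨hc, hu⟩⟩

/-- **normalisation of a finite family** -/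
theorem exists_normalization (hA : A.LiesOverPrime ℓ) {ι : Type*} [Fintype ι]
    (f : ι → LaurentSeries L) (hf : ∀ i, f i ∈ gaussField A) (hne : ∃ i, f i ≠ 0) :
    ∃ c : L, c ≠ 0 ∧ ∃ γ : ι → LaurentSeries (IsLocalRing.ResidueField A),
      (∀ i, Red A (HahnSeries.C c⁻¹ * f i) (γ i)) ∧ ∃ i₀, γ i₀ ≠ 0 := by
  classical
  choose c u a hu hfu h0 hn0 using fun i => exists_unit_form' A ℓ hA (hf i)
  have hS : (Finset.univ.filter fun i => f i ≠ 0).Nonempty := by
    obtain ⟨i, hi⟩ := hne
    exact ⟨i, by simp [hi]⟩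
  obtain ⟨i₀, hi₀, hmax⟩ := Finset.exists_max_image _ (fun i => A.valuation (c i)) hS
  have hfi₀ : f i₀ ≠ 0 := (Finset.mem_filter.mp hi₀).2
  have hc₀ : c i₀ ≠ 0 := (hn0 i₀ hfi₀).1
  have hmem : ∀ i, c i / c i₀ ∈ A := by
    intro i
    by_cases hi : f i = 0
    · rw [h0 i hi, zero_div]; exact A.zero_mem
    · rw [← A.valuation_le_one_iff, map_div₀]
      exact div_le_one_of_le₀ (hmax i (by simp [hi])) zero_le
  have hred : ∀ i, Red A (HahnSeries.C (c i₀)⁻¹ * f i)
      (HahnSeries.C (IsLocalRing.residue A ⟨c i / c i₀, hmem i⟩) * a i) := by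
    intro i
    have h1 : (HahnSeries.C (c i₀)⁻¹ : LaurentSeries L) * f i
        = HahnSeries.C (c i / c i₀) * u i := by
      rw [hfu i, ← mul_assoc, ← map_mul, inv_mul_eq_div]
    rw [h1]
    exact (red_const A ⟨c i / c i₀, hmem i⟩).mul A (hu i)
  refine ⟨c i₀, hc₀, _, hred, i₀, ?_⟩
  have h1 : (⟨c i₀ / c i₀, hmem i₀⟩ : A) = 1 := by
    apply Subtype.ext
    show c i₀ / c i₀ = 1
    exact div_self hc₀
  rw [h1, map_one, map_one, one_mul]
  exact (hn0 i₀ hfi₀).2

theorem adjoin_simple_le_gaussIF {t : LaurentSeries L} (ht : t ∈ gaussField A) :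
    L⟮t⟯ ≤ gaussIF A := by
  rw [IntermediateField.adjoin_simple_le_iff]
  exact ht

section Ortho

variable (hA : A.LiesOverPrime ℓ) {t : LaurentSeries L}
  {T : LaurentSeries (IsLocalRing.ResidueField A)} (ht : Red A t T)
  (hT : Transcendental (IsLocalRing.ResidueField A) T) {n : ℕ}
  {b : Fin n → LaurentSeries L} {β : Fin n → LaurentSeries (IsLocalRing.ResidueField A)}
  (hb : ∀ i, Red A (b i) (β i)) (hβ : LinearIndependent (IsLocalRing.ResidueField A)⟮T⟯ β)

include hA ht hT hb hβ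

/-- **orthonormality** -/
theorem ortho (f : Fin n → LaurentSeries L) (hf : ∀ i, f i ∈ L⟮t⟯) (hne : ∃ i, f i ≠ 0) :
    ∃ c : L, c ≠ 0 ∧ ∃ γ : Fin n → LaurentSeries (IsLocalRing.ResidueField A),
      (∀ i, Red A (HahnSeries.C c⁻¹ * f i) (γ i)) ∧
      (∀ i, γ i ∈ (IsLocalRing.ResidueField A)⟮T⟯) ∧ (∑ i, γ i * β i ≠ 0) ∧
      Red A (HahnSeries.C c⁻¹ * ∑ i, f i * b i) (∑ i, γ i * β i) := by
  have hfg : ∀ i, f i ∈ gaussField A := fun i =>
    adjoin_simple_le_gaussIF A (gaussRing_le_gaussField A ht.mem) (hf i)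
  obtain ⟨c, hc, γ, hγ, i₀, hi₀⟩ := exists_normalization A ℓ hA f hfg hne
  have hγmem : ∀ i, γ i ∈ (IsLocalRing.ResidueField A)⟮T⟯ := by
    intro i
    refine red_mem_adjoin_simple A ℓ hA ht hT ?_ (hγ i)
    refine mul_mem ?_ (hf i)
    rw [← algebraMap_eq_hC]
    exact IntermediateField.algebraMap_mem _ _
  refine ⟨c, hc, γ, hγ, hγmem, ?_, ?_⟩
  · intro h0
    rw [Fintype.linearIndependent_iff] at hβ
    have := hβ (fun i => ⟨γ i, hγmem i⟩) h0 i₀
    exact hi₀ (congrArg Subtype.val this)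
  · rw [Finset.mul_sum]
    refine Red.sum A _ fun i _ => ?_
    rw [← mul_assoc]
    exact (hγ i).mul A (hb i)

/-- the `b i` are linearly independent over `L(t)` -/
theorem ortho_ne_zero (f : Fin n → LaurentSeries L) (hf : ∀ i, f i ∈ L⟮t⟯)
    (hne : ∃ i, f i ≠ 0) : ∑ i, f i * b i ≠ 0 := by
  obtain ⟨c, hc, γ, hγ, hγmem, hsum, hred⟩ := ortho A ℓ hA ht hT hb hβ f hf hne
  intro h0
  rw [h0, mul_zero] at hred
  exact hsum (hred.unique A (red_zero A))

/-- integrality and residue of a linear combination -/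
theorem ortho_red (f : Fin n → LaurentSeries L) (hf : ∀ i, f i ∈ L⟮t⟯)
    (hx : ∑ i, f i * b i ∈ gaussRing A) :
    ∃ φ : Fin n → LaurentSeries (IsLocalRing.ResidueField A),
      (∀ i, Red A (f i) (φ i)) ∧ (∀ i, φ i ∈ (IsLocalRing.ResidueField A)⟮T⟯) ∧
      Red A (∑ i, f i * b i) (∑ i, φ i * β i) := by
  by_cases hne : ∃ i, f i ≠ 0
  · obtain ⟨c, hc, γ, hγ, hγmem, hsum, hred⟩ := ortho A ℓ hA ht hT hb hβ f hf hne
    have hcA : c ∈ A := by
      refine mem_of_C_mul_mem A ℓ hA hred hsum ?_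
      rw [← mul_assoc, ← map_mul, mul_inv_cancel₀ hc, map_one, one_mul]
      exact hx
    have hcf : ∀ x : LaurentSeries L, x = HahnSeries.C c * (HahnSeries.C c⁻¹ * x) := by
      intro x
      rw [← mul_assoc, ← map_mul, mul_inv_cancel₀ hc, map_one, one_mul]
    refine ⟨fun i => HahnSeries.C (IsLocalRing.residue A ⟨c, hcA⟩) * γ i, fun i => ?_,
      fun i => ?_, ?_⟩
    · rw [hcf (f i)]
      exact (red_const A ⟨c, hcA⟩).mul A (hγ i)
    · refine mul_mem ?_ (hγmem i)
      rw [← algebraMap_eq_hC]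
      exact IntermediateField.algebraMap_mem _ _
    · rw [hcf (∑ i, f i * b i)]
      have := (red_const A ⟨c, hcA⟩).mul A hred
      convert this using 1
      rw [Finset.mul_sum]
      refine Finset.sum_congr rfl fun i _ => ?_
      rw [mul_assoc]
  · simp only [not_exists, not_not] at hne
    refine ⟨fun _ => 0, fun i => ?_, fun i => zero_mem _, ?_⟩
    · rw [hne i]; exact red_zero A
    · simp only [hne, zero_mul, Finset.sum_const_zero]
      exact red_zero A

end Ortho

end Fermat.Agent.S18.GV
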