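import Fermat.Agent.S18.GVElim

/-!
# S18 (C76), pivots from an orthonormal basis (concrete part of (H1))

If every element of `E` is an `L(t)`-combination of an orthonormal family `b`, then every
finite-dimensional `L`-subspace of `E` has pivots (`hasPivots_of_ortho`).
-/

set_option autoImplicit false
set_option linter.unusedSectionVars false

noncomputable section

namespace Fermat.Agent.S18.GV

open ModularCurve Polynomial IntermediateField

variable {L : Type*} [Field L] [Algebra ℚ L] (A : ValuationSubring L)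
variable [Algebra.IsAlgebraic ℚ L] (ℓ : ℕ) [hℓ : Fact ℓ.Prime]

/-- `t` is transcendental if its residue is -/
theorem aeval_ne_zero_of_red {t : LaurentSeries L}
    {T : LaurentSeries (IsLocalRing.ResidueField A)} (ht : Red A t T)
    (hT : Transcendental (IsLocalRing.ResidueField A) T) {q : L[X]} (hq : q ≠ 0) :
    aeval t q ≠ 0 := by
  obtain ⟨c, Q, hc, hqQ, hQ⟩ := exists_poly_normal_form A q hq
  have hred := red_aeval A Q ht
  have hne : aeval T (Q.map (IsLocalRing.residue A)) ≠ 0 := fun h =>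
    hQ ((transcendental_iff.mp hT) _ h)
  intro h0
  rw [hqQ, aeval_C_mul_eq] at h0
  rcases mul_eq_zero.mp h0 with h1 | h1
  · rw [map_eq_zero] at h1; exact hc h1
  · rw [h1] at hred
    exact hne (hred.unique A (red_zero A))

/-- common denominators in `L(t)` -/
theorem exists_common_denominator {t : LaurentSeries L}
    {T : LaurentSeries (IsLocalRing.ResidueField A)} (ht : Red A t T)
    (hT : Transcendental (IsLocalRing.ResidueField A) T) {X : Type*} [Fintype X]
    (f : X → LaurentSeries L) (hf : ∀ x, f x ∈ L⟮t⟯) :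
    ∃ Q : L[X], Q ≠ 0 ∧ ∀ x, ∃ P : L[X], aeval t Q * f x = aeval t P := by
  classical
  have key : ∀ S : Finset X, ∃ Q : L[X], Q ≠ 0 ∧ ∀ x ∈ S, ∃ P : L[X],
      aeval t Q * f x = aeval t P := by
    intro S
    induction S using Finset.induction_on with
    | empty => exact ⟨1, one_ne_zero, fun x hx => absurd hx (Finset.notMem_empty x)⟩
    | insert x₀ S hx₀ ih =>
      obtain ⟨Q, hQ, hS⟩ := ih
      obtain ⟨p, q, hpq⟩ := (IntermediateField.mem_adjoin_simple_iff L (f x₀)).1 (hf x₀)
      by_cases hq : q = 0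
      · -- `f x₀ = 0`
        have h0 : f x₀ = 0 := by rw [hpq, hq, map_zero, div_zero]
        refine ⟨Q, hQ, fun x hx => ?_⟩
        rcases Finset.mem_insert.mp hx with rfl | hx
        · exact ⟨0, by rw [h0, mul_zero, map_zero]⟩
        · exact hS x hx
      · have hq' : aeval t q ≠ 0 := aeval_ne_zero_of_red A ht hT hq
        refine ⟨Q * q, mul_ne_zero hQ hq, fun x hx => ?_⟩
        rcases Finset.mem_insert.mp hx with rfl | hx
        · refine ⟨Q * p, ?_⟩
          rw [map_mul, map_mul, hpq]
          field_simp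
        · obtain ⟨P, hP⟩ := hS x hx
          refine ⟨P * q, ?_⟩
          rw [map_mul, map_mul, ← hP]
          ring
  obtain ⟨Q, hQ, h⟩ := key Finset.univ
  exact ⟨Q, hQ, fun x => h x (Finset.mem_univ x)⟩

/-- common denominators, normalised: the denominator is in `A[X]` with nonzero reduction -/
theorem exists_common_denominator' {t : LaurentSeries L}
    {T : LaurentSeries (IsLocalRing.ResidueField A)} (ht : Red A t T)
    (hT : Transcendental (IsLocalRing.ResidueField A) T) {X : Type*} [Fintype X]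
    (f : X → LaurentSeries L) (hf : ∀ x, f x ∈ L⟮t⟯) :
    ∃ Q₀ : A[X], Q₀.map (IsLocalRing.residue A) ≠ 0 ∧
      ∀ x, ∃ P : L[X], aeval t (Q₀.map A.subtype) * f x = aeval t P := by
  obtain ⟨Q, hQ, h⟩ := exists_common_denominator A ht hT f hf
  obtain ⟨c, Q₀, hc, hQQ₀, hQ₀⟩ := exists_poly_normal_form A Q hQ
  refine ⟨Q₀, hQ₀, fun x => ?_⟩
  obtain ⟨P, hP⟩ := h x
  refine ⟨Polynomial.C c⁻¹ * P, ?_⟩
  rw [aeval_C_mul_eq, ← hP, hQQ₀, aeval_C_mul_eq, ← mul_assoc, ← mul_assoc, ← map_mul,
    inv_mul_cancel₀ hc, map_one, one_mul]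

section Pivot

variable (E : IntermediateField L (LaurentSeries L))
variable (hA : A.LiesOverPrime ℓ) {t : LaurentSeries L}
  {T : LaurentSeries (IsLocalRing.ResidueField A)} (ht : Red A t T)
  (hT : Transcendental (IsLocalRing.ResidueField A) T) {n : ℕ}
  {b : Fin n → LaurentSeries L} {β : Fin n → LaurentSeries (IsLocalRing.ResidueField A)}
  (hb : ∀ i, Red A (b i) (β i)) (hβ : LinearIndependent (IsLocalRing.ResidueField A)⟮T⟯ β)
  (hrepr : ∀ x : E, ∃ f : Fin n → LaurentSeries L, (∀ i, f i ∈ L⟮t⟯) ∧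
    (x : LaurentSeries L) = ∑ i, f i * b i)

theorem aeval_smul_eq (t : LaurentSeries L) (c : L) (P : L[X]) :
    aeval t (c • P) = HahnSeries.C c * aeval t P := by
  rw [Polynomial.smul_eq_C_mul, aeval_C_mul_eq]

/-- an integral element with nonzero residue is a unit of `A` -/
theorem inv_mem_of_residue_ne_zero (u : A) (hu : IsLocalRing.residue A u ≠ 0) :
    ((u : L))⁻¹ ∈ A := by
  have h1 : IsUnit u := by
    by_contra h
    exact hu ((IsLocalRing.residue_eq_zero_iff u).2 ((IsLocalRing.mem_maximalIdeal u).2 h))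
  obtain ⟨u', hu'⟩ := h1.exists_right_inv
  have h2 : (u : L) * (u' : L) = 1 := by
    have := congrArg (fun x : A => (x : L)) hu'
    simpa using this
  have h3 : ((u : L))⁻¹ = (u' : L) := by
    rw [inv_eq_iff_eq_inv]
    exact eq_inv_of_mul_eq_one_left h2
  rw [h3]
  exact u'.2

include hA ht hT hb hβ hrepr in
set_option synthInstance.maxHeartbeats 400000 in
set_option maxHeartbeats 2000000 in
/-- **pivots from an orthonormal basis** -/
theorem hasPivots_of_ortho (V : Submodule L E) [Module.Finite L V] : HasPivots A E V := by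
  classical
  let vb := Module.finBasis L V
  choose fr hfr hxfr using fun s : Fin (Module.finrank L V) => hrepr (vb s : E)
  obtain ⟨Q₀, hQ₀, hP⟩ := exists_common_denominator' A ht hT
    (fun x : Fin (Module.finrank L V) × Fin n => fr x.1 x.2) (fun x => hfr x.1 x.2)
  choose P hP using hP
  have hQred := red_aeval A Q₀ ht
  have hQne : aeval T (Q₀.map (IsLocalRing.residue A)) ≠ 0 := fun h =>
    hQ₀ ((transcendental_iff.mp hT) _ h)
  -- the polynomial coordinates of `x ∈ V`
  set Px : V → Fin n → L[X] := fun x i => ∑ s, (vb.repr x s) • P (s, i) with hPx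
  have hcoe : ∀ x : V, ((x : E) : LaurentSeries L)
      = ∑ s, HahnSeries.C (vb.repr x s) * ((vb s : E) : LaurentSeries L) := by
    intro x
    conv_lhs => rw [← vb.sum_repr x]
    rw [Submodule.coe_sum, AddSubmonoidClass.coe_finsetSum]
    refine Finset.sum_congr rfl fun s _ => ?_
    rw [Submodule.coe_smul, coe_smul_eq]
  have hstar : ∀ x : V, aeval t (Q₀.map A.subtype) * ((x : E) : LaurentSeries L)
      = ∑ i, aeval t (Px x i) * b i := by
    intro x
    rw [hcoe x, Finset.mul_sum]
    have h1 : ∀ s, aeval t (Q₀.map A.subtype) *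
        (HahnSeries.C (vb.repr x s) * ((vb s : E) : LaurentSeries L))
        = ∑ i, HahnSeries.C (vb.repr x s) * aeval t (P (s, i)) * b i := by
      intro s
      rw [hxfr s, mul_left_comm, Finset.mul_sum, Finset.mul_sum]
      refine Finset.sum_congr rfl fun i _ => ?_
      rw [← mul_assoc (aeval t (Q₀.map A.subtype)), hP (s, i), mul_assoc]
    rw [Finset.sum_congr rfl fun s _ => h1 s, Finset.sum_comm]
    refine Finset.sum_congr rfl fun i _ => ?_
    rw [hPx]
    simp only
    rw [map_sum, Finset.sum_mul]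
    refine Finset.sum_congr rfl fun s _ => ?_
    rw [aeval_smul_eq]
  -- integrality of the coordinates
  have hint : ∀ x : V, ((x : E) : LaurentSeries L) ∈ gaussRing A →
      ∀ i, ∃ P₁ : A[X], Px x i = P₁.map A.subtype ∧
        ∃ φ : Fin n → LaurentSeries (IsLocalRing.ResidueField A),
          Red A (aeval t (Q₀.map A.subtype) * ((x : E) : LaurentSeries L)) (∑ i, φ i * β i) ∧
          ∀ i, Red A (aeval t (Px x i)) (φ i) := by
    intro x hx i
    have hmem : ∑ i, aeval t (Px x i) * b i ∈ gaussRing A := by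
      rw [← hstar x]
      exact (gaussRing A).mul_mem hQred.mem hx
    obtain ⟨φ, hφ, hφmem, hsum⟩ := ortho_red A ℓ hA ht hT hb hβ
      (fun i => aeval t (Px x i)) (fun i => aeval_mem_simple _ _) hmem
    obtain ⟨P₁, hP₁⟩ := exists_of_aeval_mem_gaussRing A ℓ hA ht hT (Px x i) (hφ i).mem
    refine ⟨P₁, hP₁, φ, ?_, hφ⟩
    rw [hstar x]
    exact hsum
  intro w hw a hwa ha
  obtain ⟨-, -, φ, hφsum, hφ⟩ := hint ⟨w, hw⟩ hwa.mem
    (Classical.choice (by
      -- `n ≠ 0` since the residue is nonzero; we only need some index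
      by_contra hcon
      rw [not_nonempty_iff] at hcon
      have h0 := hstar ⟨w, hw⟩
      rw [Finset.univ_eq_empty, Finset.sum_empty] at h0
      have h1 := hQred.mul A hwa
      rw [h0] at h1
      exact mul_ne_zero hQne ha (h1.unique A (red_zero A))))
  have hres : ∑ i, φ i * β i = aeval T (Q₀.map (IsLocalRing.residue A)) * a :=
    hφsum.unique A (hQred.mul A hwa)
  have hex : ∃ i₀, φ i₀ ≠ 0 := by
    by_contra hcon
    simp only [not_exists, not_not] at hcon
    apply mul_ne_zero hQne ha
    rw [← hres]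
    exact Finset.sum_eq_zero fun i _ => by rw [hcon i, zero_mul]
  obtain ⟨i₀, hi₀⟩ := hex
  obtain ⟨P₀, hP₀, -⟩ := hint ⟨w, hw⟩ hwa.mem i₀
  have hφ₀ : φ i₀ = aeval T (P₀.map (IsLocalRing.residue A)) := by
    have h1 := hφ i₀
    rw [hP₀] at h1
    exact h1.unique A (red_aeval A P₀ ht)
  have hex2 : ∃ a₀, IsLocalRing.residue A (P₀.coeff a₀) ≠ 0 := by
    by_contra hcon
    simp only [not_exists, not_not] at hcon
    apply hi₀
    rw [hφ₀]
    have : P₀.map (IsLocalRing.residue A) = 0 := by
      ext m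
      rw [Polynomial.coeff_map, hcon m, Polynomial.coeff_zero]
    rw [this, map_zero]
  obtain ⟨a₀, ha₀⟩ := hex2
  have huinv := inv_mem_of_residue_ne_zero A (P₀.coeff a₀) ha₀
  have hu0 : ((P₀.coeff a₀ : A) : L) ≠ 0 := by
    intro h
    apply ha₀
    have : P₀.coeff a₀ = 0 := Subtype.ext h
    rw [this, map_zero]
  -- the functional
  let lamV : V →ₗ[L] L :=
    ∑ s, ((((P₀.coeff a₀ : A) : L))⁻¹ * (P (s, i₀)).coeff a₀) • vb.coord s
  obtain ⟨lam, hlam⟩ := LinearMap.exists_extend lamV
  have hform : ∀ x : V, lam (x : E) = (((P₀.coeff a₀ : A) : L))⁻¹ * (Px x i₀).coeff a₀ := by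
    intro x
    have h1 : lam (x : E) = lamV x := by
      rw [← hlam]; rfl
    rw [h1, hPx]
    simp only [lamV, LinearMap.sum_apply, LinearMap.smul_apply, Module.Basis.coord_apply,
      smul_eq_mul, Polynomial.finsetSum_coeff, Polynomial.coeff_smul, Finset.mul_sum]
    refine Finset.sum_congr rfl fun s _ => ?_
    ring
  refine ⟨lam, fun x hxV hx => ?_, ?_⟩
  · obtain ⟨P₁, hP₁, -⟩ := hint ⟨x, hxV⟩ hx i₀
    have := hform ⟨x, hxV⟩
    simp only at this
    rw [this, hP₁, Polynomial.coeff_map]
    exact A.mul_mem _ _ huinv (P₁.coeff a₀).2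
  · have := hform ⟨w, hw⟩
    simp only at this
    rw [this, hP₀, Polynomial.coeff_map]
    exact inv_mul_cancel₀ hu0

end Pivot

end Fermat.Agent.S18.GV
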