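import Fermat.Agent.S18.GVFF

/-!
# S18 (C76), Gauss lemma: the Gauss valuation on `L(t)` for `t` with transcendental residue

* `red_aeval`: `P ∈ A[X]`, `Red t T` ⟹ `Red (P(t)) (P̄(T))`;
* `exists_poly_normal_form`: `p = c · P`, `P ∈ A[X]` with `P̄ ≠ 0`;
* `mem_of_aeval_mem_gaussRing`: `p(t) ∈ O_w` ⟹ `p ∈ A[X]` (if `T` is transcendental over `k`);
* `rho_mem_adjoin_simple`: `ρ(L(t) ∩ O_w) ⊆ k(T)`.
-/

set_option autoImplicit false
set_option linter.unusedSectionVars false

noncomputable section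

namespace Fermat.Agent.S18.GV

open ModularCurve Polynomial IntermediateField

variable {L : Type*} [Field L] [Algebra ℚ L] (A : ValuationSubring L)

theorem algebraMap_eq_hC {K : Type*} [Field K] (c : K) :
    algebraMap K (LaurentSeries K) c = HahnSeries.C c := by
  rw [algebraMap_laurentSeries_eq_single]; rfl

variable [Algebra.IsAlgebraic ℚ L]

/-- `P ∈ A[X]`, `Red t T` ⟹ `Red (P(t)) (P̄(T))` -/
theorem red_aeval (P : A[X]) {t : LaurentSeries L}
    {T : LaurentSeries (IsLocalRing.ResidueField A)} (ht : Red A t T) :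
    Red A (aeval t (P.map A.subtype)) (aeval T (P.map (IsLocalRing.residue A))) := by
  induction P using Polynomial.induction_on' with
  | add p q hp hq =>
    rw [Polynomial.map_add, Polynomial.map_add, map_add, map_add]
    exact hp.add A hq
  | monomial n a =>
    rw [Polynomial.map_monomial, Polynomial.map_monomial, aeval_monomial, aeval_monomial,
      algebraMap_eq_hC, algebraMap_eq_hC]
    exact (red_const A a).mul A (ht.pow A n)

/-- division by `c₀`, with junk value `0` outside `A` -/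
def divL (c₀ : L) : L → A := fun x =>
  haveI := Classical.propDecidable
  if h : x / c₀ ∈ A then ⟨x / c₀, h⟩ else 0

theorem divL_zero (c₀ : L) : divL A c₀ 0 = 0 := by
  unfold divL
  split_ifs with h
  · apply Subtype.ext; simp
  · rfl

theorem divL_of_mem (c₀ x : L) (h : x / c₀ ∈ A) : ((divL A c₀ x : A) : L) = x / c₀ := by
  unfold divL
  rw [dif_pos h]

/-- the polynomial `p / c₀` over `A` -/
def polyDiv (c₀ : L) (p : L[X]) : A[X] :=
  ∑ i ∈ p.support, Polynomial.monomial i (divL A c₀ (p.coeff i))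

theorem polyDiv_coeff (c₀ : L) (p : L[X]) (n : ℕ) :
    (polyDiv A c₀ p).coeff n = divL A c₀ (p.coeff n) := by
  rw [polyDiv, Polynomial.finsetSum_coeff]
  simp only [Polynomial.coeff_monomial]
  rw [Finset.sum_ite_eq' p.support n]
  split_ifs with h
  · rfl
  · rw [Polynomial.notMem_support_iff.mp h, divL_zero]

/-- **normal form of a polynomial**: `p = c · P` with `P ∈ A[X]` and `P̄ ≠ 0`. -/
theorem exists_poly_normal_form (p : L[X]) (hp : p ≠ 0) :
    ∃ (c : L) (P : A[X]), c ≠ 0 ∧ p = Polynomial.C c * P.map A.subtype ∧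
      P.map (IsLocalRing.residue A) ≠ 0 := by
  have hne : p.support.Nonempty := by
    rw [Finset.nonempty_iff_ne_empty, Ne, Polynomial.support_eq_empty]
    exact hp
  obtain ⟨i₀, hi₀, hmax⟩ := Finset.exists_max_image p.support (fun i => A.valuation (p.coeff i)) hne
  have hc0 : p.coeff i₀ ≠ 0 := Polynomial.mem_support_iff.mp hi₀
  have hmem : ∀ n, p.coeff n / p.coeff i₀ ∈ A := by
    intro n
    by_cases hn : n ∈ p.support
    · rw [← A.valuation_le_one_iff, map_div₀]
      exact div_le_one_of_le₀ (hmax n hn) zero_le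
    · rw [Polynomial.notMem_support_iff.mp hn, zero_div]
      exact A.zero_mem
  refine ⟨p.coeff i₀, polyDiv A (p.coeff i₀) p, hc0, ?_, ?_⟩
  · ext n
    rw [Polynomial.coeff_C_mul, Polynomial.coeff_map, polyDiv_coeff]
    show p.coeff n = p.coeff i₀ * ((divL A (p.coeff i₀) (p.coeff n) : A) : L)
    rw [divL_of_mem A _ _ (hmem n), mul_div_cancel₀ _ hc0]
  · intro h0
    have h1 := congrArg (fun q => q.coeff i₀) h0
    simp only [Polynomial.coeff_map, Polynomial.coeff_zero, polyDiv_coeff] at h1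
    have h2 : divL A (p.coeff i₀) (p.coeff i₀) = 1 := by
      apply Subtype.ext
      rw [divL_of_mem A _ _ (hmem i₀), div_self hc0]
      rfl
    rw [h2, map_one] at h1
    exact one_ne_zero h1

variable (ℓ : ℕ) [hℓ : Fact ℓ.Prime]

/-- a constant multiple of an element with nonzero residue lies in the Gauss ring only if the
constant is integral -/
theorem mem_of_C_mul_mem (hA : A.LiesOverPrime ℓ) {c : L} {u : LaurentSeries L}
    {a : LaurentSeries (IsLocalRing.ResidueField A)} (hu : Red A u a) (ha : a ≠ 0)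
    (h : (HahnSeries.C c : LaurentSeries L) * u ∈ gaussRing A) : c ∈ A := by
  by_contra hc
  have hinv : c⁻¹ ∈ A := (A.mem_or_inv_mem c).resolve_left hc
  have hc0 : c ≠ 0 := fun h0 => hc (h0 ▸ A.zero_mem)
  have hv : A.valuation ((⟨c⁻¹, hinv⟩ : A) : L) < 1 := by
    show A.valuation c⁻¹ < 1
    rw [map_inv₀]
    have h1 : 1 < A.valuation c := by
      rw [← not_le, A.valuation_le_one_iff]
      exact hc
    exact inv_lt_one_of_one_lt₀ h1
  have hu0 : Red A u 0 := by
    rw [red_zero_iff A ℓ hA]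
    refine ⟨⟨c⁻¹, hinv⟩, _, h, hv, ?_⟩
    show u = HahnSeries.C c⁻¹ * (HahnSeries.C c * u)
    rw [← mul_assoc, ← map_mul, inv_mul_cancel₀ hc0, map_one, one_mul]
  exact ha (hu.unique A hu0)

/-- **Gauss lemma**: if `p(t)` is `w`-integral and the residue of `t` is transcendental, then
`p ∈ A[X]`. -/
theorem exists_of_aeval_mem_gaussRing (hA : A.LiesOverPrime ℓ) {t : LaurentSeries L}
    {T : LaurentSeries (IsLocalRing.ResidueField A)} (ht : Red A t T)
    (hT : Transcendental (IsLocalRing.ResidueField A) T) (p : L[X])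
    (hp : aeval t p ∈ gaussRing A) :
    ∃ P : A[X], p = P.map A.subtype := by
  by_cases hp0 : p = 0
  · exact ⟨0, by rw [hp0, Polynomial.map_zero]⟩
  obtain ⟨c, P, hc, hpP, hP⟩ := exists_poly_normal_form A p hp0
  have hred := red_aeval A P ht
  have hne : aeval T (P.map (IsLocalRing.residue A)) ≠ 0 := fun h =>
    hP ((transcendental_iff.mp hT) _ h)
  have hcA : c ∈ A := by
    refine mem_of_C_mul_mem A ℓ hA hred hne ?_
    rw [← algebraMap_eq_hC, ← Polynomial.aeval_C (A := LaurentSeries L) t, ← map_mul, ← hpP]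
    exact hp
  refine ⟨Polynomial.C ⟨c, hcA⟩ * P, ?_⟩
  rw [Polynomial.map_mul, Polynomial.map_C, hpP]
  rfl

/-- the residue of `p(t)` for `p ∈ A[X]`, in `ρ`-form -/
theorem rho_aeval (P : A[X]) {t : LaurentSeries L}
    {T : LaurentSeries (IsLocalRing.ResidueField A)} (ht : Red A t T) :
    rho A ⟨aeval t (P.map A.subtype), (red_aeval A P ht).mem⟩
      = aeval T (P.map (IsLocalRing.residue A)) :=
  (red_aeval A P ht).2

theorem C_mul_div_C_mul {K : Type*} [Field K] (c d : K) (x y : LaurentSeries K) :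
    (HahnSeries.C c * x) / (HahnSeries.C d * y) = HahnSeries.C (c / d) * (x * y⁻¹) := by
  rw [map_div₀, div_eq_mul_inv, div_eq_mul_inv, mul_inv]
  ring

/-- residue of a quotient of two elements in normal form -/
theorem red_quot_aux (hA : A.LiesOverPrime ℓ) {c d : L} {x y f : LaurentSeries L}
    {a b e : LaurentSeries (IsLocalRing.ResidueField A)} (hx : Red A x a) (hy : Red A y b)
    (ha : a ≠ 0) (hb : b ≠ 0) (hf : f = (HahnSeries.C c * x) / (HahnSeries.C d * y))
    (hfe : Red A f e) :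
    ∃ h : c / d ∈ A, e = HahnSeries.C (IsLocalRing.residue A ⟨c / d, h⟩) * (a * b⁻¹) := by
  have hu := hx.mul A (hy.inv A hb)
  have hune : a * b⁻¹ ≠ 0 := mul_ne_zero ha (inv_ne_zero hb)
  rw [C_mul_div_C_mul] at hf
  have hcd : c / d ∈ A := by
    refine mem_of_C_mul_mem A ℓ hA hu hune ?_
    rw [← hf]
    exact hfe.mem
  refine ⟨hcd, ?_⟩
  have hfe' : Red A f (HahnSeries.C (IsLocalRing.residue A ⟨c / d, hcd⟩) * (a * b⁻¹)) := by
    rw [hf]
    exact (red_const A ⟨c / d, hcd⟩).mul A hu
  exact hfe.unique A hfe'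

theorem aeval_mem_simple {K : Type*} [Field K] (t : LaurentSeries K) (p : K[X]) :
    aeval t p ∈ K⟮t⟯ := by
  rw [IntermediateField.mem_adjoin_simple_iff]
  exact ⟨p, 1, by simp⟩

theorem aeval_C_mul_eq {K : Type*} [Field K] (t : LaurentSeries K) (c : K) (p : K[X]) :
    aeval t (Polynomial.C c * p) = HahnSeries.C c * aeval t p := by
  rw [map_mul, Polynomial.aeval_C, algebraMap_eq_hC]

/-- **`ρ(L(t) ∩ O_w) ⊆ k(T)`** -/
theorem red_mem_adjoin_simple (hA : A.LiesOverPrime ℓ) {t : LaurentSeries L}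
    {T : LaurentSeries (IsLocalRing.ResidueField A)} (ht : Red A t T)
    (hT : Transcendental (IsLocalRing.ResidueField A) T) {f : LaurentSeries L}
    (hf : f ∈ L⟮t⟯) {a : LaurentSeries (IsLocalRing.ResidueField A)} (hfa : Red A f a) :
    a ∈ (IsLocalRing.ResidueField A)⟮T⟯ := by
  obtain ⟨p, q, hfpq⟩ := (IntermediateField.mem_adjoin_simple_iff L f).1 hf
  by_cases hq0 : q = 0
  · rw [hq0, map_zero, div_zero] at hfpq
    rw [hfpq] at hfa
    rw [hfa.unique A (red_zero A)]
    exact zero_mem _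
  by_cases hp0 : p = 0
  · rw [hp0, map_zero, zero_div] at hfpq
    rw [hfpq] at hfa
    rw [hfa.unique A (red_zero A)]
    exact zero_mem _
  obtain ⟨c, P, hc, hpP, hP⟩ := exists_poly_normal_form A p hp0
  obtain ⟨d, Q, hd, hqQ, hQ⟩ := exists_poly_normal_form A q hq0
  have hredP := red_aeval A P ht
  have hredQ := red_aeval A Q ht
  have hneP : aeval T (P.map (IsLocalRing.residue A)) ≠ 0 := fun h =>
    hP ((transcendental_iff.mp hT) _ h)
  have hneQ : aeval T (Q.map (IsLocalRing.residue A)) ≠ 0 := fun h =>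
    hQ ((transcendental_iff.mp hT) _ h)
  have hf' : f = (HahnSeries.C c * aeval t (P.map A.subtype)) /
      (HahnSeries.C d * aeval t (Q.map A.subtype)) := by
    rw [hfpq, ← aeval_C_mul_eq, ← aeval_C_mul_eq, ← hpP, ← hqQ]
  obtain ⟨hcd, he⟩ := red_quot_aux A ℓ hA hredP hredQ hneP hneQ hf' hfa
  rw [he]
  refine mul_mem ?_ (mul_mem ?_ (inv_mem ?_))
  · rw [← algebraMap_eq_hC]
    exact IntermediateField.algebraMap_mem _ _
  · exact aeval_mem_simple _ _
  · exact aeval_mem_simple _ _

end Fermat.Agent.S18.GV
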