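import Mathlib
import Fermat.Agent.S18.GVFin

/-!
# S18 (C76): the Gauss valuation ring of `L((q))` over a valuation ring `A ⊆ L`

* `gaussRing A : Subring L((q))`: the elements `P / Q`, `P, Q ∈ A((q))` with coefficients in a
  finite extension of `ℚ`, `red Q ≠ 0`;
* `rho A : gaussRing A →+* k((q))`, `P / Q ↦ red P / red Q`;
* `gaussField A : Subfield L((q))`: the elements `P / Q`, `Q ≠ 0`;
* `exists_unit_form`: `x ∈ gaussField ∖ 0` is `c · u`, `c ∈ L ∖ 0`, `u ∈ gaussRing`, `rho u ≠ 0`;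
* `rho_eq_zero_iff`: `rho x = 0 ↔ x = c · y`, `c ∈ 𝔪_A`, `y ∈ gaussRing`.
-/

set_option autoImplicit false
set_option linter.unusedSectionVars false

noncomputable section

namespace Fermat.Agent.S18.GV

open ModularCurve

variable {L : Type*} [Field L] [Algebra ℚ L] (A : ValuationSubring L)

/-- the Gauss valuation ring: `P / Q` with `P, Q` integral of finite type, `red Q ≠ 0` -/
def gaussRing : Subring (LaurentSeries L) where
  carrier := {x | ∃ P Q : LaurentSeries A, IsFin A P ∧ IsFin A Q ∧ red A Q ≠ 0 ∧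
    x * eps A Q = eps A P}
  mul_mem' := by
    rintro x y ⟨P, Q, hP, hQf, hQ, h⟩ ⟨P', Q', hP', hQf', hQ', h'⟩
    refine ⟨P * P', Q * Q', hP.mul A hP', hQf.mul A hQf', ?_, ?_⟩
    · rw [map_mul]; exact mul_ne_zero hQ hQ'
    · rw [map_mul, map_mul, ← h, ← h']; ring
  one_mem' := ⟨1, 1, isFin_one A, isFin_one A, red_one_ne_zero A, by simp⟩
  add_mem' := by
    rintro x y ⟨P, Q, hP, hQf, hQ, h⟩ ⟨P', Q', hP', hQf', hQ', h'⟩
    refine ⟨P * Q' + P' * Q, Q * Q', (hP.mul A hQf').add A (hP'.mul A hQf), hQf.mul A hQf', ?_, ?_⟩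
    · rw [map_mul]; exact mul_ne_zero hQ hQ'
    · rw [map_mul, map_add, map_mul, map_mul, ← h, ← h']; ring
  zero_mem' := ⟨0, 1, isFin_zero A, isFin_one A, red_one_ne_zero A, by simp⟩
  neg_mem' := by
    rintro x ⟨P, Q, hP, hQf, hQ, h⟩
    exact ⟨-P, Q, hP.neg A, hQf, hQ, by rw [map_neg, ← h]; ring⟩

theorem mem_gaussRing_iff {x : LaurentSeries L} :
    x ∈ gaussRing A ↔ ∃ P Q : LaurentSeries A, IsFin A P ∧ IsFin A Q ∧ red A Q ≠ 0 ∧
      x * eps A Q = eps A P := Iff.rfl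

theorem eps_mem_gaussRing {P : LaurentSeries A} (hP : IsFin A P) : eps A P ∈ gaussRing A :=
  ⟨P, 1, hP, isFin_one A, red_one_ne_zero A, by simp⟩

/-- numerator / denominator chosen for an element of the Gauss ring -/
def rhoFun (x : gaussRing A) : LaurentSeries (IsLocalRing.ResidueField A) :=
  red A (Classical.choose x.2) / red A (Classical.choose (Classical.choose_spec x.2))

theorem rhoFun_eq (x : gaussRing A) {P Q : LaurentSeries A} (hQ : red A Q ≠ 0)
    (h : (x : LaurentSeries L) * eps A Q = eps A P) : rhoFun A x = red A P / red A Q := by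
  obtain ⟨-, -, hQ', h'⟩ := Classical.choose_spec (Classical.choose_spec x.2)
  set P' := Classical.choose x.2
  set Q' := Classical.choose (Classical.choose_spec x.2)
  have key : P' * Q = P * Q' := by
    apply eps_injective A
    rw [map_mul, map_mul, ← h, ← h']
    ring
  have key2 := congrArg (red A) key
  rw [map_mul, map_mul] at key2
  rw [rhoFun, div_eq_div_iff hQ' hQ]
  exact key2

/-- the residue map of the Gauss valuation ring -/
def rho : gaussRing A →+* LaurentSeries (IsLocalRing.ResidueField A) where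
  toFun := rhoFun A
  map_one' := by
    rw [rhoFun_eq A 1 (P := 1) (Q := 1) (red_one_ne_zero A) (by simp), map_one, div_one]
  map_zero' := by
    rw [rhoFun_eq A 0 (P := 0) (Q := 1) (red_one_ne_zero A) (by simp), map_zero, zero_div]
  map_mul' := by
    rintro ⟨x, P, Q, hP, hQf, hQ, h⟩ ⟨y, P', Q', hP', hQf', hQ', h'⟩
    rw [rhoFun_eq A ⟨x, P, Q, hP, hQf, hQ, h⟩ hQ h, rhoFun_eq A ⟨y, P', Q', hP', hQf', hQ', h'⟩ hQ' h',
      rhoFun_eq A _ (P := P * P') (Q := Q * Q') (by rw [map_mul]; exact mul_ne_zero hQ hQ')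
        (by
          show x * y * eps A (Q * Q') = eps A (P * P')
          rw [map_mul, map_mul, ← h, ← h']; ring),
      map_mul, map_mul, div_mul_div_comm]
  map_add' := by
    rintro ⟨x, P, Q, hP, hQf, hQ, h⟩ ⟨y, P', Q', hP', hQf', hQ', h'⟩
    rw [rhoFun_eq A ⟨x, P, Q, hP, hQf, hQ, h⟩ hQ h, rhoFun_eq A ⟨y, P', Q', hP', hQf', hQ', h'⟩ hQ' h',
      rhoFun_eq A _ (P := P * Q' + P' * Q) (Q := Q * Q')
        (by rw [map_mul]; exact mul_ne_zero hQ hQ')
        (by
          show (x + y) * eps A (Q * Q') = eps A (P * Q' + P' * Q)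
          rw [map_mul, map_add, map_mul, map_mul, ← h, ← h']; ring),
      map_mul, map_add, map_mul, map_mul, div_add_div _ _ hQ hQ']
    congr 1
    ring

theorem rho_eq (x : gaussRing A) {P Q : LaurentSeries A} (hQ : red A Q ≠ 0)
    (h : (x : LaurentSeries L) * eps A Q = eps A P) : rho A x = red A P / red A Q :=
  rhoFun_eq A x hQ h

theorem rho_eps {P : LaurentSeries A} (hP : IsFin A P) :
    rho A ⟨eps A P, eps_mem_gaussRing A hP⟩ = red A P := by
  rw [rho_eq A _ (P := P) (Q := 1) (red_one_ne_zero A) (by simp), map_one, div_one]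

/-- the fraction field of the integral series of finite type, as a subfield of `L((q))` -/
def gaussField : Subfield (LaurentSeries L) where
  carrier := {x | ∃ P Q : LaurentSeries A, IsFin A P ∧ IsFin A Q ∧ Q ≠ 0 ∧ x * eps A Q = eps A P}
  mul_mem' := by
    rintro x y ⟨P, Q, hP, hQf, hQ, h⟩ ⟨P', Q', hP', hQf', hQ', h'⟩
    refine ⟨P * P', Q * Q', hP.mul A hP', hQf.mul A hQf', mul_ne_zero hQ hQ', ?_⟩
    rw [map_mul, map_mul, ← h, ← h']; ring
  one_mem' := ⟨1, 1, isFin_one A, isFin_one A, one_ne_zero, by simp⟩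
  add_mem' := by
    rintro x y ⟨P, Q, hP, hQf, hQ, h⟩ ⟨P', Q', hP', hQf', hQ', h'⟩
    refine ⟨P * Q' + P' * Q, Q * Q', (hP.mul A hQf').add A (hP'.mul A hQf), hQf.mul A hQf',
      mul_ne_zero hQ hQ', ?_⟩
    rw [map_mul, map_add, map_mul, map_mul, ← h, ← h']; ring
  zero_mem' := ⟨0, 1, isFin_zero A, isFin_one A, one_ne_zero, by simp⟩
  neg_mem' := by
    rintro x ⟨P, Q, hP, hQf, hQ, h⟩
    exact ⟨-P, Q, hP.neg A, hQf, hQ, by rw [map_neg, ← h]; ring⟩
  inv_mem' := by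
    rintro x ⟨P, Q, hP, hQf, hQ, h⟩
    by_cases hx : x = 0
    · subst hx
      exact ⟨0, 1, isFin_zero A, isFin_one A, one_ne_zero, by simp⟩
    · have hQ0 : eps A Q ≠ 0 := fun h0 => hQ ((eps_eq_zero_iff A Q).1 h0)
      have hP0 : P ≠ 0 := by
        rintro rfl
        rw [map_zero] at h
        rcases mul_eq_zero.mp h with h1 | h1
        · exact hx h1
        · exact hQ0 h1
      refine ⟨Q, P, hQf, hP, hP0, ?_⟩
      rw [← h]
      field_simp

theorem mem_gaussField_iff {x : LaurentSeries L} :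
    x ∈ gaussField A ↔ ∃ P Q : LaurentSeries A, IsFin A P ∧ IsFin A Q ∧ Q ≠ 0 ∧
      x * eps A Q = eps A P := Iff.rfl

theorem gaussRing_le_gaussField {x : LaurentSeries L} (hx : x ∈ gaussRing A) :
    x ∈ gaussField A := by
  obtain ⟨P, Q, hP, hQf, hQ, h⟩ := hx
  exact ⟨P, Q, hP, hQf, ne_zero_of_red A hQ, h⟩

theorem eps_mem_gaussField {P : LaurentSeries A} (hP : IsFin A P) : eps A P ∈ gaussField A :=
  gaussRing_le_gaussField A (eps_mem_gaussRing A hP)

variable [Algebra.IsAlgebraic ℚ L]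

/-- constants of `A` are in the Gauss ring -/
theorem C_mem_gaussRing (c : A) : (HahnSeries.C (c : L) : LaurentSeries L) ∈ gaussRing A := by
  rw [← eps_C]
  exact eps_mem_gaussRing A (isFin_C A c)

theorem rho_C (c : A) :
    rho A ⟨HahnSeries.C (c : L), C_mem_gaussRing A c⟩ = HahnSeries.C (IsLocalRing.residue A c) := by
  rw [rho_eq A _ (P := HahnSeries.C c) (Q := 1) (red_one_ne_zero A)
    (by rw [map_one, mul_one, eps_C]), map_one, div_one, red_C]

/-- constants of `L` are in the Gauss field -/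
theorem C_mem_gaussField (c : L) : (HahnSeries.C c : LaurentSeries L) ∈ gaussField A := by
  rcases A.mem_or_inv_mem c with h | h
  · exact gaussRing_le_gaussField A (C_mem_gaussRing A ⟨c, h⟩)
  · have h1 := (gaussField A).inv_mem (gaussRing_le_gaussField A (C_mem_gaussRing A ⟨c⁻¹, h⟩))
    have h2 : (HahnSeries.C ((⟨c⁻¹, h⟩ : A) : L) : LaurentSeries L)⁻¹ = HahnSeries.C c := by
      show (HahnSeries.C c⁻¹ : LaurentSeries L)⁻¹ = HahnSeries.C c
      rw [← map_inv₀, inv_inv]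
    rwa [h2] at h1

variable (ℓ : ℕ) [hℓ : Fact ℓ.Prime]

/-- **unit form**: a nonzero element of the Gauss field is `c · u` with `c ∈ L ∖ 0` and `u` a
unit of the Gauss ring. -/
theorem exists_unit_form (hA : A.LiesOverPrime ℓ) {x : LaurentSeries L} (hx : x ∈ gaussField A)
    (hx0 : x ≠ 0) :
    ∃ (c : L) (u : gaussRing A), c ≠ 0 ∧ rho A u ≠ 0 ∧
      x = (HahnSeries.C c : LaurentSeries L) * (u : LaurentSeries L) := by
  obtain ⟨P, Q, hP, hQf, hQ, h⟩ := hx
  have hQ0 : eps A Q ≠ 0 := fun h0 => hQ ((eps_eq_zero_iff A Q).1 h0)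
  have hP0 : P ≠ 0 := by
    rintro rfl
    rw [map_zero] at h
    rcases mul_eq_zero.mp h with h1 | h1
    · exact hx0 h1
    · exact hQ0 h1
  obtain ⟨a, P₀, ha, hP₀f, hP₀, hP₀'⟩ := exists_normal_form A ℓ hA P hP0 hP
  obtain ⟨b, Q₀, hb, hQ₀f, hQ₀, hQ₀'⟩ := exists_normal_form A ℓ hA Q hQ hQf
  have hQ₀0 : eps A Q₀ ≠ 0 := eps_ne_zero_of_red A hQ₀'
  have hu : eps A P₀ / eps A Q₀ ∈ gaussRing A := ⟨P₀, Q₀, hP₀f, hQ₀f, hQ₀', by field_simp⟩
  have haL : (a : L) ≠ 0 := fun h => ha (Subtype.ext h)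
  have hbL : (b : L) ≠ 0 := fun h => hb (Subtype.ext h)
  refine ⟨(a : L) / (b : L), ⟨_, hu⟩, div_ne_zero haL hbL, ?_, ?_⟩
  · rw [rho_eq A ⟨_, hu⟩ (P := P₀) (Q := Q₀) hQ₀' (by field_simp)]
    exact div_ne_zero hP₀' hQ₀'
  · have hx : x = eps A P / eps A Q := by
      field_simp; exact h
    have hCb : (HahnSeries.C (b : L) : LaurentSeries L) ≠ 0 := by
      rw [Ne, map_eq_zero]; exact hbL
    rw [hx, hP₀, hQ₀, map_mul, map_mul, eps_C, eps_C, map_div₀]
    show _ = _ * (eps A P₀ / eps A Q₀)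
    field_simp

/-- a Gauss-integral element with nonzero residue is a unit of the Gauss ring -/
theorem inv_mem_gaussRing {u : LaurentSeries L} (hu : u ∈ gaussRing A)
    (hρ : rho A ⟨u, hu⟩ ≠ 0) : u⁻¹ ∈ gaussRing A := by
  obtain ⟨P, Q, hP, hQf, hQ, h⟩ := hu
  have hρ' : red A P / red A Q ≠ 0 := by
    rwa [rho_eq A ⟨u, P, Q, hP, hQf, hQ, h⟩ hQ h] at hρ
  have hP' : red A P ≠ 0 := fun h0 => hρ' (by rw [h0, zero_div])
  have hQ0 : eps A Q ≠ 0 := eps_ne_zero_of_red A hQ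
  have hP0 : eps A P ≠ 0 := eps_ne_zero_of_red A hP'
  refine ⟨Q, P, hQf, hP, hP', ?_⟩
  have hu : u = eps A P / eps A Q := by
    field_simp; exact h
  rw [hu]
  field_simp

theorem rho_inv {u : LaurentSeries L} (hu : u ∈ gaussRing A)
    (hρ : rho A ⟨u, hu⟩ ≠ 0) :
    rho A ⟨u⁻¹, inv_mem_gaussRing A hu hρ⟩ = (rho A ⟨u, hu⟩)⁻¹ := by
  have hu0 : u ≠ 0 := by
    rintro rfl
    exact hρ (map_zero (rho A))
  have h1 : (⟨u⁻¹, inv_mem_gaussRing A hu hρ⟩ : gaussRing A) * ⟨u, hu⟩ = 1 := by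
    apply Subtype.ext
    show u⁻¹ * u = 1
    exact inv_mul_cancel₀ hu0
  have h2 := congrArg (rho A) h1
  rw [map_mul, map_one] at h2
  exact eq_inv_of_mul_eq_one_left h2

/-- **kernel of `ρ`**: the elements `c · y`, `c ∈ 𝔪_A`. -/
theorem rho_eq_zero_iff (hA : A.LiesOverPrime ℓ) (x : gaussRing A) :
    rho A x = 0 ↔ ∃ (c : A) (y : gaussRing A), A.valuation (c : L) < 1 ∧
      (x : LaurentSeries L) = (HahnSeries.C (c : L) : LaurentSeries L) * (y : LaurentSeries L) := by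
  constructor
  · intro h0
    by_cases hx0 : (x : LaurentSeries L) = 0
    · exact ⟨0, 0, by simp, by simp [hx0]⟩
    obtain ⟨c, u, hc, hu, hxu⟩ := exists_unit_form A ℓ hA (gaussRing_le_gaussField A x.2) hx0
    have hcA : c ∈ A := by
      by_contra hcon
      have hinv : c⁻¹ ∈ A := (A.mem_or_inv_mem c).resolve_left hcon
      have hux : (u : LaurentSeries L) = (HahnSeries.C ((⟨c⁻¹, hinv⟩ : A) : L) : LaurentSeries L)
          * (x : LaurentSeries L) := by
        rw [hxu, ← mul_assoc, ← map_mul]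
        show _ = HahnSeries.C (c⁻¹ * c) * _
        rw [inv_mul_cancel₀ hc, map_one, one_mul]
      have hu' : u = ⟨_, C_mem_gaussRing A ⟨c⁻¹, hinv⟩⟩ * x := Subtype.ext hux
      rw [hu', map_mul, h0, mul_zero] at hu
      exact hu rfl
    refine ⟨⟨c, hcA⟩, u, ?_, hxu⟩
    by_contra hcon
    have hv1 : A.valuation c = 1 :=
      le_antisymm ((A.valuation_le_one_iff _).2 hcA) (not_lt.mp hcon)
    have hx' : x = ⟨_, C_mem_gaussRing A ⟨c, hcA⟩⟩ * u := Subtype.ext hxu
    rw [hx', map_mul, rho_C] at h0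
    rcases mul_eq_zero.mp h0 with h1 | h1
    · rw [map_eq_zero, IsLocalRing.residue_eq_zero_iff] at h1
      have : A.valuation ((⟨c, hcA⟩ : A) : L) < 1 := (A.valuation_lt_one_iff _).1 h1
      rw [hv1] at this
      exact lt_irrefl _ this
    · exact hu h1
  · rintro ⟨c, y, hc, hxy⟩
    have hx' : x = ⟨_, C_mem_gaussRing A c⟩ * y := Subtype.ext hxy
    rw [hx', map_mul, rho_C]
    have : IsLocalRing.residue A c = 0 := by
      rw [IsLocalRing.residue_eq_zero_iff]
      exact (A.valuation_lt_one_iff _).2 hc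
    rw [this, map_zero, zero_mul]

/-- the Gauss ring is a valuation ring of the Gauss field -/
theorem mem_or_inv_mem_gaussRing (hA : A.LiesOverPrime ℓ) {x : LaurentSeries L}
    (hx : x ∈ gaussField A) : x ∈ gaussRing A ∨ x⁻¹ ∈ gaussRing A := by
  by_cases hx0 : x = 0
  · left; rw [hx0]; exact (gaussRing A).zero_mem
  obtain ⟨c, u, hc, hu, hxu⟩ := exists_unit_form A ℓ hA hx hx0
  rcases A.mem_or_inv_mem c with h | h
  · left
    rw [hxu]
    exact (gaussRing A).mul_mem (C_mem_gaussRing A ⟨c, h⟩) u.2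
  · right
    rw [hxu, mul_inv]
    refine (gaussRing A).mul_mem ?_ (inv_mem_gaussRing A u.2 hu)
    have := C_mem_gaussRing A ⟨c⁻¹, h⟩
    rwa [show ((⟨c⁻¹, h⟩ : A) : L) = c⁻¹ from rfl, map_inv₀] at this

/-- **R4 with residue**: a nonzero element of the Gauss field has a scalar multiple in the Gauss
ring with nonzero residue. -/
theorem exists_smul_mem_gaussRing (hA : A.LiesOverPrime ℓ) {x : LaurentSeries L}
    (hx : x ∈ gaussField A) (hx0 : x ≠ 0) :
    ∃ (c : L) (h : (HahnSeries.C c : LaurentSeries L) * x ∈ gaussRing A), c ≠ 0 ∧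
      rho A ⟨_, h⟩ ≠ 0 := by
  obtain ⟨c, u, hc, hu, hxu⟩ := exists_unit_form A ℓ hA hx hx0
  have hcu : (HahnSeries.C c⁻¹ : LaurentSeries L) * x = u := by
    rw [hxu, ← mul_assoc, ← map_mul, inv_mul_cancel₀ hc, map_one, one_mul]
  have hmem : (HahnSeries.C c⁻¹ : LaurentSeries L) * x ∈ gaussRing A := by
    rw [hcu]; exact u.2
  refine ⟨c⁻¹, hmem, inv_ne_zero hc, ?_⟩
  have : (⟨_, hmem⟩ : gaussRing A) = u := Subtype.ext hcu
  rw [this]
  exact hu

end Fermat.Agent.S18.GV
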