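import Mathlib

/-!
# S18: separability of subfields of `k((q))` over `k(x)` when `ℓ ∤ ord x`

`k` a perfect field of characteristic `ℓ`, `F` a subfield of `k((q))` containing `k`, `x ∈ F`
with `ℓ ∤ ord_q x`, `F` algebraic over `k(x)`.  Then `F/k(x)` is separable.

Proof (Frobenius + orders): every `c ∈ k(x)` is `Σ_{r<ℓ} h_r^ℓ x^r` with `h_r ∈ k(x)`;
`1, x, …, x^{ℓ-1}` are linearly independent over `k((q))^ℓ` by looking at orders mod `ℓ`;
so if the minimal polynomial of `y` is `g(X^ℓ)`, then `g(y^ℓ) = Σ_r x^r H_r(y)^ℓ` forces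
`H_r(y) = 0` for polynomials `H_r` of smaller degree, hence `g = 0`.
-/

set_option autoImplicit false
set_option linter.unusedSectionVars false
set_option linter.unusedVariables false
set_option linter.style.haveILetI false
set_option linter.deprecated false

open Polynomial IntermediateField

namespace Fermat.Agent.S18.SepK

/-! ### orders -/

section Order

variable {k : Type*} [Field k]

/-- a finite sum of Laurent series whose nonzero terms have pairwise distinct orders is nonzero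
as soon as one term is nonzero -/
theorem sum_ne_zero_of_order_injOn {ι : Type*} (s : Finset ι) (f : ι → LaurentSeries k)
    (hinj : ∀ i ∈ s, ∀ j ∈ s, f i ≠ 0 → f j ≠ 0 → (f i).order = (f j).order → i = j)
    (hex : ∃ i ∈ s, f i ≠ 0) : ∑ i ∈ s, f i ≠ 0 := by
  classical
  obtain ⟨i₁, hi₁, hne₁⟩ := hex
  have hne : (s.filter (fun i => f i ≠ 0)).Nonempty :=
    ⟨i₁, Finset.mem_filter.mpr ⟨hi₁, hne₁⟩⟩
  obtain ⟨i₀, hi₀, hmin⟩ := Finset.exists_min_image _ (fun i => (f i).order) hne
  rw [Finset.mem_filter] at hi₀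
  intro hsum
  have hcoeff := congrArg (fun x : LaurentSeries k => x.coeff (f i₀).order) hsum
  simp only [HahnSeries.coeff_sum, HahnSeries.coeff_zero] at hcoeff
  rw [Finset.sum_eq_single i₀] at hcoeff
  · exact hi₀.2 (HahnSeries.coeff_order_eq_zero.mp hcoeff)
  · intro j hj hji
    by_cases hfj : f j = 0
    · rw [hfj, HahnSeries.coeff_zero]
    · apply HahnSeries.coeff_eq_zero_of_lt_order
      have hle := hmin j (Finset.mem_filter.mpr ⟨hj, hfj⟩)
      refine lt_of_le_of_ne hle ?_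
      intro heq
      exact hji (hinj j hj i₀ hi₀.1 hfj hi₀.2 heq.symm)
  · intro h
    exact absurd hi₀.1 h

/-- `1, u, …, u^{ℓ-1}` are linearly independent over the `ℓ`-th powers if `ℓ ∤ ord u` -/
theorem eq_zero_of_sum_pow_mul (ℓ : ℕ) [hℓ : Fact ℓ.Prime] (u : LaurentSeries k)
    (hu : ¬ (ℓ : ℤ) ∣ u.order) (z : ℕ → LaurentSeries k)
    (h : ∑ r ∈ Finset.range ℓ, u ^ r * (z r) ^ ℓ = 0) : ∀ r < ℓ, z r = 0 := by
  have hu0 : u ≠ 0 := by
    rintro rfl
    rw [HahnSeries.order_zero] at hu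
    exact hu (dvd_zero _)
  have hℓ0 : ℓ ≠ 0 := hℓ.out.ne_zero
  by_contra hcon
  push Not at hcon
  obtain ⟨r₀, hr₀, hz₀⟩ := hcon
  refine sum_ne_zero_of_order_injOn (Finset.range ℓ) (fun r => u ^ r * (z r) ^ ℓ) ?_ ?_ h
  · intro i hi j hj hfi hfj hord
    have hzi : z i ≠ 0 := by
      rintro hz
      apply hfi
      simp only [hz, zero_pow hℓ0, mul_zero]
    have hzj : z j ≠ 0 := by
      rintro hz
      apply hfj
      simp only [hz, zero_pow hℓ0, mul_zero]
    change (u ^ i * z i ^ ℓ).order = (u ^ j * z j ^ ℓ).order at hord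
    rw [HahnSeries.order_mul (pow_ne_zero _ hu0) (pow_ne_zero _ hzi),
      HahnSeries.order_mul (pow_ne_zero _ hu0) (pow_ne_zero _ hzj),
      HahnSeries.order_pow, HahnSeries.order_pow, HahnSeries.order_pow, HahnSeries.order_pow,
      nsmul_eq_mul, nsmul_eq_mul, nsmul_eq_mul, nsmul_eq_mul] at hord
    have hdvd : (ℓ : ℤ) ∣ ((i : ℤ) - j) * u.order := by
      refine ⟨(z j).order - (z i).order, ?_⟩
      linear_combination hord
    have hprime : Prime (ℓ : ℤ) := Nat.prime_iff_prime_int.mp hℓ.out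
    rcases hprime.dvd_or_dvd hdvd with h1 | h1
    · have hi' := Finset.mem_range.mp hi
      have hj' := Finset.mem_range.mp hj
      have habs : |(i : ℤ) - j| < ℓ := by
        rw [abs_lt]
        constructor <;> omega
      have := Int.eq_zero_of_abs_lt_dvd h1 habs
      omega
    · exact absurd h1 hu
  · refine ⟨r₀, Finset.mem_range.mpr hr₀, ?_⟩
    exact mul_ne_zero (pow_ne_zero _ hu0) (pow_ne_zero _ hz₀)

end Order

/-! ### `k(x) = k(x)^ℓ ⊕ k(x)^ℓ x ⊕ … ⊕ k(x)^ℓ x^{ℓ-1}` -/

section Frob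

variable {k : Type*} [Field k] (ℓ : ℕ) [hℓ : Fact ℓ.Prime] [CharP k ℓ] [PerfectField k]
variable {F : Type*} [Field F] [Algebra k F]

/-- every element of `k(x)` is `Σ_{r<ℓ} h_r^ℓ x^r` with `h_r ∈ k(x)` -/
theorem exists_frob_repr (x : F) (c : k⟮x⟯) :
    ∃ h : ℕ → k⟮x⟯, c = ∑ r ∈ Finset.range ℓ, (h r) ^ ℓ * (AdjoinSimple.gen k x) ^ r := by
  haveI : CharP k⟮x⟯ ℓ := charP_of_injective_algebraMap (algebraMap k k⟮x⟯).injective ℓ
  haveI : PerfectRing k ℓ := PerfectField.toPerfectRing ℓ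
  have hℓ0 : ℓ ≠ 0 := hℓ.out.ne_zero
  set xE : k⟮x⟯ := AdjoinSimple.gen k x with hxE
  set Φ : (k⟮x⟯)[X] →+* k⟮x⟯ := Polynomial.eval₂RingHom (frobenius k⟮x⟯ ℓ) xE with hΦ
  have hΦC : ∀ e : k⟮x⟯, Φ (C e) = e ^ ℓ := by
    intro e
    rw [hΦ, Polynomial.coe_eval₂RingHom, Polynomial.eval₂_C, frobenius_def]
  have hΦX : Φ X = xE := by
    rw [hΦ, Polynomial.coe_eval₂RingHom, Polynomial.eval₂_X]
  -- the range of `Φ` is a subfield containing `k` and `x`
  let S : Subfield F :=
    { ((algebraMap k⟮x⟯ F).comp Φ).range with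
      inv_mem' := by
        rintro _ ⟨p, rfl⟩
        by_cases he : Φ p = 0
        · refine ⟨0, ?_⟩
          simp only [RingHom.comp_apply, he, map_zero, inv_zero]
        · refine ⟨p ^ (ℓ - 1) * C (Φ p)⁻¹, ?_⟩
          have h1 : Φ (p ^ (ℓ - 1) * C (Φ p)⁻¹) = (Φ p)⁻¹ := by
            rw [map_mul Φ, map_pow Φ, hΦC]
            apply eq_inv_of_mul_eq_one_left
            rw [inv_pow, mul_assoc, mul_comm _ (Φ p), ← mul_assoc, ← pow_succ,
              Nat.sub_add_cancel hℓ.out.one_le, mul_inv_cancel₀ (pow_ne_zero _ he)]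
          simp only [RingHom.comp_apply]
          rw [h1, map_inv₀] }
  have hSmem : ∀ z : F, z ∈ S ↔ ∃ p, (algebraMap k⟮x⟯ F) (Φ p) = z := fun z => Iff.rfl
  let T : IntermediateField k F := S.toIntermediateField (by
    intro a
    obtain ⟨b, hb⟩ := surjective_frobenius k ℓ a
    rw [frobenius_def] at hb
    rw [hSmem]
    refine ⟨C (algebraMap k k⟮x⟯ b), ?_⟩
    rw [hΦC, ← map_pow, hb]
    rfl)
  have hxT : x ∈ T := by
    show x ∈ S
    rw [hSmem]
    exact ⟨X, by rw [hΦX]; rfl⟩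
  have hle : k⟮x⟯ ≤ T := adjoin_simple_le_iff.mpr hxT
  obtain ⟨p, hp⟩ : ∃ p, (algebraMap k⟮x⟯ F) (Φ p) = (c : F) := (hSmem _).mp (hle c.2)
  have hpc : Φ p = c := Subtype.ext hp
  -- reduce `p` modulo `X^ℓ - x`
  have hmonic : (X ^ ℓ - C xE : (k⟮x⟯)[X]).Monic := Polynomial.monic_X_pow_sub_C xE hℓ0
  have hq1 : (X ^ ℓ - C xE : (k⟮x⟯)[X]) ≠ 1 := by
    intro h1
    have := congrArg Polynomial.natDegree h1
    rw [Polynomial.natDegree_X_pow_sub_C, Polynomial.natDegree_one] at this
    exact hℓ0 this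
  have hΦq : Φ (X ^ ℓ - C xE) = 0 := by
    rw [map_sub, map_pow, hΦX, hΦC, sub_self]
  set r := p %ₘ (X ^ ℓ - C xE) with hr
  have hrdeg : r.natDegree < ℓ := by
    have := Polynomial.natDegree_modByMonic_lt p hmonic hq1
    rwa [Polynomial.natDegree_X_pow_sub_C] at this
  have hΦr : Φ r = c := by
    have h1 := Polynomial.modByMonic_add_div p (X ^ ℓ - C xE : (k⟮x⟯)[X])
    have h2 := congrArg Φ h1
    rw [map_add, map_mul, hΦq, zero_mul, add_zero, hpc] at h2
    exact h2
  refine ⟨fun i => r.coeff i, ?_⟩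
  rw [← hΦr, hΦ, Polynomial.coe_eval₂RingHom, Polynomial.eval₂_eq_sum_range' _ hrdeg]
  refine Finset.sum_congr rfl fun i _ => ?_
  rw [frobenius_def]

end Frob

/-! ### separability -/

section Main

variable {k : Type*} [Field k] (ℓ : ℕ) [hℓ : Fact ℓ.Prime] [CharP k ℓ] [PerfectField k]

/-- **Separability**: a field `F ⊇ k` inside `k((q))` which is algebraic over `k(x)`, where
`ℓ ∤ ord_q x`, is separable over `k(x)`. -/
theorem isSeparable_of_order {F : Type*} [Field F] [Algebra k F] (ι : F →+* LaurentSeries k)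
    (x : F) (hx : ¬ (ℓ : ℤ) ∣ (ι x).order) (halg : Algebra.IsAlgebraic k⟮x⟯ F) :
    Algebra.IsSeparable k⟮x⟯ F := by
  classical
  haveI : CharP k⟮x⟯ ℓ := charP_of_injective_algebraMap (algebraMap k k⟮x⟯).injective ℓ
  haveI : CharP F ℓ := charP_of_injective_algebraMap (algebraMap k F).injective ℓ
  have hℓ0 : ℓ ≠ 0 := hℓ.out.ne_zero
  have hℓ2 : 2 ≤ ℓ := hℓ.out.two_le
  rw [Algebra.isSeparable_def]
  intro y
  have hint : IsIntegral k⟮x⟯ y := (halg.isAlgebraic y).isIntegral
  have hirr := minpoly.irreducible hint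
  rcases Polynomial.separable_or ℓ hirr with h | ⟨-, g, hg, hgf⟩
  · exact h
  exfalso
  have hg0 : g ≠ 0 := hg.ne_zero
  have hroot : Polynomial.aeval (y ^ ℓ) g = 0 := by
    rw [← Polynomial.expand_aeval, hgf, minpoly.aeval]
  have hdeg : g.natDegree < (minpoly k⟮x⟯ y).natDegree := by
    have h1 := minpoly.natDegree_pos hint
    rw [← hgf, Polynomial.natDegree_expand] at h1 ⊢
    have h2 : 0 < g.natDegree := by
      by_contra h0
      have : g.natDegree = 0 := by omega
      rw [this, zero_mul] at h1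
      exact lt_irrefl _ h1
    nlinarith
  choose h hh using fun c : k⟮x⟯ => exists_frob_repr ℓ x c
  set n := g.natDegree with hn
  -- the polynomials `H_r`
  set H : ℕ → (k⟮x⟯)[X] := fun r =>
    ∑ i ∈ Finset.range (n + 1), Polynomial.monomial i (h (g.coeff i) r) with hH
  have hHdeg : ∀ r, (H r).natDegree ≤ n := by
    intro r
    refine Polynomial.natDegree_sum_le_of_forall_le _ _ fun i hi => ?_
    exact (Polynomial.natDegree_monomial_le _).trans (Nat.lt_succ_iff.mp (Finset.mem_range.mp hi))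
  have hHcoeff : ∀ r i, i ∈ Finset.range (n + 1) → (H r).coeff i = h (g.coeff i) r := by
    intro r i hi
    rw [hH]
    simp only [Polynomial.finset_sum_coeff, Polynomial.coeff_monomial]
    rw [Finset.sum_ite_eq' (Finset.range (n + 1)) i, if_pos hi]
  have hHeval : ∀ r, Polynomial.aeval y (H r)
      = ∑ i ∈ Finset.range (n + 1), (algebraMap k⟮x⟯ F (h (g.coeff i) r)) * y ^ i := by
    intro r
    rw [hH, map_sum]
    refine Finset.sum_congr rfl fun i _ => ?_
    rw [Polynomial.aeval_monomial]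
  -- the key identity
  have hkey : ∑ r ∈ Finset.range ℓ, x ^ r * (Polynomial.aeval y (H r)) ^ ℓ = 0 := by
    rw [← hroot, Polynomial.aeval_eq_sum_range]
    simp only [hHeval, sum_pow_char ℓ, Finset.mul_sum]
    rw [Finset.sum_comm]
    refine Finset.sum_congr rfl fun i _ => ?_
    rw [Algebra.smul_def]
    conv_rhs => rw [hh (g.coeff i)]
    rw [map_sum, Finset.sum_mul]
    refine Finset.sum_congr rfl fun r _ => ?_
    rw [map_mul, map_pow, map_pow, mul_pow, ← pow_mul, ← pow_mul, mul_comm i ℓ]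
    have hgen : algebraMap k⟮x⟯ F (AdjoinSimple.gen k x) = x := rfl
    rw [hgen]
    ring
  -- pass to Laurent series and use the orders
  have hkey' : ∑ r ∈ Finset.range ℓ, (ι x) ^ r * (ι (Polynomial.aeval y (H r))) ^ ℓ = 0 := by
    have := congrArg ι hkey
    rw [map_sum, map_zero] at this
    rw [← this]
    refine Finset.sum_congr rfl fun r _ => ?_
    rw [map_mul, map_pow, map_pow]
  have hzero := eq_zero_of_sum_pow_mul ℓ (ι x) hx
    (fun r => ι (Polynomial.aeval y (H r))) hkey'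
  have hHzero : ∀ r < ℓ, H r = 0 := by
    intro r hr
    by_contra hne
    have h1 : Polynomial.aeval y (H r) = 0 :=
      ι.injective (by rw [map_zero]; exact hzero r hr)
    have h2 := minpoly.degree_le_of_ne_zero k⟮x⟯ y hne h1
    have h3 := Polynomial.natDegree_le_natDegree h2
    have := hHdeg r
    omega
  -- all coefficients of `g` vanish
  apply hg0
  refine Polynomial.ext fun i => ?_
  rw [Polynomial.coeff_zero]
  by_cases hi : i ∈ Finset.range (n + 1)
  · rw [hh (g.coeff i)]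
    refine Finset.sum_eq_zero fun r hr => ?_
    rw [← hHcoeff r i hi, hHzero r (Finset.mem_range.mp hr), Polynomial.coeff_zero,
      zero_pow hℓ0, zero_mul]
  · apply Polynomial.coeff_eq_zero_of_natDegree_lt
    rw [Finset.mem_range] at hi
    omega

end Main

end Fermat.Agent.S18.SepK
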